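import Mathlib
import Fermat.Prelude.Def_GroupCohomology_ContinuousUnramified
import Fermat.Agent.Lib.InertiaBridge
import Fermat.Agent.CFT.Kummer.Gen
import Fermat.Agent.CFT.Kummer.Ram

/-!
# S55, BASE: the capitulation class (CAPIT), used for `A2epi` of the base case

`Qb = AlgebraicClosure ℚ`, `Gq = Gal(Qb/ℚ)`, `K ≤ Qb` finite, unramified outside `S ∋ p`,
`ζ ∈ K` a primitive `p`-th root of unity, `G_K = K.fixingSubgroup`.

Input: `γ ∈ Kˣ` and `k` such that the ideal `(γ)` is a `p^k`-th power outside `S`, in the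
valuation-subring form: for every valuation subring `A` of `Qb` over a prime `q ∉ S` there is
`x ∈ K` with `γ x^(p^k)` an `A`-unit.  (Think: `𝔞^(p^k) = (γ)` for an ideal `𝔞` prime to `S`, and
`x` of valuation `-v(𝔞)`.)

Output (`capit`): a `1`-cochain `c' : Gq → ZMod p` such that
1. `c'` is level-constant (finite level, in general ramified at the primes dividing `𝔞`);
2. its coboundary `a(σ,τ) = c' σ + c' τ - c' (σ τ)` on `G_K` (trivial action: `μ_p ⊆ K`) has level
   `S`: it is constant modulo `Fix F`, `F` finite and unramified outside `S`;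
3. for every `A` over `q ∉ S`, every `x ∈ K` with `γ x^(p^k)` an `A`-unit and every Kummer
   character `κ` of `x` (`s ϖ = ζ^(κ s) ϖ`, `ϖ^p = x`): `c' = t + κ` on `G_K` with `t` unramified at
   `A` (constant modulo `Fix F_A`, `F_A` finite with `I_A ≤ Fix F_A`).  So the ramification divisor
   of `c'` at `A` is `ord(x) = -ord(𝔞)` (mod `p`).

Construction: `h^(p^(k+1)) = γ`, `g = h^p`, `c(s) =` a fixed `p`-th root of `s(g)/g ∈ μ_{p^k}`,
`c'(s) = log_ζ (c(s) · h / s(h))`.  Then `ζ^(a(σ,τ)) = c(σ) · σ(c(τ)) / c(σ τ)` only involves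
`K(g, μ_{p^(k+1)})`, which is unramified outside `S`.
-/

set_option autoImplicit false

open scoped IntermediateField

namespace Fermat.Agent.S55.Base.Capit

local notation "Qb" => AlgebraicClosure ℚ
local notation "Gq" => (AlgebraicClosure ℚ ≃ₐ[ℚ] AlgebraicClosure ℚ)

/-! ### Roots of unity and inertia -/

/-- A root of unity of order prime to the residue characteristic which is `≡ 1` modulo the
maximal ideal is `1`. -/
theorem eq_one_of_pow_eq_one_of_valuation_lt (A : ValuationSubring Qb) (q n : ℕ)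
    (hqn : Nat.Coprime q n) (hA : A.LiesOverPrime q) (ξ : Qb) (hξ : ξ ^ n = 1)
    (h : A.valuation (ξ - 1) < 1) : ξ = 1 := by
  by_contra hne
  have hvp : A.valuation (n : Qb) < 1 :=
    Fermat.Agent.CFT.Kummer.valuation_natCast_lt_one_of_root_of_unity A ξ hξ hne h
  have hvq : A.valuation (q : Qb) < 1 := A.mem_nonunits_iff.mp hA
  have hcop : IsCoprime (q : ℤ) (n : ℤ) := Nat.isCoprime_iff_coprime.mpr hqn
  obtain ⟨a, b, hab⟩ := hcop
  have hone : (1 : Qb) = (a : Qb) * (q : Qb) + (b : Qb) * (n : Qb) := by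
    have := congrArg (fun z : ℤ => (z : Qb)) hab
    simp only [Int.cast_add, Int.cast_mul, Int.cast_natCast, Int.cast_one] at this
    exact this.symm
  have hint : ∀ z : ℤ, A.valuation (z : Qb) ≤ 1 := fun z =>
    (A.valuation_le_one_iff _).mpr (intCast_mem A z)
  have hlt : A.valuation (1 : Qb) < 1 := by
    rw [hone]
    refine A.valuation.map_add_lt ?_ ?_
    · rw [map_mul]
      calc A.valuation (a : Qb) * A.valuation (q : Qb) ≤ 1 * A.valuation (q : Qb) := by
            gcongr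
            exact hint a
        _ < 1 := by rw [one_mul]; exact hvq
    · rw [map_mul]
      calc A.valuation (b : Qb) * A.valuation (n : Qb) ≤ 1 * A.valuation (n : Qb) := by
            gcongr
            exact hint b
        _ < 1 := by rw [one_mul]; exact hvp
  rw [map_one] at hlt
  exact lt_irrefl _ hlt

/-- If `β ^ n` is an `A`-unit (`n ≠ 0`) then so is `β`. -/
theorem valuation_eq_one_of_pow {A : ValuationSubring Qb} {n : ℕ} (hn : n ≠ 0) {β : Qb}
    (h : A.valuation (β ^ n) = 1) : A.valuation β = 1 := by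
  rw [map_pow] at h
  rcases lt_trichotomy (A.valuation β) 1 with h' | h' | h'
  · exact absurd h (pow_lt_one₀ zero_le h' hn).ne
  · exact h'
  · exact absurd h (one_lt_pow₀ h' hn).ne'

/-- An inertia element at `A` (over `q`) which multiplies an `A`-unit `β` by an `n`-th root of
unity, `n` prime to `q`, fixes `β`. -/
theorem inertia_fixes_unit (A : ValuationSubring Qb) (q n : ℕ) (hqn : Nat.Coprime q n)
    (hA : A.LiesOverPrime q) (β : Qb) (hβ : A.valuation β = 1)
    (σ : Gq) (hσI : σ ∈ A.inertiaSubgroupIn ℚ) (hσ : (σ β / β) ^ n = 1) : σ β = β := by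
  have hβ0 : β ≠ 0 := by
    intro h
    rw [h, map_zero] at hβ
    exact zero_ne_one hβ
  have hβA : β ∈ A := (A.valuation_le_one_iff _).mp hβ.le
  have h1 : A.valuation (σ β - β) < 1 :=
    A.mem_nonunits_iff.mp
      (Fermat.Agent.Lib.InertiaBridge.sub_mem_of_mem_inertiaSubgroupIn A σ hσI β hβA)
  have h2 : A.valuation (σ β / β - 1) < 1 := by
    have h3 : σ β - β = (σ β / β - 1) * β := by field_simp
    rw [h3, map_mul, hβ, mul_one] at h1
    exact h1
  have h4 := eq_one_of_pow_eq_one_of_valuation_lt A q n hqn hA _ hσ h2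
  rw [div_eq_one_iff_eq hβ0] at h4
  exact h4

/-- Inertia at a prime `q` fixes the roots of unity of order prime to `q`. -/
theorem inertia_fixes_root_of_unity (A : ValuationSubring Qb) (q n : ℕ) (hn : n ≠ 0)
    (hqn : Nat.Coprime q n) (hA : A.LiesOverPrime q) (ω : Qb) (hω : ω ^ n = 1)
    (σ : Gq) (hσI : σ ∈ A.inertiaSubgroupIn ℚ) : σ ω = ω := by
  have hv : A.valuation ω = 1 := valuation_eq_one_of_pow hn (by rw [hω, map_one])
  refine inertia_fixes_unit A q n hqn hA ω hv σ hσI ?_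
  rw [div_pow, ← map_pow, hω, map_one, div_one]

/-- If `θ ^ n = α ∈ K` and `α x ^ n` is an `A`-unit for some `x ∈ K` (`A` over `q`, `n` prime to
`q`), then every element of `I_A ∩ G_K` fixes `θ`. -/
theorem inertia_fixes_root (K : IntermediateField ℚ Qb) (θ : Qb) (α : K) (n : ℕ) (hn : n ≠ 0)
    (hθ : θ ^ n = (α : Qb)) (A : ValuationSubring Qb) (q : ℕ) (hqn : Nat.Coprime q n)
    (hA : A.LiesOverPrime q) (x : K) (hx : A.valuation ((α : Qb) * (x : Qb) ^ n) = 1)
    (σ : Gq) (hσI : σ ∈ A.inertiaSubgroupIn ℚ) (hσK : σ ∈ K.fixingSubgroup) : σ θ = θ := by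
  set β : Qb := θ * x with hβ
  have hβn : β ^ n = (α : Qb) * (x : Qb) ^ n := by rw [hβ, mul_pow, hθ]
  have hvβ : A.valuation β = 1 := valuation_eq_one_of_pow hn (by rw [hβn, hx])
  have hβ0 : β ≠ 0 := by
    intro h
    rw [h, map_zero] at hvβ
    exact zero_ne_one hvβ
  have hx0 : (x : Qb) ≠ 0 := by
    intro h
    rw [hβ, h, mul_zero] at hβ0
    exact hβ0 rfl
  have hσα : σ (α : Qb) = α := (IntermediateField.mem_fixingSubgroup_iff K σ).mp hσK α α.2
  have hσx : σ (x : Qb) = x := (IntermediateField.mem_fixingSubgroup_iff K σ).mp hσK x x.2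
  have hfin : σ β = β := by
    refine inertia_fixes_unit A q n hqn hA β hvβ σ hσI ?_
    rw [div_pow, ← map_pow, hβn, map_mul, map_pow, hσα, hσx, div_self]
    rw [← hβn]
    exact pow_ne_zero _ hβ0
  rw [hβ, map_mul, hσx] at hfin
  exact mul_right_cancel₀ hx0 hfin

/-! ### Chosen roots and discrete logarithms -/

/-- a chosen `p`-th root, with `rootP p 1 = 1` -/
noncomputable def rootP (p : ℕ) (w : Qb) : Qb := by
  classical
  exact if w = 1 then 1 else
    if h : 0 < p then (IsAlgClosed.exists_pow_nat_eq w h).choose else 1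

theorem rootP_one (p : ℕ) : rootP p 1 = 1 := by
  simp [rootP]

theorem rootP_pow {p : ℕ} (hp : 0 < p) (w : Qb) : rootP p w ^ p = w := by
  classical
  unfold rootP
  by_cases hw : w = 1
  · rw [if_pos hw, one_pow, hw]
  · rw [if_neg hw, dif_pos hp]
    exact (IsAlgClosed.exists_pow_nat_eq w hp).choose_spec

/-- discrete logarithm in base `z`; junk value `0` outside the powers of `z` -/
noncomputable def dlog (p : ℕ) (z w : Qb) : ZMod p := by
  classical
  exact if h : ∃ k : ZMod p, w = z ^ k.val then h.choose else 0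

theorem dlog_spec {p : ℕ} [NeZero p] {z : Qb} (hz : IsPrimitiveRoot z p) {w : Qb}
    (hw : w ^ p = 1) : w = z ^ (dlog p z w).val := by
  classical
  have hex : ∃ k : ZMod p, w = z ^ k.val := by
    obtain ⟨i, hi, hi'⟩ := hz.eq_pow_of_pow_eq_one hw
    exact ⟨(i : ZMod p), by rw [ZMod.val_natCast, Nat.mod_eq_of_lt hi, hi']⟩
  unfold dlog
  rw [dif_pos hex]
  exact hex.choose_spec

theorem dlog_eq {p : ℕ} [NeZero p] {z : Qb} (hz : IsPrimitiveRoot z p) {w : Qb} (k : ZMod p)
    (hw : w = z ^ k.val) : dlog p z w = k := by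
  subst hw
  have hwp : (z ^ k.val) ^ p = 1 := by
    rw [← pow_mul, mul_comm, pow_mul, hz.pow_eq_one, one_pow]
  have h1 := dlog_spec hz hwp
  have h2 := Fermat.Agent.CFT.Kummer.natCast_eq_of_pow_eq_pow_val hz _ _ h1
  rw [ZMod.natCast_zmod_val] at h2
  exact h2.symm

theorem dlog_mul {p : ℕ} [NeZero p] {z : Qb} (hz : IsPrimitiveRoot z p) {w w' : Qb}
    (hw : w ^ p = 1) (hw' : w' ^ p = 1) : dlog p z (w * w') = dlog p z w + dlog p z w' := by
  have h1 := dlog_spec hz hw
  have h2 := dlog_spec hz hw'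
  have h3 : w * w' = z ^ ((dlog p z w).val + (dlog p z w').val) := by
    rw [pow_add, ← h1, ← h2]
  have hwp : (w * w') ^ p = 1 := by rw [mul_pow, hw, hw', one_mul]
  have h4 := dlog_spec hz hwp
  have h4' : z ^ ((dlog p z w).val + (dlog p z w').val) = z ^ (dlog p z (w * w')).val :=
    h3.symm.trans h4
  have h5 := Fermat.Agent.CFT.Kummer.natCast_eq_of_pow_eq_pow_val hz _ _ h4'
  rw [← h5]
  push_cast
  rw [ZMod.natCast_zmod_val, ZMod.natCast_zmod_val]

theorem dlog_one {p : ℕ} [NeZero p] {z : Qb} (hz : IsPrimitiveRoot z p) : dlog p z 1 = 0 :=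
  dlog_eq hz 0 (by simp)

theorem dlog_div {p : ℕ} [NeZero p] {z : Qb} (hz : IsPrimitiveRoot z p) {w w' : Qb}
    (hw : w ^ p = 1) (hw' : w' ^ p = 1) : dlog p z (w / w') = dlog p z w - dlog p z w' := by
  have hw'0 : w' ≠ 0 := by
    intro h
    rw [h, zero_pow (NeZero.ne p)] at hw'
    exact zero_ne_one hw'
  have h1 : (w / w') ^ p = 1 := by rw [div_pow, hw, hw', div_one]
  have h2 := dlog_mul hz h1 hw'
  rw [div_mul_cancel₀ _ hw'0] at h2
  rw [h2, add_sub_cancel_right]

/-! ### The cochains -/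

/-- `c(s)`: the chosen `p`-th root of `s(h^p) / h^p` -/
noncomputable def cc (p : ℕ) (h : Qb) (s : Gq) : Qb := rootP p (s (h ^ p) / h ^ p)

/-- `w(s) = c(s) · h / s(h)`, a `p`-th root of unity -/
noncomputable def ww (p : ℕ) (h : Qb) (s : Gq) : Qb := cc p h s * h / s h

/-- the cochain `c'` -/
noncomputable def cprime (p : ℕ) (z h : Qb) (s : Gq) : ZMod p := dlog p z (ww p h s)

section

variable {p : ℕ} (hp : 0 < p) {h : Qb} (hh : h ≠ 0)
include hp hh

theorem cc_pow (s : Gq) : cc p h s ^ p = s (h ^ p) / h ^ p := rootP_pow hp _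

theorem cc_ne_zero (s : Gq) : cc p h s ≠ 0 := by
  intro h0
  have h1 := cc_pow hp hh s
  rw [h0, zero_pow hp.ne'] at h1
  have h2 : s (h ^ p) ≠ 0 := by
    rw [Ne, map_eq_zero]
    exact pow_ne_zero _ hh
  exact (div_ne_zero h2 (pow_ne_zero _ hh)) h1.symm

theorem ww_pow (s : Gq) : ww p h s ^ p = 1 := by
  have hs : s h ≠ 0 := by rw [Ne, map_eq_zero]; exact hh
  unfold ww
  rw [div_pow, mul_pow, cc_pow hp hh, map_pow]
  field_simp

theorem cc_one : cc p h 1 = 1 := by
  unfold cc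
  rw [AlgEquiv.one_apply, div_self (pow_ne_zero _ hh), rootP_one]

theorem ww_one : ww p h 1 = 1 := by
  unfold ww
  rw [cc_one hp hh, AlgEquiv.one_apply, one_mul, div_self hh]

/-- `w(σ) w(τ) = (c(σ) σ(c(τ)) / c(σ τ)) w(σ τ)` when `σ` fixes `w(τ)`. -/
theorem ww_mul (σ τ : Gq) (hfix : σ (ww p h τ) = ww p h τ) :
    ww p h σ * ww p h τ = cc p h σ * σ (cc p h τ) / cc p h (σ * τ) * ww p h (σ * τ) := by
  have hσ : σ h ≠ 0 := by rw [Ne, map_eq_zero]; exact hh
  have hτ : τ h ≠ 0 := by rw [Ne, map_eq_zero]; exact hh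
  have hστ : (σ * τ) h ≠ 0 := by rw [Ne, map_eq_zero]; exact hh
  have hc := cc_ne_zero hp hh (σ * τ)
  have h1 : ww p h τ = σ (cc p h τ) * σ h / (σ * τ) h := by
    conv_lhs => rw [← hfix]
    unfold ww
    rw [map_div₀, map_mul, AlgEquiv.mul_apply]
  rw [h1]
  unfold ww
  field_simp

end

/-! ### The capitulation class -/

/-- **CAPIT.**  See the module docstring. -/
theorem capit {p : ℕ} [Fact p.Prime] (S : Finset Nat.Primes) (hpS : ExtCitation.pPrime p ∈ S)
    (K : IntermediateField ℚ Qb) (hK : K.IsUnramifiedOutside S) (ζ : K)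
    (hζ : IsPrimitiveRoot ζ p) (γ : K) (hγ : γ ≠ 0) (k : ℕ)
    (hval : ∀ q : Nat.Primes, q ∉ S → ∀ A : ValuationSubring Qb, A.LiesOverPrime (q : ℕ) →
      ∃ x : K, A.valuation ((γ : Qb) * (x : Qb) ^ (p ^ k)) = 1) :
    ∃ c' : Gq → ZMod p,
      c' 1 = 0 ∧
      (∃ F' : IntermediateField ℚ Qb, FiniteDimensional ℚ F' ∧
        ∀ g s, s ∈ F'.fixingSubgroup → c' (g * s) = c' g) ∧
      (∃ F : IntermediateField ℚ Qb, F.IsUnramifiedOutside S ∧
        ∀ g₁ ∈ K.fixingSubgroup, ∀ g₂ ∈ K.fixingSubgroup,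
        ∀ s₁ ∈ F.fixingSubgroup, ∀ s₂ ∈ F.fixingSubgroup,
          c' (g₁ * s₁) + c' (g₂ * s₂) - c' (g₁ * s₁ * (g₂ * s₂))
            = c' g₁ + c' g₂ - c' (g₁ * g₂)) ∧
      (∀ q : Nat.Primes, q ∉ S → ∀ A : ValuationSubring Qb, A.LiesOverPrime (q : ℕ) →
        ∀ (x : K) (ϖ : Qb), A.valuation ((γ : Qb) * (x : Qb) ^ (p ^ k)) = 1 → ϖ ^ p = (x : Qb) →
        ∀ κ : Gq → ZMod p, (∀ s ∈ K.fixingSubgroup, s ϖ = (ζ : Qb) ^ (κ s).val * ϖ) →
        ∃ t : Gq → ZMod p,
          (∃ F_A : IntermediateField ℚ Qb, FiniteDimensional ℚ F_A ∧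
            A.inertiaSubgroupIn ℚ ≤ F_A.fixingSubgroup ∧
            ∀ g s, s ∈ F_A.fixingSubgroup → t (g * s) = t g) ∧
          ∀ s ∈ K.fixingSubgroup, c' s = t s + κ s) := by
  classical
  have hp : p.Prime := Fact.out
  have hp0 : 0 < p := hp.pos
  have : NeZero p := ⟨hp.ne_zero⟩
  haveI := hK.1
  set z : Qb := (ζ : Qb) with hz
  have hzprim : IsPrimitiveRoot z p := hζ.map_of_injective (f := K.val) K.val.injective
  have hfixz : ∀ τ ∈ K.fixingSubgroup, τ z = z := fun τ hτ =>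
    (IntermediateField.mem_fixingSubgroup_iff K τ).mp hτ z ζ.2
  have hγ' : (γ : Qb) ≠ 0 := by simpa using hγ
  have hfixγ : ∀ τ ∈ K.fixingSubgroup, τ (γ : Qb) = γ := fun τ hτ =>
    (IntermediateField.mem_fixingSubgroup_iff K τ).mp hτ γ γ.2
  -- the root `h` of `γ`
  have hpk : 0 < p ^ (k + 1) := pow_pos hp0 _
  obtain ⟨h, hh⟩ := IsAlgClosed.exists_pow_nat_eq (γ : Qb) hpk
  have hh0 : h ≠ 0 := by
    rintro rfl
    rw [zero_pow hpk.ne'] at hh
    exact hγ' hh.symm
  set g : Qb := h ^ p with hg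
  have hgk : g ^ (p ^ k) = (γ : Qb) := by rw [hg, ← pow_mul, ← pow_succ', hh]
  have hg0 : g ≠ 0 := pow_ne_zero _ hh0
  -- fixed elements are fixed under roots of unity: powers of fixed primitive root
  have hfixpow : ∀ τ ∈ K.fixingSubgroup, ∀ w : Qb, w ^ p = 1 → τ w = w := by
    intro τ hτ w hw
    rw [dlog_spec hzprim hw, map_pow, hfixz τ hτ]
  have hq_ne : ∀ q : Nat.Primes, q ∉ S → ∀ m : ℕ, Nat.Coprime (q : ℕ) (p ^ m) := by
    intro q hq m
    apply Nat.Coprime.pow_right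
    rw [Nat.coprime_primes q.2 hp]
    intro hqp
    apply hq
    have : q = ExtCitation.pPrime p := Subtype.ext hqp
    rw [this]
    exact hpS
  -- `c'`
  refine ⟨cprime p z h, ?_, ?_, ?_, ?_⟩
  · -- normalisation
    unfold cprime
    rw [ww_one hp0 hh0]
    exact dlog_one hzprim
  · -- finite level
    have hint : IsIntegral ℚ h := ((AlgebraicClosure.isAlgebraic ℚ).isAlgebraic h).isIntegral
    refine ⟨ℚ⟮h⟯, IntermediateField.adjoin.finiteDimensional hint, fun σ s hs => ?_⟩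
    have hsh : s h = h := (IntermediateField.mem_fixingSubgroup_iff _ s).mp hs h
      (IntermediateField.mem_adjoin_simple_self ℚ h)
    unfold cprime ww cc
    rw [AlgEquiv.mul_apply, AlgEquiv.mul_apply, map_pow, hsh]
  · -- the coboundary has level `S`
    -- a primitive `p^(k+1)`-th root of unity
    obtain ⟨ζ', hζ'⟩ : ∃ ζ' : Qb, IsPrimitiveRoot ζ' (p ^ (k + 1)) := by
      have : NeZero ((p ^ (k + 1) : ℕ) : Qb) := ⟨by exact_mod_cast hpk.ne'⟩
      exact HasEnoughRootsOfUnity.exists_primitiveRoot Qb (p ^ (k + 1))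
    set F1 : IntermediateField ℚ Qb := (K⟮g⟯).restrictScalars ℚ with hF1def
    have hF1 : F1.IsUnramifiedOutside S := by
      refine ⟨Fermat.Agent.CFT.Kummer.finiteDimensional_adjoin_simple K g, fun q hq A hA σ hσ => ?_⟩
      have hσK : σ ∈ K.fixingSubgroup := hK.2 q hq A hA hσ
      obtain ⟨x, hx⟩ := hval q hq A hA
      exact Fermat.Agent.CFT.Kummer.mem_fixingSubgroup_adjoin_simple K g σ hσK
        (inertia_fixes_root K g γ (p ^ k) (pow_pos hp0 k).ne' hgk A q (hq_ne q hq k) hA x hx σ hσ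
          hσK)
    haveI := hF1.1
    set F : IntermediateField ℚ Qb := (F1⟮ζ'⟯).restrictScalars ℚ with hFdef
    have hF : F.IsUnramifiedOutside S := by
      refine ⟨Fermat.Agent.CFT.Kummer.finiteDimensional_adjoin_simple F1 ζ',
        fun q hq A hA σ hσ => ?_⟩
      exact Fermat.Agent.CFT.Kummer.mem_fixingSubgroup_adjoin_simple F1 ζ' σ (hF1.2 q hq A hA hσ)
        (inertia_fixes_root_of_unity A q (p ^ (k + 1)) hpk.ne' (hq_ne q hq (k + 1)) hA ζ'
          hζ'.pow_eq_one σ hσ)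
    have hsF1 : ∀ s ∈ F.fixingSubgroup, s ∈ F1.fixingSubgroup := fun s hs =>
      Fermat.Agent.CFT.Kummer.fixingSubgroup_adjoin_simple_le F1 ζ' hs
    have hsK : ∀ s ∈ F.fixingSubgroup, s ∈ K.fixingSubgroup := fun s hs =>
      Fermat.Agent.CFT.Kummer.fixingSubgroup_adjoin_simple_le K g (hsF1 s hs)
    have hsg : ∀ s ∈ F.fixingSubgroup, s g = g := fun s hs =>
      Fermat.Agent.CFT.Kummer.apply_eq_of_mem_fixingSubgroup_adjoin_simple K g s (hsF1 s hs)
    have hsroot : ∀ s ∈ F.fixingSubgroup, ∀ w : Qb, w ^ (p ^ (k + 1)) = 1 → s w = w := by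
      intro s hs w hw
      have hsζ : s ζ' = ζ' :=
        Fermat.Agent.CFT.Kummer.apply_eq_of_mem_fixingSubgroup_adjoin_simple F1 ζ' s hs
      obtain ⟨i, -, rfl⟩ := hζ'.eq_pow_of_pow_eq_one hw
      rw [map_pow, hsζ]
    -- `g₂ g / g` is a `p^k`-th root of unity
    have hratio : ∀ τ ∈ K.fixingSubgroup, (τ g / g) ^ (p ^ k) = 1 := by
      intro τ hτ
      rw [div_pow, ← map_pow, hgk, hfixγ τ hτ, div_self hγ']
    have hccroot : ∀ τ ∈ K.fixingSubgroup, cc p h τ ^ (p ^ (k + 1)) = 1 := by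
      intro τ hτ
      rw [pow_succ', pow_mul, cc_pow hp0 hh0]
      exact hratio τ hτ
    -- the formula for the coboundary
    have hform : ∀ σ ∈ K.fixingSubgroup, ∀ τ ∈ K.fixingSubgroup,
        cprime p z h σ + cprime p z h τ - cprime p z h (σ * τ)
          = dlog p z (cc p h σ * σ (cc p h τ) / cc p h (σ * τ)) := by
      intro σ hσ τ hτ
      have hfix : σ (ww p h τ) = ww p h τ := hfixpow σ hσ _ (ww_pow hp0 hh0 τ)
      have hmul := ww_mul hp0 hh0 σ τ hfix
      have hwστ : ww p h (σ * τ) ≠ 0 := by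
        intro h0
        have := ww_pow hp0 hh0 (σ * τ)
        rw [h0, zero_pow hp0.ne'] at this
        exact zero_ne_one this
      have hA1 : (cc p h σ * σ (cc p h τ) / cc p h (σ * τ)) ^ p = 1 := by
        have : cc p h σ * σ (cc p h τ) / cc p h (σ * τ)
            = ww p h σ * ww p h τ / ww p h (σ * τ) := by
          rw [hmul, mul_div_cancel_right₀ _ hwστ]
        rw [this, div_pow, mul_pow, ww_pow hp0 hh0, ww_pow hp0 hh0, ww_pow hp0 hh0, one_mul,
          div_one]
      have e1 := dlog_mul hzprim (ww_pow hp0 hh0 σ) (ww_pow hp0 hh0 τ)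
      have e2 := dlog_mul hzprim hA1 (ww_pow hp0 hh0 (σ * τ))
      rw [hmul, e2] at e1
      unfold cprime
      rw [← e1]
      ring
    refine ⟨F, hF, fun g₁ hg₁ g₂ hg₂ s₁ hs₁ s₂ hs₂ => ?_⟩
    have hs₁K := hsK s₁ hs₁
    have hs₂K := hsK s₂ hs₂
    rw [hform (g₁ * s₁) (mul_mem hg₁ hs₁K) (g₂ * s₂) (mul_mem hg₂ hs₂K), hform g₁ hg₁ g₂ hg₂]
    have e1 : cc p h (g₁ * s₁) = cc p h g₁ := by
      unfold cc
      rw [AlgEquiv.mul_apply, hsg s₁ hs₁]
    have e2 : cc p h (g₂ * s₂) = cc p h g₂ := by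
      unfold cc
      rw [AlgEquiv.mul_apply, hsg s₂ hs₂]
    have e3 : (g₁ * s₁) (cc p h g₂) = g₁ (cc p h g₂) := by
      rw [AlgEquiv.mul_apply, hsroot s₁ hs₁ _ (hccroot g₂ hg₂)]
    have e4 : cc p h (g₁ * s₁ * (g₂ * s₂)) = cc p h (g₁ * g₂) := by
      unfold cc
      have h1 : (g₁ * s₁ * (g₂ * s₂)) g = (g₁ * g₂) g := by
        rw [AlgEquiv.mul_apply, AlgEquiv.mul_apply, AlgEquiv.mul_apply, AlgEquiv.mul_apply,
          hsg s₂ hs₂]
        have h2 : g₂ g = (g₂ g / g) * g := by rw [div_mul_cancel₀ _ hg0]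
        have h3 : s₁ (g₂ g / g) = g₂ g / g := by
          refine hsroot s₁ hs₁ _ ?_
          rw [pow_succ, pow_mul, hratio g₂ hg₂, one_pow]
        have h4 : s₁ (g₂ g) = g₂ g := by
          conv_lhs => rw [h2]
          rw [map_mul, h3, hsg s₁ hs₁, div_mul_cancel₀ _ hg0]
        rw [h4]
      rw [h1]
    rw [e1, e2, e3, e4]
  · -- the local shape
    intro q hq A hA x ϖ hx hϖ κ hκ
    have hx0 : (x : Qb) ≠ 0 := by
      intro h0
      rw [h0, zero_pow (pow_pos hp0 k).ne', mul_zero, map_zero] at hx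
      exact zero_ne_one hx
    have hϖ0 : ϖ ≠ 0 := by
      rintro rfl
      rw [zero_pow hp0.ne'] at hϖ
      exact hx0 hϖ.symm
    have hfixx : ∀ τ ∈ K.fixingSubgroup, τ (x : Qb) = x := fun τ hτ =>
      (IntermediateField.mem_fixingSubgroup_iff K τ).mp hτ x x.2
    set e : Qb := h * ϖ with he
    have he0 : e ≠ 0 := mul_ne_zero hh0 hϖ0
    have hep : e ^ p = g * x := by rw [he, mul_pow, hϖ]
    have hepk : e ^ (p ^ (k + 1)) = ((γ * x ^ (p ^ k) : K) : Qb) := by
      push_cast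
      rw [he, mul_pow, hh, pow_succ', pow_mul, hϖ]
    have hgx : g = e ^ p / x := by rw [hep, mul_div_cancel_right₀ _ hx0]
    set F_A : IntermediateField ℚ Qb := (K⟮e⟯).restrictScalars ℚ with hFAdef
    have hFA1 : FiniteDimensional ℚ F_A :=
      Fermat.Agent.CFT.Kummer.finiteDimensional_adjoin_simple K e
    have hFA2 : A.inertiaSubgroupIn ℚ ≤ F_A.fixingSubgroup := by
      intro σ hσ
      have hσK : σ ∈ K.fixingSubgroup := hK.2 q hq A hA hσ
      refine Fermat.Agent.CFT.Kummer.mem_fixingSubgroup_adjoin_simple K e σ hσK ?_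
      refine inertia_fixes_root K e (γ * x ^ (p ^ k)) (p ^ (k + 1)) hpk.ne' hepk A q
        (hq_ne q hq (k + 1)) hA 1 ?_ σ hσ hσK
      push_cast
      rw [one_pow, mul_one]
      exact hx
    have hsFA : ∀ s ∈ F_A.fixingSubgroup, s e = e ∧ s g = g := by
      intro s hs
      have h1 : s e = e :=
        Fermat.Agent.CFT.Kummer.apply_eq_of_mem_fixingSubgroup_adjoin_simple K e s hs
      have h2 : s ∈ K.fixingSubgroup :=
        Fermat.Agent.CFT.Kummer.fixingSubgroup_adjoin_simple_le K e hs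
      refine ⟨h1, ?_⟩
      rw [hgx, map_div₀, map_pow, h1, hfixx s h2]
    refine ⟨fun s => dlog p z (cc p h s * e / s e), ⟨F_A, hFA1, hFA2, fun σ s hs => ?_⟩,
      fun s hs => ?_⟩
    · obtain ⟨h1, h2⟩ := hsFA s hs
      show dlog p z (cc p h (σ * s) * e / (σ * s) e) = dlog p z (cc p h σ * e / σ e)
      have e1 : cc p h (σ * s) = cc p h σ := by
        unfold cc
        rw [AlgEquiv.mul_apply, h2]
      rw [e1, AlgEquiv.mul_apply, h1]
    · show cprime p z h s = dlog p z (cc p h s * e / s e) + κ s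
      have hse : s e ≠ 0 := by rw [Ne, map_eq_zero]; exact he0
      have hsh : s h ≠ 0 := by rw [Ne, map_eq_zero]; exact hh0
      have hsϖ : s ϖ ≠ 0 := by rw [Ne, map_eq_zero]; exact hϖ0
      have hsg' : s g ≠ 0 := by rw [Ne, map_eq_zero]; exact hg0
      have h1 : (cc p h s * e / s e) ^ p = 1 := by
        rw [div_pow, mul_pow, cc_pow hp0 hh0, ← map_pow, hep, map_mul, hfixx s hs, ← hg]
        field_simp
      have h2 : s ϖ / ϖ = z ^ (κ s).val := by
        rw [hκ s hs, mul_div_cancel_right₀ _ hϖ0]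
      have h3 : (s ϖ / ϖ) ^ p = 1 := by
        rw [h2, ← pow_mul, mul_comm, pow_mul, hzprim.pow_eq_one, one_pow]
      have h4 : ww p h s = cc p h s * e / s e * (s ϖ / ϖ) := by
        unfold ww
        rw [he, map_mul]
        field_simp
      unfold cprime
      rw [h4, dlog_mul hzprim h1 h3, dlog_eq hzprim (κ s) h2]

end Fermat.Agent.S55.Base.Capit
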