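/-
S55 / PROGRAM CFT, base case: EVAL (tasks row 315, helper36).

The evaluation of the Poitou–Tate pairings `Pc2`, `Pc1` of the abstract layer (`Abs/Pairing`) for
the functional `lam` produced by `Arith/LambdaStar` from reciprocity, on the classes whose global
component dies after adding ramification.  No vanishing of any `H^3` is used.

`Datum k G C` is the arithmetic input (coefficients `C`, in the application `C = μ_p`):
* `ι` all places, local groups `Gv w` with `loc w : Gv w →* G`, the base set `S`;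
* `𝒰 T` the level family "unramified outside `T`" on `G`, `𝒰v w` all local levels,
  `𝒰ur w` the unramified local levels;
* `inv w` a linear functional on ALL local 2-cochains, killing local level coboundaries
  (any linear extension of the local invariant, see `exists_inv`);
* `UR`  : unramified local 2-cocycles at `w ∉ S` have trivial invariant;
* `REC` : reciprocity for level-`T` 2-cocycles, every finite `T ⊇ S`.

Output: `D.lam : Qc3 (D.𝒰 D.S) D.locS D.𝒰vS C →ₗ[k] k` with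
* `invOf_lam`  : the local invariants induced by `D.lam` at `v ∈ S` are `D.inv v`;
* `Pc2_eval`   : for a cone 2-cocycle `(a, t)` of `A`, `c'` of level `T ⊇ S` with `d c' = a`,
  unramified primitives `t' w` of `res_w a` (`w ∈ T \ S`) and a level-`S` 1-cocycle `y` of `B`:
  `Pc2 [(a,t)] [y] = ∑_{v ∈ S} inv_v ((t_v - res_v c') ∪ y_v) + ∑_{w ∈ T \ S} inv_w ((t'_w - res_w c') ∪ y_w)`;
* `Pc1_eval`   : for a cone 1-cocycle `(χ, c)` of `A`, a level-`S` 2-cocycle `x` of `B`, `u` of level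
  `T ⊇ S` with `d u = x`, unramified primitives `m w` of `res_w x` (`w ∈ T \ S`):
  `Pc1 [(χ,c)] [x] = ∑_{w ∈ T \ S} inv_w (χ_w ∪ (res_w u - m_w))`.
-/
import Fermat.Agent.S55.Abs.Pairing
import Fermat.Agent.S55.Arith.LambdaStar

set_option autoImplicit false

open CategoryTheory groupCohomology

namespace Fermat.Agent.S55.Base.Eval

open Fermat.Agent.S55.Abs

/-- Level coboundaries are level cocycles (discrete coefficients). -/
theorem B2_le_Z2 {k G : Type} [Field k] [Group G] (𝒰 : LevelFamily G) {M : Rep.{0} k G}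
    (hM : IsDisc 𝒰 M) : B2 𝒰 M ≤ Z2 𝒰 M := by
  rintro z ⟨c, hc, rfl⟩
  refine ⟨d₁₂_mem_C2 𝒰 hM hc, ?_⟩
  show (d₂₃ M).hom ((d₁₂ M).hom c) = 0
  exact d₁₂_comp_d₂₃_apply M c

/-- A functional on the level cohomology `H²` extends to a functional on ALL 2-cochains which
kills the level coboundaries. -/
theorem exists_inv {k G : Type} [Field k] [Group G] (𝒰 : LevelFamily G) {M : Rep.{0} k G}
    (hM : IsDisc 𝒰 M) (lamH : H2 𝒰 M →ₗ[k] k) :
    ∃ inv : (G × G → M) →ₗ[k] k, (∀ z ∈ B2 𝒰 M, inv z = 0) ∧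
      ∀ (z : G × G → M) (hz : z ∈ Z2 𝒰 M), inv z = lamH (Submodule.Quotient.mk ⟨z, hz⟩) := by
  obtain ⟨inv, hinv⟩ := LinearMap.exists_extend (p := Z2 𝒰 M) (lamH ∘ₗ Submodule.mkQ _)
  have h2 : ∀ (z : G × G → M) (hz : z ∈ Z2 𝒰 M),
      inv z = lamH (Submodule.Quotient.mk ⟨z, hz⟩) := by
    intro z hz
    have := congrArg (fun f => f ⟨z, hz⟩) hinv
    simpa using this
  refine ⟨inv, fun z hz => ?_, h2⟩
  rw [h2 z (B2_le_Z2 𝒰 hM hz)]
  have : (Submodule.Quotient.mk ⟨z, B2_le_Z2 𝒰 hM hz⟩ :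
      ↥(Z2 𝒰 M) ⧸ (B2 𝒰 M).comap (Z2 𝒰 M).subtype) = 0 := by
    rw [Submodule.Quotient.mk_eq_zero]
    exact hz
  rw [this, map_zero]

/-- The arithmetic input of the evaluation formulas. -/
structure Datum (k G : Type) [Field k] [Group G] (C : Rep.{0} k G) where
  /-- all places -/
  ι : Type
  [dec : DecidableEq ι]
  /-- the local groups -/
  Gv : ι → Type
  [grp : ∀ w, Group (Gv w)]
  loc : ∀ w, Gv w →* G
  /-- the base set of places -/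
  S : Finset ι
  /-- the level family "unramified outside `T`" -/
  𝒰 : Finset ι → LevelFamily G
  /-- all local levels -/
  𝒰v : ∀ w, LevelFamily (Gv w)
  /-- the unramified local levels -/
  𝒰ur : ∀ w, LevelFamily (Gv w)
  mono : ∀ T T' : Finset ι, T ⊆ T' → (𝒰 T).sets ⊆ (𝒰 T').sets
  hloc : ∀ T w, IsLevelMap (𝒰v w) (𝒰 T) (loc w)
  /-- a cochain of level `T` is unramified at the places outside `T` -/
  hlocur : ∀ T w, w ∉ T → IsLevelMap (𝒰ur w) (𝒰 T) (loc w)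
  /-- the local functionals, on all local 2-cochains -/
  inv : ∀ w, (Gv w × Gv w → C) →ₗ[k] k
  inv_B2 : ∀ w, ∀ z ∈ B2 (𝒰v w) (Rep.res (loc w) C), inv w z = 0
  /-- unramified 2-cocycles have trivial invariant outside `S` -/
  UR : ∀ w, w ∉ S → ∀ z ∈ Z2 (𝒰ur w) (Rep.res (loc w) C), inv w z = 0
  /-- reciprocity at every finite level containing `S` -/
  REC : ∀ T, S ⊆ T → ∀ z ∈ Z2 (𝒰 T) C, ∑ w ∈ T, inv w (res₂ loc C w z) = 0

attribute [instance] Datum.dec Datum.grp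

namespace Datum

variable {k G : Type} [Field k] [Group G] {C : Rep.{0} k G} (D : Datum k G C)

/-- The local groups at the places of `S`. -/
abbrev GvS : ↥D.S → Type := fun v => D.Gv v

/-- The localisation maps at the places of `S`. -/
abbrev locS : ∀ v : ↥D.S, D.GvS v →* G := fun v => D.loc v

/-- The local level families at the places of `S`. -/
abbrev 𝒰vS : ∀ v : ↥D.S, LevelFamily (D.GvS v) := fun v => D.𝒰v v

theorem hlocS : ∀ v : ↥D.S, IsLevelMap (D.𝒰vS v) (D.𝒰 D.S) (D.locS v) :=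
  fun v => D.hloc D.S v

/-! ### Monotonicity of the level cochains -/

theorem C1_mono {T T' : Finset D.ι} (h : T ⊆ T') (M : Rep.{0} k G) :
    C1 (D.𝒰 T) M ≤ C1 (D.𝒰 T') M := by
  rintro f ⟨U, hU, hf⟩
  exact ⟨U, D.mono T T' h hU, hf⟩

theorem C2_mono {T T' : Finset D.ι} (h : T ⊆ T') (M : Rep.{0} k G) :
    C2 (D.𝒰 T) M ≤ C2 (D.𝒰 T') M := by
  rintro f ⟨U, hU, hf⟩
  exact ⟨U, D.mono T T' h hU, hf⟩

theorem isDisc_mono {T T' : Finset D.ι} (h : T ⊆ T') {M : Rep.{0} k G}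
    (hM : IsDisc (D.𝒰 T) M) : IsDisc (D.𝒰 T') M := by
  obtain ⟨U, hU, hf⟩ := hM
  exact ⟨U, D.mono T T' h hU, hf⟩

/-- Restriction of a level-`T` 1-cochain to a place outside `T` is unramified. -/
theorem res₁_mem_ur {T : Finset D.ι} {w : D.ι} (hw : w ∉ T) {M : Rep.{0} k G} {f : G → M}
    (hf : f ∈ C1 (D.𝒰 T) M) : res₁ D.loc M w f ∈ C1 (D.𝒰ur w) (Rep.res (D.loc w) M) :=
  IsLev₁.precomp (D.hlocur T w hw) hf

/-- Restriction of a level-`T` 2-cochain to a place outside `T` is unramified. -/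
theorem res₂_mem_ur {T : Finset D.ι} {w : D.ι} (hw : w ∉ T) {M : Rep.{0} k G} {f : G × G → M}
    (hf : f ∈ C2 (D.𝒰 T) M) : res₂ D.loc M w f ∈ C2 (D.𝒰ur w) (Rep.res (D.loc w) M) :=
  IsLev₂.precomp (D.hlocur T w hw) hf

/-- Restriction of a level-`T` 1-cochain is a local level cochain. -/
theorem res₁_mem_C1 (T : Finset D.ι) (w : D.ι) {M : Rep.{0} k G} {f : G → M}
    (hf : f ∈ C1 (D.𝒰 T) M) : res₁ D.loc M w f ∈ C1 (D.𝒰v w) (Rep.res (D.loc w) M) :=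
  IsLev₁.precomp (D.hloc T w) hf

/-- `d` commutes with restriction, degree 1. -/
theorem d₁₂_res₁ (M : Rep.{0} k G) (w : D.ι) (f : G → M) :
    (d₁₂ (Rep.res (D.loc w) M)).hom (res₁ D.loc M w f) = res₂ D.loc M w ((d₁₂ M).hom f) := by
  funext ⟨g, h⟩
  simp only [d₁₂_hom_apply, res₁_apply, res₂_apply, map_mul]
  rfl

/-- `d` commutes with restriction, degree 2. -/
theorem d₂₃_res₂ (M : Rep.{0} k G) (w : D.ι) (f : G × G → M) :
    (d₂₃ (Rep.res (D.loc w) M)).hom (res₂ D.loc M w f) = res₃ D.loc M w ((d₂₃ M).hom f) := by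
  funext ⟨g, h, j⟩
  simp only [d₂₃_hom_apply, res₂_apply, res₃_apply, map_mul]
  rfl

/-- Cup products commute with restriction. -/
theorem cup11_res {A B : Rep.{0} k G} (β : EqPairing A B C) (w : D.ι) (x : G → A) (y : G → B) :
    cup11 (β.res (D.loc w)) (res₁ D.loc A w x) (res₁ D.loc B w y)
      = res₂ D.loc C w (cup11 β x y) := by
  funext ⟨g, h⟩
  rfl

theorem cup21_res {A B : Rep.{0} k G} (β : EqPairing A B C) (w : D.ι) (x : G × G → A)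
    (y : G → B) :
    cup21 (β.res (D.loc w)) (res₂ D.loc A w x) (res₁ D.loc B w y)
      = res₃ D.loc C w (cup21 β x y) := by
  funext ⟨g, h, j⟩
  simp only [cup21_apply, res₂_apply, res₁_apply, res₃_apply, map_mul]
  rfl

theorem cup12_res {A B : Rep.{0} k G} (β : EqPairing A B C) (w : D.ι) (x : G → A)
    (y : G × G → B) :
    cup12 (β.res (D.loc w)) (res₁ D.loc A w x) (res₂ D.loc B w y)
      = res₃ D.loc C w (cup12 β x y) := by
  funext ⟨g, h, j⟩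
  rfl

/-- Restriction of a level-`T` 1-cocycle is a local level 1-cocycle. -/
theorem res₁_mem_Z1 (T : Finset D.ι) (w : D.ι) {M : Rep.{0} k G} {f : G → M}
    (hf : f ∈ Z1 (D.𝒰 T) M) : res₁ D.loc M w f ∈ Z1 (D.𝒰v w) (Rep.res (D.loc w) M) := by
  refine ⟨D.res₁_mem_C1 T w hf.1, ?_⟩
  have h : (d₁₂ M).hom f = 0 := hf.2
  show (d₁₂ (Rep.res (D.loc w) M)).hom (res₁ D.loc M w f) = 0
  rw [D.d₁₂_res₁, h, map_zero]

/-- Restriction of a level-`T` 2-cocycle is a local level 2-cocycle. -/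
theorem res₂_mem_Z2 (T : Finset D.ι) (w : D.ι) {M : Rep.{0} k G} {f : G × G → M}
    (hf : f ∈ Z2 (D.𝒰 T) M) : res₂ D.loc M w f ∈ Z2 (D.𝒰v w) (Rep.res (D.loc w) M) := by
  refine ⟨IsLev₂.precomp (D.hloc T w) hf.1, ?_⟩
  have h : (d₂₃ M).hom f = 0 := hf.2
  show (d₂₃ (Rep.res (D.loc w) M)).hom (res₂ D.loc M w f) = 0
  rw [D.d₂₃_res₂, h, map_zero]

/-- The cup product of two unramified 1-cocycles at a place outside `S` has trivial invariant. -/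
theorem inv_cup11_ur {A B : Rep.{0} k G} (β : EqPairing A B C) (hB : IsDisc (D.𝒰 D.S) B)
    {w : D.ι} (hw : w ∉ D.S) {ξ : D.Gv w → A} (hξ : ξ ∈ Z1 (D.𝒰ur w) (Rep.res (D.loc w) A))
    {η : D.Gv w → B} (hη : η ∈ Z1 (D.𝒰ur w) (Rep.res (D.loc w) B)) :
    D.inv w (cup11 (β.res (D.loc w)) ξ η) = 0 := by
  have h1 : (d₁₂ (Rep.res (D.loc w) A)).hom ξ = 0 := hξ.2
  have h2 : (d₁₂ (Rep.res (D.loc w) B)).hom η = 0 := hη.2
  refine D.UR w hw _ ⟨cup11_mem_C2 (β.res (D.loc w)) (D.𝒰ur w)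
    (isDisc_res (D.𝒰 D.S) (D.𝒰ur w) (D.loc w) (D.hlocur D.S w hw) hB) hξ.1 hη.1, ?_⟩
  show (d₂₃ (Rep.res (D.loc w) C)).hom (cup11 (β.res (D.loc w)) ξ η) = 0
  rw [d₂₃_cup11, h1, h2, map_zero, map_zero, LinearMap.zero_apply, sub_zero]

/-- The functional induced by `D.inv w` on the local level cohomology `H²(G_w, C)`. -/
noncomputable def invH (w : D.ι) : H2 (D.𝒰v w) (Rep.res (D.loc w) C) →ₗ[k] k :=
  Submodule.liftQ _ (D.inv w ∘ₗ (Z2 (D.𝒰v w) (Rep.res (D.loc w) C)).subtype) fun z hz =>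
    D.inv_B2 w z.1 hz

theorem invH_mk (w : D.ι) (z : D.Gv w × D.Gv w → C)
    (hz : z ∈ Z2 (D.𝒰v w) (Rep.res (D.loc w) C)) :
    D.invH w (Submodule.Quotient.mk ⟨z, hz⟩) = D.inv w z := rfl

/-- **(a) at cochain level**: reciprocity for the cup product of a level-`T` 1-cocycle of `A`
and a level-`T` 1-cocycle of `B` (`T ⊇ S`): the sum of the local pairings over `T` vanishes. -/
theorem REC_cup11 {A B : Rep.{0} k G} (β : EqPairing A B C) {T : Finset D.ι} (hT : D.S ⊆ T)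
    (hB : IsDisc (D.𝒰 T) B) {κ : G → A} (hκ : κ ∈ Z1 (D.𝒰 T) A) {y : G → B}
    (hy : y ∈ Z1 (D.𝒰 T) B) :
    ∑ w ∈ T, D.inv w (cup11 (β.res (D.loc w)) (res₁ D.loc A w κ) (res₁ D.loc B w y)) = 0 := by
  have h1 : (d₁₂ A).hom κ = 0 := hκ.2
  have h2 : (d₁₂ B).hom y = 0 := hy.2
  have hz : cup11 β κ y ∈ Z2 (D.𝒰 T) C := by
    refine ⟨cup11_mem_C2 β (D.𝒰 T) hB hκ.1 hy.1, ?_⟩
    show (d₂₃ C).hom (cup11 β κ y) = 0
    rw [d₂₃_cup11, h1, h2, map_zero, map_zero, LinearMap.zero_apply, sub_zero]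
  have h := D.REC T hT _ hz
  rw [← h]
  exact Finset.sum_congr rfl fun w _ => by rw [D.cup11_res]

/-- The local pairing `H¹(G_w, A) × H¹(G_w, B) → k` on level classes: cup product followed by
the invariant (`A`, `B` discrete at the base level `S`). -/
noncomputable def locP {A B : Rep.{0} k G} (β : EqPairing A B C) (hB : IsDisc (D.𝒰 D.S) B)
    (hC : IsDisc (D.𝒰 D.S) C) (w : D.ι) :
    H1 (D.𝒰v w) (Rep.res (D.loc w) A) →ₗ[k] H1 (D.𝒰v w) (Rep.res (D.loc w) B) →ₗ[k] k :=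
  (cupH11 (D.𝒰v w) (β.res (D.loc w))
    (isDisc_res (D.𝒰 D.S) (D.𝒰v w) (D.loc w) (D.hloc D.S w) hB)
    (isDisc_res (D.𝒰 D.S) (D.𝒰v w) (D.loc w) (D.hloc D.S w) hC)).compr₂ (D.invH w)

theorem locP_mk {A B : Rep.{0} k G} (β : EqPairing A B C) (hB : IsDisc (D.𝒰 D.S) B)
    (hC : IsDisc (D.𝒰 D.S) C) (w : D.ι) {ξ : D.Gv w → A}
    (hξ : ξ ∈ Z1 (D.𝒰v w) (Rep.res (D.loc w) A)) {η : D.Gv w → B}
    (hη : η ∈ Z1 (D.𝒰v w) (Rep.res (D.loc w) B)) :
    D.locP β hB hC w (Submodule.Quotient.mk ⟨ξ, hξ⟩) (Submodule.Quotient.mk ⟨η, hη⟩)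
      = D.inv w (cup11 (β.res (D.loc w)) ξ η) := rfl

/-! ### The functional -/

/-- The functional of `LambdaStar` on all cone 3-cochains, with its enlargement property. -/
theorem exists_lam₀ :
    ∃ lam₀ : ((G × G × G → C) × (∀ v : ↥D.S, D.GvS v × D.GvS v → C)) →ₗ[k] k,
      ∀ (A₃ : G × G × G → C) (B₂ : ∀ v : ↥D.S, D.GvS v × D.GvS v → C) (T : Finset D.ι)
        (e : G × G → C) (u : ∀ w, D.Gv w × D.Gv w → C),
        D.S ⊆ T → e ∈ C2 (D.𝒰 T) C → (d₂₃ C).hom e = A₃ →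
        (∀ w ∈ T, w ∉ D.S → u w ∈ C2 (D.𝒰ur w) (Rep.res (D.loc w) C) ∧
          (d₂₃ (Rep.res (D.loc w) C)).hom (u w) = res₃ D.loc C w A₃) →
        lam₀ (A₃, B₂) = ∑ v : ↥D.S, D.inv v (B₂ v - res₂ D.loc C v e)
          + ∑ w ∈ T \ D.S, D.inv w (u w - res₂ D.loc C w e) := by
  refine Arith.LambdaStar.exists_lam (S := D.S) (d := (d₂₃ C).hom)
    (C2 := fun T => C2 (D.𝒰 T) C)
    (dl := fun w => (d₂₃ (Rep.res (D.loc w) C)).hom)
    (r2 := fun w => res₂ D.loc C w) (r3 := fun w => res₃ D.loc C w)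
    (inv := D.inv) (U2 := fun w => C2 (D.𝒰ur w) (Rep.res (D.loc w) C)) ?_ ?_ ?_ ?_ ?_
  · intro S₁ S₂ h
    exact D.C2_mono h C
  · intro w x
    exact D.d₂₃_res₂ C w x
  · intro T w hw e he
    exact D.res₂_mem_ur hw he
  · intro w hw u hu hdu
    exact D.UR w hw u ⟨hu, hdu⟩
  · intro T hT x hx hdx
    exact D.REC T hT x ⟨hx, hdx⟩

/-- The functional on all cone 3-cochains. -/
noncomputable def lam₀ : ((G × G × G → C) × (∀ v : ↥D.S, D.GvS v × D.GvS v → C)) →ₗ[k] k :=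
  Classical.choose D.exists_lam₀

theorem lam₀_star (A₃ : G × G × G → C) (B₂ : ∀ v : ↥D.S, D.GvS v × D.GvS v → C)
    (T : Finset D.ι) (e : G × G → C) (u : ∀ w, D.Gv w × D.Gv w → C)
    (hT : D.S ⊆ T) (he : e ∈ C2 (D.𝒰 T) C) (hde : (d₂₃ C).hom e = A₃)
    (hu : ∀ w ∈ T, w ∉ D.S → u w ∈ C2 (D.𝒰ur w) (Rep.res (D.loc w) C) ∧
      (d₂₃ (Rep.res (D.loc w) C)).hom (u w) = res₃ D.loc C w A₃) :
    D.lam₀ (A₃, B₂) = ∑ v : ↥D.S, D.inv v (B₂ v - res₂ D.loc C v e)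
      + ∑ w ∈ T \ D.S, D.inv w (u w - res₂ D.loc C w e) :=
  Classical.choose_spec D.exists_lam₀ A₃ B₂ T e u hT he hde hu

/-- `lam₀` on purely local cochains. -/
theorem lam₀_inr (B₂ : ∀ v : ↥D.S, D.GvS v × D.GvS v → C) :
    D.lam₀ (0, B₂) = ∑ v : ↥D.S, D.inv v (B₂ v) := by
  have h := D.lam₀_star 0 B₂ D.S 0 0 subset_rfl (zero_mem _) (map_zero _)
    (fun w hw hwS => absurd hw hwS)
  simpa using h

/-- `lam₀` kills the cone coboundaries. -/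
theorem lam₀_Bc3 (z : (G × G × G → C) × (∀ v : ↥D.S, D.GvS v × D.GvS v → C))
    (hz : z ∈ Bc3 (D.𝒰 D.S) D.locS D.𝒰vS C) : D.lam₀ z = 0 := by
  obtain ⟨⟨e, f⟩, ⟨he, hf⟩, rfl⟩ := hz
  have he' : e ∈ C2 (D.𝒰 D.S) C := he
  have h := D.lam₀_star ((d₂₃ C).hom e)
    (fun v : ↥D.S => res₂ D.loc C v e - (d₁₂ (Rep.res (D.loc v) C)).hom (f v)) D.S e 0
    subset_rfl he' rfl (fun w hw hwS => absurd hw hwS)
  have hb : bdry3 D.locS C (e, f) = ((d₂₃ C).hom e,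
      fun v : ↥D.S => res₂ D.loc C v e - (d₁₂ (Rep.res (D.loc v) C)).hom (f v)) := rfl
  rw [hb, h, Finset.sdiff_self, Finset.sum_empty, add_zero]
  refine Finset.sum_eq_zero fun v _ => ?_
  have hfv : f v ∈ C1 (D.𝒰v v) (Rep.res (D.loc v) C) := hf v (Set.mem_univ v)
  have : res₂ D.loc C v e - (d₁₂ (Rep.res (D.loc v) C)).hom (f v) - res₂ D.loc C v e
      = (d₁₂ (Rep.res (D.loc v) C)).hom (-f v) := by
    rw [map_neg]; abel
  rw [this]
  exact D.inv_B2 v _ ⟨-f v, Submodule.neg_mem _ hfv, rfl⟩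

/-- **The functional `lam`** on `C³_c(C)/B³_c(C)` (at the base level `S`). -/
noncomputable def lam : Qc3 (D.𝒰 D.S) D.locS D.𝒰vS C →ₗ[k] k :=
  Submodule.liftQ _ (D.lam₀ ∘ₗ (Cc3 (D.𝒰 D.S) D.locS D.𝒰vS C).subtype) fun z hz =>
    D.lam₀_Bc3 z.1 hz

theorem lam_mk (z : (G × G × G → C) × (∀ v : ↥D.S, D.GvS v × D.GvS v → C))
    (hz : z ∈ Cc3 (D.𝒰 D.S) D.locS D.𝒰vS C) :
    D.lam (Submodule.Quotient.mk ⟨z, hz⟩) = D.lam₀ z := rfl

/-- The local invariant induced by `D.lam` at `v ∈ S` is `D.inv v`. -/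
theorem invOf_lam (v : ↥D.S) (z : D.GvS v × D.GvS v → C)
    (hz : z ∈ Z2 (D.𝒰vS v) (Rep.res (D.locS v) C)) :
    invOf (D.𝒰 D.S) D.locS D.𝒰vS C D.lam v (Submodule.Quotient.mk ⟨z, hz⟩) = D.inv v z := by
  have h1 : invOf (D.𝒰 D.S) D.locS D.𝒰vS C D.lam v (Submodule.Quotient.mk ⟨z, hz⟩)
      = D.lam₀ (jv C v z) := rfl
  have h2 : jv (Gv := D.GvS) C v z = (0, Pi.single v z) := rfl
  rw [h1, h2, D.lam₀_inr, Finset.sum_eq_single v]
  · rw [Pi.single_eq_same]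
  · intro w _ hw
    rw [Pi.single_eq_of_ne hw, map_zero]
  · intro h
    exact absurd (Finset.mem_univ v) h

/-! ### Evaluation formulas -/

section Evaluation

variable {A B : Rep.{0} k G} (β : EqPairing A B C)
  (hA : IsDisc (D.𝒰 D.S) A) (hB : IsDisc (D.𝒰 D.S) B) (hC : IsDisc (D.𝒰 D.S) C)

/-- **EVAL, bidegree (2,1).**  `(a, t)` a cone 2-cocycle of `A` at level `S`, `y` a level-`S`
1-cocycle of `B`; `c'` a 1-cochain of level `T ⊇ S` with `d c' = a`, and `t' w` unramified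
primitives of `res_w a` at the places `w ∈ T \ S`. -/
theorem Pc2_eval {a : G × G → A} {t : ∀ v : ↥D.S, D.GvS v → A}
    (hx : (a, t) ∈ Zc2 (D.𝒰 D.S) D.locS D.𝒰vS A) {y : G → B} (hy : y ∈ Z1 (D.𝒰 D.S) B)
    (T : Finset D.ι) (hT : D.S ⊆ T)
    (c' : G → A) (hc' : c' ∈ C1 (D.𝒰 T) A) (hdc' : (d₁₂ A).hom c' = a)
    (t' : ∀ w, D.Gv w → A)
    (ht' : ∀ w ∈ T, w ∉ D.S → t' w ∈ C1 (D.𝒰ur w) (Rep.res (D.loc w) A) ∧
      (d₁₂ (Rep.res (D.loc w) A)).hom (t' w) = res₂ D.loc A w a) :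
    Pc2 (D.𝒰 D.S) D.locS D.𝒰vS β D.hlocS hA hB hC D.lam
        (Submodule.Quotient.mk ⟨(a, t), hx⟩) (Submodule.Quotient.mk ⟨y, hy⟩)
      = ∑ v : ↥D.S, D.inv v
            (cup11 (β.res (D.loc v)) (t v - res₁ D.loc A v c') (res₁ D.loc B v y))
        + ∑ w ∈ T \ D.S, D.inv w
            (cup11 (β.res (D.loc w)) (t' w - res₁ D.loc A w c') (res₁ D.loc B w y)) := by
  have hdy : (d₁₂ B).hom y = 0 := hy.2
  have h1 : Pc2 (D.𝒰 D.S) D.locS D.𝒰vS β D.hlocS hA hB hC D.lam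
        (Submodule.Quotient.mk ⟨(a, t), hx⟩) (Submodule.Quotient.mk ⟨y, hy⟩)
      = D.lam₀ (cup21 β a y,
          fun v : ↥D.S => cup11 (β.res (D.loc v)) (t v) (res₁ D.loc B v y)) := rfl
  have hBT : IsDisc (D.𝒰 T) B := D.isDisc_mono hT hB
  have he : cup11 β c' y ∈ C2 (D.𝒰 T) C :=
    cup11_mem_C2 β (D.𝒰 T) hBT hc' (D.C1_mono hT B hy.1)
  have hde : (d₂₃ C).hom (cup11 β c' y) = cup21 β a y := by
    rw [d₂₃_cup11, hdc', hdy, map_zero, sub_zero]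
  have hu : ∀ w ∈ T, w ∉ D.S →
      cup11 (β.res (D.loc w)) (t' w) (res₁ D.loc B w y) ∈ C2 (D.𝒰ur w) (Rep.res (D.loc w) C) ∧
      (d₂₃ (Rep.res (D.loc w) C)).hom (cup11 (β.res (D.loc w)) (t' w) (res₁ D.loc B w y))
        = res₃ D.loc C w (cup21 β a y) := by
    intro w hw hwS
    refine ⟨cup11_mem_C2 (β.res (D.loc w)) (D.𝒰ur w)
      (isDisc_res (D.𝒰 D.S) (D.𝒰ur w) (D.loc w) (D.hlocur D.S w hwS) hB) (ht' w hw hwS).1
      (D.res₁_mem_ur hwS hy.1), ?_⟩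
    rw [d₂₃_cup11, (ht' w hw hwS).2, D.d₁₂_res₁, hdy, map_zero, map_zero, sub_zero, D.cup21_res]
  rw [h1, D.lam₀_star _ _ T (cup11 β c' y)
    (fun w => cup11 (β.res (D.loc w)) (t' w) (res₁ D.loc B w y)) hT he hde hu]
  have hsub : ∀ (w : D.ι) (s : D.Gv w → A),
      cup11 (β.res (D.loc w)) s (res₁ D.loc B w y) - res₂ D.loc C w (cup11 β c' y)
        = cup11 (β.res (D.loc w)) (s - res₁ D.loc A w c') (res₁ D.loc B w y) := by
    intro w s
    rw [← D.cup11_res, map_sub, LinearMap.sub_apply]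
  congr 1
  · exact Finset.sum_congr rfl fun v _ => by rw [hsub]
  · exact Finset.sum_congr rfl fun w _ => by rw [hsub]

/-- **EVAL, bidegree (1,2).**  `(χ, c)` a cone 1-cocycle of `A` at level `S`, `x` a level-`S`
2-cocycle of `B`; `u` a 1-cochain of level `T ⊇ S` with `d u = x`, and `m w` unramified
primitives of `res_w x` at the places `w ∈ T \ S`.  The terms at the places of `S` vanish. -/
theorem Pc1_eval {χ : G → A} {c : ↥D.S → A} (hx : (χ, c) ∈ Zc1 (D.𝒰 D.S) D.locS A)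
    {x : G × G → B} (hx' : x ∈ Z2 (D.𝒰 D.S) B)
    (T : Finset D.ι) (hT : D.S ⊆ T)
    (u : G → B) (hu : u ∈ C1 (D.𝒰 T) B) (hdu : (d₁₂ B).hom u = x)
    (m : ∀ w, D.Gv w → B)
    (hm : ∀ w ∈ T, w ∉ D.S → m w ∈ C1 (D.𝒰ur w) (Rep.res (D.loc w) B) ∧
      (d₁₂ (Rep.res (D.loc w) B)).hom (m w) = res₂ D.loc B w x) :
    Pc1 (D.𝒰 D.S) D.locS D.𝒰vS β D.hlocS hA hB hC D.lam
        (Submodule.Quotient.mk ⟨(χ, c), hx⟩) (Submodule.Quotient.mk ⟨x, hx'⟩)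
      = ∑ w ∈ T \ D.S, D.inv w
          (cup11 (β.res (D.loc w)) (res₁ D.loc A w χ) (res₁ D.loc B w u - m w)) := by
  have hdχ : (d₁₂ A).hom χ = 0 := hx.1.2
  have h1 : Pc1 (D.𝒰 D.S) D.locS D.𝒰vS β D.hlocS hA hB hC D.lam
        (Submodule.Quotient.mk ⟨(χ, c), hx⟩) (Submodule.Quotient.mk ⟨x, hx'⟩)
      = D.lam₀ (cup12 β χ x,
          fun v : ↥D.S => cup02 (β.res (D.loc v)) (c v) (res₂ D.loc B v x)) := rfl
  have hBT : IsDisc (D.𝒰 T) B := D.isDisc_mono hT hB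
  have he : -cup11 β χ u ∈ C2 (D.𝒰 T) C :=
    Submodule.neg_mem _ (cup11_mem_C2 β (D.𝒰 T) hBT (D.C1_mono hT A hx.1.1) hu)
  have hde : (d₂₃ C).hom (-cup11 β χ u) = cup12 β χ x := by
    rw [map_neg, d₂₃_cup11, hdχ, hdu, map_zero, LinearMap.zero_apply, zero_sub, neg_neg]
  have hw' : ∀ w ∈ T, w ∉ D.S →
      -cup11 (β.res (D.loc w)) (res₁ D.loc A w χ) (m w) ∈ C2 (D.𝒰ur w) (Rep.res (D.loc w) C) ∧
      (d₂₃ (Rep.res (D.loc w) C)).hom (-cup11 (β.res (D.loc w)) (res₁ D.loc A w χ) (m w))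
        = res₃ D.loc C w (cup12 β χ x) := by
    intro w hw hwS
    refine ⟨Submodule.neg_mem _ (cup11_mem_C2 (β.res (D.loc w)) (D.𝒰ur w)
      (isDisc_res (D.𝒰 D.S) (D.𝒰ur w) (D.loc w) (D.hlocur D.S w hwS) hB)
      (D.res₁_mem_ur hwS hx.1.1) (hm w hw hwS).1), ?_⟩
    rw [map_neg, d₂₃_cup11, D.d₁₂_res₁, hdχ, map_zero, map_zero, LinearMap.zero_apply, zero_sub,
      neg_neg, (hm w hw hwS).2, D.cup12_res]
  rw [h1, D.lam₀_star _ _ T (-cup11 β χ u)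
    (fun w => -cup11 (β.res (D.loc w)) (res₁ D.loc A w χ) (m w)) hT he hde hw']
  have hS0 : ∑ v : ↥D.S, D.inv v (cup02 (β.res (D.loc v)) (c v) (res₂ D.loc B v x)
      - res₂ D.loc C v (-cup11 β χ u)) = 0 := by
    refine Finset.sum_eq_zero fun v _ => ?_
    have hcv : res₁ D.loc A v χ = (d₀₁ (Rep.res (D.loc v) A)).hom (c v) := hx.2 v
    have e1 : cup02 (β.res (D.loc v)) (c v) (res₂ D.loc B v x) - res₂ D.loc C v (-cup11 β χ u)
        = (d₁₂ (Rep.res (D.loc v) C)).hom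
            (cup01 (β.res (D.loc v)) (c v) (res₁ D.loc B v u)) := by
      rw [d₁₂_cup01, ← hcv, D.d₁₂_res₁, hdu, map_neg, sub_neg_eq_add, D.cup11_res, add_comm]
    rw [e1]
    exact D.inv_B2 v _ ⟨_, cup01_mem_C1 (β.res (D.loc v)) (D.𝒰v v) (c v)
      (D.res₁_mem_C1 T v hu), rfl⟩
  rw [hS0, zero_add]
  refine Finset.sum_congr rfl fun w _ => ?_
  congr 1
  rw [map_neg, sub_neg_eq_add, ← D.cup11_res, map_sub, neg_add_eq_sub]

/-- `Pc2` on the classes `(0, z)`: the sum of the local pairings over `S`. -/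
theorem Pc2_inr_eval {z : ∀ v : ↥D.S, D.GvS v → A}
    (hx : ((0, z) : (G × G → A) × (∀ v : ↥D.S, D.GvS v → A)) ∈ Zc2 (D.𝒰 D.S) D.locS D.𝒰vS A)
    {y : G → B} (hy : y ∈ Z1 (D.𝒰 D.S) B) :
    Pc2 (D.𝒰 D.S) D.locS D.𝒰vS β D.hlocS hA hB hC D.lam
        (Submodule.Quotient.mk ⟨(0, z), hx⟩) (Submodule.Quotient.mk ⟨y, hy⟩)
      = ∑ v : ↥D.S, D.inv v (cup11 (β.res (D.loc v)) (z v) (res₁ D.loc B v y)) := by
  have h := D.Pc2_eval β hA hB hC hx hy D.S subset_rfl 0 (zero_mem _) (map_zero _) 0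
    (fun w hw hwS => absurd hw hwS)
  rw [h, Finset.sdiff_self, Finset.sum_empty, add_zero]
  exact Finset.sum_congr rfl fun v _ => by rw [map_zero, sub_zero]

/-- `Pc1` on the classes `(0, s)`, `s v ∈ H⁰(G_v, A)`: the sum over `S` of the local pairings
`H⁰(G_v, A) × H²(G_v, B) → k`. -/
theorem Pc1_inr_eval {s : ↥D.S → A}
    (hx : ((0, s) : (G → A) × (↥D.S → A)) ∈ Zc1 (D.𝒰 D.S) D.locS A)
    {x : G × G → B} (hx' : x ∈ Z2 (D.𝒰 D.S) B) :
    Pc1 (D.𝒰 D.S) D.locS D.𝒰vS β D.hlocS hA hB hC D.lam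
        (Submodule.Quotient.mk ⟨(0, s), hx⟩) (Submodule.Quotient.mk ⟨x, hx'⟩)
      = ∑ v : ↥D.S, D.inv v (cup02 (β.res (D.loc v)) (s v) (res₂ D.loc B v x)) := by
  have h1 : Pc1 (D.𝒰 D.S) D.locS D.𝒰vS β D.hlocS hA hB hC D.lam
        (Submodule.Quotient.mk ⟨(0, s), hx⟩) (Submodule.Quotient.mk ⟨x, hx'⟩)
      = D.lam₀ (cup12 β 0 x,
          fun v : ↥D.S => cup02 (β.res (D.loc v)) (s v) (res₂ D.loc B v x)) := rfl
  rw [h1, map_zero, LinearMap.zero_apply, D.lam₀_inr]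

end Evaluation

end Datum

end Fermat.Agent.S55.Base.Eval
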