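/-
S55 / PROGRAM CFT, base case: the COCHAIN-LEVEL CONTRACT of the count (c4) (helper185).

Consumer-independent shapes, in the vocabulary of `Base/Eval` (`D : Eval.Datum k G C`,
coefficients `N`), for the two arithmetic facts behind (c4) "`dim R(N)/Dg ≤ ρ`":

* a family of local cocycles `θ w o` ("the ramified class `θ(o)` at the place `o` above the
  prime `w`"), indexed by ONE type `O` of places with a map `pr : O → D.ι` to the prime below;
  `θ w o = 0` unless `pr o = w`, so that `lc w d = ∑_o d o • θ w o` only sees the `o` above `w`;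
* `Gen`  (UNR3, generation): every local level 1-cocycle at `w ∉ S` is
  `lc w e + (unramified cochain) + (coboundary)`, `e` supported above `w`;
* `Kill P` (KD, "principal divisors are global"): for every `d` in the submodule `P` of divisors
  there is a GLOBAL 1-cocycle `κ` of some level `T ⊇ S` (containing the primes below the support
  of `d`) with `res_w κ = lc w d + (unramified cochain) + (coboundary)` at the `w ∈ T \ S`.

Together with `Hasse`, `UrPrim`, `Fact` (the shapes of `AsmCore`), `Base/C4Cone` turns them into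
`dim Ш²_S(N) ≤ dim (O →₀ k) ⧸ P`.
-/
import Fermat.Agent.S55.Base.Eval

set_option autoImplicit false

open CategoryTheory groupCohomology

namespace Fermat.Agent.S55.Base.C4

open Fermat.Agent.S55.Abs

variable {k G : Type} [Field k] [Group G] {C : Rep.{0} k G}

/-- A family of ramified local cocycles `θ(o)`, `o` running over a type `O` of places with the
prime below `pr o`.  `θ w o` is a cochain of the local group at `w`; it is the cocycle `θ(o)`
when `pr o = w` and `0` otherwise. -/
structure ThetaFam (D : Eval.Datum k G C) (N : Rep.{0} k G) where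
  /-- the places outside `S` (in the application: the places of `K` outside `S_K`) -/
  O : Type
  /-- the prime below a place -/
  pr : O → D.ι
  /-- the local cocycles -/
  θ : ∀ w : D.ι, O → D.Gv w → N
  θ_zero : ∀ w o, pr o ≠ w → θ w o = 0
  θ_mem : ∀ w o, θ w o ∈ Z1 (D.𝒰v w) (Rep.res (D.loc w) N)

namespace ThetaFam

variable {D : Eval.Datum k G C} {N : Rep.{0} k G} (Θ : ThetaFam D N)

/-- `lc w d = ∑_o d o • θ w o`, the local cocycle at `w` of the divisor `d`. -/
noncomputable def lc (w : D.ι) : (Θ.O →₀ k) →ₗ[k] (D.Gv w → N) :=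
  Finsupp.linearCombination k (Θ.θ w)

theorem lc_apply (w : D.ι) (d : Θ.O →₀ k) : Θ.lc w d = d.sum fun o c => c • Θ.θ w o := rfl

/-- **(GEN)** = UNR3, generation: every local level 1-cocycle at `w ∉ S` is, modulo unramified
cochains and coboundaries, a combination of the `θ(o)`, `o` above `w`. -/
def Gen : Prop :=
  ∀ w, w ∉ D.S → ∀ z ∈ Z1 (D.𝒰v w) (Rep.res (D.loc w) N),
    ∃ (e : Θ.O →₀ k) (u : D.Gv w → N) (m : N), (∀ o ∈ e.support, Θ.pr o = w) ∧
      u ∈ C1 (D.𝒰ur w) (Rep.res (D.loc w) N) ∧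
      z = Θ.lc w e + u + (d₀₁ (Rep.res (D.loc w) N)).hom m

/-- **(KILL)** = KD, "principal divisors are global": every divisor `d ∈ P` is, outside `S` and
modulo unramified cochains and coboundaries, the family of restrictions of ONE global 1-cocycle
`κ` of some finite level `T ⊇ S`. -/
def Kill (P : Submodule k (Θ.O →₀ k)) : Prop :=
  ∀ d ∈ P, ∃ (T : Finset D.ι) (κ : G → N), D.S ⊆ T ∧ κ ∈ Z1 (D.𝒰 T) N ∧
    (∀ o ∈ d.support, Θ.pr o ∈ T) ∧
    ∀ w ∈ T, w ∉ D.S → ∃ (u : D.Gv w → N) (m : N),
      u ∈ C1 (D.𝒰ur w) (Rep.res (D.loc w) N) ∧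
      res₁ D.loc N w κ = Θ.lc w d + u + (d₀₁ (Rep.res (D.loc w) N)).hom m

end ThetaFam

/-- **(HPQ)**, the Hasse principle in cochain form: a level-`S` 2-cocycle which is locally a
coboundary at the places of `S` is the coboundary of a cochain of some finite level `T ⊇ S`. -/
def Hasse (D : Eval.Datum k G C) (N : Rep.{0} k G) : Prop :=
  ∀ a ∈ Z2 (D.𝒰 D.S) N,
    (∀ v : ↥D.S, res₂ D.loc N v a ∈ B2 (D.𝒰v v) (Rep.res (D.loc v) N)) →
    ∃ (T : Finset D.ι) (c : G → N), D.S ⊆ T ∧ c ∈ C1 (D.𝒰 T) N ∧ (d₁₂ N).hom c = a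

/-- **(UR)**: unramified local 2-cocycles outside `S` have unramified primitives. -/
def UrPrim (D : Eval.Datum k G C) (N : Rep.{0} k G) : Prop :=
  ∀ w, w ∉ D.S → ∀ z ∈ Z2 (D.𝒰ur w) (Rep.res (D.loc w) N),
    ∃ t ∈ C1 (D.𝒰ur w) (Rep.res (D.loc w) N), (d₁₂ (Rep.res (D.loc w) N)).hom t = z

/-- **(FACT)**, with coboundary corrections: a cochain of level `T ⊇ S` with level-`S`
coboundary, unramified modulo coboundaries at the places of `T \ S`, is of level `S`. -/
def FactC (D : Eval.Datum k G C) (N : Rep.{0} k G) : Prop :=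
  ∀ (T : Finset D.ι) (c : G → N), c ∈ C1 (D.𝒰 T) N → (d₁₂ N).hom c ∈ C2 (D.𝒰 D.S) N →
    (∀ w ∈ T, w ∉ D.S → ∃ m : N,
      res₁ D.loc N w c - (d₀₁ (Rep.res (D.loc w) N)).hom m
        ∈ C1 (D.𝒰ur w) (Rep.res (D.loc w) N)) →
    c ∈ C1 (D.𝒰 D.S) N

end Fermat.Agent.S55.Base.C4
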