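/-
S55 / PROGRAM CFT, base case: the count (c4) in CONE FORM (helper185).

`dim Ш²_S(N) ≤ dim (O →₀ k) ⧸ P` from the cochain contract of `Base/C4Shape`:
`Hasse` + `UrPrim` + `Gen` make the linear relation

  `a ~ d`  iff  `∃ T ⊇ S, c` of level `T` with `d c = a` and, at every `w ∉ S`,
               `res_w c = lc w d + (unramified cochain) + (coboundary)`

total on the level-`S` 2-cocycles which are locally coboundaries at `S`; `Kill P` + `FactC` show
that `a ~ d`, `d ∈ P` forces `a` to be a level-`S` coboundary.  No quotient of families of local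
cocycles (no `J`, no `R(N)`) is needed.
-/
import Fermat.Agent.S55.Base.C4Shape

set_option autoImplicit false

open CategoryTheory groupCohomology

namespace Fermat.Agent.S55.Base.C4

open Fermat.Agent.S55.Abs

/-! ### Linear algebra: counting through a linear relation -/

/-- If a linear relation `Rel ⊆ V × Y` is total on `V` and `(a, d) ∈ Rel`, `d ∈ P` forces
`g a = 0` for a surjection `g : V → W`, then `dim W ≤ dim Y ⧸ P`. -/
theorem finrank_le_of_rel {k : Type*} [Field k] {V W Y : Type*} [AddCommGroup V] [Module k V]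
    [AddCommGroup W] [Module k W] [AddCommGroup Y] [Module k Y]
    (g : V →ₗ[k] W) (hg : Function.Surjective g) (Rel : Submodule k (V × Y))
    (P : Submodule k Y) [FiniteDimensional k (Y ⧸ P)]
    (tot : ∀ a, ∃ d, (a, d) ∈ Rel) (inj : ∀ a d, (a, d) ∈ Rel → d ∈ P → g a = 0) :
    FiniteDimensional k W ∧ Module.finrank k W ≤ Module.finrank k (Y ⧸ P) := by
  set R : Submodule k (W × (Y ⧸ P)) := Rel.map (g.prodMap P.mkQ) with hR
  have hsnd : Function.Injective ((LinearMap.snd k W (Y ⧸ P)).comp R.subtype) := by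
    rw [← LinearMap.ker_eq_bot, LinearMap.ker_eq_bot']
    rintro ⟨x, hx⟩ h0
    obtain ⟨⟨a, d⟩, had, rfl⟩ := hx
    have hd : P.mkQ d = 0 := h0
    have hdP : d ∈ P := by simpa using hd
    have hga : g a = 0 := inj a d had hdP
    apply Subtype.ext
    show (g a, P.mkQ d) = 0
    rw [hga, hd]
    rfl
  have hfst : Function.Surjective ((LinearMap.fst k W (Y ⧸ P)).comp R.subtype) := by
    intro w
    obtain ⟨a, rfl⟩ := hg w
    obtain ⟨d, had⟩ := tot a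
    exact ⟨⟨(g a, P.mkQ d), ⟨(a, d), had, rfl⟩⟩, rfl⟩
  have hRfin : FiniteDimensional k R := FiniteDimensional.of_injective _ hsnd
  have hWfin : FiniteDimensional k W := Module.Finite.of_surjective _ hfst
  exact ⟨hWfin, (LinearMap.finrank_le_finrank_of_surjective hfst).trans
    (LinearMap.finrank_le_finrank_of_injective hsnd)⟩

variable {k G : Type} [Field k] [Group G] {C : Rep.{0} k G}

/-! ### The locally trivial part of `H²` -/

section Sha

variable (D : Eval.Datum k G C) (N : Rep.{0} k G)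

/-- Level-`S` 2-cocycles which are local level coboundaries at every place of `S`. -/
def locTrivZ : Submodule k ↥(Z2 (D.𝒰 D.S) N) :=
  ⨅ v : ↥D.S, (B2 (D.𝒰v v) (Rep.res (D.loc v) N)).comap
    ((res₂ D.loc N v).comp (Z2 (D.𝒰 D.S) N).subtype)

theorem mem_locTrivZ (a : ↥(Z2 (D.𝒰 D.S) N)) :
    a ∈ locTrivZ D N ↔
      ∀ v : ↥D.S, res₂ D.loc N v a.1 ∈ B2 (D.𝒰v v) (Rep.res (D.loc v) N) := by
  simp [locTrivZ, Submodule.mem_iInf]

/-- `Ш²_S(N)`: the classes in `H²` of level `S` which are locally trivial at the places of `S`. -/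
def sha2 : Submodule k (H2 (D.𝒰 D.S) N) :=
  (locTrivZ D N).map (Submodule.mkQ _)

theorem mem_sha2 (x : H2 (D.𝒰 D.S) N) :
    x ∈ sha2 D N ↔ ∃ a ∈ locTrivZ D N, Submodule.Quotient.mk a = x := Iff.rfl

end Sha

/-! ### The relation -/

namespace ThetaFam

variable {D : Eval.Datum k G C} {N : Rep.{0} k G} (Θ : ThetaFam D N)

theorem lc_eq_zero {w : D.ι} {e : Θ.O →₀ k} (h : ∀ o ∈ e.support, Θ.pr o ≠ w) :
    Θ.lc w e = 0 := by
  rw [lc_apply, Finsupp.sum]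
  refine Finset.sum_eq_zero fun o ho => ?_
  rw [Θ.θ_zero w o (h o ho), smul_zero]

/-- The relation "`a = d c` with `res_w c ≡ lc w d` modulo unramified cochains and coboundaries at
all `w ∉ S`", on cochains. -/
def RelC (a : G × G → N) (d : Θ.O →₀ k) : Prop :=
  ∃ (T : Finset D.ι) (c : G → N), D.S ⊆ T ∧ c ∈ C1 (D.𝒰 T) N ∧ (d₁₂ N).hom c = a ∧
    ∀ w, w ∉ D.S → ∃ (u : D.Gv w → N) (m : N),
      u ∈ C1 (D.𝒰ur w) (Rep.res (D.loc w) N) ∧
      res₁ D.loc N w c = Θ.lc w d + u + (d₀₁ (Rep.res (D.loc w) N)).hom m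

theorem relC_zero : Θ.RelC 0 0 :=
  ⟨D.S, 0, subset_rfl, zero_mem _, map_zero _, fun w _ => ⟨0, 0, zero_mem _, by simp⟩⟩

theorem relC_add {a a' : G × G → N} {d d' : Θ.O →₀ k} (h : Θ.RelC a d) (h' : Θ.RelC a' d') :
    Θ.RelC (a + a') (d + d') := by
  classical
  obtain ⟨T, c, hT, hc, hdc, hw⟩ := h
  obtain ⟨T', c', hT', hc', hdc', hw'⟩ := h'
  refine ⟨T ∪ T', c + c', hT.trans Finset.subset_union_left,
    add_mem (D.C1_mono Finset.subset_union_left N hc)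
      (D.C1_mono Finset.subset_union_right N hc'), by rw [map_add, hdc, hdc'], fun w hwS => ?_⟩
  obtain ⟨u, m, hu, h1⟩ := hw w hwS
  obtain ⟨u', m', hu', h1'⟩ := hw' w hwS
  refine ⟨u + u', m + m', add_mem hu hu', ?_⟩
  rw [map_add, h1, h1', map_add, map_add]
  abel

theorem relC_smul (r : k) {a : G × G → N} {d : Θ.O →₀ k} (h : Θ.RelC a d) :
    Θ.RelC (r • a) (r • d) := by
  obtain ⟨T, c, hT, hc, hdc, hw⟩ := h
  refine ⟨T, r • c, hT, Submodule.smul_mem _ r hc, by rw [map_smul, hdc], fun w hwS => ?_⟩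
  obtain ⟨u, m, hu, h1⟩ := hw w hwS
  refine ⟨r • u, r • m, Submodule.smul_mem _ r hu, ?_⟩
  rw [map_smul, h1, map_smul, map_smul, smul_add, smul_add]

/-- The relation as a submodule of `(locally trivial cocycles) × (divisors)`. -/
def Rel : Submodule k (↥(locTrivZ D N) × (Θ.O →₀ k)) where
  carrier := {x | Θ.RelC x.1.1.1 x.2}
  add_mem' := fun hx hy => Θ.relC_add hx hy
  zero_mem' := Θ.relC_zero
  smul_mem' := fun r _ hx => Θ.relC_smul r hx

theorem mem_Rel (x : ↥(locTrivZ D N) × (Θ.O →₀ k)) : x ∈ Θ.Rel ↔ Θ.RelC x.1.1.1 x.2 := Iff.rfl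

/-- **Totality** of the relation: `Hasse` + `UrPrim` + `Gen`. -/
theorem rel_total (hur : ∀ w, (D.𝒰ur w).sets ⊆ (D.𝒰v w).sets)
    (hH : Hasse D N) (hU : UrPrim D N) (hG : Θ.Gen) {a : G × G → N}
    (ha : a ∈ Z2 (D.𝒰 D.S) N)
    (hloc : ∀ v : ↥D.S, res₂ D.loc N v a ∈ B2 (D.𝒰v v) (Rep.res (D.loc v) N)) :
    ∃ d, Θ.RelC a d := by
  classical
  obtain ⟨T, c, hST, hc, hdc⟩ := hH a ha hloc
  have hC1 : ∀ w, C1 (D.𝒰ur w) (Rep.res (D.loc w) N) ≤ C1 (D.𝒰v w) (Rep.res (D.loc w) N) := by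
    rintro w f ⟨U, hU', hf⟩
    exact ⟨U, hur w hU', hf⟩
  have key : ∀ w, ∃ (e : Θ.O →₀ k) (u : D.Gv w → N) (m : N), w ∈ T → w ∉ D.S →
      (∀ o ∈ e.support, Θ.pr o = w) ∧ u ∈ C1 (D.𝒰ur w) (Rep.res (D.loc w) N) ∧
      res₁ D.loc N w c = Θ.lc w e + u + (d₀₁ (Rep.res (D.loc w) N)).hom m := by
    intro w
    by_cases hw : w ∈ T ∧ w ∉ D.S
    · obtain ⟨hwT, hwS⟩ := hw
      have hz : res₂ D.loc N w a ∈ Z2 (D.𝒰ur w) (Rep.res (D.loc w) N) := by
        refine ⟨D.res₂_mem_ur hwS ha.1, ?_⟩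
        show (d₂₃ (Rep.res (D.loc w) N)).hom (res₂ D.loc N w a) = 0
        have h0 : (d₂₃ N).hom a = 0 := ha.2
        rw [D.d₂₃_res₂, h0, map_zero]
      obtain ⟨t, ht, hdt⟩ := hU w hwS _ hz
      have hz1 : res₁ D.loc N w c - t ∈ Z1 (D.𝒰v w) (Rep.res (D.loc w) N) := by
        refine ⟨sub_mem (D.res₁_mem_C1 T w hc) (hC1 w ht), ?_⟩
        show (d₁₂ (Rep.res (D.loc w) N)).hom (res₁ D.loc N w c - t) = 0
        rw [map_sub, D.d₁₂_res₁, hdc, hdt, sub_self]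
      obtain ⟨e, u, m, he, hu, heq⟩ := hG w hwS _ hz1
      refine ⟨e, u + t, m, fun _ _ => ⟨he, add_mem hu ht, ?_⟩⟩
      have : res₁ D.loc N w c = (res₁ D.loc N w c - t) + t := by abel
      rw [this, heq]
      abel
    · exact ⟨0, 0, 0, fun h1 h2 => absurd ⟨h1, h2⟩ hw⟩
  choose e u m hkey using key
  refine ⟨∑ w ∈ T \ D.S, e w, T, c, hST, hc, hdc, fun w hwS => ?_⟩
  by_cases hwT : w ∈ T
  · obtain ⟨-, hu, heq⟩ := hkey w hwT hwS
    refine ⟨u w, m w, hu, ?_⟩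
    have hsum : Θ.lc w (∑ w' ∈ T \ D.S, e w') = Θ.lc w (e w) := by
      rw [map_sum]
      refine Finset.sum_eq_single w (fun w' hw' hne => ?_) (fun hn => ?_)
      · have hw'' := Finset.mem_sdiff.1 hw'
        refine Θ.lc_eq_zero fun o ho => ?_
        rw [(hkey w' hw''.1 hw''.2).1 o ho]
        exact hne
      · exact absurd (Finset.mem_sdiff.2 ⟨hwT, hwS⟩) hn
    rw [hsum]
    exact heq
  · refine ⟨res₁ D.loc N w c, 0, D.res₁_mem_ur hwT hc, ?_⟩
    have hsum : Θ.lc w (∑ w' ∈ T \ D.S, e w') = 0 := by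
      rw [map_sum]
      refine Finset.sum_eq_zero fun w' hw' => ?_
      have hw'' := Finset.mem_sdiff.1 hw'
      refine Θ.lc_eq_zero fun o ho => ?_
      rw [(hkey w' hw''.1 hw''.2).1 o ho]
      rintro rfl
      exact hwT hw''.1
    rw [hsum, map_zero, zero_add, add_zero]

/-- **Injectivity** of the relation modulo `P`: `Kill` + `FactC`. -/
theorem rel_inj {P : Submodule k (Θ.O →₀ k)}
    (hF : FactC D N) (hK : Θ.Kill P) {a : G × G → N} (ha : a ∈ Z2 (D.𝒰 D.S) N)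
    {d : Θ.O →₀ k} (h : Θ.RelC a d) (hd : d ∈ P) : a ∈ B2 (D.𝒰 D.S) N := by
  classical
  obtain ⟨T, c, hST, hc, hdc, hw⟩ := h
  obtain ⟨T', κ, hST', hκ, hsupp, hκw⟩ := hK d hd
  have hdκ : (d₁₂ N).hom κ = 0 := hκ.2
  have hc' : c - κ ∈ C1 (D.𝒰 (T ∪ T')) N :=
    sub_mem (D.C1_mono Finset.subset_union_left N hc)
      (D.C1_mono Finset.subset_union_right N hκ.1)
  have hdc' : (d₁₂ N).hom (c - κ) = a := by rw [map_sub, hdc, hdκ, sub_zero]
  have hlev : c - κ ∈ C1 (D.𝒰 D.S) N := by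
    refine hF (T ∪ T') (c - κ) hc' (by rw [hdc']; exact ha.1) fun w _ hwS => ?_
    obtain ⟨u, m, hu, h1⟩ := hw w hwS
    have h2 : ∃ (u' : D.Gv w → N) (m' : N), u' ∈ C1 (D.𝒰ur w) (Rep.res (D.loc w) N) ∧
        res₁ D.loc N w κ = Θ.lc w d + u' + (d₀₁ (Rep.res (D.loc w) N)).hom m' := by
      by_cases hwT' : w ∈ T'
      · exact hκw w hwT' hwS
      · refine ⟨res₁ D.loc N w κ, 0, D.res₁_mem_ur hwT' hκ.1, ?_⟩
        have h0 : Θ.lc w d = 0 := Θ.lc_eq_zero fun o ho => by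
          rintro rfl
          exact hwT' (hsupp o ho)
        rw [h0, map_zero, zero_add, add_zero]
    obtain ⟨u', m', hu', h1'⟩ := h2
    refine ⟨m - m', ?_⟩
    have : res₁ D.loc N w (c - κ) - (d₀₁ (Rep.res (D.loc w) N)).hom (m - m') = u - u' := by
      rw [map_sub, h1, h1', map_sub]
      abel
    rw [this]
    exact sub_mem hu hu'
  exact ⟨c - κ, hlev, hdc'⟩

/-- **(c4), cone form.**  `dim Ш²_S(N) ≤ dim (O →₀ k) ⧸ P`. -/
theorem finrank_sha2_le (hur : ∀ w, (D.𝒰ur w).sets ⊆ (D.𝒰v w).sets)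
    (hH : Hasse D N) (hU : UrPrim D N) (hF : FactC D N)
    (hG : Θ.Gen) (P : Submodule k (Θ.O →₀ k)) (hK : Θ.Kill P)
    [FiniteDimensional k ((Θ.O →₀ k) ⧸ P)] :
    FiniteDimensional k ↥(sha2 D N) ∧
      Module.finrank k ↥(sha2 D N) ≤ Module.finrank k ((Θ.O →₀ k) ⧸ P) := by
  refine finrank_le_of_rel (V := ↥(locTrivZ D N)) (W := ↥(sha2 D N)) (Y := Θ.O →₀ k)
    ((Submodule.mkQ ((B2 (D.𝒰 D.S) N).comap (Z2 (D.𝒰 D.S) N).subtype)).submoduleMap
      (locTrivZ D N))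
    (LinearMap.submoduleMap_surjective _ _) Θ.Rel P (fun a => ?_) (fun a d had hd => ?_)
  · obtain ⟨d, hd⟩ := Θ.rel_total hur hH hU hG a.1.2 ((mem_locTrivZ D N a.1).1 a.2)
    exact ⟨d, hd⟩
  · have hB : a.1.1 ∈ B2 (D.𝒰 D.S) N := Θ.rel_inj hF hK a.1.2 had hd
    apply Subtype.ext
    show (Submodule.Quotient.mk a.1 : H2 (D.𝒰 D.S) N) = 0
    rw [Submodule.Quotient.mk_eq_zero]
    exact hB

end ThetaFam

end Fermat.Agent.S55.Base.C4
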