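import Fermat.Agent.S55.Base.AsmCone
import Fermat.Agent.CFT.Global.CountAbs

/-!
# S55 base case: the counts `(c1)`, `(c3)`, `(c3')` in the shapes of `AsmCone.base_of_arith`

`D = ctxS p S hpS lam`, `M = M0 (ZMod p) K.fixingSubgroup = coind_{Fix K} 𝔽_p`, `K` a number field
unramified outside `S ∋ p`, `μ_p ⊂ K`, `p` odd.  With `ρ` defined by
`p ^ ρ = [Cl_K : Cl_K^p ⊔ ⟨S_K⟩]`, `A = 2 |S_K| + [K : ℚ]`, `Bd = r₂ + |S_K| + ρ`:

* `counts` : all `FiniteDimensional` instances of `base_of_arith` other than the two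
  `ker loc²` ones, `hc1`, `hc3`, `hc3'`, `hcount` (with `c = ρ`);
* `base_of_counts` : `AsmCone.base_of_arith` for `D`, `M`, with the count hypotheses discharged:
  what remains is `h4`, `hA'`, `hI6` and `(c4)`, `(c4')` (`dim ker loc² ≤ ρ` for `M`, `M'`).
-/

set_option autoImplicit false

open scoped NumberField
open IsDedekindDomain groupCohomology ExtCitation

namespace Fermat.Agent.S55.Base.ConeCnt

open Fermat.Agent.S55.Abs Fermat.Agent.S55.Abs.TopGlue Fermat.Agent.S55.Base.AsmCone Module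
open Fermat.Agent.CFT.Global.CountV Fermat.Agent.CFT.Global.CountQ
open Fermat.Agent.CFT.Global.CountAbs

variable {p : ℕ} [Fact p.Prime] (S : Finset Nat.Primes) (hpS : pPrime p ∈ S) (lam : LamS p S)
  (K : IntermediateField ℚ (AlgebraicClosure ℚ))

/-- `M0(K)` is finite-dimensional. -/
theorem finiteDimensional_M0 [FiniteDimensional ℚ K] :
    FiniteDimensional (ZMod p) (M0 (ZMod p) K.fixingSubgroup) :=
  finiteDimensional_coindTriv K.fixingSubgroup (ZMod p)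

/-- **The counts of the base case**, in the literal shapes of `AsmCone.base_of_arith`
(`A = 2 |S_K| + [K : ℚ]`, `Bd = r₂ + |S_K| + ρ`, `c = ρ`). -/
theorem counts [NumberField K] (hp2 : p ≠ 2) (hK : K.IsUnramifiedOutside S)
    (hcyc : Glue.cycloField p ≤ K) :
    ∃ ρ : ℕ, (Fermat.Agent.CFT.Global.SelmerCount.clS (𝓞 K) p (SK S K)).index = p ^ ρ ∧
      FiniteDimensional (ZMod p)
        (H1 (ctxS p S hpS lam).𝒰 (M0 (ZMod p) K.fixingSubgroup)) ∧
      FiniteDimensional (ZMod p)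
        (H1 (ctxS p S hpS lam).𝒰 ((ctxS p S hpS lam).dual (M0 (ZMod p) K.fixingSubgroup))) ∧
      (∀ v, FiniteDimensional (ZMod p)
        (HM1 (ctxS p S hpS lam) (M0 (ZMod p) K.fixingSubgroup) v)) ∧
      (∀ v, FiniteDimensional (ZMod p)
        (HM1 (ctxS p S hpS lam) ((ctxS p S hpS lam).dual (M0 (ZMod p) K.fixingSubgroup)) v)) ∧
      ∑ v, finrank (ZMod p) (HM1 (ctxS p S hpS lam) (M0 (ZMod p) K.fixingSubgroup) v)
        ≤ 2 * (SK S K).card + finrank ℚ K ∧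
      ∑ v, finrank (ZMod p)
          (HM1 (ctxS p S hpS lam) ((ctxS p S hpS lam).dual (M0 (ZMod p) K.fixingSubgroup)) v)
        ≤ 2 * (SK S K).card + finrank ℚ K ∧
      NumberField.InfinitePlace.nrComplexPlaces K + (SK S K).card + ρ
        ≤ finrank (ZMod p) (H1 (ctxS p S hpS lam).𝒰 (M0 (ZMod p) K.fixingSubgroup)) ∧
      NumberField.InfinitePlace.nrComplexPlaces K + (SK S K).card + ρ
        ≤ finrank (ZMod p)
          (H1 (ctxS p S hpS lam).𝒰 ((ctxS p S hpS lam).dual (M0 (ZMod p) K.fixingSubgroup))) ∧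
      (2 * (SK S K).card + finrank ℚ K) + 2 * ρ
        ≤ 2 * (NumberField.InfinitePlace.nrComplexPlaces K + (SK S K).card + ρ) := by
  obtain ⟨ρ, hρ, ⟨hfin, hrank⟩, ⟨hfin', hrank'⟩, ⟨hloc, hsum⟩, ⟨hloc', hsum'⟩, hcount⟩ :=
    cnt (p := p) S K hp2 hpS hK hcyc
  exact ⟨ρ, hρ, hfin, hfin', fun v => hloc v.1, fun v => hloc' v.1, hsum, hsum',
    hrank.ge, hrank'.ge, hcount⟩

/-- **The base case from `h4`, `hA'`, `hI6` and `(c4)`, `(c4')`**: `AsmCone.base_of_arith` for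
`D = ctxS p S hpS lam`, `M = M0(K)`, with all counts other than `(c4)` discharged.  `(c4)` is asked
for THE `ρ` with `p ^ ρ = [Cl_K : Cl_K^p ⊔ ⟨S_K⟩]` (any such `ρ`: it is unique). -/
theorem base_of_counts [NumberField K] (hp2 : p ≠ 2) (hK : K.IsUnramifiedOutside S)
    (hcyc : Glue.cycloField p ≤ K)
    (hM : IsDisc (ctxS p S hpS lam).𝒰 (M0 (ZMod p) K.fixingSubgroup))
    (h4 : ∀ y : H1 (ctxS p S hpS lam).𝒰
        ((ctxS p S hpS lam).dual (M0 (ZMod p) K.fixingSubgroup)),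
      (∀ x, (ctxS p S hpS lam).P2 hM x y = 0) → y = 0)
    (hA' : ∀ x : Hc1 (ctxS p S hpS lam).𝒰 (ctxS p S hpS lam).loc (M0 (ZMod p) K.fixingSubgroup),
      (∀ α : H2 (ctxS p S hpS lam).𝒰 ((ctxS p S hpS lam).dual (M0 (ZMod p) K.fixingSubgroup)),
        loc2 (ctxS p S hpS lam) ((ctxS p S hpS lam).dual (M0 (ZMod p) K.fixingSubgroup)) α = 0 →
          (ctxS p S hpS lam).P1 hM x α = 0) →
        fgt1 (ctxS p S hpS lam).𝒰 (ctxS p S hpS lam).loc (M0 (ZMod p) K.fixingSubgroup) x = 0)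
    (hI6 : ∀ α : H2 (ctxS p S hpS lam).𝒰
        ((ctxS p S hpS lam).dual (M0 (ZMod p) K.fixingSubgroup)),
      (∀ x, (ctxS p S hpS lam).P1 hM x α = 0) →
        loc2 (ctxS p S hpS lam) ((ctxS p S hpS lam).dual (M0 (ZMod p) K.fixingSubgroup)) α = 0)
    (hc4 : ∀ ρ : ℕ, (Fermat.Agent.CFT.Global.SelmerCount.clS (𝓞 K) p (SK S K)).index = p ^ ρ →
      FiniteDimensional (ZMod p)
          (LinearMap.ker (loc2 (ctxS p S hpS lam) (M0 (ZMod p) K.fixingSubgroup))) ∧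
        finrank (ZMod p)
          (LinearMap.ker (loc2 (ctxS p S hpS lam) (M0 (ZMod p) K.fixingSubgroup))) ≤ ρ)
    (hc4' : ∀ ρ : ℕ, (Fermat.Agent.CFT.Global.SelmerCount.clS (𝓞 K) p (SK S K)).index = p ^ ρ →
      FiniteDimensional (ZMod p)
          (LinearMap.ker (loc2 (ctxS p S hpS lam)
            ((ctxS p S hpS lam).dual (M0 (ZMod p) K.fixingSubgroup)))) ∧
        finrank (ZMod p)
          (LinearMap.ker (loc2 (ctxS p S hpS lam)
            ((ctxS p S hpS lam).dual (M0 (ZMod p) K.fixingSubgroup)))) ≤ ρ) :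
    PairMono ((ctxS p S hpS lam).P2 hM) ∧ PairEpi ((ctxS p S hpS lam).P2 hM) ∧
      PairEpi ((ctxS p S hpS lam).P1 hM) := by
  obtain ⟨ρ, hρ, hfin, hfin', hloc, -, hc1, -, hc3, hc3', hcount⟩ :=
    counts S hpS lam K hp2 hK hcyc
  obtain ⟨hk, hk4⟩ := hc4 ρ hρ
  obtain ⟨hk', hk4'⟩ := hc4' ρ hρ
  have := finiteDimensional_M0 (p := p) K
  exact base_of_arith (ctxS p S hpS lam) (M0 (ZMod p) K.fixingSubgroup) hM _ _ ρ
    h4 hA' hI6 hc1 hc3 hc3' hk4 hk4' hcount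

end Fermat.Agent.S55.Base.ConeCnt
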