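import Fermat.Agent.S55.Base.IdeleLA

/-!
# S55 base case: the count on the cone (`J`-free form of the linear algebra (a)–(d))

Pure linear algebra over a field `k`.  Intended instance (`M = M0(K)`, `M' = M.dualTwist`):

* `L1 = ∏_{v ∈ S} H¹(G_v, M)`, `X2 = H²_c(M)`, `j2 : L1 → X2` (classes `(0, z)`),
  `G1 = H¹(G_S, M)`, `loc1 : G1 → L1` the localisation, `G1' = H¹(G_S, M')`,
  `P2 : X2 × G1' → k` the cone pairing;
* `X1 = H¹_c(M)`, `f1 : X1 → G1` the forgetful map, `G2' = H²(G_S, M')`,
  `P1 : X1 × G2' → k` the cone pairing, `Q' = Ш²_S(M') ⊆ G2'`.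

From
* (h1) `j2 ∘ loc1 = 0`, (h2) `dim X2 / im j2 ≤ c` (`≤ dim Ш²_S(M)`),
* (h4) the right kernel of `P2` is trivial,
* (E1b) `ker loc1 ⊆ im f1`, (A') `x ⊥ Q' → f1 x = 0`, (c4') `dim Q' ≤ c`,
* (I6) `α ⊥ X1 → α ∈ Q'`,
* the counts `dim L1 ≤ A`, `Bd ≤ dim G1`, `Bd ≤ dim G1'`, `A + 2c ≤ 2 Bd`,

we get: `P2` is perfect (`PairMono` and `PairEpi`) and `P1` is onto the dual of `G2'` (`PairEpi`).
-/

set_option autoImplicit false

namespace Fermat.Agent.S55.Base.ConeCount

open Module

variable {k : Type*} [Field k]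

section Aux

variable {X G : Type*} [AddCommGroup X] [Module k X] [AddCommGroup G] [Module k G]

/-- If `f : X → G` has `ker f ≤ N` and image in a finite-dimensional `Q`, then `X ⧸ N` is
finite-dimensional of dimension `≤ dim Q`. -/
theorem finrank_quot_le_of_ker_le (f : X →ₗ[k] G) (N : Submodule k X) (Q : Submodule k G)
    [FiniteDimensional k Q] (hker : LinearMap.ker f ≤ N) (hrange : ∀ x, f x ∈ Q) :
    FiniteDimensional k (X ⧸ N) ∧ finrank k (X ⧸ N) ≤ finrank k Q := by
  -- `X ⧸ ker f ≃ range f ≤ Q` and `X ⧸ ker f ↠ X ⧸ N`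
  let g : (X ⧸ LinearMap.ker f) →ₗ[k] (X ⧸ N) := Submodule.mapQ _ _ LinearMap.id (by
    intro x hx
    exact hker hx)
  have hg : Function.Surjective g := by
    intro q
    obtain ⟨x, rfl⟩ := Submodule.mkQ_surjective _ q
    exact ⟨Submodule.Quotient.mk x, rfl⟩
  have hle : LinearMap.range f ≤ Q := by
    rintro _ ⟨x, rfl⟩
    exact hrange x
  have : FiniteDimensional k (LinearMap.range f) := Submodule.finiteDimensional_of_le hle
  have : FiniteDimensional k (X ⧸ LinearMap.ker f) :=
    LinearEquiv.finiteDimensional f.quotKerEquivRange.symm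
  refine ⟨Module.Finite.of_surjective g hg, ?_⟩
  calc finrank k (X ⧸ N) ≤ finrank k (X ⧸ LinearMap.ker f) :=
        LinearMap.finrank_le_finrank_of_surjective hg
    _ = finrank k (LinearMap.range f) := f.quotKerEquivRange.finrank_eq
    _ ≤ finrank k Q := Submodule.finrank_mono hle

end Aux

variable {L1 X2 G1 G1' X1 G2' : Type*}
  [AddCommGroup L1] [Module k L1] [AddCommGroup X2] [Module k X2]
  [AddCommGroup G1] [Module k G1] [AddCommGroup G1'] [Module k G1']
  [AddCommGroup X1] [Module k X1] [AddCommGroup G2'] [Module k G2']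

/-- **The count on the cone.** -/
theorem cone_count [FiniteDimensional k L1] [FiniteDimensional k G1] [FiniteDimensional k G1']
    [FiniteDimensional k X1]
    (j2 : L1 →ₗ[k] X2) (loc1 : G1 →ₗ[k] L1) (P2 : X2 →ₗ[k] G1' →ₗ[k] k)
    (f1 : X1 →ₗ[k] G1) (P1 : X1 →ₗ[k] G2' →ₗ[k] k) (Q' : Submodule k G2')
    [FiniteDimensional k Q'] [FiniteDimensional k (X2 ⧸ LinearMap.range j2)]
    (A Bd c : ℕ)
    -- (h1) localisations of global classes die in `H²_c`
    (h1 : ∀ y, j2 (loc1 y) = 0)
    -- (h2) `H²_c / im j2` is small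
    (h2 : finrank k (X2 ⧸ LinearMap.range j2) ≤ c)
    -- (h4) the right kernel of `P2` is trivial
    (h4 : ∀ y, (∀ x, P2 x y = 0) → y = 0)
    -- (E1b) locally trivial classes lift to `H¹_c`
    (hE1 : ∀ y, loc1 y = 0 → ∃ x, f1 x = y)
    -- (A') a class of `H¹_c` orthogonal to `Q'` has trivial image in `H¹`
    (hA' : ∀ x, (∀ α ∈ Q', P1 x α = 0) → f1 x = 0)
    -- (I6) the right kernel of `P1` lies in `Q'`
    (hI6 : ∀ α, (∀ x, P1 x α = 0) → α ∈ Q')
    -- counts
    (hc4' : finrank k Q' ≤ c)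
    (hc1 : finrank k L1 ≤ A) (hc3 : Bd ≤ finrank k G1) (hc3' : Bd ≤ finrank k G1')
    (hcount : A + 2 * c ≤ 2 * Bd) :
    -- `P2` has trivial left kernel
    (∀ x, (∀ y, P2 x y = 0) → x = 0) ∧
    -- every functional on `G1'` is `P2 x`
    (∀ φ : G1' →ₗ[k] k, ∃ x, ∀ y, φ y = P2 x y) ∧
    -- every functional on `G2'` is `P1 x`
    (∀ φ : G2' →ₗ[k] k, ∃ x, ∀ α, φ α = P1 x α) ∧
    -- the right kernel of `P1` is trivial
    (∀ α, (∀ x, P1 x α = 0) → α = 0) ∧
    -- all counts are equalities
    finrank k (LinearMap.ker loc1) = c ∧ finrank k Q' = c ∧ finrank k G1 = Bd ∧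
    finrank k G1' = Bd ∧ finrank k L1 = A ∧ FiniteDimensional k X2 ∧ finrank k X2 = Bd ∧
    FiniteDimensional k G2' := by
  classical
  -- `X2` is finite-dimensional
  have hX2 : FiniteDimensional k X2 := Module.Finite.of_submodule_quotient (LinearMap.range j2)
  have hX2r := Submodule.finrank_quotient_add_finrank (LinearMap.range j2)
  have hj2 := LinearMap.finrank_range_add_finrank_ker j2
  have hloc := LinearMap.finrank_range_add_finrank_ker loc1
  have hle1 : LinearMap.range loc1 ≤ LinearMap.ker j2 := by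
    rintro _ ⟨y, rfl⟩
    exact LinearMap.mem_ker.2 (h1 y)
  have hle1' := Submodule.finrank_mono hle1
  -- the class pairing `ψ : X1 → Q'^*`
  let ψ : X1 →ₗ[k] Module.Dual k Q' := (LinearMap.lcomp k k Q'.subtype).comp P1
  have hψ : ∀ x (α : Q'), ψ x α = P1 x α.1 := fun x α => rfl
  have hkψ : LinearMap.ker ψ ≤ LinearMap.ker f1 := by
    intro x hx
    rw [LinearMap.mem_ker] at hx ⊢
    apply hA'
    intro α hα
    have := congrArg (fun g => g ⟨α, hα⟩) hx
    simpa [hψ] using this
  have hψrn := LinearMap.finrank_range_add_finrank_ker ψ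
  have hf1rn := LinearMap.finrank_range_add_finrank_ker f1
  have hkψ' := Submodule.finrank_mono hkψ
  have hψle : finrank k (LinearMap.range ψ) ≤ finrank k Q' := by
    have := Submodule.finrank_le (LinearMap.range ψ)
    rwa [Subspace.dual_finrank_eq] at this
  have hle2 : LinearMap.ker loc1 ≤ LinearMap.range f1 := by
    intro y hy
    exact hE1 y (LinearMap.mem_ker.1 hy)
  have hle2' := Submodule.finrank_mono hle2
  -- `P2` is onto the dual of `G1'`
  have hP2top := Fermat.Agent.S55.Base.range_eq_top_of_right_nondegenerate P2 h4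
  have hP2rn := LinearMap.finrank_range_add_finrank_ker P2
  have hP2r : finrank k (LinearMap.range P2) = finrank k G1' := by
    rw [hP2top, finrank_top, Subspace.dual_finrank_eq]
  -- the equalities
  have e1 : finrank k (LinearMap.ker loc1) = c := by omega
  have e2 : finrank k Q' = c := by omega
  have e3 : finrank k G1 = Bd := by omega
  have e4 : finrank k G1' = Bd := by omega
  have e5 : finrank k L1 = A := by omega
  have e6 : finrank k X2 = Bd := by omega
  have e7 : finrank k (LinearMap.ker P2) = 0 := by omega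
  have e8 : finrank k (LinearMap.range ψ) = finrank k Q' := by omega
  -- right kernel of `P1`
  have hψsurj : LinearMap.range ψ = ⊤ := by
    apply Submodule.eq_top_of_finrank_eq
    rw [e8, Subspace.dual_finrank_eq]
  have hrk : ∀ α, (∀ x, P1 x α = 0) → α = 0 := by
    intro α hα
    have hαQ := hI6 α hα
    have h0 : (⟨α, hαQ⟩ : Q') = 0 := by
      rw [← Module.forall_dual_apply_eq_zero_iff k]
      intro g
      have hg : g ∈ LinearMap.range ψ := by rw [hψsurj]; trivial
      obtain ⟨x, rfl⟩ := hg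
      rw [hψ]
      exact hα x
    exact congrArg Subtype.val h0
  -- `G2'` is finite-dimensional
  have hG2' : FiniteDimensional k G2' := by
    have hinj : Function.Injective P1.flip := by
      rw [← LinearMap.ker_eq_bot, Submodule.eq_bot_iff]
      intro α hα
      rw [LinearMap.mem_ker] at hα
      apply hrk
      intro x
      have := congrArg (fun g => g x) hα
      simpa using this
    exact Module.Finite.of_injective P1.flip hinj
  refine ⟨fun x hx => ?_, fun φ => ?_, fun φ => ?_, hrk, e1, e2, e3, e4, e5, hX2, e6, hG2'⟩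
  · have hker : LinearMap.ker P2 = ⊥ := Submodule.finrank_eq_zero.1 e7
    have : x ∈ LinearMap.ker P2 := LinearMap.mem_ker.2 (LinearMap.ext fun y => by simpa using hx y)
    rw [hker] at this
    exact (Submodule.mem_bot k).1 this
  · have hφ : φ ∈ LinearMap.range P2 := by rw [hP2top]; trivial
    obtain ⟨x, rfl⟩ := hφ
    exact ⟨x, fun y => rfl⟩
  · have htop := Fermat.Agent.S55.Base.range_eq_top_of_right_nondegenerate P1 hrk
    have hφ : φ ∈ LinearMap.range P1 := by rw [htop]; trivial
    obtain ⟨x, rfl⟩ := hφ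
    exact ⟨x, fun α => rfl⟩

end Fermat.Agent.S55.Base.ConeCount
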