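import Fermat.Agent.S55.Abs.TopGlue
import Fermat.Agent.S55.Abs.SymmTop
import Fermat.Agent.S55.Base.ConeCount

/-!
# S55 base case: the formal instance of the count on the cone

For a Poitou–Tate context `D` and a discrete module `M` we instantiate `ConeCount.cone_count`
with the objects of `Abs`: `X2 = H²_c(M)`, `G1 = H¹(M)`, `G1' = H¹(M')`, `X1 = H¹_c(M)`,
`G2' = H²(M')`, `Q' = ker (loc² on H²(M'))`, `L1 =` tuples of local 1-cocycles modulo tuples of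
local coboundaries.  The formal hypotheses of `cone_count` are discharged here; what remains are
the ARITHMETIC inputs:

* `h4`  : the right kernel of `P2` is trivial;
* `hA'` : a class of `H¹_c(M)` orthogonal to `ker loc² ⊆ H²(M')` has trivial image in `H¹(M)`;
* `hI6` : the right kernel of `P1` is contained in `ker loc²`;
* the counts `(c1)`, `(c3)`, `(c4)`.

Conclusion: `PairMono (D.P2 hM) ∧ PairEpi (D.P2 hM) ∧ PairEpi (D.P1 hM)`.
-/

set_option autoImplicit false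

open CategoryTheory groupCohomology

namespace Fermat.Agent.S55.Base.AsmCone

open Fermat.Agent.S55.Abs Fermat.Agent.S55.Abs.TopGlue Module

variable {k G : Type} [Field k] [Group G] (D : PTContext k G) (M : Rep.{0} k G)

/-- The local `H¹` of `M` at `v` (a `def` with explicit instances, as `TopGlue.HL1`: instance
search under binders does not see through `Rep.res`). -/
def HM1 (D : PTContext k G) (M : Rep.{0} k G) (v : D.ι) : Type :=
  Abs.H1 (D.𝒰v v) (Rep.res (D.loc v) M)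

noncomputable instance instAddCommGroupHM1 (v : D.ι) : AddCommGroup (HM1 D M v) :=
  inferInstanceAs (AddCommGroup (Abs.H1 (D.𝒰v v) (Rep.res (D.loc v) M)))

noncomputable instance instModuleHM1 (v : D.ι) : Module k (HM1 D M v) :=
  inferInstanceAs (Module k (Abs.H1 (D.𝒰v v) (Rep.res (D.loc v) M)))

/-- The classes of the components of a tuple of local cocycles. -/
noncomputable def zclsAll : ↥(ZL1 D.loc D.𝒰v M) →ₗ[k] ∀ v, HM1 D M v :=
  LinearMap.pi fun v => (zcls D.loc D.𝒰v M v : ↥(ZL1 D.loc D.𝒰v M) →ₗ[k] HM1 D M v)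

theorem zclsAll_apply (z : ↥(ZL1 D.loc D.𝒰v M)) (v : D.ι) :
    zclsAll D M z v = zcls D.loc D.𝒰v M v z := rfl

/-- A tuple of local coboundaries gives the trivial class `(0, z)` of `H²_c`. -/
theorem bd_eq_zero_of_zclsAll {z : ↥(ZL1 D.loc D.𝒰v M)} (hz : zclsAll D M z = 0) :
    bd D.𝒰 D.loc D.𝒰v M z = 0 := by
  have hv : ∀ v, ∃ m : M, (d₀₁ (Rep.res (D.loc v) M)).hom m = z.1 v := by
    intro v
    have h := congrFun hz v
    have h' : (Submodule.Quotient.mk (⟨z.1 v, z.2 v (Set.mem_univ v)⟩ :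
        ↥(Z1 (D.𝒰v v) (Rep.res (D.loc v) M))) : Abs.H1 (D.𝒰v v) (Rep.res (D.loc v) M)) = 0 := h
    rw [Submodule.Quotient.mk_eq_zero] at h'
    exact h'
  choose m hm using hv
  show (Submodule.Quotient.mk (⟨(0, z.1), inr_mem_Zc2 D.𝒰 D.loc D.𝒰v M z.2⟩ :
      ↥(Zc2 D.𝒰 D.loc D.𝒰v M)) : Hc2 D.𝒰 D.loc D.𝒰v M) = 0
  rw [Submodule.Quotient.mk_eq_zero]
  refine ⟨(0, fun v => -m v), ⟨zero_mem _, trivial⟩, ?_⟩
  refine Prod.ext ?_ ?_
  · show (d₁₂ M).hom 0 = 0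
    rw [map_zero]
  · funext v
    show res₁ D.loc M v 0 - (d₀₁ (Rep.res (D.loc v) M)).hom (-m v) = z.1 v
    rw [map_zero, map_neg, zero_sub, neg_neg, hm v]

/-- The local part `L1 ≃ ∏_v H¹(G_v, M)`: tuples of local cocycles modulo tuples of local
coboundaries. -/
abbrev L1 : Type := ↥(ZL1 D.loc D.𝒰v M) ⧸ LinearMap.ker (zclsAll D M)

/-- `j2 : L1 → H²_c(M)`, the classes `(0, z)`. -/
noncomputable def j2 : L1 D M →ₗ[k] Hc2 D.𝒰 D.loc D.𝒰v M :=
  (LinearMap.ker (zclsAll D M)).liftQ (bd D.𝒰 D.loc D.𝒰v M) (fun _ hz =>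
    LinearMap.mem_ker.2 (bd_eq_zero_of_zclsAll D M (LinearMap.mem_ker.1 hz)))

@[simp] theorem j2_mk (z : ↥(ZL1 D.loc D.𝒰v M)) :
    j2 D M (Submodule.Quotient.mk z) = bd D.𝒰 D.loc D.𝒰v M z := rfl

/-- The restrictions of a global cocycle to all local groups. -/
noncomputable def locZ : ↥(Z1 D.𝒰 M) →ₗ[k] ↥(ZL1 D.loc D.𝒰v M) :=
  LinearMap.codRestrict (ZL1 D.loc D.𝒰v M)
    (LinearMap.pi fun v => res₁ D.loc M v ∘ₗ (Z1 D.𝒰 M).subtype)
    (fun y v _ => res₁_mem_Z1 D.𝒰 D.loc D.𝒰v D.hloc M v y.2)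

theorem locZ_apply (y : ↥(Z1 D.𝒰 M)) (v : D.ι) : (locZ D M y).1 v = res₁ D.loc M v y.1 := rfl

/-- The localisation `H¹(M) → L1`. -/
noncomputable def locL : H1 D.𝒰 M →ₗ[k] L1 D M :=
  Submodule.liftQ _ ((LinearMap.ker (zclsAll D M)).mkQ ∘ₗ locZ D M) (by
    intro y hy
    rw [LinearMap.mem_ker, LinearMap.comp_apply, Submodule.mkQ_apply,
      Submodule.Quotient.mk_eq_zero, LinearMap.mem_ker]
    funext v
    show (Submodule.Quotient.mk (⟨res₁ D.loc M v y.1, _⟩ :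
      ↥(Z1 (D.𝒰v v) (Rep.res (D.loc v) M))) : H1 (D.𝒰v v) (Rep.res (D.loc v) M)) = 0
    rw [Submodule.Quotient.mk_eq_zero]
    exact res₁_mem_coboundaries₁ D.loc M v hy)

@[simp] theorem locL_mk (y : ↥(Z1 D.𝒰 M)) :
    locL D M (Submodule.Quotient.mk y) = Submodule.Quotient.mk (locZ D M y) := rfl

/-- (h1) the localisation of a global class dies in `H²_c`. -/
theorem j2_locL (y : H1 D.𝒰 M) : j2 D M (locL D M y) = 0 := by
  obtain ⟨y, rfl⟩ := Submodule.mkQ_surjective _ y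
  rw [Submodule.mkQ_apply, locL_mk, j2_mk]
  show (Submodule.Quotient.mk (⟨(0, (locZ D M y).1), _⟩ :
      ↥(Zc2 D.𝒰 D.loc D.𝒰v M)) : Hc2 D.𝒰 D.loc D.𝒰v M) = 0
  rw [Submodule.Quotient.mk_eq_zero]
  refine ⟨(y.1, 0), ⟨y.2.1, trivial⟩, ?_⟩
  have hy : (d₁₂ M).hom y.1 = 0 := y.2.2
  refine Prod.ext ?_ ?_
  · exact hy
  · funext v
    show res₁ D.loc M v y.1 - (d₀₁ (Rep.res (D.loc v) M)).hom 0 = res₁ D.loc M v y.1
    rw [map_zero, sub_zero]

/-- (E1b) a locally trivial class lifts to `H¹_c`. -/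
theorem exists_fgt1_of_locL (y : H1 D.𝒰 M) (hy : locL D M y = 0) :
    ∃ x, fgt1 D.𝒰 D.loc M x = y := by
  obtain ⟨y, rfl⟩ := Submodule.mkQ_surjective _ y
  rw [Submodule.mkQ_apply, locL_mk, Submodule.Quotient.mk_eq_zero, LinearMap.mem_ker] at hy
  refine exists_fgt1_eq D.𝒰 D.loc M y.2 (fun v => ?_)
  have h := congrFun hy v
  have h' : (Submodule.Quotient.mk (⟨res₁ D.loc M v y.1,
      res₁_mem_Z1 D.𝒰 D.loc D.𝒰v D.hloc M v y.2⟩ :
      ↥(Z1 (D.𝒰v v) (Rep.res (D.loc v) M))) : H1 (D.𝒰v v) (Rep.res (D.loc v) M)) = 0 := h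
  rw [Submodule.Quotient.mk_eq_zero] at h'
  exact h'

/-! ### Finiteness and counts -/

theorem finite_L1 [∀ v, FiniteDimensional k (HM1 D M v)] : FiniteDimensional k (L1 D M) :=
  LinearEquiv.finiteDimensional (zclsAll D M).quotKerEquivRange.symm

theorem finrank_L1_le [∀ v, FiniteDimensional k (HM1 D M v)] :
    finrank k (L1 D M) ≤ ∑ v, finrank k (HM1 D M v) := by
  have e1 : finrank k (L1 D M) = finrank k (LinearMap.range (zclsAll D M)) :=
    (zclsAll D M).quotKerEquivRange.finrank_eq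
  rw [e1, ← Module.finrank_pi_fintype k]
  exact Submodule.finrank_le _

/-- `H¹_c(M)` is finite-dimensional when `M` and `H¹(M)` are. -/
theorem finite_Hc1 (hM : IsDisc D.𝒰 M) [FiniteDimensional k M] [FiniteDimensional k (H1 D.𝒰 M)] :
    FiniteDimensional k (Hc1 D.𝒰 D.loc M) := by
  classical
  -- the classes `(0, c)`
  let W : Submodule k (D.ι → M) := (Zc1 D.𝒰 D.loc M).comap (LinearMap.inr k (G → M) (D.ι → M))
  let jc : ↥W →ₗ[k] Hc1 D.𝒰 D.loc M :=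
    (Submodule.mkQ _) ∘ₗ LinearMap.codRestrict (Zc1 D.𝒰 D.loc M)
      (LinearMap.inr k (G → M) (D.ι → M) ∘ₗ W.subtype) (fun c => c.2)
  have hker : LinearMap.ker (fgt1 D.𝒰 D.loc M) ≤ LinearMap.range jc := by
    intro x hx
    obtain ⟨x, rfl⟩ := Submodule.mkQ_surjective _ x
    rw [LinearMap.mem_ker, Submodule.mkQ_apply, fgt1_mk, Submodule.Quotient.mk_eq_zero] at hx
    obtain ⟨m, hm⟩ := hx
    have hm' : (d₀₁ M).hom m = x.1.1 := hm
    have hb : bdry1 (ι := D.ι) M m ∈ Zc1 D.𝒰 D.loc M := by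
      refine ⟨⟨d₀₁_mem_C1 D.𝒰 hM m, ?_⟩, fun v => res₁_d₀₁ D.loc M v m⟩
      show (d₁₂ M).hom ((d₀₁ M).hom m) = 0
      rw [hm']
      exact x.2.1.2
    have hmem : x.1 - bdry1 (ι := D.ι) M m ∈ Zc1 D.𝒰 D.loc M := Submodule.sub_mem _ x.2 hb
    have hfst : (x.1 - bdry1 (ι := D.ι) M m).1 = 0 := by
      show x.1.1 - (d₀₁ M).hom m = 0
      rw [hm', sub_self]
    have hW : (x.1 - bdry1 (ι := D.ι) M m).2 ∈ W := by
      show ((0 : G → M), (x.1 - bdry1 (ι := D.ι) M m).2) ∈ Zc1 D.𝒰 D.loc M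
      rw [← hfst]
      exact hmem
    refine ⟨⟨_, hW⟩, ?_⟩
    show (Submodule.Quotient.mk (⟨((0 : G → M), (x.1 - bdry1 (ι := D.ι) M m).2), _⟩ :
      ↥(Zc1 D.𝒰 D.loc M)) : Hc1 D.𝒰 D.loc M) = Submodule.Quotient.mk x
    rw [Submodule.Quotient.eq]
    refine ⟨-m, ?_⟩
    rw [map_neg]
    show -bdry1 (ι := D.ι) M m = ((0 : G → M), (x.1 - bdry1 (ι := D.ι) M m).2) - x.1
    refine Prod.ext ?_ ?_
    · show -(d₀₁ M).hom m = 0 - x.1.1
      rw [hm', zero_sub]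
    · show -(bdry1 (ι := D.ι) M m).2 = (x.1.2 - (bdry1 (ι := D.ι) M m).2) - x.1.2
      abel
  have h1 : FiniteDimensional k (LinearMap.ker (fgt1 D.𝒰 D.loc M)) :=
    Submodule.finiteDimensional_of_le hker
  have h2 : FiniteDimensional k (Hc1 D.𝒰 D.loc M ⧸ LinearMap.ker (fgt1 D.𝒰 D.loc M)) :=
    LinearEquiv.finiteDimensional (fgt1 D.𝒰 D.loc M).quotKerEquivRange.symm
  exact Module.Finite.of_submodule_quotient (LinearMap.ker (fgt1 D.𝒰 D.loc M))

/-- (h2) `H²_c(M) / im j2` embeds in `ker loc² ⊆ H²(M)`. -/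
theorem finrank_quot_j2_le (hM : IsDisc D.𝒰 M) [FiniteDimensional k (LinearMap.ker (loc2 D M))] :
    FiniteDimensional k (Hc2 D.𝒰 D.loc D.𝒰v M ⧸ LinearMap.range (j2 D M)) ∧
      finrank k (Hc2 D.𝒰 D.loc D.𝒰v M ⧸ LinearMap.range (j2 D M))
        ≤ finrank k (LinearMap.ker (loc2 D M)) := by
  refine ConeCount.finrank_quot_le_of_ker_le (forget D.𝒰 D.loc D.𝒰v M) _ _ ?_ ?_
  · intro x hx
    obtain ⟨ξ, rfl⟩ := exists_bd_of_forget D hM x (LinearMap.mem_ker.1 hx)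
    exact ⟨Submodule.Quotient.mk ξ, rfl⟩
  · intro x
    exact LinearMap.mem_ker.2 (loc2_forget D x)

/-- **The base case from its arithmetic inputs** (formal instance of `ConeCount.cone_count`). -/
theorem base_of_arith (hM : IsDisc D.𝒰 M) [FiniteDimensional k M]
    [FiniteDimensional k (H1 D.𝒰 M)] [FiniteDimensional k (H1 D.𝒰 (D.dual M))]
    [∀ v, FiniteDimensional k (HM1 D M v)]
    [FiniteDimensional k (LinearMap.ker (loc2 D M))]
    [FiniteDimensional k (LinearMap.ker (loc2 D (D.dual M)))]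
    (A Bd c : ℕ)
    -- (h4) the right kernel of `P2` is trivial
    (h4 : ∀ y : H1 D.𝒰 (D.dual M), (∀ x, D.P2 hM x y = 0) → y = 0)
    -- (A') a class of `H¹_c(M)` orthogonal to `Ш²(M')` has trivial image in `H¹(M)`
    (hA' : ∀ x : Hc1 D.𝒰 D.loc M,
      (∀ α : H2 D.𝒰 (D.dual M), loc2 D (D.dual M) α = 0 → D.P1 hM x α = 0) →
        fgt1 D.𝒰 D.loc M x = 0)
    -- (I6) the right kernel of `P1` is locally trivial
    (hI6 : ∀ α : H2 D.𝒰 (D.dual M), (∀ x, D.P1 hM x α = 0) → loc2 D (D.dual M) α = 0)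
    -- the counts
    (hc1 : ∑ v, finrank k (HM1 D M v) ≤ A)
    (hc3 : Bd ≤ finrank k (H1 D.𝒰 M)) (hc3' : Bd ≤ finrank k (H1 D.𝒰 (D.dual M)))
    (hc4 : finrank k (LinearMap.ker (loc2 D M)) ≤ c)
    (hc4' : finrank k (LinearMap.ker (loc2 D (D.dual M))) ≤ c)
    (hcount : A + 2 * c ≤ 2 * Bd) :
    PairMono (D.P2 hM) ∧ PairEpi (D.P2 hM) ∧ PairEpi (D.P1 hM) := by
  have hL1 := finite_L1 D M
  have hX1 := finite_Hc1 D M hM
  obtain ⟨hq, hq'⟩ := finrank_quot_j2_le D M hM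
  obtain ⟨r1, r2, r3, -⟩ := ConeCount.cone_count (j2 D M) (locL D M) (D.P2 hM)
    (fgt1 D.𝒰 D.loc M) (D.P1 hM) (LinearMap.ker (loc2 D (D.dual M))) A Bd c
    (j2_locL D M) (hq'.trans hc4) h4 (exists_fgt1_of_locL D M)
    (fun x hx => hA' x (fun α hα => hx α (LinearMap.mem_ker.2 hα)))
    (fun α hα => LinearMap.mem_ker.2 (hI6 α hα)) hc4'
    ((finrank_L1_le D M).trans hc1) hc3 hc3' hcount
  exact ⟨r1, r2, r3⟩

end Fermat.Agent.S55.Base.AsmCone
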