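import Fermat.Agent.S55.Abs.Functor
import Fermat.Agent.S55.Base.AsmCone

/-!
# S55 base case: the hypotheses (A'), (c3'), (c4') of the cone count are FORMAL for a
self-dual module

`AsmCone.base_of_arith` derives the base case for `M` from the arithmetic inputs
`h4`, `hA'`, `hI6` and the counts `c1`, `c3`, `c3'`, `c4`, `c4'`.  Here we show, for an
arbitrary Poitou–Tate context `D`:

* `hA'_of_right_kernel_dual` : **(A') for `M` follows from (h4) for the dual `M'`**, with no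
  arithmetic at all.  Indeed the classes of `ker loc² ⊆ H²(M')` are the `fgt2 x̃`,
  `x̃ ∈ H²_c(M')`, and by the symmetry `Symm.Pc2_fgt1_eq_Pc1_fgt2`
  `⟨x, fgt2 x̃⟩₁ = ⟨x̃, fgt1 x⟩₂`; so `x ⊥ ker loc²` says that `fgt1 x ∈ H¹(M)` lies in the
  right kernel of the pairing `H²_c(M') × H¹(M) → k`, which is the pairing `P2` of `M'` up to
  `M ≅ M''`.
* `right_kernel_P2_retract` : (h4) passes to retracts (in particular along isomorphisms).
* `finrank_ker_loc2_le_of_retract` : `dim ker loc²` is monotone along retracts, so (c4') for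
  `M'` follows from (c4) for `M` when `M ≅ M'`; likewise (c3') from (c3).

Consequently, for a module with a self-duality `i : M ≅ M'` (e.g. `M0(K)`, `μ_p ⊆ K`),
`base_of_arith_selfdual` gives the three conclusions
`PairMono (D.P2 hM) ∧ PairEpi (D.P2 hM) ∧ PairEpi (D.P1 hM)` from

  (h4) for `M`,  (I6) for `M`,  (c1), (c3), (c4) for `M`  and the numerical count

only: no statement about `M'` has to be produced by the arithmetic side.
-/

set_option autoImplicit false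

open CategoryTheory groupCohomology

namespace Fermat.Agent.S55.Base.ConeSymm

open Fermat.Agent.S55.Abs Fermat.Agent.S55.Abs.TopGlue Module

variable {k G : Type} [Field k] [Group G] (D : PTContext k G)

/-! ### (h4) passes to retracts -/

/-- **(h4) passes to retracts**: if the right kernel of `P2 : H²_c(N) × H¹(N') → k` is trivial
and `M` is a retract of `N`, then the right kernel of `P2 : H²_c(M) × H¹(M') → k` is trivial. -/
theorem right_kernel_P2_retract {M N : Rep.{0} k G} (i : M ⟶ N) (r : N ⟶ M)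
    (hri : ∀ m, r.hom (i.hom m) = m) (hM : IsDisc D.𝒰 M) (hN : IsDisc D.𝒰 N)
    (h4 : ∀ y : H1 D.𝒰 (D.dual N), (∀ x, D.P2 hN x y = 0) → y = 0) :
    ∀ y : H1 D.𝒰 (D.dual M), (∀ x, D.P2 hM x y = 0) → y = 0 := by
  intro y hy
  have h0 : H1map D.𝒰 (dualTwistMap D.χ r) y = 0 := by
    refine h4 _ (fun x => ?_)
    have hnat := Pc2_natural D.𝒰 D.loc D.𝒰v (evPairing D.χ N) (evPairing D.χ M) r
      (dualTwistMap D.χ r) (evPairing_adj D.χ r) D.hloc hN hM (D.disc_dual hN) (D.disc_dual hM)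
      D.hμ D.lam x y
    exact hnat.symm.trans (hy _)
  have h1 := H1map_retract D.𝒰 (dualTwistMap D.χ r) (dualTwistMap D.χ i)
    (dualTwistMap_retract D.χ i r hri) y
  rw [h0, map_zero] at h1
  exact h1.symm

/-! ### (A') from (h4) of the dual -/

/-- The right kernel of the flipped pairing `H²_c(M') × H¹(M) → k` is trivial as soon as the
right kernel of `P2` for `M'` (a pairing `H²_c(M') × H¹(M'') → k`) is. -/
theorem right_kernel_flip_of_dual {M : Rep.{0} k G} [FiniteDimensional k M] (hM : IsDisc D.𝒰 M)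
    (h4' : ∀ y : H1 D.𝒰 (D.dual (D.dual M)), (∀ x, D.P2 (D.disc_dual hM) x y = 0) → y = 0) :
    ∀ y : H1 D.𝒰 M, (∀ x, Pc2 D.𝒰 D.loc D.𝒰v (evPairing D.χ M).flip D.hloc (D.disc_dual hM) hM
      D.hμ D.lam x y = 0) → y = 0 := by
  intro y hy
  have h0 : H1map D.𝒰 (bidual D.χ M) y = 0 := by
    refine h4' _ (fun x => ?_)
    have hid : Hc2map D.𝒰 D.loc D.𝒰v (𝟙 (D.dual M)) x = x := by
      obtain ⟨w, rfl⟩ := Submodule.Quotient.mk_surjective _ x
      rfl
    have hnat := Pc2_natural D.𝒰 D.loc D.𝒰v (evPairing D.χ (D.dual M)) (evPairing D.χ M).flip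
      (𝟙 (D.dual M)) (bidual D.χ M) (fun _ _ => rfl) D.hloc (D.disc_dual hM) (D.disc_dual hM)
      (D.disc_dual (D.disc_dual hM)) hM D.hμ D.lam x y
    rw [hid] at hnat
    exact hnat.symm.trans (hy x)
  have h1 := H1map_retract D.𝒰 (bidual D.χ M) (bidualInv D.χ M) (bidualInv_bidual D.χ M) y
  rw [h0, map_zero] at h1
  exact h1.symm

/-- `fgt2` and `TopGlue.forget` are the same map `H²_c → H²`. -/
theorem fgt2_eq_forget (M : Rep.{0} k G) (x : Hc2 D.𝒰 D.loc D.𝒰v M) :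
    fgt2 D.𝒰 D.loc D.𝒰v M x = forget D.𝒰 D.loc D.𝒰v M x := by
  obtain ⟨w, rfl⟩ := Submodule.Quotient.mk_surjective _ x
  rfl

/-- **(A') from the flipped right kernel**: if the right kernel of `H²_c(M') × H¹(M) → k` is
trivial, then a class of `H¹_c(M)` orthogonal to `ker loc² ⊆ H²(M')` has trivial image in
`H¹(M)`. -/
theorem hA'_of_right_kernel_flip {M : Rep.{0} k G} (hM : IsDisc D.𝒰 M)
    (hflip : ∀ y : H1 D.𝒰 M, (∀ x, Pc2 D.𝒰 D.loc D.𝒰v (evPairing D.χ M).flip D.hloc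
      (D.disc_dual hM) hM D.hμ D.lam x y = 0) → y = 0) :
    ∀ x : Hc1 D.𝒰 D.loc M,
      (∀ α : H2 D.𝒰 (D.dual M), loc2 D (D.dual M) α = 0 → D.P1 hM x α = 0) →
        fgt1 D.𝒰 D.loc M x = 0 := by
  intro x hx
  refine hflip _ (fun xt => ?_)
  have hs := Pc2_fgt1_eq_Pc1_fgt2 D.𝒰 D.loc D.𝒰v (evPairing D.χ M).flip D.hloc (D.disc_dual hM)
    hM D.hμ D.lam xt x
  refine hs.trans (hx _ ?_)
  rw [fgt2_eq_forget]
  exact loc2_forget D xt

/-- **(A') for `M` from (h4) for the dual `M'`.** -/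
theorem hA'_of_right_kernel_dual {M : Rep.{0} k G} [FiniteDimensional k M] (hM : IsDisc D.𝒰 M)
    (h4' : ∀ y : H1 D.𝒰 (D.dual (D.dual M)), (∀ x, D.P2 (D.disc_dual hM) x y = 0) → y = 0) :
    ∀ x : Hc1 D.𝒰 D.loc M,
      (∀ α : H2 D.𝒰 (D.dual M), loc2 D (D.dual M) α = 0 → D.P1 hM x α = 0) →
        fgt1 D.𝒰 D.loc M x = 0 :=
  hA'_of_right_kernel_flip D hM (right_kernel_flip_of_dual D hM h4')

/-- **(A') for a self-dual `M` from (h4) for `M`**: `i : M → M'` with a two-sided inverse `r`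
(only `i ∘ r = id` is used). -/
theorem hA'_of_right_kernel {M : Rep.{0} k G} [FiniteDimensional k M] (hM : IsDisc D.𝒰 M)
    (i : M ⟶ D.dual M) (r : D.dual M ⟶ M) (hir : ∀ f, i.hom (r.hom f) = f)
    (h4 : ∀ y : H1 D.𝒰 (D.dual M), (∀ x, D.P2 hM x y = 0) → y = 0) :
    ∀ x : Hc1 D.𝒰 D.loc M,
      (∀ α : H2 D.𝒰 (D.dual M), loc2 D (D.dual M) α = 0 → D.P1 hM x α = 0) →
        fgt1 D.𝒰 D.loc M x = 0 :=
  hA'_of_right_kernel_dual D hM
    (right_kernel_P2_retract D r i hir (D.disc_dual hM) hM h4)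

/-! ### `ker loc²` along retracts -/

/-- `loc²` of a push-forward of a locally trivial class is trivial. -/
theorem loc2_H2map_eq_zero {M N : Rep.{0} k G} (i : M ⟶ N) (α : H2 D.𝒰 M)
    (h : loc2 D M α = 0) : loc2 D N (H2map D.𝒰 i α) = 0 := by
  obtain ⟨a, rfl⟩ := Submodule.Quotient.mk_surjective _ α
  funext v
  have hv := congrFun h v
  have hv' : (Submodule.Quotient.mk (⟨res₂ D.loc M v a.1,
      res₂_mem_Z2 D.𝒰 D.loc D.𝒰v D.hloc M v a.2⟩ : ↥(Z2 (D.𝒰v v) (Rep.res (D.loc v) M))) :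
      H2 (D.𝒰v v) (Rep.res (D.loc v) M)) = 0 := hv
  rw [Submodule.Quotient.mk_eq_zero] at hv'
  have hb : cmap₂ (Rep.resMap (D.loc v) i) (res₂ D.loc M v a.1)
      ∈ B2 (D.𝒰v v) (Rep.res (D.loc v) N) := cmap₂_mem_B2 (Rep.resMap (D.loc v) i) hv'
  show (Submodule.Quotient.mk (⟨res₂ D.loc N v (cmap₂ i a.1),
      res₂_mem_Z2 D.𝒰 D.loc D.𝒰v D.hloc N v (cmap₂_mem_Z2 i a.2)⟩ :
      ↥(Z2 (D.𝒰v v) (Rep.res (D.loc v) N))) : H2 (D.𝒰v v) (Rep.res (D.loc v) N)) = 0
  rw [Submodule.Quotient.mk_eq_zero]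
  exact hb

/-- **`dim ker loc²` is monotone along retracts.** -/
theorem finrank_ker_loc2_le_of_retract {M N : Rep.{0} k G} (i : M ⟶ N) (r : N ⟶ M)
    (hri : ∀ m, r.hom (i.hom m) = m) [FiniteDimensional k (LinearMap.ker (loc2 D N))] :
    FiniteDimensional k (LinearMap.ker (loc2 D M)) ∧
      finrank k (LinearMap.ker (loc2 D M)) ≤ finrank k (LinearMap.ker (loc2 D N)) := by
  let f : ↥(LinearMap.ker (loc2 D M)) →ₗ[k] ↥(LinearMap.ker (loc2 D N)) :=
    (H2map D.𝒰 i).restrict (fun α hα =>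
      LinearMap.mem_ker.2 (loc2_H2map_eq_zero D i α (LinearMap.mem_ker.1 hα)))
  have hf : Function.Injective f := by
    intro x y hxy
    have h1 : H2map D.𝒰 i x.1 = H2map D.𝒰 i y.1 := congrArg Subtype.val hxy
    have h2 := congrArg (H2map D.𝒰 r) h1
    rw [H2map_retract D.𝒰 i r hri, H2map_retract D.𝒰 i r hri] at h2
    exact Subtype.ext h2
  exact ⟨FiniteDimensional.of_injective f hf, LinearMap.finrank_le_finrank_of_injective hf⟩

/-- `H¹` along retracts: finiteness and dimension. -/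
theorem finrank_H1_le_of_retract {M N : Rep.{0} k G} (i : M ⟶ N) (r : N ⟶ M)
    (hri : ∀ m, r.hom (i.hom m) = m) [FiniteDimensional k (H1 D.𝒰 N)] :
    FiniteDimensional k (H1 D.𝒰 M) ∧ finrank k (H1 D.𝒰 M) ≤ finrank k (H1 D.𝒰 N) := by
  have hf : Function.Injective (H1map D.𝒰 i) :=
    Function.LeftInverse.injective (g := H1map D.𝒰 r) (H1map_retract D.𝒰 i r hri)
  exact ⟨FiniteDimensional.of_injective _ hf, LinearMap.finrank_le_finrank_of_injective hf⟩

/-! ### The base case of a self-dual module -/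

/-- **The base case for a self-dual module from the arithmetic inputs for `M` alone.**
`i : M → M'` is an isomorphism with inverse `r`.  Compared with `AsmCone.base_of_arith`:
no `hA'`, no `c3'`, no `c4'`, no finiteness for `M'`. -/
theorem base_of_arith_selfdual (M : Rep.{0} k G) (hM : IsDisc D.𝒰 M) [FiniteDimensional k M]
    (i : M ⟶ D.dual M) (r : D.dual M ⟶ M) (hri : ∀ m, r.hom (i.hom m) = m)
    (hir : ∀ f, i.hom (r.hom f) = f)
    [FiniteDimensional k (H1 D.𝒰 M)]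
    [∀ v, FiniteDimensional k (AsmCone.HM1 D M v)]
    [FiniteDimensional k (LinearMap.ker (loc2 D M))]
    (A Bd c : ℕ)
    -- (h4) the right kernel of `P2` is trivial
    (h4 : ∀ y : H1 D.𝒰 (D.dual M), (∀ x, D.P2 hM x y = 0) → y = 0)
    -- (I6) the right kernel of `P1` is locally trivial
    (hI6 : ∀ α : H2 D.𝒰 (D.dual M), (∀ x, D.P1 hM x α = 0) → loc2 D (D.dual M) α = 0)
    -- the counts
    (hc1 : ∑ v, finrank k (AsmCone.HM1 D M v) ≤ A)
    (hc3 : Bd ≤ finrank k (H1 D.𝒰 M))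
    (hc4 : finrank k (LinearMap.ker (loc2 D M)) ≤ c)
    (hcount : A + 2 * c ≤ 2 * Bd) :
    PairMono (D.P2 hM) ∧ PairEpi (D.P2 hM) ∧ PairEpi (D.P1 hM) := by
  -- `H¹(M')` is a retract of `H¹(M)` and conversely
  obtain ⟨hfin1, -⟩ := finrank_H1_le_of_retract D r i hir
  have hc3' : Bd ≤ finrank k (H1 D.𝒰 (D.dual M)) :=
    hc3.trans (LinearMap.finrank_le_finrank_of_injective
      (Function.LeftInverse.injective (g := H1map D.𝒰 r) (H1map_retract D.𝒰 i r hri)))
  -- `ker loc²` for `M'`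
  obtain ⟨hfin2, hle2⟩ := finrank_ker_loc2_le_of_retract D r i hir
  exact AsmCone.base_of_arith D M hM A Bd c h4 (hA'_of_right_kernel D hM i r hir h4) hI6 hc1 hc3
    hc3' hc4 (hle2.trans hc4) hcount

end Fermat.Agent.S55.Base.ConeSymm
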