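/-
S55 / PROGRAM CFT, base case: EVAL over `ℚ` (tasks row 315, helper36).

The instance of `Base/Eval` for the concrete Poitou–Tate context `ctxS p S hpS lam` of
`Abs/Bridge`: all primes `w`, local groups `primeLocalGaloisGroup w`, global level families
`globalLevel T`, local level families `localLevel (primeLocalToGlobal w)`, and the UNRAMIFIED
local level family `urLevel w` (preimages of `Gal(ℚ̄/F)`, `F` finite and unramified outside some
finite set `T ∌ w`).

`ArithInput p S` = the arithmetic input with coefficients `μ_p`: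
* `inv w`  : a linear functional on all local 2-cochains at `w` killing local level coboundaries
             (a linear extension of the local invariant: `Eval.exists_inv`);
* `UR`     : `inv w` kills unramified local 2-cocycles, `w ∉ S`;
* `REC`    : reciprocity `∑_{w ∈ T} inv w (res_w z) = 0` for level-`T` 2-cocycles, all `T ⊇ S`.

Output: `I.lamS : LamS p S` and the evaluation formulas `P2_eval`, `P1_eval`, `inv_eval` for the
pairings of `ctxS p S hpS I.lamS`.
-/
import Fermat.Agent.S55.Base.Eval
import Fermat.Agent.S55.Abs.Bridge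

set_option autoImplicit false

open CategoryTheory groupCohomology ExtCitation

namespace Fermat.Agent.S55.Base.EvalQ

open Fermat.Agent.S55.Abs

attribute [local instance] Glue.isAlgebraicQbar_lg Glue.isAlgClosureQbar_lg Glue.normalQbar_lg

/-! ### The unramified local level family -/

/-- The subgroups `r⁻¹ Gal(ℚ̄/F)` of the local group at `w`, `F` finite and unramified outside a
finite set of primes not containing `w`. -/
def urSets (w : Nat.Primes) : Set (Subgroup (primeLocalGaloisGroup w)) :=
  {U | ∃ (T : Finset Nat.Primes) (F : IntermediateField ℚ (AlgebraicClosure ℚ)), w ∉ T ∧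
    F.IsUnramifiedOutside T ∧ U = F.fixingSubgroup.comap (primeLocalToGlobal w)}

theorem urSets_subset_localSets (w : Nat.Primes) :
    urSets w ⊆ localSets (primeLocalToGlobal w) := by
  rintro U ⟨T, F, -, hF, rfl⟩
  exact ⟨F, hF.1, rfl⟩

/-- The unramified level family on the local group at `w`. -/
def urLevel (w : Nat.Primes) : LevelFamily (primeLocalGaloisGroup w) where
  sets := urSets w
  nonempty := ⟨_, ∅, ⊥, Finset.notMem_empty w, IntermediateField.isUnramifiedOutside_bot ∅, rfl⟩
  inter := by
    classical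
    rintro U ⟨T, F, hT, hF, rfl⟩ V ⟨T', F', hT', hF', rfl⟩
    refine ⟨_, ⟨T ∪ T', F ⊔ F', ?_, (hF.mono Finset.subset_union_left).sup
      (hF'.mono Finset.subset_union_right), rfl⟩, ?_⟩
    · simp [hT, hT']
    · rw [IntermediateField.fixingSubgroup_sup, Subgroup.comap_inf]
  normal := by
    rintro U ⟨T, F, hT, hF, rfl⟩
    have hN := Glue.isUnramifiedOutside_normalClosure hF
    have := hN.1
    have : Normal ℚ (IntermediateField.normalClosure ℚ F (AlgebraicClosure ℚ)) :=
      normalClosure.normal ℚ _ _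
    have := (fixingSubgroup_normal_finiteIndex
      (IntermediateField.normalClosure ℚ F (AlgebraicClosure ℚ))).1
    exact ⟨_, ⟨T, _, hT, hN, rfl⟩,
      Subgroup.comap_mono
        (IntermediateField.fixingSubgroup_antitone (IntermediateField.le_normalClosure F)),
      Subgroup.Normal.comap inferInstance _⟩
  finiteIndex := fun U hU =>
    (localLevel (primeLocalToGlobal w)).finiteIndex U (urSets_subset_localSets w hU)

theorem globalSets_mono {T T' : Finset Nat.Primes} (h : T ⊆ T') :
    globalSets T ⊆ globalSets T' := by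
  rintro U ⟨F, hF, rfl⟩
  exact ⟨F, hF.mono h, rfl⟩

/-- A cochain of level `T` restricts to an unramified cochain at `w ∉ T`. -/
theorem isLevelMap_urLevel {T : Finset Nat.Primes} {w : Nat.Primes} (hw : w ∉ T) :
    IsLevelMap (urLevel w) (globalLevel T) (primeLocalToGlobal w) := by
  rintro U ⟨F, hF, rfl⟩
  exact ⟨_, ⟨T, F, hw, hF, rfl⟩, le_rfl⟩

/-- Unramified local cochains are level cochains. -/
theorem C1_urLevel_le (w : Nat.Primes) {k : Type} [Field k]
    (M : Rep.{0} k (primeLocalGaloisGroup w)) :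
    C1 (urLevel w) M ≤ C1 (localLevel (primeLocalToGlobal w)) M := by
  rintro f ⟨U, hU, hf⟩
  exact ⟨U, urSets_subset_localSets w hU, hf⟩

theorem C2_urLevel_le (w : Nat.Primes) {k : Type} [Field k]
    (M : Rep.{0} k (primeLocalGaloisGroup w)) :
    C2 (urLevel w) M ≤ C2 (localLevel (primeLocalToGlobal w)) M := by
  rintro f ⟨U, hU, hf⟩
  exact ⟨U, urSets_subset_localSets w hU, hf⟩

/-- Restriction of a level-`T` 2-cocycle of `G_ℚ` to the local group at `w` is a local level
2-cocycle. -/
theorem res₂_mem_Z2 {T : Finset Nat.Primes} (w : Nat.Primes) {k : Type} [Field k]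
    {M : Rep.{0} k GQ} {z : GQ × GQ → M} (hz : z ∈ Z2 (globalLevel T) M) :
    res₂ (fun w : Nat.Primes => primeLocalToGlobal w) M w z
      ∈ Z2 (localLevel (primeLocalToGlobal w)) (Rep.res (primeLocalToGlobal w) M) := by
  refine ⟨IsLev₂.precomp (isLevelMap_localLevel (primeLocalToGlobal w) T) hz.1, ?_⟩
  have h : (d₂₃ M).hom z = 0 := hz.2
  show (d₂₃ (Rep.res (primeLocalToGlobal w) M)).hom
    (res₂ (fun w : Nat.Primes => primeLocalToGlobal w) M w z) = 0
  have hcomm : (d₂₃ (Rep.res (primeLocalToGlobal w) M)).hom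
      (res₂ (fun w : Nat.Primes => primeLocalToGlobal w) M w z)
      = res₃ (fun w : Nat.Primes => primeLocalToGlobal w) M w ((d₂₃ M).hom z) := by
    funext ⟨g, h, j⟩
    simp only [d₂₃_hom_apply, res₂_apply, res₃_apply, map_mul]
    rfl
  rw [hcomm, h, map_zero]

/-! ### The arithmetic input and the functional -/

variable (p : ℕ) [Fact p.Prime] (S : Finset Nat.Primes)

/-- The arithmetic input over `ℚ` with coefficients `μ_p`. -/
structure ArithInput where
  /-- local functionals on all local 2-cochains, all primes -/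
  inv : ∀ w : Nat.Primes,
    (primeLocalGaloisGroup w × primeLocalGaloisGroup w → muRep (cycloChar p)) →ₗ[ZMod p] ZMod p
  inv_B2 : ∀ w, ∀ z ∈ B2 (localLevel (primeLocalToGlobal w))
    (Rep.res (primeLocalToGlobal w) (muRep (cycloChar p))), inv w z = 0
  /-- unramified 2-cocycles have trivial invariant outside `S` -/
  UR : ∀ w, w ∉ S → ∀ z ∈ Z2 (urLevel w) (Rep.res (primeLocalToGlobal w) (muRep (cycloChar p))),
    inv w z = 0
  /-- reciprocity at every finite level containing `S` -/
  REC : ∀ T : Finset Nat.Primes, S ⊆ T → ∀ z ∈ Z2 (globalLevel T) (muRep (cycloChar p)),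
    ∑ w ∈ T, inv w (res₂ (fun w : Nat.Primes => primeLocalToGlobal w) (muRep (cycloChar p)) w z)
      = 0

variable {p S}

/-- **Constructor from class-level data**: local functionals `lamH w` on the level cohomology
`H²(G_w, μ_p)` at every prime, such that unramified 2-cocycles are level coboundaries outside `S`
and reciprocity holds on classes. -/
theorem exists_arithInput (hpS : pPrime p ∈ S)
    (lamH : ∀ w : Nat.Primes, H2 (localLevel (primeLocalToGlobal w))
      (Rep.res (primeLocalToGlobal w) (muRep (cycloChar p))) →ₗ[ZMod p] ZMod p)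
    (hUR : ∀ w, w ∉ S → Z2 (urLevel w) (Rep.res (primeLocalToGlobal w) (muRep (cycloChar p)))
      ≤ B2 (localLevel (primeLocalToGlobal w))
        (Rep.res (primeLocalToGlobal w) (muRep (cycloChar p))))
    (hREC : ∀ T : Finset Nat.Primes, S ⊆ T → ∀ (z : GQ × GQ → muRep (cycloChar p))
      (hz : z ∈ Z2 (globalLevel T) (muRep (cycloChar p))),
      ∑ w ∈ T, lamH w (Submodule.Quotient.mk ⟨_, res₂_mem_Z2 w hz⟩) = 0) :
    ∃ I : ArithInput p S, ∀ (w : Nat.Primes)
      (z : primeLocalGaloisGroup w × primeLocalGaloisGroup w → muRep (cycloChar p))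
      (hz : z ∈ Z2 (localLevel (primeLocalToGlobal w))
        (Rep.res (primeLocalToGlobal w) (muRep (cycloChar p)))),
      I.inv w z = lamH w (Submodule.Quotient.mk ⟨z, hz⟩) := by
  have hdisc : ∀ w : Nat.Primes, IsDisc (localLevel (primeLocalToGlobal w))
      (Rep.res (primeLocalToGlobal w) (muRep (cycloChar p))) := fun w =>
    isDisc_res (globalLevel S) (localLevel (primeLocalToGlobal w)) (primeLocalToGlobal w)
      (isLevelMap_localLevel (primeLocalToGlobal w) S) (isDisc_mu p S hpS)
  choose inv h1 h2 using fun w : Nat.Primes =>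
    Eval.exists_inv (localLevel (primeLocalToGlobal w)) (hdisc w) (lamH w)
  refine ⟨⟨inv, h1, fun w hw z hz => h1 w z (hUR w hw hz), fun T hT z hz => ?_⟩, h2⟩
  rw [← hREC T hT z hz]
  exact Finset.sum_congr rfl fun w _ => h2 w _ (res₂_mem_Z2 w hz)

namespace ArithInput

variable (I : ArithInput p S)

/-- The abstract evaluation datum of the arithmetic input. -/
noncomputable def datum : Eval.Datum (ZMod p) GQ (muRep (cycloChar p)) where
  ι := Nat.Primes
  Gv := primeLocalGaloisGroup
  loc := primeLocalToGlobal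
  S := S
  𝒰 := globalLevel
  𝒰v := fun w => localLevel (primeLocalToGlobal w)
  𝒰ur := urLevel
  mono := fun _ _ h => globalSets_mono h
  hloc := fun T w => isLevelMap_localLevel (primeLocalToGlobal w) T
  hlocur := fun _ _ hw => isLevelMap_urLevel hw
  inv := I.inv
  inv_B2 := I.inv_B2
  UR := I.UR
  REC := I.REC

/-- **The functional `lam`** of the arithmetic input. -/
noncomputable def lamS : LamS p S := I.datum.lam

variable (hpS : pPrime p ∈ S) {M : Rep.{0} (ZMod p) GQ} (hM : IsDisc (globalLevel S) M)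

/-- The local invariant of `ctxS p S hpS I.lamS` at `v ∈ S` is `I.inv v`. -/
theorem inv_eval (v : ↥S)
    (z : primeLocalGaloisGroup v.1 × primeLocalGaloisGroup v.1 → muRep (cycloChar p))
    (hz : z ∈ Z2 (localLevel (primeLocalToGlobal v.1))
      (Rep.res (primeLocalToGlobal v.1) (muRep (cycloChar p)))) :
    (ctxS p S hpS I.lamS).inv v (Submodule.Quotient.mk ⟨z, hz⟩) = I.inv v.1 z :=
  I.datum.invOf_lam v z hz

/-- **EVAL for `P2`** (`H²_c(M) × H¹(G_S, M') → 𝔽_p`).  `(a, t)` a cone 2-cocycle of `M`,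
`y` a level-`S` 1-cocycle of `M' = M.dualTwist`; `c'` a 1-cochain of level `T ⊇ S` with
`d c' = a`; `t' w` unramified primitives of `res_w a` for `w ∈ T \ S`. -/
theorem P2_eval {a : GQ × GQ → M} {t : ∀ v : ↥S, primeLocalGaloisGroup v.1 → M}
    (hx : (a, t) ∈ Zc2 (globalLevel S) (fun q : ↥S => primeLocalToGlobal q.1)
      (fun q : ↥S => localLevel (primeLocalToGlobal q.1)) M)
    {y : GQ → M.dualTwist (cycloChar p)}
    (hy : y ∈ Z1 (globalLevel S) (M.dualTwist (cycloChar p)))
    (T : Finset Nat.Primes) (hT : S ⊆ T)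
    (c' : GQ → M) (hc' : c' ∈ C1 (globalLevel T) M) (hdc' : (d₁₂ M).hom c' = a)
    (t' : ∀ w : Nat.Primes, primeLocalGaloisGroup w → M)
    (ht' : ∀ w ∈ T, w ∉ S → t' w ∈ C1 (urLevel w) (Rep.res (primeLocalToGlobal w) M) ∧
      (d₁₂ (Rep.res (primeLocalToGlobal w) M)).hom (t' w)
        = res₂ (fun w : Nat.Primes => primeLocalToGlobal w) M w a) :
    (ctxS p S hpS I.lamS).P2 hM (Submodule.Quotient.mk ⟨(a, t), hx⟩)
        (Submodule.Quotient.mk ⟨y, hy⟩)
      = ∑ v : ↥S, I.inv v.1 (cup11 ((evPairing (cycloChar p) M).res (primeLocalToGlobal v.1))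
            (t v - res₁ (fun w : Nat.Primes => primeLocalToGlobal w) M v.1 c')
            (res₁ (fun w : Nat.Primes => primeLocalToGlobal w) _ v.1 y))
        + ∑ w ∈ T \ S, I.inv w (cup11 ((evPairing (cycloChar p) M).res (primeLocalToGlobal w))
            (t' w - res₁ (fun w : Nat.Primes => primeLocalToGlobal w) M w c')
            (res₁ (fun w : Nat.Primes => primeLocalToGlobal w) _ w y)) :=
  I.datum.Pc2_eval (evPairing (cycloChar p) M) hM ((ctxS p S hpS I.lamS).disc_dual hM)
    (isDisc_mu p S hpS) hx hy T hT c' hc' hdc' t' ht'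

/-- **EVAL for `P1`** (`H¹_c(M) × H²(G_S, M') → 𝔽_p`).  `(χ, c)` a cone 1-cocycle of `M`,
`x` a level-`S` 2-cocycle of `M' = M.dualTwist`; `u` a 1-cochain of level `T ⊇ S` with
`d u = x`; `m w` unramified primitives of `res_w x` for `w ∈ T \ S`. -/
theorem P1_eval {χ : GQ → M} {c : ↥S → M}
    (hx : (χ, c) ∈ Zc1 (globalLevel S) (fun q : ↥S => primeLocalToGlobal q.1) M)
    {x : GQ × GQ → M.dualTwist (cycloChar p)}
    (hx' : x ∈ Z2 (globalLevel S) (M.dualTwist (cycloChar p)))
    (T : Finset Nat.Primes) (hT : S ⊆ T)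
    (u : GQ → M.dualTwist (cycloChar p))
    (hu : u ∈ C1 (globalLevel T) (M.dualTwist (cycloChar p)))
    (hdu : (d₁₂ (M.dualTwist (cycloChar p))).hom u = x)
    (m : ∀ w : Nat.Primes, primeLocalGaloisGroup w → M.dualTwist (cycloChar p))
    (hm : ∀ w ∈ T, w ∉ S →
      m w ∈ C1 (urLevel w) (Rep.res (primeLocalToGlobal w) (M.dualTwist (cycloChar p))) ∧
      (d₁₂ (Rep.res (primeLocalToGlobal w) (M.dualTwist (cycloChar p)))).hom (m w)
        = res₂ (fun w : Nat.Primes => primeLocalToGlobal w) _ w x) :
    (ctxS p S hpS I.lamS).P1 hM (Submodule.Quotient.mk ⟨(χ, c), hx⟩)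
        (Submodule.Quotient.mk ⟨x, hx'⟩)
      = ∑ w ∈ T \ S, I.inv w (cup11 ((evPairing (cycloChar p) M).res (primeLocalToGlobal w))
          (res₁ (fun w : Nat.Primes => primeLocalToGlobal w) M w χ)
          (res₁ (fun w : Nat.Primes => primeLocalToGlobal w) _ w u - m w)) :=
  I.datum.Pc1_eval (evPairing (cycloChar p) M) hM ((ctxS p S hpS I.lamS).disc_dual hM)
    (isDisc_mu p S hpS) hx hx' T hT u hu hdu m hm

end ArithInput

end Fermat.Agent.S55.Base.EvalQ
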