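/-
S55 / PROGRAM CFT, base case: the (UR) input of EVAL, discharged (helper36).

Glue between `Arith/UnramLocal` (helper216: unramified local 2-cocycles with values in an
unramified module killed by `p ≠ w` are coboundaries of unramified 1-cochains) and the
unramified level family `EvalQ.urLevel` of `Base/EvalQ`:

* `mem_C1_urLevel_iff`, `mem_C2_urLevel_iff` : dictionary `urLevel` ↔ `Unram.IsUnram₁/₂`;
* `exists_ur_primitive` : (UR) for coefficients `N`, `N` discrete at level `S ∋ p`, `w ∉ S`: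
  every unramified local 2-cocycle is `d` of an unramified local 1-cochain;
* `Z2_urLevel_le_B2`     : in particular it is a local level coboundary;
* `exists_arithInput_of_rec` : the arithmetic input of EVAL from class-level local functionals
  and reciprocity alone.
-/
import Fermat.Agent.S55.Base.EvalQ
import Fermat.Agent.S55.Arith.UnramLocal

set_option autoImplicit false

open CategoryTheory groupCohomology ExtCitation

namespace Fermat.Agent.S55.Base.EvalQ

open Fermat.Agent.S55.Abs Fermat.Agent.S55.Arith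

theorem mem_C1_urLevel_iff (w : Nat.Primes) {k : Type} [Field k]
    (M : Rep.{0} k (primeLocalGaloisGroup w)) (f : primeLocalGaloisGroup w → M) :
    f ∈ C1 (urLevel w) M ↔ Unram.IsUnram₁ w f := by
  constructor
  · rintro ⟨U, ⟨T, F, hT, hF, rfl⟩, h⟩
    exact ⟨T, hT, F, hF, fun g s hs => h g s hs⟩
  · rintro ⟨T, hT, F, hF, h⟩
    exact ⟨_, ⟨T, F, hT, hF, rfl⟩, fun g s hs => h g s hs⟩

theorem mem_C2_urLevel_iff (w : Nat.Primes) {k : Type} [Field k]
    (M : Rep.{0} k (primeLocalGaloisGroup w))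
    (f : primeLocalGaloisGroup w × primeLocalGaloisGroup w → M) :
    f ∈ C2 (urLevel w) M ↔ Unram.IsUnram₂ w f := by
  constructor
  · rintro ⟨U, ⟨T, F, hT, hF, rfl⟩, h⟩
    exact ⟨T, hT, F, hF, fun g g' s s' hs hs' => h g g' s s' hs hs'⟩
  · rintro ⟨T, hT, F, hF, h⟩
    exact ⟨_, ⟨T, F, hT, hF, rfl⟩, fun g g' s s' hs hs' => h g g' s s' hs hs'⟩

variable {p : ℕ} [Fact p.Prime] {S : Finset Nat.Primes}

/-- **(UR) for coefficients `N`.**  `N` an `𝔽_p`-representation of `G_ℚ`, discrete at level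
`S ∋ p`, and `w ∉ S`: every unramified 2-cocycle of the local group at `w` with values in `N` is
the coboundary of an unramified 1-cochain. -/
theorem exists_ur_primitive (hpS : pPrime p ∈ S) {w : Nat.Primes} (hw : w ∉ S)
    {N : Rep.{0} (ZMod p) GQ} (hN : IsDisc (globalLevel S) N)
    (z : primeLocalGaloisGroup w × primeLocalGaloisGroup w → N)
    (hz : z ∈ Z2 (urLevel w) (Rep.res (primeLocalToGlobal w) N)) :
    ∃ t ∈ C1 (urLevel w) (Rep.res (primeLocalToGlobal w) N),
      (d₁₂ (Rep.res (primeLocalToGlobal w) N)).hom t = z := by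
  have hwp : (w : ℕ) ≠ p := by
    intro h
    apply hw
    have : w = pPrime p := Subtype.ext h
    rw [this]
    exact hpS
  obtain ⟨_, ⟨F, hF, rfl⟩, hFN⟩ := hN
  have hM : ∃ S₀ : Finset Nat.Primes, w ∉ S₀ ∧ ∃ F₀ : IntermediateField ℚ (AlgebraicClosure ℚ),
      F₀.IsUnramifiedOutside S₀ ∧ ∀ s ∈ F₀.fixingSubgroup, N.ρ s = 1 :=
    ⟨S, hw, F, hF, fun s hs => LinearMap.ext fun m => hFN s hs m⟩
  have hzu : Unram.IsUnram₂ w z :=
    (mem_C2_urLevel_iff w (Rep.res (primeLocalToGlobal w) N) z).1 hz.1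
  obtain ⟨x, hxu, hx⟩ := Unram.exists_isUnram₁_d₁₂_eq p w hwp (ZMod.natCast_self p) N hM z hz.2
    hzu
  exact ⟨x, (mem_C1_urLevel_iff w (Rep.res (primeLocalToGlobal w) N) x).2 hxu, hx⟩

/-- Unramified local 2-cocycles at `w ∉ S` are local level coboundaries. -/
theorem Z2_urLevel_le_B2 (hpS : pPrime p ∈ S) {w : Nat.Primes} (hw : w ∉ S)
    {N : Rep.{0} (ZMod p) GQ} (hN : IsDisc (globalLevel S) N) :
    Z2 (urLevel w) (Rep.res (primeLocalToGlobal w) N)
      ≤ B2 (localLevel (primeLocalToGlobal w)) (Rep.res (primeLocalToGlobal w) N) := by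
  intro z hz
  obtain ⟨t, ht, rfl⟩ := exists_ur_primitive hpS hw hN z hz
  exact ⟨t, C1_urLevel_le w _ ht, rfl⟩

/-- **The arithmetic input of EVAL from reciprocity alone**: class-level local functionals at all
primes satisfying reciprocity at every finite level `T ⊇ S`. -/
theorem exists_arithInput_of_rec (hpS : pPrime p ∈ S)
    (lamH : ∀ w : Nat.Primes, H2 (localLevel (primeLocalToGlobal w))
      (Rep.res (primeLocalToGlobal w) (muRep (cycloChar p))) →ₗ[ZMod p] ZMod p)
    (hREC : ∀ T : Finset Nat.Primes, S ⊆ T → ∀ (z : GQ × GQ → muRep (cycloChar p))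
      (hz : z ∈ Z2 (globalLevel T) (muRep (cycloChar p))),
      ∑ w ∈ T, lamH w (Submodule.Quotient.mk ⟨_, res₂_mem_Z2 w hz⟩) = 0) :
    ∃ I : ArithInput p S, ∀ (w : Nat.Primes)
      (z : primeLocalGaloisGroup w × primeLocalGaloisGroup w → muRep (cycloChar p))
      (hz : z ∈ Z2 (localLevel (primeLocalToGlobal w))
        (Rep.res (primeLocalToGlobal w) (muRep (cycloChar p)))),
      I.inv w z = lamH w (Submodule.Quotient.mk ⟨z, hz⟩) :=
  exists_arithInput hpS lamH (fun _ hw => Z2_urLevel_le_B2 hpS hw (isDisc_mu p S hpS)) hREC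

end Fermat.Agent.S55.Base.EvalQ
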