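import Fermat.Agent.S55.Base.Fact
import Fermat.Agent.S55.Base.EvalQ

/-!
# S55 / base case: FACT in the `Abs` / `EvalQ` vocabulary (adapter, helper86)

`Base/Fact.lean` is stated with the Prelude predicates `IsLevelConstant₁`, `IsLevelConstantS₁`,
`IsLevelConstantS₂`.  The assembly of the base case (`Base/Asm*.lean`) works with the level
cochains of `Abs/Level` for the families `globalLevel T` (`Abs/Bridge`) and `urLevel w`
(`Base/EvalQ`).  This file restates FACT there.

For `N : Rep.{0} k GQ` discrete at level `S`: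

* `mem_C1_of_ur_mod_coboundary` (**FACT**) : `c ∈ C1 (globalLevel T) N`, `d c ∈ C2 (globalLevel S) N`
  and, for every `w ∈ T`, `w ∉ S`, `res_w c - d₀₁ m ∈ C1 (urLevel w)` for some `m : N`
  ⟹ `c ∈ C1 (globalLevel S) N`.
* `mem_C1_of_ur` : the same with `res_w c ∈ C1 (urLevel w)` (no coboundary correction).
* `right_invariant_inertia_of_ur` (**FACT-2**) : the local step at one prime `w ∉ S`.
* `fact_datum`, `fact_datum_mod_coboundary` : the two statements for the evaluation datum
  `I.datum` of an arithmetic input `I : EvalQ.ArithInput p S`, in the literal `Eval.Datum`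
  vocabulary (`D.𝒰`, `D.𝒰ur`, `D.loc`, `D.S`).
-/

set_option autoImplicit false

open CategoryTheory groupCohomology ExtCitation

namespace Fermat.Agent.S55.Base.FactAbs

open Fermat.Agent.S55.Abs Fermat.Agent.S55.Base.EvalQ

local notation "Qb" => AlgebraicClosure ℚ

variable {k : Type} [Field k] {S : Finset Nat.Primes} {N : Rep.{0} k GQ}

/-- Discreteness at level `S`, in the shape used by `Base/Fact.lean`. -/
theorem exists_field_of_isDisc (hN : IsDisc (globalLevel S) N) :
    ∃ F₀ : IntermediateField ℚ Qb, F₀.IsUnramifiedOutside S ∧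
      ∀ s ∈ F₀.fixingSubgroup, N.ρ s = 1 := by
  obtain ⟨_, ⟨F₀, hF₀, rfl⟩, h⟩ := hN
  exact ⟨F₀, hF₀, fun s hs => LinearMap.ext fun m => h s hs m⟩

/-- An unramified local cochain at `w` is right-invariant modulo the preimage of `Fix(F)` for a
field `F` fixed by the inertia group of the distinguished place above `w`. -/
theorem exists_field_of_mem_C1_urLevel {w : Nat.Primes}
    {M : Rep.{0} k (primeLocalGaloisGroup w)} {t : primeLocalGaloisGroup w → M}
    (ht : t ∈ C1 (urLevel w) M) :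
    ∃ F : IntermediateField ℚ Qb, (primeLocalPlace w).inertiaSubgroupIn ℚ ≤ F.fixingSubgroup ∧
      ∀ τ σ : primeLocalGaloisGroup w, primeLocalToGlobal w σ ∈ F.fixingSubgroup →
        t (τ * σ) = t τ := by
  obtain ⟨_, ⟨T, F, hwT, hF, rfl⟩, h⟩ := ht
  exact ⟨F, hF.2 w hwT _ (Fact.liesOverPrime_primeLocalPlace w), fun τ σ hσ => h τ σ hσ⟩

/-- A cochain of level `T` is level-constant in the sense of the Prelude. -/
theorem isLevelConstant₁_of_mem_C1 {T : Finset Nat.Primes} {c : GQ → N}
    (hc : c ∈ C1 (globalLevel T) N) : IsLevelConstant₁ (MonoidHom.id GQ) c := by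
  obtain ⟨_, ⟨F, hF, rfl⟩, h⟩ := hc
  exact ⟨F, hF.1, fun g s hs => h g s hs⟩

/-- **FACT-2** (`Abs` vocabulary): if `d c` is of level `S` and, at a prime `w ∉ S`, the
restriction `res_w c` is an unramified cochain up to a coboundary `d₀₁ m`, then `c` takes the
value `c 1` on the inertia group of the distinguished place above `w`. -/
theorem eq_one_on_inertia_of_ur (hN : IsDisc (globalLevel S) N) {c : GQ → N}
    {w : Nat.Primes} (hw : w ∉ S) (m : N)
    (hur : res₁ (fun w : Nat.Primes => primeLocalToGlobal w) N w c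
        - (d₀₁ (Rep.res (primeLocalToGlobal w) N)).hom m
      ∈ C1 (urLevel w) (Rep.res (primeLocalToGlobal w) N)) :
    ∀ i ∈ (primeLocalPlace w).inertiaSubgroupIn ℚ, c i = c 1 := by
  obtain ⟨F₀, hF₀, hρ⟩ := exists_field_of_isDisc hN
  obtain ⟨F, hIF, ht⟩ := exists_field_of_mem_C1_urLevel hur
  intro i hi
  have hdec : i ∈ (primeLocalToGlobal w).range := by
    rw [Glue.LocalRange.range_primeLocalToGlobal]
    exact Fact.inertiaSubgroupIn_le_decompositionSubgroup _ hi
  obtain ⟨σ, rfl⟩ := hdec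
  have h1 := ht 1 σ (hIF hi)
  have hρi : N.ρ (primeLocalToGlobal w σ) = 1 :=
    hρ _ (hF₀.2 w hw _ (Fact.liesOverPrime_primeLocalPlace w) hi)
  rw [one_mul] at h1
  simp only [Pi.sub_apply, res₁_apply, d₀₁_hom_apply, MonoidHom.comp_apply, hρi, map_one,
    Module.End.one_apply, sub_self, sub_zero] at h1
  exact h1

/-- **FACT-2**, right-invariance form, for every place above `w`. -/
theorem right_invariant_inertia_of_ur (hN : IsDisc (globalLevel S) N) {c : GQ → N}
    (hd : (d₁₂ N).hom c ∈ C2 (globalLevel S) N)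
    {w : Nat.Primes} (hw : w ∉ S) (m : N)
    (hur : res₁ (fun w : Nat.Primes => primeLocalToGlobal w) N w c
        - (d₀₁ (Rep.res (primeLocalToGlobal w) N)).hom m
      ∈ C1 (urLevel w) (Rep.res (primeLocalToGlobal w) N)) :
    ∀ A : ValuationSubring Qb, A.LiesOverPrime (w : ℕ) →
      ∀ g, ∀ i ∈ A.inertiaSubgroupIn ℚ, c (g * i) = c g := by
  have hN' := exists_field_of_isDisc hN
  have hd' : IsLevelConstantS₂ S ((d₁₂ N).hom c) := (isLevelConstantS₂_iff S _).mpr hd
  intro A hA
  exact Fact.right_invariant_of_eq_one N hN' c hd' w hw A hA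
    (Fact.eq_one_on_inertia_of_exists N hN' c hd' w hw _ (Fact.liesOverPrime_primeLocalPlace w)
      (eq_one_on_inertia_of_ur hN hw m hur) A hA)

/-- **FACT** (`Abs` vocabulary).  A cochain `c` of some level `T` whose coboundary is of level
`S` and whose restriction at every `w ∈ T`, `w ∉ S`, is unramified up to a coboundary, is of
level `S`. -/
theorem mem_C1_of_ur_mod_coboundary (hN : IsDisc (globalLevel S) N) {T : Finset Nat.Primes}
    {c : GQ → N} (hc : c ∈ C1 (globalLevel T) N)
    (hd : (d₁₂ N).hom c ∈ C2 (globalLevel S) N)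
    (hur : ∀ w ∈ T, w ∉ S → ∃ m : N,
      res₁ (fun w : Nat.Primes => primeLocalToGlobal w) N w c
          - (d₀₁ (Rep.res (primeLocalToGlobal w) N)).hom m
        ∈ C1 (urLevel w) (Rep.res (primeLocalToGlobal w) N)) :
    c ∈ C1 (globalLevel S) N := by
  rw [mem_C1_iff, ← isLevelConstantS₁_iff]
  refine Fact.isLevelConstantS₁_of_right_invariant (isLevelConstant₁_of_mem_C1 hc)
    fun q hq A hA g i hi => ?_
  by_cases hqT : q ∈ T
  · obtain ⟨m, hm⟩ := hur q hqT hq
    exact right_invariant_inertia_of_ur hN hd hq m hm A hA g i hi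
  · obtain ⟨_, ⟨F, hF, rfl⟩, h⟩ := hc
    exact h g i (hF.2 q hqT A hA hi)

/-- **FACT** (`Abs` vocabulary), without coboundary corrections. -/
theorem mem_C1_of_ur (hN : IsDisc (globalLevel S) N) {T : Finset Nat.Primes}
    {c : GQ → N} (hc : c ∈ C1 (globalLevel T) N)
    (hd : (d₁₂ N).hom c ∈ C2 (globalLevel S) N)
    (hur : ∀ w ∈ T, w ∉ S → res₁ (fun w : Nat.Primes => primeLocalToGlobal w) N w c
        ∈ C1 (urLevel w) (Rep.res (primeLocalToGlobal w) N)) :
    c ∈ C1 (globalLevel S) N := by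
  refine mem_C1_of_ur_mod_coboundary hN hc hd fun w hwT hwS => ⟨0, ?_⟩
  rw [map_zero, sub_zero]
  exact hur w hwT hwS

/-! ### The evaluation datum of an arithmetic input -/

section Datum

variable {p : ℕ} [Fact p.Prime] {S : Finset Nat.Primes} (I : ArithInput p S)
  {N : Rep.{0} (ZMod p) GQ}

/-- **FACT for the datum `I.datum`**, in the literal `Eval.Datum` vocabulary. -/
theorem fact_datum (hN : IsDisc (I.datum.𝒰 I.datum.S) N) (T : Finset I.datum.ι)
    (c : GQ → N) (hc : c ∈ C1 (I.datum.𝒰 T) N)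
    (hd : (d₁₂ N).hom c ∈ C2 (I.datum.𝒰 I.datum.S) N)
    (hur : ∀ w ∈ T, w ∉ I.datum.S →
      res₁ I.datum.loc N w c ∈ C1 (I.datum.𝒰ur w) (Rep.res (I.datum.loc w) N)) :
    c ∈ C1 (I.datum.𝒰 I.datum.S) N :=
  mem_C1_of_ur (S := S) hN hc hd hur

/-- **FACT for the datum `I.datum`**, with coboundary corrections. -/
theorem fact_datum_mod_coboundary (hN : IsDisc (I.datum.𝒰 I.datum.S) N) (T : Finset I.datum.ι)
    (c : GQ → N) (hc : c ∈ C1 (I.datum.𝒰 T) N)
    (hd : (d₁₂ N).hom c ∈ C2 (I.datum.𝒰 I.datum.S) N)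
    (hur : ∀ w ∈ T, w ∉ I.datum.S → ∃ m : N,
      res₁ I.datum.loc N w c - (d₀₁ (Rep.res (I.datum.loc w) N)).hom m
        ∈ C1 (I.datum.𝒰ur w) (Rep.res (I.datum.loc w) N)) :
    c ∈ C1 (I.datum.𝒰 I.datum.S) N :=
  mem_C1_of_ur_mod_coboundary (S := S) hN hc hd hur

end Datum

end Fermat.Agent.S55.Base.FactAbs
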