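/-
S55 / PROGRAM CFT, base case: THE FINAL ASSEMBLY of the cone route (helper185, RULINGS #7).

`baseAt_of_inputs` : the three BASE obligations `a1epi`, `a2mono`, `a2epi` of `Wire.BaseAt` for
`M = M0(K) = coind_{G_K}^{G_ℚ} 𝔽_p` (`K` unramified outside `S ∋ p`, `μ_p ⊆ K`, `p` odd) in the
context `ctxS p S hpS I.lamS` of an arithmetic input `I`, from the cochain-level inputs

* `LocRight` (all primes), `Loc2` (at `S`)            — local duality, LD-Q;
* `CapGen` for `M`                                     — UNR3-Q generation + CAP-Q;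
* `G4` for `M'`                                        — G4Q;
* `Hasse` for `M`, a theta family with `Gen`, `Kill P` — (c4) in cone form (`Base/C4Cone`),
  with `dim (O →₀ 𝔽_p) ⧸ P ≤ ρ`, `p ^ ρ = [Cl_K : Cl_K^p ⊔ ⟨S_K⟩]`;

and the landed counts (`Base/ConeCnt`), through `ConeSymm.base_of_arith_selfdual` (self-duality
`M0(K) ≅ M0(K)'`), `ConeKer.h4`, `ConeKer.hI6` and `C4.ThetaFam.finrank_sha2_le`.
-/
import Fermat.Agent.S55.Base.ConeSymm
import Fermat.Agent.S55.Base.ConeKer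
import Fermat.Agent.S55.Base.ConeCnt
import Fermat.Agent.S55.Base.C4Cone
import Fermat.Agent.S55.Base.FactAbs
import Fermat.Agent.S55.Base.EvalUR
import Fermat.Agent.S55.Glue.CoindDual
import Fermat.Agent.S55.Wire.Chain

set_option autoImplicit false

open scoped NumberField
open CategoryTheory groupCohomology ExtCitation

namespace Fermat.Agent.S55.Base.BaseCase

open Fermat.Agent.S55.Abs Fermat.Agent.S55.Abs.TopGlue Fermat.Agent.S55.Base.EvalQ Module
open Fermat.Agent.CFT.Global.CountV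

variable {p : ℕ} [Fact p.Prime] {S : Finset Nat.Primes}

/-! ### `ker loc²` of the machine context is `Ш²` of the evaluation datum -/

/-- The locally trivial classes of `H²(G_S, N)` in the machine context `ctxS p S hpS I.lamS` lie
in `C4.sha2 I.datum N`. -/
theorem mem_sha2_of_loc2 (I : ArithInput p S) (hpS : pPrime p ∈ S) (N : Rep.{0} (ZMod p) GQ)
    (x : H2 (globalLevel S) N) (hx : loc2 (ctxS p S hpS I.lamS) N x = 0) :
    x ∈ C4.sha2 I.datum N := by
  obtain ⟨⟨a, ha⟩, rfl⟩ := Submodule.mkQ_surjective _ x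
  refine ⟨⟨a, ha⟩, ?_, rfl⟩
  refine (C4.mem_locTrivZ I.datum N ⟨a, ha⟩).2 fun v => ?_
  have h := congrFun hx v
  have h' : (Submodule.Quotient.mk (⟨res₂ (ctxS p S hpS I.lamS).loc N v a,
      res₂_mem_Z2 (ctxS p S hpS I.lamS).𝒰 (ctxS p S hpS I.lamS).loc (ctxS p S hpS I.lamS).𝒰v
        (ctxS p S hpS I.lamS).hloc N v ha⟩ :
      ↥(Z2 ((ctxS p S hpS I.lamS).𝒰v v) (Rep.res ((ctxS p S hpS I.lamS).loc v) N))) :
      Abs.H2 ((ctxS p S hpS I.lamS).𝒰v v) (Rep.res ((ctxS p S hpS I.lamS).loc v) N)) = 0 := h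
  rw [Submodule.Quotient.mk_eq_zero] at h'
  exact h'

/-- **(c4) for the machine context**: `dim ker loc² ≤ dim (O →₀ 𝔽_p) ⧸ P`. -/
theorem finrank_ker_loc2_le (I : ArithInput p S) (hpS : pPrime p ∈ S)
    {N : Rep.{0} (ZMod p) GQ} (hN : IsDisc (globalLevel S) N)
    (hH : C4.Hasse I.datum N) (Θ : C4.ThetaFam I.datum N) (hG : Θ.Gen)
    (P : Submodule (ZMod p) (Θ.O →₀ ZMod p)) (hK : Θ.Kill P)
    [FiniteDimensional (ZMod p) ((Θ.O →₀ ZMod p) ⧸ P)] :
    FiniteDimensional (ZMod p) (LinearMap.ker (loc2 (ctxS p S hpS I.lamS) N)) ∧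
      finrank (ZMod p) (LinearMap.ker (loc2 (ctxS p S hpS I.lamS) N))
        ≤ finrank (ZMod p) ((Θ.O →₀ ZMod p) ⧸ P) := by
  obtain ⟨hfin, hle⟩ := Θ.finrank_sha2_le (fun w => urSets_subset_localSets w) hH
    (fun w hw z hz => exists_ur_primitive hpS hw hN z hz)
    (fun T c hc hd hur => FactAbs.fact_datum_mod_coboundary I hN T c hc hd hur) hG P hK
  have hle' : (LinearMap.ker (loc2 (ctxS p S hpS I.lamS) N) :
      Submodule (ZMod p) (H2 (I.datum.𝒰 I.datum.S) N)) ≤ C4.sha2 I.datum N :=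
    fun x hx => mem_sha2_of_loc2 I hpS N x hx
  exact ⟨@Submodule.finiteDimensional_of_le _ _ _ _ _ _ _ hfin hle',
    (@Submodule.finrank_mono _ _ _ _ _ _ _ _ hfin hle').trans hle⟩

/-! ### The final assembly -/

/-- **The base case for `M0(K)` from the cochain-level inputs.** -/
theorem baseAt_of_inputs (I : ArithInput p S) (hpS : pPrime p ∈ S) (hp2 : p ≠ 2)
    (K : IntermediateField ℚ (AlgebraicClosure ℚ)) [NumberField K]
    (hK : K.IsUnramifiedOutside S) (hc : Glue.cycloField p ≤ K)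
    (hLocR : ConeKer.LocRight I.datum (evPairing (cycloChar p) (M0 (ZMod p) K.fixingSubgroup)))
    (hLoc2 : ConeKer.Loc2 I.datum (evPairing (cycloChar p) (M0 (ZMod p) K.fixingSubgroup)))
    (hCap : ConeKer.CapGen I.datum (M0 (ZMod p) K.fixingSubgroup))
    (hG4 : ConeKer.G4 I.datum ((M0 (ZMod p) K.fixingSubgroup).dualTwist (cycloChar p)))
    (hH : C4.Hasse I.datum (M0 (ZMod p) K.fixingSubgroup))
    (Θ : C4.ThetaFam I.datum (M0 (ZMod p) K.fixingSubgroup)) (hG : Θ.Gen)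
    (P : Submodule (ZMod p) (Θ.O →₀ ZMod p)) (hKill : Θ.Kill P)
    (hP : ∀ ρ : ℕ, (Fermat.Agent.CFT.Global.SelmerCount.clS (𝓞 K) p (SK S K)).index = p ^ ρ →
      FiniteDimensional (ZMod p) ((Θ.O →₀ ZMod p) ⧸ P) ∧
        finrank (ZMod p) ((Θ.O →₀ ZMod p) ⧸ P) ≤ ρ) :
    Wire.BaseAt p S hpS I.lamS K := by
  have hM := Wire.disc_M0 p hK
  obtain ⟨ρ, hρ, hfin, -, hloc, -, hc1, -, hc3, -, hcount⟩ :=
    ConeCnt.counts S hpS I.lamS K hp2 hK hc
  obtain ⟨hPfin, hPle⟩ := hP ρ hρ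
  obtain ⟨hk, hk4⟩ := finrank_ker_loc2_le I hpS hM hH Θ hG P hKill
  have hMfd := ConeCnt.finiteDimensional_M0 (p := p) K
  have hχ : ∀ u ∈ K.fixingSubgroup, cycloChar p u = 1 := fun _ hu =>
    Glue.cycloChar_eq_one_of_mem_fixingSubgroup p
      (IntermediateField.fixingSubgroup_antitone hc hu)
  let e := Glue.CoindDual.dualTwistIso (k := ZMod p) (U := K.fixingSubgroup) (cycloChar p) hχ
  obtain ⟨r1, r2, r3⟩ := ConeSymm.base_of_arith_selfdual (ctxS p S hpS I.lamS)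
    (M0 (ZMod p) K.fixingSubgroup) hM e.hom e.inv
    (fun m => congrArg (fun φ => φ.hom m) e.hom_inv_id)
    (fun f => congrArg (fun φ => φ.hom f) e.inv_hom_id)
    (2 * (SK S K).card + finrank ℚ K)
    (NumberField.InfinitePlace.nrComplexPlaces K + (SK S K).card + ρ) ρ
    (ConeKer.h4 I hpS hM hLocR hCap hG4) (ConeKer.hI6 I hpS hM hLoc2)
    hc1 hc3 (hk4.trans hPle) hcount
  exact ⟨hM, r3, r1, r2⟩

end Fermat.Agent.S55.Base.BaseCase
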