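import Fermat.Agent.S55.Base.CapitQ2
import Fermat.Agent.S55.Base.FactAbs
import Fermat.Agent.S55.Base.C4Shape
import Fermat.Agent.CFT.Count.C4K

/-!
# S55, BASE, count (c4): principal divisors are global (`Kill`)

`K ≤ Qb` a number field unramified outside `S ∋ p`, `ζ ∈ K` a primitive `p`-th root of unity,
`U = K.fixingSubgroup`, `A = Rep.trivial (ZMod p) U (ZMod p)`, `N = M0 (ZMod p) U`,
`O = Outside (SK S K)` the places of `K` outside `S_K`.

* `UFam S K ζ p` : a family of uniformisers: for every place `w : O` the prime `l w` below `w`,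
  `π w ∈ K` a uniformiser at `w` which is a unit at the other places above `l w`, a `p`-th root
  `ϖ w` of `π w` and a Kummer character `κ w` of `ϖ w` (the data of `CapitQ.capQ`);
  `nonempty_ufam` : such families exist.
* `kumdiv_level` (KD with divisor, `K`-side): for `a ∈ Kˣ` with Kummer character `χ` and a prime
  `q ∉ S`, the character `χ - ∑_{w | q} dv a w • κ w` has a level `T' ∌ q` on `G_K`.
* `kd_divisor` (KD with divisor, `ℚ`-side):
  `ind₁ A R χ - ∑_{w | q} dv a w • ind₁ A R (κ w) ∈ C1 (globalLevel T') N`, `q ∉ T'`.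
* `thetaFam I hK F R : C4.ThetaFam I.datum N` : the family `θ q o = res_q (ind₁ A R (κ o))`
  (`o` above `q`), and `kill : (thetaFam I hK F R).Kill (range (C4K.ordP p S K))`:
  the contract `Kill` of `Base/C4Shape` for the principal divisors.
-/

set_option autoImplicit false

open scoped NumberField IntermediateField
open IsDedekindDomain groupCohomology

namespace Fermat.Agent.S55.Base.C4Principal

local notation "Qb" => AlgebraicClosure ℚ
local notation "Gq" => (AlgebraicClosure ℚ ≃ₐ[ℚ] AlgebraicClosure ℚ)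

open Fermat.Agent.S14.Wiring.ValRing Fermat.Agent.CFT.Global.CountV Fermat.Agent.CFT.Count
  Fermat.Agent.CFT.Count.C4K

/-! ### `K`-side -/

section KSide

variable {p : ℕ} [Fact p.Prime]

/-- Every element of `K` has a Kummer character. -/
theorem exists_kum (K : IntermediateField ℚ Qb) (ζ : K) (hζ : IsPrimitiveRoot ζ p) (b : K) :
    ∃ (β : Qb) (χ : Gq → ZMod p), β ^ p = (b : Qb) ∧
      ∀ s ∈ K.fixingSubgroup, s β = (ζ : Qb) ^ (χ s).val * β := by
  have hp : p.Prime := Fact.out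
  have : NeZero p := ⟨hp.ne_zero⟩
  have hzprim : IsPrimitiveRoot ((ζ : K) : Qb) p :=
    hζ.map_of_injective (f := K.val) K.val.injective
  have hβp : Capit.rootP p (b : Qb) ^ p = (b : Qb) := Capit.rootP_pow hp.pos _
  refine ⟨Capit.rootP p (b : Qb), fun s => Capit.dlog p (ζ : Qb)
    (s (Capit.rootP p (b : Qb)) / Capit.rootP p (b : Qb)), hβp, fun s hs => ?_⟩
  by_cases hβ0 : Capit.rootP p (b : Qb) = 0
  · rw [hβ0, map_zero, mul_zero]
  · have h1 : (s (Capit.rootP p (b : Qb)) / Capit.rootP p (b : Qb)) ^ p = 1 := by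
      rw [div_pow, ← map_pow, hβp, (IntermediateField.mem_fixingSubgroup_iff K s).mp hs _ b.2,
        div_self]
      rw [← hβp]
      exact pow_ne_zero _ hβ0
    have h2 := Capit.dlog_spec hzprim h1
    rw [← h2, div_mul_cancel₀ _ hβ0]

/-- The Kummer character of an element which is a unit at `A` vanishes on the inertia group of
`A` (`A` over a prime `q ∉ S`). -/
theorem kum_inertia_eq_zero (S : Finset Nat.Primes) (hpS : ExtCitation.pPrime p ∈ S)
    (K : IntermediateField ℚ Qb) (hK : K.IsUnramifiedOutside S) (ζ : K)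
    (hζ : IsPrimitiveRoot ζ p) (b : K) (β : Qb) (hβ : β ^ p = (b : Qb)) (hβ0 : β ≠ 0)
    (χ : Gq → ZMod p) (hχ : ∀ s ∈ K.fixingSubgroup, s β = (ζ : Qb) ^ (χ s).val * β)
    (q : Nat.Primes) (hq : q ∉ S) (A : ValuationSubring Qb) (hA : A.LiesOverPrime (q : ℕ))
    (hu : A.valuation (b : Qb) = 1) : ∀ s ∈ A.inertiaSubgroupIn ℚ, χ s = 0 := by
  intro s hs
  have hp : p.Prime := Fact.out
  have : NeZero p := ⟨hp.ne_zero⟩
  have hzprim : IsPrimitiveRoot ((ζ : K) : Qb) p :=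
    hζ.map_of_injective (f := K.val) K.val.injective
  have hsK : s ∈ K.fixingSubgroup := hK.2 q hq A hA hs
  have hcop : Nat.Coprime (q : ℕ) p := by
    rw [Nat.coprime_primes q.2 hp]
    intro hqp
    apply hq
    have : q = ExtCitation.pPrime p := Subtype.ext hqp
    rw [this]
    exact hpS
  refine CapitQ.kum_eq_zero hzprim hβ0 hχ hsK ?_
  refine Capit.inertia_fixes_root K β b p hp.ne_zero hβ A q hcop hA 1 ?_ s hs hsK
  have h1 : ((1 : K) : Qb) = 1 := rfl
  rw [h1, one_pow, mul_one]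
  exact hu

/-- A function on `Gq` which is additive on `G_K`, vanishes on `Fix F' ∩ G_K` for a finite `F'`
and on the inertia groups outside `T`, has level `T` on `G_K`. -/
theorem level_of_additive (T : Finset Nat.Primes) (K : IntermediateField ℚ Qb)
    (hK : K.IsUnramifiedOutside T) (f : Gq → ZMod p)
    (hadd : ∀ g ∈ K.fixingSubgroup, ∀ s ∈ K.fixingSubgroup, f (g * s) = f g + f s)
    (hfin : ∃ F' : IntermediateField ℚ Qb, FiniteDimensional ℚ F' ∧
      ∀ s ∈ F'.fixingSubgroup, s ∈ K.fixingSubgroup → f s = 0)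
    (hunr : ∀ q : Nat.Primes, q ∉ T → ∀ A : ValuationSubring Qb, A.LiesOverPrime (q : ℕ) →
      ∀ s ∈ A.inertiaSubgroupIn ℚ, f s = 0) :
    ∃ F₁ : IntermediateField ℚ Qb, F₁.IsUnramifiedOutside T ∧
      ∀ g ∈ K.fixingSubgroup, ∀ s ∈ F₁.fixingSubgroup, f (g * s) = f g := by
  have h1 : f 1 = 0 := by
    have h := hadd 1 (one_mem _) 1 (one_mem _)
    rw [mul_one] at h
    exact left_eq_add.mp h
  obtain ⟨F', hF', hF'0⟩ := hfin
  refine FactK.level_of_unramified T K hK f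
    ⟨F', hF', fun g hg s hs hsK => by rw [hadd g hg s hsK, hF'0 s hs hsK, add_zero]⟩
    ⟨⊥, IntermediateField.isUnramifiedOutside_bot T,
      fun g₁ hg₁ g₂ hg₂ s₁ hs₁ s₂ hs₂ hs₁K hs₂K => ?_⟩
    (fun q hq A hA s hs => by rw [hunr q hq A hA s hs, h1])
  rw [hadd _ (mul_mem hg₁ hs₁K) _ (mul_mem hg₂ hs₂K), hadd g₁ hg₁ g₂ hg₂]
  ring

/-- The prime number below a place is unique. -/
theorem prime_unique {K : IntermediateField ℚ Qb} [NumberField K]
    (v : HeightOneSpectrum (𝓞 K)) (q q' : Nat.Primes)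
    (h : ((q : ℕ) : 𝓞 K) ∈ v.asIdeal) (h' : ((q' : ℕ) : 𝓞 K) ∈ v.asIdeal) : q = q' := by
  by_contra hne
  have hcop : Nat.Coprime (q : ℕ) (q' : ℕ) :=
    (Nat.coprime_primes q.2 q'.2).mpr (fun h => hne (Subtype.ext h))
  have h1 : (1 : 𝓞 K) ∈ v.asIdeal := by
    obtain ⟨a, b, hab⟩ := Nat.isCoprime_iff_coprime.mpr hcop
    have h2 : (1 : 𝓞 K) = (a : 𝓞 K) * ((q : ℕ) : 𝓞 K) + (b : 𝓞 K) * ((q' : ℕ) : 𝓞 K) := by
      have := congrArg (fun z : ℤ => (z : 𝓞 K)) hab
      simp only [Int.cast_add, Int.cast_mul, Int.cast_natCast, Int.cast_one] at this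
      exact this.symm
    rw [h2]
    exact v.asIdeal.add_mem (v.asIdeal.mul_mem_left _ h) (v.asIdeal.mul_mem_left _ h')
  exact v.isPrime.ne_top ((Ideal.eq_top_iff_one _).mpr h1)

/-- **(KD) with divisor, `K`-side.**  Let `a ∈ Kˣ` with Kummer character `χ`, `q ∉ S` a prime and,
for the places `w` of `K` above `q`, Kummer characters `κ w` of uniformisers `π w` at `w` which
are units at the other places above `q`.  If `W` is a finite set of places above `q` containing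
those at which `dv a` does not vanish, then `χ - ∑_{w ∈ W} dv a w • κ w` has level `T'` on `G_K`
for a finite set `T' ⊇ S` of primes NOT containing `q`. -/
theorem kumdiv_level (S : Finset Nat.Primes) (hpS : ExtCitation.pPrime p ∈ S)
    (K : IntermediateField ℚ Qb) (hK : K.IsUnramifiedOutside S) [NumberField K] (ζ : K)
    (hζ : IsPrimitiveRoot ζ p) (a : Kˣ) (ϑ : Qb) (hϑ : ϑ ^ p = ((a : K) : Qb))
    (χ : Gq → ZMod p) (hχ : ∀ s ∈ K.fixingSubgroup, s ϑ = (ζ : Qb) ^ (χ s).val * ϑ)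
    (q : Nat.Primes) (hq : q ∉ S)
    (π : Outside (SK S K) → K) (ϖ : Outside (SK S K) → Qb) (κ : Outside (SK S K) → Gq → ZMod p)
    (hπ : ∀ w : Outside (SK S K), ((q : ℕ) : 𝓞 K) ∈ w.1.asIdeal →
      w.1.valuation K (π w) = WithZero.exp (-1 : ℤ))
    (hπ' : ∀ w : Outside (SK S K), ((q : ℕ) : 𝓞 K) ∈ w.1.asIdeal →
      ∀ v : HeightOneSpectrum (𝓞 K), ((q : ℕ) : 𝓞 K) ∈ v.asIdeal → v ≠ w.1 →
        v.valuation K (π w) = 1)
    (hϖ : ∀ w : Outside (SK S K), ((q : ℕ) : 𝓞 K) ∈ w.1.asIdeal → ϖ w ^ p = (π w : Qb))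
    (hκ : ∀ w : Outside (SK S K), ((q : ℕ) : 𝓞 K) ∈ w.1.asIdeal →
      ∀ s ∈ K.fixingSubgroup, s (ϖ w) = (ζ : Qb) ^ (κ w s).val * ϖ w)
    (W : Finset (Outside (SK S K))) (hW : ∀ w ∈ W, ((q : ℕ) : 𝓞 K) ∈ w.1.asIdeal)
    (hW' : ∀ w : Outside (SK S K), ((q : ℕ) : 𝓞 K) ∈ w.1.asIdeal → w ∉ W → dv p S K a w = 0) :
    ∃ T' : Finset Nat.Primes, S ⊆ T' ∧ q ∉ T' ∧
      ∃ F₂ : IntermediateField ℚ Qb, F₂.IsUnramifiedOutside T' ∧
        ∀ g ∈ K.fixingSubgroup, ∀ s ∈ F₂.fixingSubgroup,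
          χ (g * s) - ∑ w ∈ W, dv p S K a w * κ w (g * s)
            = χ g - ∑ w ∈ W, dv p S K a w * κ w g := by
  classical
  have hp : p.Prime := Fact.out
  have : NeZero p := ⟨hp.ne_zero⟩
  have hzprim : IsPrimitiveRoot ((ζ : K) : Qb) p :=
    hζ.map_of_injective (f := K.val) K.val.injective
  have hfixz : ∀ τ ∈ K.fixingSubgroup, τ ((ζ : K) : Qb) = ζ := fun τ hτ =>
    (IntermediateField.mem_fixingSubgroup_iff K τ).mp hτ _ ζ.2
  have ha0 : ((a : K) : Qb) ≠ 0 := fun h => a.ne_zero (Subtype.ext h)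
  have hϑ0 : ϑ ≠ 0 := by
    rintro rfl
    rw [zero_pow hp.ne_zero] at hϑ
    exact ha0 hϑ.symm
  have hπ0 : ∀ w : Outside (SK S K), ((q : ℕ) : 𝓞 K) ∈ w.1.asIdeal → (π w : Qb) ≠ 0 := by
    intro w hw h
    have h1 := hπ w hw
    have h2 : π w = 0 := Subtype.ext h
    rw [h2, map_zero] at h1
    exact WithZero.exp_ne_zero h1.symm
  have hϖ0 : ∀ w : Outside (SK S K), ((q : ℕ) : 𝓞 K) ∈ w.1.asIdeal → ϖ w ≠ 0 := by
    intro w hw h
    have h1 := hϖ w hw
    rw [h, zero_pow hp.ne_zero] at h1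
    exact hπ0 w hw h1.symm
  -- additivity
  have hχmul : ∀ s ∈ K.fixingSubgroup, ∀ t ∈ K.fixingSubgroup, χ (s * t) = χ s + χ t :=
    fun s hs t ht => CapitQ.kum_mul hzprim hϑ0 hfixz hχ hs ht
  have hκmul : ∀ w ∈ W, ∀ s ∈ K.fixingSubgroup, ∀ t ∈ K.fixingSubgroup,
      κ w (s * t) = κ w s + κ w t :=
    fun w hw s hs t ht =>
      CapitQ.kum_mul hzprim (hϖ0 w (hW w hw)) hfixz (hκ w (hW w hw)) hs ht
  have hadd : ∀ g ∈ K.fixingSubgroup, ∀ s ∈ K.fixingSubgroup,
      χ (g * s) - ∑ w ∈ W, dv p S K a w * κ w (g * s)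
        = (χ g - ∑ w ∈ W, dv p S K a w * κ w g) + (χ s - ∑ w ∈ W, dv p S K a w * κ w s) := by
    intro g hg s hs
    have h1 : ∑ w ∈ W, dv p S K a w * κ w (g * s)
        = ∑ w ∈ W, dv p S K a w * κ w g + ∑ w ∈ W, dv p S K a w * κ w s := by
      rw [← Finset.sum_add_distrib]
      refine Finset.sum_congr rfl fun w hw => ?_
      rw [hκmul w hw g hg s hs, mul_add]
    rw [hχmul g hg s hs, h1]
    ring
  -- the bad primes
  obtain ⟨Ba, hBa⟩ := CapitQ.exists_finset_valuation_eq_one ((a : K) : Qb) ha0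
  have hBπ : ∀ w : Outside (SK S K), ∃ B : Finset Nat.Primes, w ∈ W → ∀ q' : Nat.Primes,
      q' ∉ B → ∀ A : ValuationSubring Qb, A.LiesOverPrime (q' : ℕ) →
        A.valuation (π w : Qb) = 1 := by
    intro w
    by_cases hw : w ∈ W
    · obtain ⟨B, hB⟩ := CapitQ.exists_finset_valuation_eq_one (π w : Qb) (hπ0 w (hW w hw))
      exact ⟨B, fun _ => hB⟩
    · exact ⟨∅, fun h => absurd h hw⟩
  choose Bπ hBπ using hBπ
  have hST' : S ⊆ (S ∪ Ba ∪ W.biUnion Bπ).erase q := by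
    intro x hx
    exact Finset.mem_erase.mpr
      ⟨fun h => hq (h ▸ hx), Finset.mem_union_left _ (Finset.mem_union_left _ hx)⟩
  refine ⟨(S ∪ Ba ∪ W.biUnion Bπ).erase q, hST', Finset.notMem_erase _ _, ?_⟩
  refine level_of_additive _ K (hK.mono hST')
    (fun g => χ g - ∑ w ∈ W, dv p S K a w * κ w g) hadd ?_ ?_
  · -- finite level
    let X : Set Qb := insert ϑ ((W.image ϖ : Finset Qb) : Set Qb)
    have hint : ∀ x ∈ X, IsIntegral ℚ x :=
      fun x _ => ((AlgebraicClosure.isAlgebraic ℚ).isAlgebraic x).isIntegral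
    have hfinite : X.Finite := (Finset.finite_toSet _).insert _
    haveI : Finite ↥X := hfinite.to_subtype
    refine ⟨IntermediateField.adjoin ℚ X,
      IntermediateField.finiteDimensional_adjoin hint, fun s hs hsK => ?_⟩
    have hfix : ∀ x ∈ X, s x = x := fun x hx =>
      (IntermediateField.mem_fixingSubgroup_iff _ s).mp hs x
        (IntermediateField.subset_adjoin ℚ _ hx)
    have hχs : χ s = 0 :=
      CapitQ.kum_eq_zero hzprim hϑ0 hχ hsK (hfix ϑ (Set.mem_insert _ _))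
    have hκs : ∀ w ∈ W, κ w s = 0 := fun w hw =>
      CapitQ.kum_eq_zero hzprim (hϖ0 w (hW w hw)) (hκ w (hW w hw)) hsK
        (hfix (ϖ w) (Set.mem_insert_of_mem _ (Finset.mem_coe.mpr (Finset.mem_image_of_mem ϖ hw))))
    show χ s - ∑ w ∈ W, dv p S K a w * κ w s = 0
    rw [hχs, Finset.sum_eq_zero (fun w hw => by rw [hκs w hw, mul_zero]), sub_zero]
  · -- unramified outside `T'`
    intro q' hq' A hA s hs
    show χ s - ∑ w ∈ W, dv p S K a w * κ w s = 0
    by_cases hqq : q' = q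
    · subst hqq
      have hsK : s ∈ K.fixingSubgroup := hK.2 q' hq A hA hs
      have hw₀mem : placeUnder K A q'.2 hA ∉ SK S K := by
        rw [not_mem_SK_iff]
        intro x hx hmem
        have hxq : x = q' := prime_unique (placeUnder K A q'.2 hA) x q' hmem
          ((natCast_mem_primeUnder_iff K A q').mpr hA)
        exact hq (hxq ▸ hx)
      set w₀ : Outside (SK S K) := ⟨placeUnder K A q'.2 hA, hw₀mem⟩ with hw₀
      have hw₀q : ((q' : ℕ) : 𝓞 K) ∈ w₀.1.asIdeal := (natCast_mem_primeUnder_iff K A q').mpr hA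
      obtain ⟨t, ⟨F_A, -, hFA2, hFA3⟩, ht⟩ := kummer_divisor_dv S hpS K hK ζ hζ a ϑ hϑ χ hχ
        q' hq A hA w₀ rfl (π w₀) (ϖ w₀) (hπ w₀ hw₀q) (hϖ w₀ hw₀q) (κ w₀) (hκ w₀ hw₀q)
      have hχ1 : χ 1 = 0 := CapitQ.kum_eq_zero hzprim hϑ0 hχ (one_mem _) (by simp)
      have hκ1 : κ w₀ 1 = 0 :=
        CapitQ.kum_eq_zero hzprim (hϖ0 w₀ hw₀q) (hκ w₀ hw₀q) (one_mem _) (by simp)
      have ht1 : t 1 = 0 := by
        have h := ht 1 (one_mem _)
        rw [hχ1, hκ1, mul_zero, add_zero] at h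
        exact h.symm
      have hts : t s = 0 := by
        have h := hFA3 1 s (hFA2 hs)
        rw [one_mul] at h
        rw [h, ht1]
      have hχs : χ s = dv p S K a w₀ * κ w₀ s := by rw [ht s hsK, hts, zero_add]
      have hother : ∀ w ∈ W, w ≠ w₀ → κ w s = 0 := by
        intro w hw hne
        have hv : w₀.1.valuation K (π w) = 1 :=
          hπ' w (hW w hw) w₀.1 hw₀q (fun h => hne (Subtype.ext h.symm))
        have hu : A.valuation ((π w : K) : Qb) = 1 :=
          (valuation_eq_one_iff (F := K) (A := A) (v := w₀.1) rfl (π w)).mp hv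
        exact kum_inertia_eq_zero S hpS K hK ζ hζ (π w) (ϖ w) (hϖ w (hW w hw))
          (hϖ0 w (hW w hw)) (κ w) (hκ w (hW w hw)) q' hq A hA hu s hs
      by_cases hw₀W : w₀ ∈ W
      · rw [Finset.sum_eq_single_of_mem w₀ hw₀W
          (fun w hw hne => by rw [hother w hw hne, mul_zero]), hχs, sub_self]
      · rw [Finset.sum_eq_zero
          (fun w hw => by rw [hother w hw (fun h => hw₀W (h ▸ hw)), mul_zero]), hχs,
          hW' w₀ hw₀q hw₀W, zero_mul, sub_zero]
    · have hq'' : q' ∉ S ∪ Ba ∪ W.biUnion Bπ := fun h => hq' (Finset.mem_erase.mpr ⟨hqq, h⟩)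
      simp only [Finset.mem_union, not_or] at hq''
      have hχs : χ s = 0 := kum_inertia_eq_zero S hpS K hK ζ hζ (a : K) ϑ hϑ hϑ0 χ hχ q'
        hq''.1.1 A hA (hBa q' hq''.1.2 A hA) s hs
      have hκs : ∀ w ∈ W, κ w s = 0 := fun w hw =>
        kum_inertia_eq_zero S hpS K hK ζ hζ (π w) (ϖ w) (hϖ w (hW w hw)) (hϖ0 w (hW w hw))
          (κ w) (hκ w (hW w hw)) q' hq''.1.1 A hA
          (hBπ w hw q' (fun h => hq''.2 (Finset.mem_biUnion.mpr ⟨w, hw, h⟩)) A hA) s hs
      rw [hχs, Finset.sum_eq_zero (fun w hw => by rw [hκs w hw, mul_zero]), sub_zero]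

end KSide

/-! ### Families of uniformisers -/

/-- A family of uniformisers with Kummer characters for the places of `K` outside `S_K`: for every
such place `w`, the prime `l w` below it, `π w ∈ K` a uniformiser at `w` which is a unit at the
other places above `l w`, a `p`-th root `ϖ w` of `π w` and a Kummer character `κ w` of `ϖ w`
(the data of `CapitQ.capQ`). -/
structure UFam (p : ℕ) (S : Finset Nat.Primes) (K : IntermediateField ℚ Qb) [NumberField K]
    (ζ : K) where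
  /-- the prime below `w` -/
  l : Outside (SK S K) → Nat.Primes
  hl : ∀ w : Outside (SK S K), ((l w : ℕ) : 𝓞 K) ∈ w.1.asIdeal
  /-- the uniformiser at `w` -/
  π : Outside (SK S K) → K
  hπ : ∀ w : Outside (SK S K), w.1.valuation K (π w) = WithZero.exp (-1 : ℤ)
  hπ' : ∀ w : Outside (SK S K), ∀ v : HeightOneSpectrum (𝓞 K),
    ((l w : ℕ) : 𝓞 K) ∈ v.asIdeal → v ≠ w.1 → v.valuation K (π w) = 1
  /-- a `p`-th root of the uniformiser -/
  ϖ : Outside (SK S K) → Qb
  hϖ : ∀ w : Outside (SK S K), ϖ w ^ p = (π w : Qb)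
  /-- the Kummer character of the uniformiser -/
  κ : Outside (SK S K) → K.fixingSubgroup → Rep.trivial (ZMod p) K.fixingSubgroup (ZMod p)
  hκ : ∀ (w : Outside (SK S K)) (s : K.fixingSubgroup),
    (s : Gq) (ϖ w) = (ζ : Qb) ^ (ZMod.val (κ w s : ZMod p)) * ϖ w

namespace UFam

variable {p : ℕ} {S : Finset Nat.Primes} {K : IntermediateField ℚ Qb} [NumberField K] {ζ : K}
  (F : UFam p S K ζ)

theorem l_notMem (w : Outside (SK S K)) : F.l w ∉ S := fun h =>
  (not_mem_SK_iff S K w.1).1 w.2 (F.l w) h (F.hl w)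

theorem l_eq (w : Outside (SK S K)) (q : Nat.Primes) (h : ((q : ℕ) : 𝓞 K) ∈ w.1.asIdeal) :
    F.l w = q := prime_unique w.1 (F.l w) q (F.hl w) h

theorem π_ne_zero (w : Outside (SK S K)) : F.π w ≠ 0 := by
  intro h
  have h1 := F.hπ w
  rw [h, map_zero] at h1
  exact WithZero.exp_ne_zero h1.symm

end UFam

/-- Families of uniformisers exist. -/
theorem nonempty_ufam (p : ℕ) [Fact p.Prime] (S : Finset Nat.Primes)
    (K : IntermediateField ℚ Qb) [NumberField K] (ζ : K) (hζ : IsPrimitiveRoot ζ p) :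
    Nonempty (UFam p S K ζ) := by
  classical
  have h1 : ∀ w : Outside (SK S K), ∃ l : Nat.Primes, ((l : ℕ) : 𝓞 K) ∈ w.1.asIdeal := by
    intro w
    obtain ⟨ℓ, hℓ, hmem⟩ := exists_prime_natCast_mem w.1
    exact ⟨⟨ℓ, hℓ⟩, hmem⟩
  choose l hl using h1
  have h2 : ∀ w : Outside (SK S K), ∃ π : K, π ≠ 0 ∧
      w.1.valuation K π = WithZero.exp (-1 : ℤ) ∧
      ∀ v : HeightOneSpectrum (𝓞 K), ((l w : ℕ) : 𝓞 K) ∈ v.asIdeal → v ≠ w.1 →
        v.valuation K π = 1 :=
    fun w => CapitQ.exists_uniformizer K w.1 (l w : ℕ) (l w).2.ne_zero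
  choose π hπ0 hπ hπ' using h2
  have h3 : ∀ w : Outside (SK S K), ∃ (β : Qb) (χ : Gq → ZMod p), β ^ p = (π w : Qb) ∧
      ∀ s ∈ K.fixingSubgroup, s β = (ζ : Qb) ^ (χ s).val * β :=
    fun w => exists_kum K ζ hζ (π w)
  choose ϖ κ hϖ hκ using h3
  exact ⟨⟨l, hl, π, hπ, hπ', ϖ, hϖ, fun w s => κ w (s : Gq), fun w s => hκ w s s.2⟩⟩

/-! ### `ℚ`-side -/

section QSide

open Fermat.Agent.S55.Abs Fermat.Agent.S55.Shapiro Fermat.Agent.S55.Base.EvalQ

variable {p : ℕ} [Fact p.Prime]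

/-- The `ℚ`-side Kummer cocycle of `γ ∈ Kˣ` is a level cocycle for some finite level `T ⊇ S`
(which may be taken to contain any given finite set `T₀`). -/
theorem exists_level_kum (S : Finset Nat.Primes) (hpS : ExtCitation.pPrime p ∈ S)
    (K : IntermediateField ℚ Qb) (hK : K.IsUnramifiedOutside S) (ζ : K)
    (hζ : IsPrimitiveRoot ζ p) (γ : K) (hγ : γ ≠ 0) (ϖ : Qb) (hϖ : ϖ ^ p = (γ : Qb))
    (κ : K.fixingSubgroup → Rep.trivial (ZMod p) K.fixingSubgroup (ZMod p))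
    (hκ : ∀ s : K.fixingSubgroup, (s : Gq) ϖ = (ζ : Qb) ^ (ZMod.val (κ s : ZMod p)) * ϖ)
    (R : Retr K.fixingSubgroup) (T₀ : Finset Nat.Primes) :
    ∃ T : Finset Nat.Primes, S ⊆ T ∧ T₀ ⊆ T ∧
      ind₁ (Rep.trivial (ZMod p) K.fixingSubgroup (ZMod p)) R κ
        ∈ Z1 (globalLevel T) (M0 (ZMod p) K.fixingSubgroup) := by
  classical
  obtain ⟨B, hB⟩ := CapitQ.exists_finset_valuation_eq_one (γ : Qb) (fun h => hγ (Subtype.ext h))
  refine ⟨S ∪ B ∪ T₀, fun x hx => Finset.mem_union_left _ (Finset.mem_union_left _ hx),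
    Finset.subset_union_right, ?_⟩
  refine CapitQ.kdQ S hpS K hK ζ hζ γ hγ ϖ hϖ κ hκ R _
    (fun x hx => Finset.mem_union_left _ (Finset.mem_union_left _ hx)) (fun q hq A hA => ?_)
  exact hB q (fun h => hq (Finset.mem_union_left _ (Finset.mem_union_right _ h))) A hA

/-- **(KD) with divisor, `ℚ`-side.**  For `a ∈ Kˣ` with Kummer character `χ` and a prime `q ∉ S`:
the cochain `ind₁ χ - ∑_{w | q} dv a w • ind₁ (κ w)` has a level `T' ∌ q`; in particular its
restriction at `q` is an unramified cochain. -/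
theorem kd_divisor (S : Finset Nat.Primes) (hpS : ExtCitation.pPrime p ∈ S)
    (K : IntermediateField ℚ Qb) (hK : K.IsUnramifiedOutside S) [NumberField K] (ζ : K)
    (hζ : IsPrimitiveRoot ζ p) (F : UFam p S K ζ) (R : Retr K.fixingSubgroup)
    (a : Kˣ) (ϑ : Qb) (hϑ : ϑ ^ p = ((a : K) : Qb))
    (χ : K.fixingSubgroup → Rep.trivial (ZMod p) K.fixingSubgroup (ZMod p))
    (hχ : ∀ s : K.fixingSubgroup, (s : Gq) ϑ = (ζ : Qb) ^ (ZMod.val (χ s : ZMod p)) * ϑ)
    (q : Nat.Primes) (hq : q ∉ S) :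
    ∃ T' : Finset Nat.Primes, S ⊆ T' ∧ q ∉ T' ∧
      ind₁ (Rep.trivial (ZMod p) K.fixingSubgroup (ZMod p)) R χ
        - ∑ w ∈ (dv p S K a).support.filter (fun w => F.l w = q),
            dv p S K a w • ind₁ (Rep.trivial (ZMod p) K.fixingSubgroup (ZMod p)) R (F.κ w)
        ∈ C1 (globalLevel T') (M0 (ZMod p) K.fixingSubgroup) := by
  classical
  -- extension by zero to `Gq`
  let ext : (K.fixingSubgroup → Rep.trivial (ZMod p) K.fixingSubgroup (ZMod p)) → Gq → ZMod p :=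
    fun β g => if h : g ∈ K.fixingSubgroup then (β ⟨g, h⟩ : ZMod p) else 0
  have hext : ∀ (β : K.fixingSubgroup → Rep.trivial (ZMod p) K.fixingSubgroup (ZMod p))
      (s : K.fixingSubgroup), ext β (s : Gq) = (β s : ZMod p) := by
    intro β s
    simp only [ext, dif_pos s.2]
  have hχ' : ∀ s ∈ K.fixingSubgroup, s ϑ = (ζ : Qb) ^ (ext χ s).val * ϑ := by
    intro s hs
    have := hχ ⟨s, hs⟩
    rw [← hext χ ⟨s, hs⟩] at this
    exact this
  have hκ' : ∀ w : Outside (SK S K), ∀ s ∈ K.fixingSubgroup,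
      s (F.ϖ w) = (ζ : Qb) ^ (ext (F.κ w) s).val * F.ϖ w := by
    intro w s hs
    have := F.hκ w ⟨s, hs⟩
    rw [← hext (F.κ w) ⟨s, hs⟩] at this
    exact this
  obtain ⟨T', hST', hqT', F₂, hF₂, hlev⟩ := kumdiv_level S hpS K hK ζ hζ a ϑ hϑ (ext χ) hχ' q hq
    F.π F.ϖ (fun w => ext (F.κ w)) (fun w _ => F.hπ w)
    (fun w hw v hv hne => F.hπ' w v (by rw [F.l_eq w q hw]; exact hv) hne)
    (fun w _ => F.hϖ w) (fun w _ => hκ' w)
    ((dv p S K a).support.filter (fun w => F.l w = q))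
    (fun w hw => by
      have h := (Finset.mem_filter.mp hw).2
      rw [← h]
      exact F.hl w)
    (fun w hw hnot => by
      by_contra hne
      exact hnot (Finset.mem_filter.mpr ⟨Finsupp.mem_support_iff.mpr hne, F.l_eq w q hw⟩))
  refine ⟨T', hST', hqT', ?_⟩
  have key : ind₁ (Rep.trivial (ZMod p) K.fixingSubgroup (ZMod p)) R χ
      - ∑ w ∈ (dv p S K a).support.filter (fun w => F.l w = q),
          dv p S K a w • ind₁ (Rep.trivial (ZMod p) K.fixingSubgroup (ZMod p)) R (F.κ w)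
      = ind₁ (Rep.trivial (ZMod p) K.fixingSubgroup (ZMod p)) R
          (χ - ∑ w ∈ (dv p S K a).support.filter (fun w => F.l w = q),
            dv p S K a w • F.κ w) := by
    rw [map_sub, map_sum]
    simp only [map_smul]
  rw [key]
  have hU : ∃ W ∈ (globalLevel T').sets, W ≤ K.fixingSubgroup :=
    ⟨K.fixingSubgroup, ⟨K, hK.mono hST', rfl⟩, le_rfl⟩
  refine isLev₁_ind₁ R hU ?_
  rw [isLev₁_subLevel_iff]
  refine ⟨F₂.fixingSubgroup, ⟨F₂, hF₂, rfl⟩, fun g s hs => ?_⟩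
  have h := hlev (g : Gq) g.2 (s : Gq) hs
  have hval : ∀ u : K.fixingSubgroup,
      ((χ - ∑ w ∈ (dv p S K a).support.filter (fun w => F.l w = q), dv p S K a w • F.κ w) u
        : ZMod p)
      = ext χ (u : Gq) - ∑ w ∈ (dv p S K a).support.filter (fun w => F.l w = q),
          dv p S K a w * ext (F.κ w) (u : Gq) := by
    intro u
    rw [hext χ u]
    simp only [hext]
    rw [Pi.sub_apply, Finset.sum_apply]
    rfl
  have hgs : ((g * s : K.fixingSubgroup) : Gq) = (g : Gq) * (s : Gq) := rfl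
  rw [← hgs] at h
  exact (hval (g * s)).trans (h.trans (hval g).symm)

/-! ### The contract `Kill` of `Base/C4Shape` -/

section Theta

variable {S : Finset Nat.Primes} {K : IntermediateField ℚ Qb} [NumberField K] {ζ : K}

/-- **The family `θ` of the base case**: `θ q o = res_q (ind₁ A R (κ o))` for the places `o` of `K`
above `q` (the restriction at `q` of the `ℚ`-side Kummer cocycle of the uniformiser at `o`). -/
noncomputable def thetaFam (I : ArithInput p S) (hpS : ExtCitation.pPrime p ∈ S)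
    (hK : K.IsUnramifiedOutside S) (hζ : IsPrimitiveRoot ζ p) (F : UFam p S K ζ)
    (R : Retr K.fixingSubgroup) : C4.ThetaFam I.datum (M0 (ZMod p) K.fixingSubgroup) where
  O := Outside (SK S K)
  pr := F.l
  θ := fun w o => @ite _ (F.l o = w) (Classical.propDecidable _)
    (res₁ I.datum.loc (M0 (ZMod p) K.fixingSubgroup) w
      (ind₁ (Rep.trivial (ZMod p) K.fixingSubgroup (ZMod p)) R (F.κ o))) 0
  θ_zero := fun w o h => if_neg h
  θ_mem := fun w o => by
    by_cases h : F.l o = w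
    · rw [if_pos h]
      obtain ⟨T, -, -, hT⟩ := exists_level_kum S hpS K hK ζ hζ (F.π o) (F.π_ne_zero o) (F.ϖ o)
        (F.hϖ o) (F.κ o) (F.hκ o) R ∅
      exact I.datum.res₁_mem_Z1 T w hT
    · rw [if_neg h]
      exact Submodule.zero_mem _

theorem thetaFam_θ_of_eq (I : ArithInput p S) (hpS : ExtCitation.pPrime p ∈ S)
    (hK : K.IsUnramifiedOutside S) (hζ : IsPrimitiveRoot ζ p) (F : UFam p S K ζ)
    (R : Retr K.fixingSubgroup) (w : Nat.Primes) (o : Outside (SK S K)) (h : F.l o = w) :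
    (thetaFam I hpS hK hζ F R).θ w o
      = res₁ I.datum.loc (M0 (ZMod p) K.fixingSubgroup) w
          (ind₁ (Rep.trivial (ZMod p) K.fixingSubgroup (ZMod p)) R (F.κ o)) :=
  if_pos h

theorem thetaFam_θ_of_ne (I : ArithInput p S) (hpS : ExtCitation.pPrime p ∈ S)
    (hK : K.IsUnramifiedOutside S) (hζ : IsPrimitiveRoot ζ p) (F : UFam p S K ζ)
    (R : Retr K.fixingSubgroup) (w : Nat.Primes) (o : Outside (SK S K)) (h : F.l o ≠ w) :
    (thetaFam I hpS hK hζ F R).θ w o = 0 :=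
  if_neg h

/-- The local cocycle of a divisor: only the places above `w` contribute. -/
theorem thetaFam_lc (I : ArithInput p S) (hpS : ExtCitation.pPrime p ∈ S)
    (hK : K.IsUnramifiedOutside S) (hζ : IsPrimitiveRoot ζ p) (F : UFam p S K ζ)
    (R : Retr K.fixingSubgroup) (w : Nat.Primes) (d : Outside (SK S K) →₀ ZMod p) :
    (thetaFam I hpS hK hζ F R).lc w d
      = res₁ I.datum.loc (M0 (ZMod p) K.fixingSubgroup) w
          (∑ o ∈ d.support.filter (fun o => F.l o = w),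
            d o • ind₁ (Rep.trivial (ZMod p) K.fixingSubgroup (ZMod p)) R (F.κ o)) := by
  classical
  rw [C4.ThetaFam.lc_apply, Finsupp.sum, map_sum, Finset.sum_filter]
  refine Finset.sum_congr rfl fun o _ => ?_
  by_cases h : F.l o = w
  · rw [if_pos h, map_smul, thetaFam_θ_of_eq I hpS hK hζ F R w o h]
    rfl
  · rw [if_neg h, thetaFam_θ_of_ne I hpS hK hζ F R w o h, smul_zero]

/-- **(KILL) for the base case**: the principal divisors are global.  For `d = dv a`, the global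
cocycle is the `ℚ`-side Kummer cocycle `ind₁ A R χ_a` of `a`. -/
theorem kill (I : ArithInput p S) (hpS : ExtCitation.pPrime p ∈ S)
    (hK : K.IsUnramifiedOutside S) (hζ : IsPrimitiveRoot ζ p) (F : UFam p S K ζ)
    (R : Retr K.fixingSubgroup) :
    (thetaFam I hpS hK hζ F R).Kill (LinearMap.range (ordP p S K)) := by
  classical
  intro d hd
  obtain ⟨γ, hγ⟩ := hd
  obtain ⟨a, ha⟩ := exists_dv_eq_ordP γ
  have hd' : d = dv p S K a := hγ.symm.trans ha
  subst hd'
  obtain ⟨ϑ, χ₀, hϑ, hχ₀⟩ := exists_kum K ζ hζ (a : K)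
  obtain ⟨T, hST, hT₀, hκ⟩ := exists_level_kum S hpS K hK ζ hζ (a : K) a.ne_zero ϑ hϑ
    (fun s => χ₀ (s : Gq)) (fun s => hχ₀ s s.2) R ((dv p S K a).support.image F.l)
  refine ⟨T, ind₁ (Rep.trivial (ZMod p) K.fixingSubgroup (ZMod p)) R (fun s => χ₀ (s : Gq)),
    hST, hκ, fun o ho => hT₀ (Finset.mem_image_of_mem F.l ho), fun w _ hwS => ?_⟩
  obtain ⟨T', -, hwT', hmem⟩ := kd_divisor S hpS K hK ζ hζ F R a ϑ hϑ
    (fun s => χ₀ (s : Gq)) (fun s => hχ₀ s s.2) w hwS
  refine ⟨res₁ I.datum.loc (M0 (ZMod p) K.fixingSubgroup) w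
    (ind₁ (Rep.trivial (ZMod p) K.fixingSubgroup (ZMod p)) R (fun s => χ₀ (s : Gq))
      - ∑ o ∈ (dv p S K a).support.filter (fun o => F.l o = w),
          dv p S K a o • ind₁ (Rep.trivial (ZMod p) K.fixingSubgroup (ZMod p)) R (F.κ o)), 0,
    ?_, ?_⟩
  · exact IsLev₁.precomp (isLevelMap_urLevel hwT') hmem
  · rw [thetaFam_lc, map_zero, add_zero, map_sub]
    abel

end Theta

end QSide

end Fermat.Agent.S55.Base.C4Principal
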