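import Fermat.Agent.S55.Base.CapitQ2
import Fermat.Agent.S55.Glue.LocalDegreeMackey
import Fermat.Agent.S55.Glue.LocalRange
import Fermat.Agent.S55.Shapiro.ArithD

/-!
# S55, BASE: places of `K` above `l` along a Mackey system of representatives

`K ≤ Qb` a number field, `l` a prime, `D : DRep K.fixingSubgroup (primeLocalToGlobal l) J` a
system of representatives `τ j` of `G_K \ G_ℚ / G_l`.

* `vOf K l D j` : the place of `K` under `τ j • primeLocalPlace l`; it lies over `l`
  (`vOf_mem`), `j ↦ vOf K l D j` is injective (`vOf_injective`) and onto the places over `l`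
  (`exists_vOf_eq`); `J` is finite (`finite_of_drep`).
* `exists_uniformizers` : a family `π j ∈ Kˣ`, `π j` a uniformiser at `vOf j` and a unit at the
  other places of `K` above `l` (the hypotheses `hπ`, `hπ'` of `CapitQ.capQ`), hence a unit at
  the valuation rings `τ i • primeLocalPlace l`, `i ≠ j` (`valuation_unif_of_ne`).
-/

set_option autoImplicit false

open scoped NumberField IntermediateField Pointwise
open IsDedekindDomain ExtCitation

namespace Fermat.Agent.S55.Base.CapGen

local notation "Qb" => AlgebraicClosure ℚ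
local notation "Gq" => (AlgebraicClosure ℚ ≃ₐ[ℚ] AlgebraicClosure ℚ)

open Fermat.Agent.S14.Wiring.ValRing Fermat.Agent.S55.Shapiro Fermat.Agent.S55.Glue

variable (K : IntermediateField ℚ Qb) [NumberField K] (l : Nat.Primes) {J : Type}
  (D : DRep K.fixingSubgroup (primeLocalToGlobal l) J)

omit [NumberField K] in
/-- The translates of the distinguished place over `l` lie over `l`. -/
theorem liesOver_smul (g : Gq) : (g • primeLocalPlace l).LiesOverPrime (l : ℕ) :=
  PlacesAbove.liesOverPrime_smul (ArithD.liesOverPrime_primeLocalPlace' l) g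

/-- The place of `K` under `τ j • primeLocalPlace l`. -/
noncomputable def vOf (j : J) : HeightOneSpectrum (𝓞 K) :=
  placeUnder K (D.τ j • primeLocalPlace l) l.2 (liesOver_smul l (D.τ j))

theorem vOf_asIdeal (j : J) :
    (vOf K l D j).asIdeal = primeUnder K (D.τ j • primeLocalPlace l) := rfl

theorem vOf_mem (j : J) : ((l : ℕ) : 𝓞 K) ∈ (vOf K l D j).asIdeal :=
  (natCast_mem_primeUnder_iff K _ l).mpr (liesOver_smul l (D.τ j))

theorem vOf_injective : Function.Injective (vOf K l D) := by
  intro i j hij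
  have h1 : PlacesAbove.placeOfSmul K l.2 (ArithD.liesOverPrime_primeLocalPlace' l) (D.τ i)
      = PlacesAbove.placeOfSmul K l.2 (ArithD.liesOverPrime_primeLocalPlace' l) (D.τ j) :=
    Subtype.ext hij
  obtain ⟨u, hu, d, hd, hτ⟩ :=
    (PlacesAbove.placeOfSmul_eq_iff K l.2 (ArithD.liesOverPrime_primeLocalPlace' l) _ _).mp h1
  rw [← LocalRange.range_primeLocalToGlobal] at hd
  obtain ⟨h, rfl⟩ := hd
  have h2 : D.idx (D.τ j) = D.idx (D.τ i) := by
    rw [hτ]
    exact D.idx_mul ⟨u, hu⟩ (D.τ i) h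
  rw [D.idx_τ, D.idx_τ] at h2
  exact h2.symm

/-- Every place of `K` over `l` is some `vOf j`. -/
theorem exists_vOf_eq (v : HeightOneSpectrum (𝓞 K)) (hv : ((l : ℕ) : 𝓞 K) ∈ v.asIdeal) :
    ∃ j, vOf K l D j = v := by
  obtain ⟨g, hg⟩ := PlacesAbove.exists_smul_primeUnder K l.2
    (ArithD.liesOverPrime_primeLocalPlace' l) v hv
  refine ⟨D.idx g, ?_⟩
  have h1 : PlacesAbove.placeOfSmul K l.2 (ArithD.liesOverPrime_primeLocalPlace' l)
        (D.τ (D.idx g))
      = PlacesAbove.placeOfSmul K l.2 (ArithD.liesOverPrime_primeLocalPlace' l) g := by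
    rw [PlacesAbove.placeOfSmul_eq_iff]
    refine ⟨D.uOf g, (D.uOf g).2, primeLocalToGlobal l (D.hOf g), ?_, D.spec g⟩
    rw [← LocalRange.range_primeLocalToGlobal]
    exact ⟨_, rfl⟩
  have h2 := congrArg Subtype.val h1
  refine HeightOneSpectrum.ext ?_
  rw [hg]
  exact congrArg HeightOneSpectrum.asIdeal h2

include K D in
/-- The index set of a Mackey system of representatives for `G_K \ G_ℚ / G_l` is finite. -/
theorem finite_of_drep : Finite J := by
  have : Finite (PlacesAbove.PlacesOver K (l : ℕ)) := PlacesAbove.finite_placesOver K l.2.ne_zero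
  exact Finite.of_injective
    (fun j => (⟨vOf K l D j, vOf_mem K l D j⟩ : PlacesAbove.PlacesOver K (l : ℕ)))
    (fun i j h => vOf_injective K l D (congrArg Subtype.val h))

/-- Uniformisers at the places `vOf j`, units at the other places above `l`. -/
theorem exists_uniformizers :
    ∃ π : J → Kˣ, ∀ j, (vOf K l D j).valuation K ((π j : Kˣ) : K) = WithZero.exp (-1 : ℤ) ∧
      ∀ v : HeightOneSpectrum (𝓞 K), ((l : ℕ) : 𝓞 K) ∈ v.asIdeal → v ≠ vOf K l D j →
        v.valuation K ((π j : Kˣ) : K) = 1 := by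
  have h : ∀ j, ∃ π : Kˣ, (vOf K l D j).valuation K (π : K) = WithZero.exp (-1 : ℤ) ∧
      ∀ v : HeightOneSpectrum (𝓞 K), ((l : ℕ) : 𝓞 K) ∈ v.asIdeal → v ≠ vOf K l D j →
        v.valuation K (π : K) = 1 := by
    intro j
    obtain ⟨π, hπ0, h1, h2⟩ := CapitQ.exists_uniformizer K (vOf K l D j) (l : ℕ) l.2.ne_zero
    exact ⟨Units.mk0 π hπ0, h1, h2⟩
  choose π hπ using h
  exact ⟨π, hπ⟩

/-- A unit at the place `vOf i` is a unit of `τ i • primeLocalPlace l`. -/
theorem valuation_smul_eq_one_iff (i : J) (x : K) :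
    (D.τ i • primeLocalPlace l).valuation (x : Qb) = 1 ↔ (vOf K l D i).valuation K x = 1 :=
  (valuation_eq_one_iff (F := K) (A := D.τ i • primeLocalPlace l) (v := vOf K l D i) rfl x).symm

/-- The uniformiser at `vOf j` is a unit of `τ i • primeLocalPlace l` for `i ≠ j`. -/
theorem valuation_unif_of_ne {π : K} {i j : J} (hij : i ≠ j)
    (hπ' : ∀ v : HeightOneSpectrum (𝓞 K), ((l : ℕ) : 𝓞 K) ∈ v.asIdeal → v ≠ vOf K l D j →
      v.valuation K π = 1) :
    (D.τ i • primeLocalPlace l).valuation (π : Qb) = 1 :=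
  (valuation_smul_eq_one_iff K l D i π).mpr
    (hπ' _ (vOf_mem K l D i) (fun h => hij (vOf_injective K l D h)))

end Fermat.Agent.S55.Base.CapGen
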