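import Mathlib

/-!
# S55 base case: the linear algebra in `𝕁 = ⊕_{w ∈ S} K_w^×/p ⊕ I_S/p`

Abstract form of section 2 of `notes/helper145/S55_base_case.md`.

* `J`   : "idèles mod `p` mod units outside `S`", a `k`-vector space (possibly infinite-dimensional);
* `JS`  : the finite-dimensional local part `⊕_{w ∈ S} K_w^×/p`;
* `D`   : the image of the global elements `K^×/p`;
* `V`   : `H¹(G_S, μ_p)` (finite-dimensional), `ι : V → J` its localisation (image `= D ⊓ JS`);
* `B`   : the sum of the local symbols, a pairing `J × V → k`.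

Conclusion: `D` is exactly the left kernel of `B`, `dim ker ι = dim J/(D + JS)`
(i.e. `dim Ш¹ = dim Cl_S/p`) and the induced pairing `J/(D+JS) × ker ι → k` is perfect.
-/

set_option autoImplicit false

namespace Fermat.Agent.S55.Base

open Module

variable {k : Type*} [Field k] {J V : Type*} [AddCommGroup J] [Module k J]
  [AddCommGroup V] [Module k V]

/-- A right-nondegenerate pairing `J × V → k` with `V` finite-dimensional is onto `V*`. -/
theorem range_eq_top_of_right_nondegenerate [FiniteDimensional k V] (B : J →ₗ[k] V →ₗ[k] k)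
    (h2 : ∀ y, (∀ Ξ, B Ξ y = 0) → y = 0) : LinearMap.range B = ⊤ := by
  have hco : (LinearMap.range B).dualCoannihilator = ⊥ := by
    rw [Submodule.eq_bot_iff]
    intro y hy
    apply h2 y
    intro Ξ
    rw [Submodule.mem_dualCoannihilator] at hy
    exact hy (B Ξ) ⟨Ξ, rfl⟩
  have h := Subspace.finrank_add_finrank_dualCoannihilator_eq (LinearMap.range B)
  rw [hco, finrank_bot, add_zero] at h
  apply Submodule.eq_top_of_finrank_eq
  rw [h, Subspace.dual_finrank_eq]

/-- The pairing induced on `J ⧸ (D ⊔ JS) × ker ι`. -/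
noncomputable def classPairing (B : J →ₗ[k] V →ₗ[k] k) (D JS : Submodule k J) (ι : V →ₗ[k] J)
    (h1 : ∀ d ∈ D, ∀ y, B d y = 0)
    (h4 : ∀ y, ι y = 0 → ∀ ξ ∈ JS, B ξ y = 0) :
    LinearMap.ker ι →ₗ[k] Module.Dual k (J ⧸ (D ⊔ JS)) where
  toFun y := (D ⊔ JS).liftQ (B.flip y.1) (by
    intro Ξ hΞ
    rw [LinearMap.mem_ker, LinearMap.flip_apply]
    obtain ⟨d, hd, ξ, hξ, rfl⟩ := Submodule.mem_sup.1 hΞ
    rw [map_add, LinearMap.add_apply, h1 d hd, h4 y.1 (LinearMap.mem_ker.1 y.2) ξ hξ, add_zero])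
  map_add' y y' := by
    apply LinearMap.ext
    intro q
    induction q using Submodule.Quotient.induction_on with
    | _ Ξ => simp
  map_smul' c y := by
    apply LinearMap.ext
    intro q
    induction q using Submodule.Quotient.induction_on with
    | _ Ξ => simp

@[simp] theorem classPairing_mk (B : J →ₗ[k] V →ₗ[k] k) (D JS : Submodule k J) (ι : V →ₗ[k] J)
    (h1 : ∀ d ∈ D, ∀ y, B d y = 0)
    (h4 : ∀ y, ι y = 0 → ∀ ξ ∈ JS, B ξ y = 0) (y : LinearMap.ker ι) (Ξ : J) :
    classPairing B D JS ι h1 h4 y (Submodule.Quotient.mk Ξ) = B Ξ y.1 := rfl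

theorem classPairing_injective (B : J →ₗ[k] V →ₗ[k] k) (D JS : Submodule k J) (ι : V →ₗ[k] J)
    (h1 : ∀ d ∈ D, ∀ y, B d y = 0)
    (h2 : ∀ y, (∀ Ξ, B Ξ y = 0) → y = 0)
    (h4 : ∀ y, ι y = 0 → ∀ ξ ∈ JS, B ξ y = 0) :
    Function.Injective (classPairing B D JS ι h1 h4) := by
  rw [← LinearMap.ker_eq_bot, Submodule.eq_bot_iff]
  intro y hy
  rw [LinearMap.mem_ker] at hy
  apply Subtype.ext
  apply h2 y.1
  intro Ξ
  have := congrArg (fun f => f (Submodule.Quotient.mk Ξ)) hy
  simpa using this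

/-- **Main linear-algebra statement of the base case.** -/
theorem idele_la [FiniteDimensional k V] (B : J →ₗ[k] V →ₗ[k] k) (D JS : Submodule k J)
    [FiniteDimensional k JS]
    (ι : V →ₗ[k] J)
    (h1 : ∀ d ∈ D, ∀ y, B d y = 0)
    (h2 : ∀ y, (∀ Ξ, B Ξ y = 0) → y = 0)
    (h3 : LinearMap.range ι = D ⊓ JS)
    (h4 : ∀ y, ι y = 0 ↔ ∀ ξ ∈ JS, B ξ y = 0)
    [FiniteDimensional k (J ⧸ (D ⊔ JS))]
    (h5 : finrank k JS + 2 * finrank k (J ⧸ (D ⊔ JS)) = 2 * finrank k V) :
    D = LinearMap.ker B ∧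
    finrank k (LinearMap.ker ι) = finrank k (J ⧸ (D ⊔ JS)) ∧
    (∀ Ξ, (∀ y, ι y = 0 → B Ξ y = 0) → Ξ ∈ D ⊔ JS) := by
  classical
  set K : Submodule k J := LinearMap.ker B with hK
  have hDK : D ≤ K := by
    intro d hd
    rw [hK, LinearMap.mem_ker]
    apply LinearMap.ext
    intro y
    simpa using h1 d hd y
  -- `b ≤ c`
  have hψ := classPairing_injective B D JS ι h1 h2 (fun y hy => (h4 y).1 hy)
  have hbc : finrank k (LinearMap.ker ι) ≤ finrank k (J ⧸ (D ⊔ JS)) := by
    have := LinearMap.finrank_le_finrank_of_injective hψ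
    rwa [Subspace.dual_finrank_eq] at this
  -- the restriction of `B` to `JS`
  set BS : JS →ₗ[k] V →ₗ[k] k := B.domRestrict JS with hBS
  have hco : (LinearMap.range BS).dualCoannihilator = LinearMap.ker ι := by
    ext y
    rw [Submodule.mem_dualCoannihilator, LinearMap.mem_ker, h4]
    constructor
    · intro h ξ hξ
      exact h (BS ⟨ξ, hξ⟩) ⟨⟨ξ, hξ⟩, rfl⟩
    · rintro h f ⟨ξ, rfl⟩
      exact h ξ.1 ξ.2
  have hrange : finrank k (LinearMap.range BS) + finrank k (LinearMap.ker ι) = finrank k V := by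
    rw [← hco]
    exact Subspace.finrank_add_finrank_dualCoannihilator_eq (LinearMap.range BS)
  have hrn := LinearMap.finrank_range_add_finrank_ker BS
  -- `D ⊓ JS` inside `JS`
  have hι := LinearMap.finrank_range_add_finrank_ker ι
  have hle : Submodule.comap JS.subtype D ≤ LinearMap.ker BS := by
    intro ξ hξ
    rw [LinearMap.mem_ker]
    have := hDK (Submodule.mem_comap.1 hξ)
    rw [hK, LinearMap.mem_ker] at this
    simpa [hBS] using this
  have hcomap : finrank k (Submodule.comap JS.subtype D) = finrank k (LinearMap.range ι) := by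
    have e1 : Submodule.comap JS.subtype D = Submodule.comap JS.subtype (D ⊓ JS) := by
      ext ξ
      simp
    rw [e1, h3]
    exact (Submodule.comapSubtypeEquivOfLe (inf_le_right : D ⊓ JS ≤ JS)).finrank_eq
  have hle2 := Submodule.finrank_mono hle
  -- `c ≤ b`
  have hcb : finrank k (J ⧸ (D ⊔ JS)) ≤ finrank k (LinearMap.ker ι) := by omega
  have hbc' : finrank k (LinearMap.ker ι) = finrank k (J ⧸ (D ⊔ JS)) := le_antisymm hbc hcb
  -- equality `D ⊓ JS = K ⊓ JS` (inside `JS`)
  have heq : Submodule.comap JS.subtype D = LinearMap.ker BS := by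
    apply Submodule.eq_of_le_of_finrank_eq hle
    omega
  -- perfectness on the class-group side
  have hperf : ∀ Ξ, (∀ y, ι y = 0 → B Ξ y = 0) → Ξ ∈ D ⊔ JS := by
    intro Ξ hΞ
    have hsurj : Function.Surjective (classPairing B D JS ι h1 (fun y hy => (h4 y).1 hy)) := by
      apply (LinearMap.injective_iff_surjective_of_finrank_eq_finrank ?_).1 hψ
      rw [Subspace.dual_finrank_eq, hbc']
    rw [← Submodule.Quotient.mk_eq_zero, ← Module.forall_dual_apply_eq_zero_iff k]
    intro f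
    obtain ⟨y, rfl⟩ := hsurj f
    rw [classPairing_mk]
    exact hΞ y.1 (LinearMap.mem_ker.1 y.2)
  refine ⟨le_antisymm hDK ?_, hbc', hperf⟩
  intro Ξ hΞ
  have hΞ0 : B Ξ = 0 := by rwa [hK, LinearMap.mem_ker] at hΞ
  have hmem := hperf Ξ (fun y _ => by rw [hΞ0]; rfl)
  obtain ⟨d, hd, ξ, hξ, rfl⟩ := Submodule.mem_sup.1 hmem
  have hξK : B ξ = 0 := by
    have hdK := hDK hd
    rw [hK, LinearMap.mem_ker] at hdK
    rw [map_add, hdK, zero_add] at hΞ0
    exact hΞ0
  have : (⟨ξ, hξ⟩ : JS) ∈ LinearMap.ker BS := by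
    rw [LinearMap.mem_ker]
    simpa [hBS] using hξK
  rw [← heq] at this
  exact D.add_mem hd (Submodule.mem_comap.1 this)

end Fermat.Agent.S55.Base
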