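/-
S55 / PROGRAM CFT, base case, row ASM-a2epi (helper145).

`a₂` epi for the concrete context `ctxS p S hpS I.lamS` (`I : EvalQ.ArithInput p S`) and a
discrete module `M`, WITHOUT counting: `P2 : H²_c(M) × H¹(G_S, M') → 𝔽_p` represents every
functional as soon as `H¹(G_S, M')` is finite-dimensional and the right kernel of `P2` is zero,
and the right kernel is killed by three inputs (`M' = M.dualTwist (cycloChar p)`):

* `LocRight I M w` (all primes `w`): the right kernel of the local pairing
  `H¹(G_w, M) × H¹(G_w, M') → 𝔽_p`, `(ξ, η) ↦ inv_w (ξ ∪ η)`, is zero;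
* `CapGen S M`: every local class at `l ∉ S` is, modulo unramified cochains and coboundaries,
  the restriction of a global level cochain `c'` whose coboundary has level `S` and which is
  unramified (up to coboundaries) at all other primes outside `S`;
* `G4 S M'`: a level-`S` 1-cocycle of `M'` which is a coboundary at every prime is a coboundary.

Proof: for `y` in the right kernel, the classes `(0, ξ at v)` give `res_v y = 0` for `v ∈ S`;
the classes `(d c', (res_v c')_v)` and EVAL (`EvalQ.P2_eval`) give `inv_l (ξ ∪ res_l y) = 0` for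
all local classes `ξ` at `l ∉ S`, hence `res_l y = 0`; then `G4`.
-/
import Fermat.Agent.S55.Base.EvalQ
import Fermat.Agent.S55.Base.IdeleLA

set_option autoImplicit false

open CategoryTheory groupCohomology ExtCitation

namespace Fermat.Agent.S55.Base.Asm

open Fermat.Agent.S55.Abs Fermat.Agent.S55.Base.EvalQ

attribute [local instance] Glue.isAlgebraicQbar_lg Glue.isAlgClosureQbar_lg Glue.normalQbar_lg

variable {p : ℕ} [Fact p.Prime] {S : Finset Nat.Primes}

/-! ### The three inputs -/

/-- **[LocRight]** The right kernel of the local pairing at the prime `w`,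
`H¹(G_w, M) × H¹(G_w, M') → 𝔽_p`, `(ξ, η) ↦ I.inv w (ξ ∪ η)`, is zero (cocycle form). -/
def LocRight (I : ArithInput p S) (M : Rep.{0} (ZMod p) GQ) (w : Nat.Primes) : Prop :=
  ∀ η ∈ Z1 (localLevel (primeLocalToGlobal w))
      (Rep.res (primeLocalToGlobal w) (M.dualTwist (cycloChar p))),
    (∀ ξ ∈ Z1 (localLevel (primeLocalToGlobal w)) (Rep.res (primeLocalToGlobal w) M),
      I.inv w (cup11 ((evPairing (cycloChar p) M).res (primeLocalToGlobal w)) ξ η) = 0) →
    η ∈ coboundaries₁ (Rep.res (primeLocalToGlobal w) (M.dualTwist (cycloChar p)))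

/-- **[G4]** A level-`S` 1-cocycle of `N` which is a coboundary on the local group at every
prime is a coboundary. -/
def G4 (S : Finset Nat.Primes) (N : Rep.{0} (ZMod p) GQ) : Prop :=
  ∀ y ∈ Z1 (globalLevel S) N,
    (∀ w : Nat.Primes, res₁ (fun w : Nat.Primes => primeLocalToGlobal w) N w y
      ∈ coboundaries₁ (Rep.res (primeLocalToGlobal w) N)) →
    y ∈ coboundaries₁ N

/-- **[CapGen]** Every local 1-cocycle `ξ` at a prime `l ∉ S` is, modulo unramified cochains and
coboundaries, the restriction of a global cochain `c'` of some level `T ⊇ S` whose coboundary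
has level `S`, and which at the other primes of `T \ S` is an unramified cochain plus a
coboundary. -/
def CapGen (S : Finset Nat.Primes) (M : Rep.{0} (ZMod p) GQ) : Prop :=
  ∀ l : Nat.Primes, l ∉ S →
    ∀ ξ ∈ Z1 (localLevel (primeLocalToGlobal l)) (Rep.res (primeLocalToGlobal l) M),
    ∃ (T : Finset Nat.Primes) (c' : GQ → M), S ⊆ T ∧ c' ∈ C1 (globalLevel T) M ∧
      (d₁₂ M).hom c' ∈ C2 (globalLevel S) M ∧
      (∃ u ∈ C1 (urLevel l) (Rep.res (primeLocalToGlobal l) M), ∃ m : M,
        res₁ (fun w : Nat.Primes => primeLocalToGlobal w) M l c'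
          = ξ + u + (d₀₁ (Rep.res (primeLocalToGlobal l) M)).hom m) ∧
      ∀ w ∈ T, w ∉ S → w ≠ l →
        ∃ u ∈ C1 (urLevel w) (Rep.res (primeLocalToGlobal w) M), ∃ m : M,
          res₁ (fun w : Nat.Primes => primeLocalToGlobal w) M w c'
            = u + (d₀₁ (Rep.res (primeLocalToGlobal w) M)).hom m

/-! ### Local computations -/

section Local

variable (I : ArithInput p S) (M : Rep.{0} (ZMod p) GQ) (w : Nat.Primes)

/-- `inv_w ((d m) ∪ η) = 0` for a local level 1-cocycle `η`. -/
theorem inv_cup11_d₀₁ (m : M)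
    {η : primeLocalGaloisGroup w → M.dualTwist (cycloChar p)}
    (hη : η ∈ Z1 (localLevel (primeLocalToGlobal w))
      (Rep.res (primeLocalToGlobal w) (M.dualTwist (cycloChar p)))) :
    I.inv w (cup11 ((evPairing (cycloChar p) M).res (primeLocalToGlobal w))
      ((d₀₁ (Rep.res (primeLocalToGlobal w) M)).hom m) η) = 0 := by
  have hdη : (d₁₂ (Rep.res (primeLocalToGlobal w) (M.dualTwist (cycloChar p)))).hom η = 0 := hη.2
  have e : cup11 ((evPairing (cycloChar p) M).res (primeLocalToGlobal w))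
        ((d₀₁ (Rep.res (primeLocalToGlobal w) M)).hom m) η
      = (d₁₂ (Rep.res (primeLocalToGlobal w) (muRep (cycloChar p)))).hom
          (cup01 ((evPairing (cycloChar p) M).res (primeLocalToGlobal w)) m η) := by
    rw [d₁₂_cup01, hdη, map_zero, add_zero]
  rw [e]
  exact I.inv_B2 w _ ⟨_, cup01_mem_C1 ((evPairing (cycloChar p) M).res (primeLocalToGlobal w))
    (localLevel (primeLocalToGlobal w)) m hη.1, rfl⟩

/-- If `r = ζ + u + d m` then `inv_w ((u - r) ∪ η) = - inv_w (ζ ∪ η)`. -/
theorem inv_cup11_sub (ζ u r : primeLocalGaloisGroup w → M) (m : M)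
    (hr : r = ζ + u + (d₀₁ (Rep.res (primeLocalToGlobal w) M)).hom m)
    {η : primeLocalGaloisGroup w → M.dualTwist (cycloChar p)}
    (hη : η ∈ Z1 (localLevel (primeLocalToGlobal w))
      (Rep.res (primeLocalToGlobal w) (M.dualTwist (cycloChar p)))) :
    I.inv w (cup11 ((evPairing (cycloChar p) M).res (primeLocalToGlobal w)) (u - r) η)
      = - I.inv w (cup11 ((evPairing (cycloChar p) M).res (primeLocalToGlobal w)) ζ η) := by
  have e : u - r = -ζ - (d₀₁ (Rep.res (primeLocalToGlobal w) M)).hom m := by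
    rw [hr]; abel
  rw [e, map_sub, LinearMap.sub_apply, map_sub, map_neg, LinearMap.neg_apply, map_neg,
    inv_cup11_d₀₁ I M w m hη, sub_zero]

/-- If `r = ζ + u + d m` with `ζ` a cocycle then `d u = d r`. -/
theorem d₁₂_eq_of_decomp (ζ u r : primeLocalGaloisGroup w → M) (m : M)
    (hζ : (d₁₂ (Rep.res (primeLocalToGlobal w) M)).hom ζ = 0)
    (hr : r = ζ + u + (d₀₁ (Rep.res (primeLocalToGlobal w) M)).hom m) :
    (d₁₂ (Rep.res (primeLocalToGlobal w) M)).hom u
      = (d₁₂ (Rep.res (primeLocalToGlobal w) M)).hom r := by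
  have h0 : (d₁₂ (Rep.res (primeLocalToGlobal w) M)).hom
      ((d₀₁ (Rep.res (primeLocalToGlobal w) M)).hom m) = 0 :=
    d₀₁_comp_d₁₂_apply (Rep.res (primeLocalToGlobal w) M) m
  rw [hr, map_add, map_add, hζ, h0, zero_add, add_zero]

end Local

/-! ### `P2` on the classes `(0, z)` -/

/-- `P2` on the classes `(0, z)`: the sum over `S` of the local pairings. -/
theorem P2_inr_eval (I : ArithInput p S) (hpS : pPrime p ∈ S) {M : Rep.{0} (ZMod p) GQ}
    (hM : IsDisc (globalLevel S) M)
    {z : ∀ v : ↥S, primeLocalGaloisGroup v.1 → M}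
    (hx : ((0, z) : (GQ × GQ → M) × (∀ v : ↥S, primeLocalGaloisGroup v.1 → M))
      ∈ Zc2 (globalLevel S) (fun q : ↥S => primeLocalToGlobal q.1)
        (fun q : ↥S => localLevel (primeLocalToGlobal q.1)) M)
    {y : GQ → M.dualTwist (cycloChar p)}
    (hy : y ∈ Z1 (globalLevel S) (M.dualTwist (cycloChar p))) :
    (ctxS p S hpS I.lamS).P2 hM (Submodule.Quotient.mk ⟨(0, z), hx⟩)
        (Submodule.Quotient.mk ⟨y, hy⟩)
      = ∑ v : ↥S, I.inv v.1 (cup11 ((evPairing (cycloChar p) M).res (primeLocalToGlobal v.1))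
          (z v) (res₁ (fun w : Nat.Primes => primeLocalToGlobal w) _ v.1 y)) :=
  I.datum.Pc2_inr_eval (evPairing (cycloChar p) M) hM ((ctxS p S hpS I.lamS).disc_dual hM)
    (isDisc_mu p S hpS) hx hy

/-! ### The right kernel of `P2` -/

/-- **The right kernel of `P2` is trivial.** -/
theorem right_kernel_P2 (I : ArithInput p S) (hpS : pPrime p ∈ S) {M : Rep.{0} (ZMod p) GQ}
    (hM : IsDisc (globalLevel S) M)
    (hloc : ∀ w, LocRight I M w) (hcap : CapGen S M)
    (hg4 : G4 S (M.dualTwist (cycloChar p)))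
    (t : H1 (globalLevel S) (M.dualTwist (cycloChar p)))
    (ht : ∀ x, (ctxS p S hpS I.lamS).P2 hM x t = 0) : t = 0 := by
  classical
  obtain ⟨⟨y, hy⟩, rfl⟩ := Submodule.mkQ_surjective _ t
  have ht : ∀ x, (ctxS p S hpS I.lamS).P2 hM x
      (Submodule.Quotient.mk ⟨y, hy⟩ : H1 (globalLevel S) (M.dualTwist (cycloChar p))) = 0 := ht
  rw [Submodule.mkQ_apply, Submodule.Quotient.mk_eq_zero]
  show y ∈ coboundaries₁ (M.dualTwist (cycloChar p))
  refine hg4 y hy (fun w => ?_)
  have hyw : res₁ (fun w : Nat.Primes => primeLocalToGlobal w) (M.dualTwist (cycloChar p)) w y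
      ∈ Z1 (localLevel (primeLocalToGlobal w))
        (Rep.res (primeLocalToGlobal w) (M.dualTwist (cycloChar p))) :=
    I.datum.res₁_mem_Z1 S w hy
  refine hloc w _ hyw (fun ξ hξ => ?_)
  by_cases hw : w ∈ S
  · -- the class `(0, ξ at w)`
    let z : ∀ v : ↥S, primeLocalGaloisGroup v.1 → M :=
      Pi.single (⟨w, hw⟩ : ↥S) ξ
    have hz : z ∈ ZL1 (fun q : ↥S => primeLocalToGlobal q.1)
        (fun q : ↥S => localLevel (primeLocalToGlobal q.1)) M := by
      intro v _
      by_cases hv : v = ⟨w, hw⟩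
      · subst hv
        show (Pi.single (⟨w, hw⟩ : ↥S) ξ : ∀ v : ↥S, primeLocalGaloisGroup v.1 → M) ⟨w, hw⟩ ∈ _
        rw [Pi.single_eq_same]
        exact hξ
      · show (Pi.single (⟨w, hw⟩ : ↥S) ξ : ∀ v : ↥S, primeLocalGaloisGroup v.1 → M) v ∈ _
        rw [Pi.single_eq_of_ne hv]
        exact zero_mem _
    have hx := inr_mem_Zc2 (globalLevel S) (fun q : ↥S => primeLocalToGlobal q.1)
      (fun q : ↥S => localLevel (primeLocalToGlobal q.1)) M hz
    have h := P2_inr_eval I hpS hM hx hy
    rw [ht] at h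
    rw [Finset.sum_eq_single (⟨w, hw⟩ : ↥S)] at h
    · have hzw : z ⟨w, hw⟩ = ξ := Pi.single_eq_same _ _
      rw [hzw] at h
      exact h.symm
    · intro v _ hv
      have hzv : z v = 0 := Pi.single_eq_of_ne hv _
      rw [hzv, map_zero, LinearMap.zero_apply, map_zero]
    · intro h'
      exact absurd (Finset.mem_univ _) h'
  · -- the capitulation class
    obtain ⟨T, c', hST, hc', hdc', ⟨u, hu, m, hm⟩, hoth⟩ := hcap w hw ξ hξ
    have hST' : S ⊆ insert w T := hST.trans (Finset.subset_insert w T)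
    have hc'T' : c' ∈ C1 (globalLevel (insert w T)) M :=
      I.datum.C1_mono (Finset.subset_insert w T) M hc'
    have hx : (((d₁₂ M).hom c',
        fun v : ↥S => res₁ (fun w : Nat.Primes => primeLocalToGlobal w) M v.1 c') :
          (GQ × GQ → M) × (∀ v : ↥S, primeLocalGaloisGroup v.1 → M))
        ∈ Zc2 (globalLevel S) (fun q : ↥S => primeLocalToGlobal q.1)
          (fun q : ↥S => localLevel (primeLocalToGlobal q.1)) M := by
      refine ⟨⟨hdc', ?_⟩, fun v => ⟨I.datum.res₁_mem_C1 T v.1 hc', ?_⟩⟩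
      · show (d₂₃ M).hom ((d₁₂ M).hom c') = 0
        exact d₁₂_comp_d₂₃_apply M c'
      · exact (I.datum.d₁₂_res₁ M v.1 c').symm
    -- unramified primitives at the other primes
    have H : ∀ w' : Nat.Primes, ∃ (t : primeLocalGaloisGroup w' → M) (m' : M),
        w' ∈ T → w' ∉ S → w' ≠ w →
          t ∈ C1 (urLevel w') (Rep.res (primeLocalToGlobal w') M) ∧
          res₁ (fun w : Nat.Primes => primeLocalToGlobal w) M w' c'
            = t + (d₀₁ (Rep.res (primeLocalToGlobal w') M)).hom m' := by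
      intro w'
      by_cases h : w' ∈ T ∧ w' ∉ S ∧ w' ≠ w
      · obtain ⟨u', hu', m', hm'⟩ := hoth w' h.1 h.2.1 h.2.2
        exact ⟨u', m', fun _ _ _ => ⟨hu', hm'⟩⟩
      · exact ⟨0, 0, fun h1 h2 h3 => absurd ⟨h1, h2, h3⟩ h⟩
    choose t₀ m₀ ht₀ using H
    let t' : ∀ w' : Nat.Primes, primeLocalGaloisGroup w' → M := Function.update t₀ w u
    have ht'w : t' w = u := Function.update_self _ _ _
    have ht'ne : ∀ w', w' ≠ w → t' w' = t₀ w' := fun w' h => Function.update_of_ne h _ _
    have hξd : (d₁₂ (Rep.res (primeLocalToGlobal w) M)).hom ξ = 0 := hξ.2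
    have ht' : ∀ w' ∈ insert w T, w' ∉ S →
        t' w' ∈ C1 (urLevel w') (Rep.res (primeLocalToGlobal w') M) ∧
        (d₁₂ (Rep.res (primeLocalToGlobal w') M)).hom (t' w')
          = res₂ (fun w : Nat.Primes => primeLocalToGlobal w) M w' ((d₁₂ M).hom c') := by
      intro w' hw'T hw'S
      by_cases hne : w' = w
      · rw [hne, ht'w]
        refine ⟨hu, ?_⟩
        rw [d₁₂_eq_of_decomp M w ξ u
          (res₁ (fun w : Nat.Primes => primeLocalToGlobal w) M w c') m hξd hm]
        exact I.datum.d₁₂_res₁ M w c'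
      · have hw'T0 : w' ∈ T := (Finset.mem_insert.1 hw'T).resolve_left hne
        obtain ⟨h1, h2⟩ := ht₀ w' hw'T0 hw'S hne
        rw [ht'ne w' hne]
        refine ⟨h1, ?_⟩
        have h2' : res₁ (fun w : Nat.Primes => primeLocalToGlobal w) M w' c'
            = 0 + t₀ w' + (d₀₁ (Rep.res (primeLocalToGlobal w') M)).hom (m₀ w') := by
          rw [zero_add]; exact h2
        rw [d₁₂_eq_of_decomp M w' 0 (t₀ w')
          (res₁ (fun w : Nat.Primes => primeLocalToGlobal w) M w' c') (m₀ w') (map_zero _) h2']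
        exact I.datum.d₁₂_res₁ M w' c'
    have h := I.P2_eval hpS hM hx hy (insert w T) hST' c' hc'T' rfl t' ht'
    rw [ht] at h
    have hS0 : ∑ v : ↥S, I.inv v.1
        (cup11 ((evPairing (cycloChar p) M).res (primeLocalToGlobal v.1))
          (res₁ (fun w : Nat.Primes => primeLocalToGlobal w) M v.1 c'
            - res₁ (fun w : Nat.Primes => primeLocalToGlobal w) M v.1 c')
          (res₁ (fun w : Nat.Primes => primeLocalToGlobal w) _ v.1 y)) = 0 := by
      refine Finset.sum_eq_zero fun v _ => ?_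
      rw [sub_self, map_zero, LinearMap.zero_apply, map_zero]
    rw [hS0, zero_add, Finset.sum_eq_single w] at h
    · rw [ht'w, inv_cup11_sub I M w ξ u
        (res₁ (fun w : Nat.Primes => primeLocalToGlobal w) M w c') m hm hyw] at h
      exact neg_eq_zero.1 h.symm
    · intro w' hw' hne
      have hw'T : w' ∈ insert w T := (Finset.mem_sdiff.1 hw').1
      have hw'S : w' ∉ S := (Finset.mem_sdiff.1 hw').2
      have hw'T0 : w' ∈ T := (Finset.mem_insert.1 hw'T).resolve_left hne
      obtain ⟨-, h2⟩ := ht₀ w' hw'T0 hw'S hne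
      have h2' : res₁ (fun w : Nat.Primes => primeLocalToGlobal w) M w' c'
          = 0 + t₀ w' + (d₀₁ (Rep.res (primeLocalToGlobal w') M)).hom (m₀ w') := by
        rw [zero_add]; exact h2
      have hyw' : res₁ (fun w : Nat.Primes => primeLocalToGlobal w)
          (M.dualTwist (cycloChar p)) w' y
          ∈ Z1 (localLevel (primeLocalToGlobal w'))
            (Rep.res (primeLocalToGlobal w') (M.dualTwist (cycloChar p))) :=
        I.datum.res₁_mem_Z1 S w' hy
      rw [ht'ne w' hne, inv_cup11_sub I M w' 0 (t₀ w')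
        (res₁ (fun w : Nat.Primes => primeLocalToGlobal w) M w' c') (m₀ w') h2' hyw',
        map_zero, LinearMap.zero_apply, map_zero, neg_zero]
    · intro h'
      exact absurd (Finset.mem_sdiff.2 ⟨Finset.mem_insert_self w T, hw⟩) h'

/-- **`a₂` epi** for `ctxS p S hpS I.lamS` and a discrete `M`: from the finiteness of
`H¹(G_S, M')`, local right-nondegeneracy at all primes, `CapGen` and `G4`. -/
theorem a2epi (I : ArithInput p S) (hpS : pPrime p ∈ S) {M : Rep.{0} (ZMod p) GQ}
    (hM : IsDisc (globalLevel S) M)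
    (hfin : Module.Finite (ZMod p) (H1 (globalLevel S) (M.dualTwist (cycloChar p))))
    (hloc : ∀ w, LocRight I M w) (hcap : CapGen S M)
    (hg4 : G4 S (M.dualTwist (cycloChar p))) :
    PairEpi ((ctxS p S hpS I.lamS).P2 hM) := by
  have := hfin
  have hr := range_eq_top_of_right_nondegenerate ((ctxS p S hpS I.lamS).P2 hM)
    (fun t ht => right_kernel_P2 I hpS hM hloc hcap hg4 t ht)
  intro φ
  have hφ : φ ∈ LinearMap.range ((ctxS p S hpS I.lamS).P2 hM) := by rw [hr]; trivial
  obtain ⟨x, hx⟩ := hφ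
  exact ⟨x, fun t => by rw [← hx]⟩

end Fermat.Agent.S55.Base.Asm
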