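/-
S55 / PROGRAM CFT, row LOC-TOP (helper290): the local package for `Res_r coind_U^Γ k`,
generic group-theoretic core.

`Γ` a group ("global"), `G` a group with a level family `𝒰` ("local") and `r : G →* Γ`,
`χ : Γ →* kˣ`, `U ≤ Γ` of finite index with `χ = 1` on `U`.  The `G`-module
`Res_r coind_U^Γ k` splits over the double cosets `U \ Γ / r(G)` into modules `coind_V^G k`,
`V = r⁻¹(σ⁻¹ U σ)` (Mackey), each of which is self-dual up to the twist; Shapiro's lemma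
(helper97's `Shapiro/Core`, `Shapiro/Level`) reduces the two local statements
* `H¹(G, M) → H¹(G, M')^*` surjective,
* `H²(G, M) → H⁰(G, M')^*` injective
to three facts about each `V` (`GoodSub`): finiteness of the level characters of `V`,
right-nondegeneracy of the cup product of characters, and injectivity of
`lam ∘ N_* : H²(G, coind_V k) → k` (`N` the coefficient norm: "corestriction is injective").
-/
import Fermat.Agent.S55.Abs.Pairing
import Fermat.Agent.S55.Shapiro.Level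
import Fermat.Agent.S55.Glue.CoindDual

set_option autoImplicit false

open CategoryTheory groupCohomology

namespace Fermat.Agent.S55.Base.LocalTop

open Fermat.Agent.S55.Abs Fermat.Agent.S55.Shapiro Fermat.Agent.S55.Glue

variable {k G : Type} [Field k] [Group G]

/-! ### Functoriality on classes -/

section Classes

variable (𝒰 : LevelFamily G) {M N : Rep.{0} k G}

lemma H1map_mk (φ : M ⟶ N) (c : ↥(Z1 𝒰 M)) :
    H1map 𝒰 φ (Submodule.Quotient.mk c) =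
      Submodule.Quotient.mk ⟨cmap₁ φ c.1, cmap₁_mem_Z1 φ c.2⟩ := rfl

lemma H2map_mk (φ : M ⟶ N) (c : ↥(Z2 𝒰 M)) :
    H2map 𝒰 φ (Submodule.Quotient.mk c) =
      Submodule.Quotient.mk ⟨cmap₂ φ c.1, cmap₂_mem_Z2 φ c.2⟩ := rfl

variable {J : Type} [Fintype J] {Mj : J → Rep.{0} k G}

lemma sum_H1map_comp (i : ∀ j, Mj j ⟶ M) (p : ∀ j, M ⟶ Mj j)
    (h : ∀ m, ∑ j, (i j).hom ((p j).hom m) = m) (t : H1 𝒰 M) :
    ∑ j, H1map 𝒰 (i j) (H1map 𝒰 (p j) t) = t := by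
  induction t using Submodule.Quotient.induction_on with
  | H c =>
    simp only [H1map_mk]
    simp only [← Submodule.mkQ_apply]
    rw [← map_sum]
    congr 1
    apply Subtype.ext
    rw [Submodule.coe_sum]
    funext g
    rw [Finset.sum_apply]
    exact h (c.1 g)

lemma sum_H2map_comp (i : ∀ j, Mj j ⟶ M) (p : ∀ j, M ⟶ Mj j)
    (h : ∀ m, ∑ j, (i j).hom ((p j).hom m) = m) (t : H2 𝒰 M) :
    ∑ j, H2map 𝒰 (i j) (H2map 𝒰 (p j) t) = t := by
  induction t using Submodule.Quotient.induction_on with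
  | H c =>
    simp only [H2map_mk]
    simp only [← Submodule.mkQ_apply]
    rw [← map_sum]
    congr 1
    apply Subtype.ext
    rw [Submodule.coe_sum]
    funext g
    rw [Finset.sum_apply]
    exact h (c.1 g)

end Classes

/-! ### The two local statements pass to finite direct sums -/

section Biprod

variable (𝒰 : LevelFamily G) {A B C : Rep.{0} k G} (β : EqPairing A B C)
  (hB : IsDisc 𝒰 B) (hC : IsDisc 𝒰 C) (lam : H2 𝒰 C →ₗ[k] k)
  {J : Type} [Fintype J] {Aj Bj : J → Rep.{0} k G} (βj : ∀ j, EqPairing (Aj j) (Bj j) C)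
  (hBj : ∀ j, IsDisc 𝒰 (Bj j))
  (i : ∀ j, Aj j ⟶ A) (p : ∀ j, A ⟶ Aj j) (i' : ∀ j, Bj j ⟶ B) (p' : ∀ j, B ⟶ Bj j)

include i' in
/-- `H¹ × H¹`: every functional is represented, componentwise. -/
theorem pairEpi_of_components
    (adj1 : ∀ j (a : Aj j) (b : B), β.toFun ((i j).hom a) b = (βj j).toFun a ((p' j).hom b))
    (hsumB : ∀ b, ∑ j, (i' j).hom ((p' j).hom b) = b)
    (h : ∀ j, PairEpi ((cupH11 𝒰 (βj j) (hBj j) hC).compr₂ lam)) :
    PairEpi ((cupH11 𝒰 β hB hC).compr₂ lam) := by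
  intro φ
  choose x hx using fun j => h j (φ ∘ₗ H1map 𝒰 (i' j))
  refine ⟨∑ j, H1map 𝒰 (i j) (x j), fun t => ?_⟩
  rw [map_sum, LinearMap.sum_apply]
  conv_lhs => rw [← sum_H1map_comp 𝒰 i' p' hsumB t, map_sum]
  refine Finset.sum_congr rfl fun j _ => ?_
  have h1 := hx j (H1map 𝒰 (p' j) t)
  rw [LinearMap.comp_apply] at h1
  rw [h1, LinearMap.compr₂_apply, LinearMap.compr₂_apply,
    cupH11_natural 𝒰 (βj j) β (i j) (p' j) (adj1 j) (hBj j) hB hC]

include i in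
/-- `H² × H⁰`: trivial left kernel, componentwise. -/
theorem pairMono_of_components
    (adj2 : ∀ j (a : A) (b : Bj j), β.toFun a ((i' j).hom b) = (βj j).toFun ((p j).hom a) b)
    (hsumA : ∀ a, ∑ j, (i j).hom ((p j).hom a) = a)
    (h : ∀ j, PairMono ((cupH20 𝒰 (βj j) (hBj j) hC).compr₂ lam)) :
    PairMono ((cupH20 𝒰 β hB hC).compr₂ lam) := by
  intro x hx
  have hj : ∀ j, H2map 𝒰 (p j) x = 0 := by
    intro j
    apply h j
    intro s
    rw [LinearMap.compr₂_apply,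
      cupH20_natural 𝒰 β (βj j) (p j) (i' j) (fun a b => (adj2 j a b).symm) hB (hBj j) hC]
    exact hx (H0map (i' j) s)
  rw [← sum_H2map_comp 𝒰 i p hsumA x]
  simp [hj]

end Biprod

/-! ### The level family induced on a subgroup -/

section SubLevel

/-- The level family induced on a subgroup `V`: the subgroups `N ∩ V`, `N` in the family. -/
def subLevel (𝒰 : LevelFamily G) (V : Subgroup G) : LevelFamily ↥V where
  sets := {N' | ∃ N ∈ 𝒰.sets, N' = N.subgroupOf V}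
  nonempty := by
    obtain ⟨N, hN⟩ := 𝒰.nonempty
    exact ⟨_, N, hN, rfl⟩
  inter := by
    rintro _ ⟨N, hN, rfl⟩ _ ⟨N', hN', rfl⟩
    obtain ⟨W, hW, hle⟩ := 𝒰.inter N hN N' hN'
    refine ⟨_, ⟨W, hW, rfl⟩, fun x hx => ?_⟩
    have := hle (Subgroup.mem_subgroupOf.1 hx)
    exact ⟨Subgroup.mem_subgroupOf.2 this.1, Subgroup.mem_subgroupOf.2 this.2⟩
  normal := by
    rintro _ ⟨N, hN, rfl⟩
    obtain ⟨W, hW, hle, hn⟩ := 𝒰.normal N hN
    exact ⟨_, ⟨W, hW, rfl⟩, fun x hx => Subgroup.mem_subgroupOf.2 (hle (Subgroup.mem_subgroupOf.1 hx)),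
      hn.subgroupOf V⟩
  finiteIndex := by
    rintro _ ⟨N, hN, rfl⟩
    haveI := 𝒰.finiteIndex N hN
    infer_instance

lemma isLev₁_subLevel_iff {𝒰 : LevelFamily G} {V : Subgroup G} {X : Type*} (f : ↥V → X) :
    IsLev₁ (subLevel 𝒰 V) f ↔ ∃ N ∈ 𝒰.sets, RInv₁ (N.subgroupOf V) f := by
  constructor
  · rintro ⟨_, ⟨N, hN, rfl⟩, h⟩
    exact ⟨N, hN, h⟩
  · rintro ⟨N, hN, h⟩
    exact ⟨_, ⟨N, hN, rfl⟩, h⟩

/-- A normal member of the family below `V` and below a given member. -/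
lemma exists_normal_le {𝒰 : LevelFamily G} {V : Subgroup G} (hV : ∃ W ∈ 𝒰.sets, W ≤ V)
    {N₀ : Subgroup G} (hN₀ : N₀ ∈ 𝒰.sets) :
    ∃ N ∈ 𝒰.sets, N.Normal ∧ N ≤ V ∧ N ≤ N₀ := by
  obtain ⟨W, hW, hWV⟩ := hV
  obtain ⟨N₁, hN₁, hle⟩ := 𝒰.inter N₀ hN₀ W hW
  obtain ⟨N, hN, hle', hn⟩ := 𝒰.normal N₁ hN₁
  exact ⟨N, hN, hn, fun x hx => hWV (hle (hle' hx)).2, fun x hx => (hle (hle' hx)).1⟩

end SubLevel

/-! ### A single coinduced module `coind_V^G k` -/

section Single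

variable (k) in
/-- The permutation module `coind_V^G k` (same term as `Abs.M0 k V`, `CoindDual.M0 V`). -/
noncomputable abbrev Mc (V : Subgroup G) : Rep.{0} k G :=
  Rep.coind V.subtype (Rep.trivial k V k)

variable {Γ : Type} [Group Γ] (r : G →* Γ) (χ : Γ →* kˣ) (V : Subgroup G)

/-- The constant function `1` in `coind_V^G k`. -/
noncomputable def oneC : (Mc k V : Rep.{0} k G) := ⟨fun _ => 1, fun _ _ => rfl⟩

lemma oneC_apply (x : G) : (oneC (k := k) V).1 x = 1 := rfl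

lemma oneC_ρ (g : G) : (Mc k V : Rep.{0} k G).ρ g (oneC V) = oneC V := rfl

lemma oneC_mem_invariants : oneC (k := k) V ∈ (Mc k V : Rep.{0} k G).ρ.invariants :=
  fun g => oneC_ρ V g

/-- The pointwise product on `coind_V^G k`. -/
noncomputable def mulP : EqPairing (Mc k V) (Mc k V) (Mc k V) where
  toFun := LinearMap.mk₂ k
    (fun f F => ⟨fun x => f.1 x * F.1 x, fun u x => by
      show f.1 ((u : G) * x) * F.1 ((u : G) * x) = f.1 x * F.1 x
      rw [CoindDual.M0_mem f u x, CoindDual.M0_mem F u x]⟩)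
    (fun f f' F => by
      apply CoindDual.M0_ext; intro x
      show (f.1 x + f'.1 x) * F.1 x = f.1 x * F.1 x + f'.1 x * F.1 x
      ring)
    (fun c f F => by
      apply CoindDual.M0_ext; intro x
      show (c * f.1 x) * F.1 x = c * (f.1 x * F.1 x)
      ring)
    (fun f F F' => by
      apply CoindDual.M0_ext; intro x
      show f.1 x * (F.1 x + F'.1 x) = f.1 x * F.1 x + f.1 x * F'.1 x
      ring)
    (fun c f F => by
      apply CoindDual.M0_ext; intro x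
      show f.1 x * (c * F.1 x) = c * (f.1 x * F.1 x)
      ring)
  equivariant g a b := rfl

lemma mulP_apply (f F : (Mc k V : Rep.{0} k G)) (x : G) :
    ((mulP V).toFun f F).1 x = f.1 x * F.1 x := rfl

variable (hfi : V.FiniteIndex) (hψ : ∀ v ∈ V, (χ.comp r) v = 1)

/-- The twisted self-pairing of `coind_V^G k` (helper107's `CoindDual.pair`) as an equivariant
pairing with values in `μ` restricted to `G`. -/
noncomputable def pairC : EqPairing (Mc k V) (Mc k V) (Rep.res r (muRep χ)) :=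
  haveI := hfi
  { toFun := CoindDual.pair (χ.comp r) hψ
    equivariant := fun g a b => CoindDual.pair_ρ (χ.comp r) hψ g a b }

/-- The coefficient norm `coind_V^G k → μ`, `f ↦ ∑_{x ∈ V \ G} χ(x)⁻¹ f(x)`, as a linear map. -/
noncomputable def normLin : (Mc k V : Rep.{0} k G) →ₗ[k] k :=
  haveI := hfi
  (CoindDual.pair (χ.comp r) hψ).flip (oneC V)

lemma pairC_eq_normLin (f F : (Mc k V : Rep.{0} k G)) :
    (pairC r χ V hfi hψ).toFun f F = normLin r χ V hfi hψ ((mulP V).toFun f F) := by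
  haveI := hfi
  show CoindDual.pair (χ.comp r) hψ f F = CoindDual.pair (χ.comp r) hψ ((mulP V).toFun f F) (oneC V)
  rw [CoindDual.pair_apply, CoindDual.pair_apply]
  refine Finset.sum_congr rfl fun x _ => ?_
  induction x using QuotientGroup.induction_on with
  | H g =>
    rw [CoindDual.pairTerm_mk, CoindDual.pairTerm_mk, mulP_apply, oneC_apply, mul_one]

/-- The coefficient norm as a morphism of representations. -/
noncomputable def normHom : (Mc k V : Rep.{0} k G) ⟶ Rep.res r (muRep χ) :=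
  Rep.ofHom (LinearMap.intertwiningMap_of_isIntertwiningMap (Mc k V : Rep.{0} k G).ρ
    (Rep.res r (muRep χ)).ρ (normLin r χ V hfi hψ) (fun g f => by
      haveI := hfi
      show CoindDual.pair (χ.comp r) hψ ((Mc k V : Rep.{0} k G).ρ g f) (oneC V) = _
      rw [← oneC_ρ V g]
      exact CoindDual.pair_ρ (χ.comp r) hψ g f (oneC V)))

lemma normHom_apply (f : (Mc k V : Rep.{0} k G)) :
    (normHom r χ V hfi hψ).hom f = normLin r χ V hfi hψ f := rfl

end Single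

/-! ### Shapiro for `coind_V^G k` on level cochains -/

section SingleThm

variable {Γ : Type} [Group Γ] (𝒰 : LevelFamily G) (r : G →* Γ) (χ : Γ →* kˣ) (V : Subgroup G)

/-- `coind_V^G k` is discrete when `V` is open. -/
theorem isDisc_Mc (hV : ∃ W ∈ 𝒰.sets, W ≤ V) : IsDisc 𝒰 (Mc k V) := by
  obtain ⟨W, hW, hWV⟩ := hV
  obtain ⟨N, hN, hle, hn⟩ := 𝒰.normal W hW
  refine ⟨N, hN, fun s hs f => ?_⟩
  apply CoindDual.M0_ext; intro x
  show f.1 (x * s) = f.1 x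
  have h1 : x * s = (x * s * x⁻¹) * x := by group
  rw [h1]
  exact CoindDual.M0_mem' f (hWV (hle (hn.conj_mem s hs x))) x

lemma cup11_pairC (hfi : V.FiniteIndex) (hψ : ∀ v ∈ V, (χ.comp r) v = 1)
    (c c' : G → (Mc k V : Rep.{0} k G)) :
    cup11 (pairC r χ V hfi hψ) c c' = cmap₂ (normHom r χ V hfi hψ) (cup11 (mulP V) c c') := by
  funext p
  exact pairC_eq_normLin r χ V hfi hψ _ _

lemma cup20_pairC_oneC (hfi : V.FiniteIndex) (hψ : ∀ v ∈ V, (χ.comp r) v = 1)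
    (z : G × G → (Mc k V : Rep.{0} k G)) :
    cup20 (pairC r χ V hfi hψ) z (oneC V) = cmap₂ (normHom r χ V hfi hψ) z := by
  funext p
  rfl

lemma sh₂_cup11_mulP (c c' : G → (Mc k V : Rep.{0} k G)) :
    sh₂ V (Rep.trivial k ↥V k) (cup11 (mulP V) c c') =
      fun p : ↥V × ↥V => sh₁ V (Rep.trivial k ↥V k) c p.1 * sh₁ V (Rep.trivial k ↥V k) c' p.2 := by
  funext p
  show ((mulP V).toFun (c p.1) ((Mc k V : Rep.{0} k G).ρ p.1 (c' p.2))).1 1 =
    (c p.1).1 1 * (c' p.2).1 1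
  rw [mulP_apply, coind_ρ_apply, one_mul, coind_apply_coe]
  rfl

lemma ind₁_mem_Z1 (hV : ∃ W ∈ 𝒰.sets, W ≤ V) (R : Retr V) {η : ↥V → (Rep.trivial k ↥V k)}
    (hη : η ∈ Z1 (subLevel 𝒰 V) (Rep.trivial k ↥V k)) :
    ind₁ (Rep.trivial k ↥V k) R η ∈ Z1 𝒰 (Mc k V) := by
  obtain ⟨N₀, hN₀, h⟩ := (isLev₁_subLevel_iff η).1 hη.1
  obtain ⟨N, hN, hn, hNV, hNN₀⟩ := exists_normal_le hV hN₀
  have h' : RInv₁ (N.subgroupOf V) η := fun g s hs =>
    h g s (Subgroup.mem_subgroupOf.2 (hNN₀ (Subgroup.mem_subgroupOf.1 hs)))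
  exact ⟨⟨N, hN, rinv₁_ind₁ R hNV h'⟩, ind₁_mem_cocycles₁ R hη.2⟩

lemma sh₁_mem_Z1 {c : G → (Mc k V : Rep.{0} k G)} (hc : c ∈ Z1 𝒰 (Mc k V)) :
    sh₁ V (Rep.trivial k ↥V k) c ∈ Z1 (subLevel 𝒰 V) (Rep.trivial k ↥V k) := by
  obtain ⟨N, hN, h⟩ := hc.1
  exact ⟨(isLev₁_subLevel_iff _).2 ⟨N, hN, rinv₁_sh₁ h⟩, sh₁_mem_cocycles₁ hc.2⟩

lemma sh₂_mem_B2 {z : G × G → (Mc k V : Rep.{0} k G)} (hz : z ∈ B2 𝒰 (Mc k V)) :
    sh₂ V (Rep.trivial k ↥V k) z ∈ B2 (subLevel 𝒰 V) (Rep.trivial k ↥V k) := by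
  obtain ⟨γ, hγ, rfl⟩ := hz
  obtain ⟨N, hN, h⟩ := hγ
  exact ⟨sh₁ V _ γ, (isLev₁_subLevel_iff _).2 ⟨N, hN, rinv₁_sh₁ h⟩, (sh₂_d₁₂ γ).symm⟩

lemma ind₁_sh₁_sub_mem (R : Retr V) {c : G → (Mc k V : Rep.{0} k G)}
    (hc : c ∈ cocycles₁ (Mc k V)) :
    ind₁ (Rep.trivial k ↥V k) R (sh₁ V _ c) - c ∈ coboundaries₁ (Mc k V) := by
  rw [ind₁_sh₁_sub R c]
  have h0 : (d₁₂ (Mc k V)).hom c = 0 := hc
  rw [h0, map_zero, add_zero]
  exact ⟨_, rfl⟩

/-- Induction of level characters of `V` to classes in `H¹(G, coind_V k)`. -/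
noncomputable def Jind (hV : ∃ W ∈ 𝒰.sets, W ≤ V) (R : Retr V) :
    ↥(Z1 (subLevel 𝒰 V) (Rep.trivial k ↥V k)) →ₗ[k] H1 𝒰 (Mc k V) :=
  Submodule.mkQ _ ∘ₗ (ind₁ (Rep.trivial k ↥V k) R).restrict
    (fun _ hη => ind₁_mem_Z1 𝒰 V hV R hη)

end SingleThm

/-! ### The two local statements for a single coinduced module -/

section SingleMain

variable {Γ : Type} [Group Γ] (𝒰 : LevelFamily G) (r : G →* Γ) (χ : Γ →* kˣ) (V : Subgroup G)
  (hV : ∃ W ∈ 𝒰.sets, W ≤ V) (hfi : V.FiniteIndex) (hψ : ∀ v ∈ V, (χ.comp r) v = 1)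
  (hI : IsDisc 𝒰 (Mc k V)) (hC : IsDisc 𝒰 (Rep.res r (muRep χ)))
  (lam : H2 𝒰 (Rep.res r (muRep χ)) →ₗ[k] k)

include hV in
/-- **`H¹ × H¹` for `coind_V^G k`** with its twisted self-pairing: every functional on the right
factor is represented, provided the level characters of `V` are finite-dimensional, their cup
product is right-nondegenerate, and `lam ∘ N_*` is injective on `H²(G, coind_V k)`. -/
theorem single_pairEpi
    (hfin : Module.Finite k ↥(Z1 (subLevel 𝒰 V) (Rep.trivial k ↥V k)))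
    (hhil : ∀ η ∈ Z1 (subLevel 𝒰 V) (Rep.trivial k ↥V k),
      (∀ ξ ∈ Z1 (subLevel 𝒰 V) (Rep.trivial k ↥V k),
        (fun p : ↥V × ↥V => ξ p.1 * η p.2) ∈ B2 (subLevel 𝒰 V) (Rep.trivial k ↥V k)) → η = 0)
    (hinj : Function.Injective (lam ∘ₗ H2map 𝒰 (normHom r χ V hfi hψ))) :
    PairEpi ((cupH11 𝒰 (pairC r χ V hfi hψ) hI hC).compr₂ lam) := by
  obtain ⟨R⟩ := Retr.nonempty V
  let P : ↥(Z1 (subLevel 𝒰 V) (Rep.trivial k ↥V k)) →ₗ[k]
      ↥(Z1 (subLevel 𝒰 V) (Rep.trivial k ↥V k)) →ₗ[k] k :=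
    ((cupH11 𝒰 (pairC r χ V hfi hψ) hI hC).compr₂ lam).compl₁₂ (Jind 𝒰 V hV R) (Jind 𝒰 V hV R)
  have hright : Function.Injective P.flip := by
    rw [← LinearMap.ker_eq_bot, LinearMap.ker_eq_bot']
    intro η hη
    apply Subtype.ext
    apply hhil η.1 η.2
    intro ξ hξ
    have h0 : P ⟨ξ, hξ⟩ η = 0 := by
      rw [← LinearMap.flip_apply, hη]; rfl
    have hZ : cup11 (mulP V) (ind₁ (Rep.trivial k ↥V k) R ξ) (ind₁ (Rep.trivial k ↥V k) R η.1) ∈
        Z2 𝒰 (Mc k V) :=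
      cup11_mem_Z2 𝒰 (mulP V) hI hI (ind₁_mem_Z1 𝒰 V hV R hξ) (ind₁_mem_Z1 𝒰 V hV R η.2)
    have h1 : (lam ∘ₗ H2map 𝒰 (normHom r χ V hfi hψ)) (Submodule.Quotient.mk ⟨_, hZ⟩) = 0 := by
      rw [← h0]
      show lam (Submodule.Quotient.mk _) = lam (Submodule.Quotient.mk _)
      congr 2
      apply Subtype.ext
      exact (cup11_pairC r χ V hfi hψ _ _).symm
    have h2 := hinj (h1.trans (map_zero _).symm)
    rw [Submodule.Quotient.mk_eq_zero] at h2
    have h2' : cup11 (mulP V) (ind₁ (Rep.trivial k ↥V k) R ξ) (ind₁ (Rep.trivial k ↥V k) R η.1) ∈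
        B2 𝒰 (Mc k V) := h2
    have h3 := sh₂_mem_B2 𝒰 V h2'
    rw [sh₂_cup11_mulP, sh₁_ind₁, sh₁_ind₁] at h3
    exact h3
  haveI := hfin
  have hsurj : Function.Surjective P := LinearMap.flip_injective_iff₁.1 hright
  intro φ
  obtain ⟨ξ, hξ⟩ := hsurj (φ ∘ₗ Jind 𝒰 V hV R)
  refine ⟨Jind 𝒰 V hV R ξ, fun t => ?_⟩
  induction t using Submodule.Quotient.induction_on with
  | H c =>
    have hη : sh₁ V (Rep.trivial k ↥V k) c.1 ∈ Z1 (subLevel 𝒰 V) (Rep.trivial k ↥V k) :=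
      sh₁_mem_Z1 𝒰 V c.2
    have hJ : Jind 𝒰 V hV R ⟨_, hη⟩ = Submodule.Quotient.mk c := by
      show Submodule.Quotient.mk _ = Submodule.Quotient.mk c
      rw [Submodule.Quotient.eq]
      exact ind₁_sh₁_sub_mem V R c.2.2
    rw [← hJ]
    exact (LinearMap.congr_fun hξ ⟨_, hη⟩).symm

/-- **`H² × H⁰` for `coind_V^G k`**: trivial left kernel, provided `lam ∘ N_*` is injective on
`H²(G, coind_V k)`. -/
theorem single_pairMono
    (hinj : Function.Injective (lam ∘ₗ H2map 𝒰 (normHom r χ V hfi hψ))) :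
    PairMono ((cupH20 𝒰 (pairC r χ V hfi hψ) hI hC).compr₂ lam) := by
  intro x hx
  have h1 := hx ⟨oneC V, oneC_mem_invariants V⟩
  apply hinj
  rw [map_zero, ← h1]
  induction x using Submodule.Quotient.induction_on with
  | H z =>
    have hz : cmap₂ (normHom r χ V hfi hψ) z.1 = cup20 (pairC r χ V hfi hψ) z.1 (oneC V) :=
      (cup20_pairC_oneC r χ V hfi hψ z.1).symm
    show lam (Submodule.Quotient.mk ⟨cmap₂ (normHom r χ V hfi hψ) z.1, _⟩) =
      lam (Submodule.Quotient.mk ⟨cup20 (pairC r χ V hfi hψ) z.1 (oneC V), _⟩)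
    simp only [hz]

end SingleMain

/-! ### Mackey: `Res_r coind_U^Γ k` along the orbits of `G` on `U \ Γ` -/

section Mackey

variable {Γ : Type} [Group Γ] (r : G →* Γ) (U : Subgroup Γ)

/-- The stabiliser in `G` of the coset `U σ`: `r⁻¹(σ⁻¹ U σ)`. -/
def stab (σ : Γ) : Subgroup G where
  carrier := {h | σ * r h * σ⁻¹ ∈ U}
  mul_mem' {a b} ha hb := by
    show σ * r (a * b) * σ⁻¹ ∈ U
    have h1 : σ * r (a * b) * σ⁻¹ = (σ * r a * σ⁻¹) * (σ * r b * σ⁻¹) := by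
      rw [map_mul]; group
    rw [h1]; exact U.mul_mem ha hb
  one_mem' := by
    show σ * r 1 * σ⁻¹ ∈ U
    simp
  inv_mem' {a} ha := by
    show σ * r a⁻¹ * σ⁻¹ ∈ U
    have h1 : σ * r a⁻¹ * σ⁻¹ = (σ * r a * σ⁻¹)⁻¹ := by
      rw [map_inv]; group
    rw [h1]; exact U.inv_mem ha

lemma mem_stab {σ : Γ} {h : G} : h ∈ stab r U σ ↔ σ * r h * σ⁻¹ ∈ U := Iff.rfl

/-- Evaluation along the orbit of `U σ`: `f ↦ (h ↦ f (σ r(h)))`. -/
noncomputable def pLin (σ : Γ) :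
    (Mc k U : Rep.{0} k Γ) →ₗ[k] (Mc k (stab r U σ) : Rep.{0} k G) where
  toFun f := ⟨fun h => f.1 (σ * r h), fun v h => by
    show f.1 (σ * r ((v : G) * h)) = f.1 (σ * r h)
    have h1 : σ * r ((v : G) * h) = (σ * r v * σ⁻¹) * (σ * r h) := by
      rw [map_mul]; group
    rw [h1]; exact CoindDual.M0_mem' f v.2 _⟩
  map_add' _ _ := rfl
  map_smul' _ _ := rfl

lemma pLin_apply (σ : Γ) (f : (Mc k U : Rep.{0} k Γ)) (h : G) :
    (pLin r U σ f).1 h = f.1 (σ * r h) := rfl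

lemma pLin_ρ (σ : Γ) (g : G) (f : (Mc k U : Rep.{0} k Γ)) :
    pLin r U σ ((Mc k U : Rep.{0} k Γ).ρ (r g) f) =
      (Mc k (stab r U σ) : Rep.{0} k G).ρ g (pLin r U σ f) := by
  apply CoindDual.M0_ext; intro h
  show f.1 (σ * r h * r g) = f.1 (σ * r (h * g))
  rw [map_mul, mul_assoc]

/-- `p_σ : Res_r coind_U^Γ k → coind_{V_σ}^G k`. -/
noncomputable def pHom (σ : Γ) : Rep.res r (Mc k U) ⟶ (Mc k (stab r U σ) : Rep.{0} k G) :=
  Rep.ofHom (LinearMap.intertwiningMap_of_isIntertwiningMap (Rep.res r (Mc k U)).ρ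
    (Mc k (stab r U σ) : Rep.{0} k G).ρ (pLin r U σ) (fun g f => pLin_ρ r U σ g f))

open Classical in
/-- Extension by zero from the double coset `U σ r(G)`. -/
noncomputable def iFun (σ : Γ) (F : (Mc k (stab r U σ) : Rep.{0} k G)) (γ : Γ) : k :=
  if h : ∃ g : G, γ * (σ * r g)⁻¹ ∈ U then F.1 h.choose else 0

lemma iFun_of_mem (σ : Γ) (F : (Mc k (stab r U σ) : Rep.{0} k G)) {γ : Γ} {g : G}
    (hg : γ * (σ * r g)⁻¹ ∈ U) : iFun r U σ F γ = F.1 g := by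
  classical
  have hex : ∃ g : G, γ * (σ * r g)⁻¹ ∈ U := ⟨g, hg⟩
  rw [iFun, dif_pos hex]
  have h' := hex.choose_spec
  have hmem : hex.choose * g⁻¹ ∈ stab r U σ := by
    show σ * r (hex.choose * g⁻¹) * σ⁻¹ ∈ U
    have h1 : σ * r (hex.choose * g⁻¹) * σ⁻¹ =
        (γ * (σ * r hex.choose)⁻¹)⁻¹ * (γ * (σ * r g)⁻¹) := by
      rw [map_mul, map_inv]; group
    rw [h1]; exact U.mul_mem (U.inv_mem h') hg
  have h2 := CoindDual.M0_mem F ⟨_, hmem⟩ g
  have h3 : hex.choose = hex.choose * g⁻¹ * g := by group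
  rw [← h2]
  exact congrArg F.1 h3

lemma iFun_of_not (σ : Γ) (F : (Mc k (stab r U σ) : Rep.{0} k G)) {γ : Γ}
    (h : ¬ ∃ g : G, γ * (σ * r g)⁻¹ ∈ U) : iFun r U σ F γ = 0 := by
  classical
  rw [iFun, dif_neg h]

/-- Extension by zero, as a linear map. -/
noncomputable def iLin (σ : Γ) :
    (Mc k (stab r U σ) : Rep.{0} k G) →ₗ[k] (Mc k U : Rep.{0} k Γ) where
  toFun F := ⟨iFun r U σ F, fun u γ => by
    show iFun r U σ F ((u : Γ) * γ) = iFun r U σ F γ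
    by_cases h : ∃ g : G, γ * (σ * r g)⁻¹ ∈ U
    · obtain ⟨g, hg⟩ := h
      have hg' : (u : Γ) * γ * (σ * r g)⁻¹ ∈ U := by
        rw [mul_assoc]; exact U.mul_mem u.2 hg
      rw [iFun_of_mem r U σ F hg, iFun_of_mem r U σ F hg']
    · rw [iFun_of_not r U σ F h, iFun_of_not]
      rintro ⟨g, hg⟩
      exact h ⟨g, by rw [mul_assoc] at hg; exact (Subgroup.mul_mem_cancel_left U u.2).1 hg⟩⟩
  map_add' F F' := by
    apply CoindDual.M0_ext; intro γ
    show iFun r U σ (F + F') γ = iFun r U σ F γ + iFun r U σ F' γ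
    by_cases h : ∃ g : G, γ * (σ * r g)⁻¹ ∈ U
    · obtain ⟨g, hg⟩ := h
      rw [iFun_of_mem r U σ _ hg, iFun_of_mem r U σ _ hg, iFun_of_mem r U σ _ hg]; rfl
    · rw [iFun_of_not r U σ _ h, iFun_of_not r U σ _ h, iFun_of_not r U σ _ h, add_zero]
  map_smul' c F := by
    apply CoindDual.M0_ext; intro γ
    show iFun r U σ (c • F) γ = c • iFun r U σ F γ
    by_cases h : ∃ g : G, γ * (σ * r g)⁻¹ ∈ U
    · obtain ⟨g, hg⟩ := h
      rw [iFun_of_mem r U σ _ hg, iFun_of_mem r U σ _ hg]; rfl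
    · rw [iFun_of_not r U σ _ h, iFun_of_not r U σ _ h, smul_zero]

lemma iLin_apply (σ : Γ) (F : (Mc k (stab r U σ) : Rep.{0} k G)) (γ : Γ) :
    (iLin r U σ F).1 γ = iFun r U σ F γ := rfl

lemma iLin_ρ (σ : Γ) (g : G) (F : (Mc k (stab r U σ) : Rep.{0} k G)) :
    iLin r U σ ((Mc k (stab r U σ) : Rep.{0} k G).ρ g F) =
      (Mc k U : Rep.{0} k Γ).ρ (r g) (iLin r U σ F) := by
  apply CoindDual.M0_ext; intro γ
  show iFun r U σ ((Mc k (stab r U σ) : Rep.{0} k G).ρ g F) γ = iFun r U σ F (γ * r g)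
  by_cases h : ∃ g₀ : G, γ * (σ * r g₀)⁻¹ ∈ U
  · obtain ⟨g₀, hg₀⟩ := h
    have h2 : γ * r g * (σ * r (g₀ * g))⁻¹ ∈ U := by
      have h1 : γ * r g * (σ * r (g₀ * g))⁻¹ = γ * (σ * r g₀)⁻¹ := by
        rw [map_mul]; group
      rw [h1]; exact hg₀
    rw [iFun_of_mem r U σ _ hg₀, iFun_of_mem r U σ _ h2]; rfl
  · rw [iFun_of_not r U σ _ h, iFun_of_not]
    rintro ⟨g₁, hg₁⟩
    refine h ⟨g₁ * g⁻¹, ?_⟩
    have h1 : γ * (σ * r (g₁ * g⁻¹))⁻¹ = γ * r g * (σ * r g₁)⁻¹ := by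
      rw [map_mul, map_inv]; group
    rw [h1]; exact hg₁

/-- `i_σ : coind_{V_σ}^G k → Res_r coind_U^Γ k`. -/
noncomputable def iHom (σ : Γ) : (Mc k (stab r U σ) : Rep.{0} k G) ⟶ Rep.res r (Mc k U) :=
  Rep.ofHom (LinearMap.intertwiningMap_of_isIntertwiningMap
    (Mc k (stab r U σ) : Rep.{0} k G).ρ (Rep.res r (Mc k U)).ρ (iLin r U σ)
    (fun g F => iLin_ρ r U σ g F))

open Classical in
lemma iLin_pLin_apply (σ : Γ) (f : (Mc k U : Rep.{0} k Γ)) (γ : Γ) :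
    (iLin r U σ (pLin r U σ f)).1 γ = if ∃ g : G, γ * (σ * r g)⁻¹ ∈ U then f.1 γ else 0 := by
  rw [iLin_apply]
  split_ifs with h
  · obtain ⟨g, hg⟩ := h
    rw [iFun_of_mem r U σ _ hg, pLin_apply]
    have h1 : γ = (γ * (σ * r g)⁻¹) * (σ * r g) := by group
    conv_rhs => rw [h1]
    exact (CoindDual.M0_mem' f hg _).symm
  · exact iFun_of_not r U σ _ h

/-- The index set: double cosets `U \ Γ / r(G)`. -/
abbrev DC : Type := DoubleCoset.Quotient (U : Set Γ) (r.range : Set Γ)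

/-- A representative of a double coset. -/
noncomputable def rep (x : DC r U) : Γ := Quotient.out x

lemma mk_rep (x : DC r U) : DoubleCoset.mk U r.range (rep r U x) = x :=
  DoubleCoset.out_eq' U r.range x

lemma exists_mem_iff_mk (x : DC r U) (γ : Γ) :
    (∃ g : G, γ * (rep r U x * r g)⁻¹ ∈ U) ↔ x = DoubleCoset.mk U r.range γ := by
  conv_rhs => rw [← mk_rep r U x]
  rw [DoubleCoset.eq]
  constructor
  · rintro ⟨g, hg⟩
    refine ⟨_, hg, r g, ⟨g, rfl⟩, ?_⟩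
    group
  · rintro ⟨u, hu, _, ⟨g, rfl⟩, h⟩
    refine ⟨g, ?_⟩
    rw [h]
    have h1 : u * rep r U x * r g * (rep r U x * r g)⁻¹ = u := by group
    rw [h1]; exact hu

lemma finite_DC (hU : U.FiniteIndex) : Finite (DC r U) := by
  haveI := hU
  haveI : Finite (Γ ⧸ U) := Subgroup.finite_quotient_of_finiteIndex
  refine Finite.of_surjective (fun q : Γ ⧸ U => DoubleCoset.mk U r.range (Quotient.out q)⁻¹) ?_
  intro x
  refine ⟨QuotientGroup.mk (rep r U x)⁻¹, ?_⟩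
  obtain ⟨u, hu⟩ := QuotientGroup.mk_out_eq_mul U (rep r U x)⁻¹
  show DoubleCoset.mk U r.range (Quotient.out (QuotientGroup.mk (rep r U x)⁻¹ : Γ ⧸ U))⁻¹ = x
  rw [hu]
  conv_rhs => rw [← mk_rep r U x]
  rw [eq_comm, DoubleCoset.eq]
  refine ⟨(u : Γ)⁻¹, U.inv_mem u.2, 1, one_mem _, ?_⟩
  group

/-- Mackey: the idempotents `i_σ ∘ p_σ`, `σ` over representatives of `U \ Γ / r(G)`, sum to the
identity. -/
lemma sum_iLin_pLin [Fintype (DC r U)] (f : (Mc k U : Rep.{0} k Γ)) :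
    ∑ x : DC r U, iLin r U (rep r U x) (pLin r U (rep r U x) f) = f := by
  classical
  apply CoindDual.M0_ext; intro γ
  have h1 : (∑ x : DC r U, iLin r U (rep r U x) (pLin r U (rep r U x) f)).1 γ =
      ∑ x : DC r U, (iLin r U (rep r U x) (pLin r U (rep r U x) f)).1 γ := by
    rw [Submodule.coe_sum, Finset.sum_apply]
  rw [h1, Finset.sum_eq_single (DoubleCoset.mk U r.range γ)]
  · rw [iLin_pLin_apply, if_pos ((exists_mem_iff_mk r U _ γ).2 rfl)]
  · intro x _ hx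
    rw [iLin_pLin_apply, if_neg (fun h => hx ((exists_mem_iff_mk r U x γ).1 h))]
  · intro h; exact absurd (Finset.mem_univ _) h

end Mackey

/-! ### The dual side of the Mackey decomposition -/

section DualMaps

variable {Γ : Type} [Group Γ] (r : G →* Γ) (χ : Γ →* kˣ) (U : Subgroup Γ) (σ : Γ)
  (hfi : (stab r U σ).FiniteIndex) (hψ : ∀ v ∈ stab r U σ, (χ.comp r) v = 1)

lemma ρ_ρ_inv {H : Type} [Group H] (M : Rep.{0} k H) (g : H) (m : M) :
    M.ρ g (M.ρ g⁻¹ m) = m := by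
  rw [← Module.End.mul_apply, ← map_mul, mul_inv_cancel, map_one]
  rfl

/-- `i'_σ : coind_{V_σ}^G k → (coind_U^Γ k)^*`, `F ↦ ⟨p_σ ·, F⟩`. -/
noncomputable def i'Lin :
    (Mc k (stab r U σ) : Rep.{0} k G) →ₗ[k] Module.Dual k (Mc k U : Rep.{0} k Γ) :=
  haveI := hfi
  (pLin r U σ).dualMap ∘ₗ CoindDual.toDualLin (χ.comp r) hψ

lemma i'Lin_apply (F : (Mc k (stab r U σ) : Rep.{0} k G)) (a : (Mc k U : Rep.{0} k Γ)) :
    i'Lin r χ U σ hfi hψ F a = (pairC r χ (stab r U σ) hfi hψ).toFun (pLin r U σ a) F := rfl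

lemma i'Lin_ρ (g : G) (F : (Mc k (stab r U σ) : Rep.{0} k G)) :
    i'Lin r χ U σ hfi hψ ((Mc k (stab r U σ) : Rep.{0} k G).ρ g F) =
      ((Mc k U : Rep.{0} k Γ).dualTwist χ).ρ (r g) (i'Lin r χ U σ hfi hψ F) := by
  apply LinearMap.ext; intro a
  rw [Rep.dualTwist_ρ_apply]
  show (pairC r χ (stab r U σ) hfi hψ).toFun (pLin r U σ a)
      ((Mc k (stab r U σ) : Rep.{0} k G).ρ g F) =
    (χ (r g) : k) * (pairC r χ (stab r U σ) hfi hψ).toFun
      (pLin r U σ ((Mc k U : Rep.{0} k Γ).ρ (r g)⁻¹ a)) F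
  rw [← map_inv, pLin_ρ]
  have h1 := (pairC r χ (stab r U σ) hfi hψ).equivariant g
    ((Mc k (stab r U σ) : Rep.{0} k G).ρ g⁻¹ (pLin r U σ a)) F
  rw [ρ_ρ_inv] at h1
  exact h1

/-- `i'_σ` as a morphism of representations. -/
noncomputable def i'Hom :
    (Mc k (stab r U σ) : Rep.{0} k G) ⟶ Rep.res r ((Mc k U : Rep.{0} k Γ).dualTwist χ) :=
  Rep.ofHom (LinearMap.intertwiningMap_of_isIntertwiningMap
    (Mc k (stab r U σ) : Rep.{0} k G).ρ (Rep.res r ((Mc k U : Rep.{0} k Γ).dualTwist χ)).ρ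
    (i'Lin r χ U σ hfi hψ) (fun g F => i'Lin_ρ r χ U σ hfi hψ g F))

/-- `p'_σ : (coind_U^Γ k)^* → coind_{V_σ}^G k`, the adjoint of `i_σ` for the self-pairing. -/
noncomputable def p'Lin :
    Module.Dual k (Mc k U : Rep.{0} k Γ) →ₗ[k] (Mc k (stab r U σ) : Rep.{0} k G) :=
  haveI := hfi
  (LinearEquiv.ofBijective (CoindDual.toDualLin (χ.comp r) hψ)
    (CoindDual.toDualLin_bijective (χ.comp r) hψ)).symm.toLinearMap ∘ₗ (iLin r U σ).dualMap

lemma pair_p'Lin (a : (Mc k (stab r U σ) : Rep.{0} k G))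
    (b : Module.Dual k (Mc k U : Rep.{0} k Γ)) :
    (pairC r χ (stab r U σ) hfi hψ).toFun a (p'Lin r χ U σ hfi hψ b) = b (iLin r U σ a) := by
  haveI := hfi
  have h1 := LinearEquiv.apply_symm_apply (LinearEquiv.ofBijective
    (CoindDual.toDualLin (χ.comp r) hψ) (CoindDual.toDualLin_bijective (χ.comp r) hψ))
    ((iLin r U σ).dualMap b)
  exact LinearMap.congr_fun h1 a

lemma p'Lin_ρ (g : G) (b : Module.Dual k (Mc k U : Rep.{0} k Γ)) :
    p'Lin r χ U σ hfi hψ (((Mc k U : Rep.{0} k Γ).dualTwist χ).ρ (r g) b) =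
      (Mc k (stab r U σ) : Rep.{0} k G).ρ g (p'Lin r χ U σ hfi hψ b) := by
  haveI := hfi
  apply CoindDual.toDualLin_injective (χ.comp r) hψ
  apply LinearMap.ext; intro a
  show (pairC r χ (stab r U σ) hfi hψ).toFun a
      (p'Lin r χ U σ hfi hψ (((Mc k U : Rep.{0} k Γ).dualTwist χ).ρ (r g) b)) =
    (pairC r χ (stab r U σ) hfi hψ).toFun a
      ((Mc k (stab r U σ) : Rep.{0} k G).ρ g (p'Lin r χ U σ hfi hψ b))
  rw [pair_p'Lin, Rep.dualTwist_ρ_apply]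
  have h1 := (pairC r χ (stab r U σ) hfi hψ).equivariant g
    ((Mc k (stab r U σ) : Rep.{0} k G).ρ g⁻¹ a) (p'Lin r χ U σ hfi hψ b)
  rw [ρ_ρ_inv] at h1
  rw [h1, pair_p'Lin, iLin_ρ, map_inv r g]
  rfl

/-- `p'_σ` as a morphism of representations. -/
noncomputable def p'Hom :
    Rep.res r ((Mc k U : Rep.{0} k Γ).dualTwist χ) ⟶ (Mc k (stab r U σ) : Rep.{0} k G) :=
  Rep.ofHom (LinearMap.intertwiningMap_of_isIntertwiningMap
    (Rep.res r ((Mc k U : Rep.{0} k Γ).dualTwist χ)).ρ (Mc k (stab r U σ) : Rep.{0} k G).ρ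
    (p'Lin r χ U σ hfi hψ) (fun g b => p'Lin_ρ r χ U σ hfi hψ g b))

end DualMaps

/-! ### The local package for `Res_r coind_U^Γ k` -/

section Assembly

variable {Γ : Type} [Group Γ] (𝒰 : LevelFamily G) (r : G →* Γ) (χ : Γ →* kˣ) (U : Subgroup Γ)

/-- The three arithmetic facts about an open subgroup `V` of the local group `G` which make the
local package work for `coind_V^G k`:
* `fin`     : the level characters `V → k` form a finite-dimensional space (`E^×/p` finite);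
* `hilbert` : the cup product of characters `H¹(V,k) × H¹(V,k) → H²(V,k)` has trivial right
  kernel (Hilbert symbol; `μ_p ⊂ E` identifies `μ_p` with `k` over `V`);
* `inj`     : `lam ∘ N_* : H²(G, coind_V^G k) → k` is injective, `N` the coefficient norm
  (`H²(V, μ_p)` is a line on which `inv ∘ cores` does not vanish). -/
structure GoodSub (lam : H2 𝒰 (Rep.res r (muRep χ)) →ₗ[k] k) (V : Subgroup G) : Prop where
  isOpen : ∃ W ∈ 𝒰.sets, W ≤ V
  fin : Module.Finite k ↥(Z1 (subLevel 𝒰 V) (Rep.trivial k ↥V k))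
  hilbert : ∀ η ∈ Z1 (subLevel 𝒰 V) (Rep.trivial k ↥V k),
    (∀ ξ ∈ Z1 (subLevel 𝒰 V) (Rep.trivial k ↥V k),
      (fun p : ↥V × ↥V => ξ p.1 * η p.2) ∈ B2 (subLevel 𝒰 V) (Rep.trivial k ↥V k)) → η = 0
  inj : ∀ (hfi : V.FiniteIndex) (hψ : ∀ v ∈ V, (χ.comp r) v = 1),
    Function.Injective (lam ∘ₗ H2map 𝒰 (normHom r χ V hfi hψ))

variable {𝒰 r χ U}

lemma finiteIndex_of_isOpen {V : Subgroup G} (hV : ∃ W ∈ 𝒰.sets, W ≤ V) : V.FiniteIndex := by
  obtain ⟨W, hW, hle⟩ := hV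
  have := 𝒰.finiteIndex W hW
  exact Subgroup.finiteIndex_of_le hle

lemma char_stab (hχU : ∀ u ∈ U, χ u = 1) (σ : Γ) :
    ∀ v ∈ stab r U σ, (χ.comp r) v = 1 := by
  intro v hv
  have h1 := hχU _ hv
  rw [map_mul, map_mul, map_inv, mul_comm, inv_mul_cancel_left] at h1
  exact h1

variable (𝒰 r χ U)

/-- **LOC-TOP, `H¹ × H¹`** for `Res_r coind_U^Γ k` and its twisted dual: every functional on
`H¹(G, M')` is a cup product. -/
theorem res_coind_pairEpi (hU : U.FiniteIndex) (hχU : ∀ u ∈ U, χ u = 1)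
    (hB : IsDisc 𝒰 (Rep.res r ((Mc k U : Rep.{0} k Γ).dualTwist χ)))
    (hC : IsDisc 𝒰 (Rep.res r (muRep χ)))
    (lam : H2 𝒰 (Rep.res r (muRep χ)) →ₗ[k] k)
    (hgood : ∀ σ : Γ, GoodSub 𝒰 r χ lam (stab r U σ)) :
    PairEpi ((cupH11 𝒰 ((evPairing χ (Mc k U)).res r) hB hC).compr₂ lam) := by
  haveI := finite_DC r U hU
  letI : Fintype (DC r U) := Fintype.ofFinite _
  have hfi : ∀ σ, (stab r U σ).FiniteIndex := fun σ => finiteIndex_of_isOpen (hgood σ).isOpen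
  have hψ : ∀ σ, ∀ v ∈ stab r U σ, (χ.comp r) v = 1 := fun σ => char_stab hχU σ
  refine pairEpi_of_components 𝒰 ((evPairing χ (Mc k U)).res r) hB hC lam
    (J := DC r U) (Aj := fun x => Mc k (stab r U (rep r U x)))
    (Bj := fun x => Mc k (stab r U (rep r U x)))
    (fun x => pairC r χ _ (hfi _) (hψ _))
    (fun x => isDisc_Mc 𝒰 _ (hgood _).isOpen)
    (fun x => iHom r U (rep r U x))
    (fun x => i'Hom r χ U (rep r U x) (hfi _) (hψ _))
    (fun x => p'Hom r χ U (rep r U x) (hfi _) (hψ _)) ?_ ?_ ?_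
  · intro x a b
    exact (pair_p'Lin r χ U (rep r U x) (hfi _) (hψ _) a b).symm
  · intro b
    apply LinearMap.ext; intro a
    have h1 : (∑ x : DC r U, (i'Hom r χ U (rep r U x) (hfi _) (hψ _)).hom
        ((p'Hom r χ U (rep r U x) (hfi _) (hψ _)).hom b) : Module.Dual k (Mc k U : Rep.{0} k Γ)) a =
        ∑ x : DC r U, b (iLin r U (rep r U x) (pLin r U (rep r U x) a)) := by
      rw [LinearMap.sum_apply]
      refine Finset.sum_congr rfl fun x _ => ?_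
      exact pair_p'Lin r χ U (rep r U x) (hfi _) (hψ _) _ b
    refine h1.trans ?_
    rw [← map_sum, sum_iLin_pLin]
  · intro x
    exact single_pairEpi 𝒰 r χ _ (hgood _).isOpen (hfi _) (hψ _) _ hC lam (hgood _).fin
      (hgood _).hilbert ((hgood _).inj _ _)

/-- **LOC-TOP, `H² × H⁰`** for `Res_r coind_U^Γ k` and its twisted dual: a class in `H²(G, M)`
orthogonal to `H⁰(G, M')` vanishes. -/
theorem res_coind_pairMono (hU : U.FiniteIndex) (hχU : ∀ u ∈ U, χ u = 1)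
    (hB : IsDisc 𝒰 (Rep.res r ((Mc k U : Rep.{0} k Γ).dualTwist χ)))
    (hC : IsDisc 𝒰 (Rep.res r (muRep χ)))
    (lam : H2 𝒰 (Rep.res r (muRep χ)) →ₗ[k] k)
    (hgood : ∀ σ : Γ, GoodSub 𝒰 r χ lam (stab r U σ)) :
    PairMono ((cupH20 𝒰 ((evPairing χ (Mc k U)).res r) hB hC).compr₂ lam) := by
  haveI := finite_DC r U hU
  letI : Fintype (DC r U) := Fintype.ofFinite _
  have hfi : ∀ σ, (stab r U σ).FiniteIndex := fun σ => finiteIndex_of_isOpen (hgood σ).isOpen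
  have hψ : ∀ σ, ∀ v ∈ stab r U σ, (χ.comp r) v = 1 := fun σ => char_stab hχU σ
  refine pairMono_of_components 𝒰 ((evPairing χ (Mc k U)).res r) hB hC lam
    (J := DC r U) (Aj := fun x => Mc k (stab r U (rep r U x)))
    (Bj := fun x => Mc k (stab r U (rep r U x)))
    (fun x => pairC r χ _ (hfi _) (hψ _))
    (fun x => isDisc_Mc 𝒰 _ (hgood _).isOpen)
    (fun x => iHom r U (rep r U x))
    (fun x => pHom r U (rep r U x))
    (fun x => i'Hom r χ U (rep r U x) (hfi _) (hψ _)) ?_ ?_ ?_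
  · intro x a b
    rfl
  · intro a
    exact sum_iLin_pLin r U a
  · intro x
    exact single_pairMono 𝒰 r χ _ (hfi _) (hψ _) _ hC lam ((hgood _).inj _ _)

end Assembly

end Fermat.Agent.S55.Base.LocalTop
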