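/-
S55 / PROGRAM CFT, LD-Q (helper195): local duality at EVERY prime `w` for the restrictions of
finite discrete `𝔽_p[G_ℚ]`-modules, in the consumer shapes of the base-case assembly (ASM), from
the base case of the local devissage (`Abs/LocFinal.ld_res_of_base`).

Setting: `I : EvalQ.ArithInput p S`, `w : Nat.Primes`, `r := primeLocalToGlobal w`,
`𝒱 := localLevel r`, `χ := cycloChar p`, `β := evPairing χ M`, `M' := M.dualTwist χ`.

* `BaseAt I w` : the base case at `w` — the local package `LocPkg 𝒱 (χ ∘ r) _ (I.datum.invH w)`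
  of `M0 (ZMod p) U` for every open `U ≤ G_w` of index prime to `p` on which `χ ∘ r` is trivial
  (= the conclusion of LOC-TDBASE at `H := G_w`).
From `hb : BaseAt I w`, for every finite-dimensional `M` with `Res_w M` discrete:
* `ld`                : the four pairing statements (`PairEpi`/`PairMono` of `LPL1`/`LPL2` for
                        `β.res r` and its flip);
* `locRight`, `locLeft` : cochain forms of (L-a): a level 1-cocycle `η` of `M'` (resp. `ξ` of
                        `M`) with `I.inv w (ξ ∪ η) = 0` for all level 1-cocycles on the other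
                        side is a coboundary;
* `exists_rep_left`, `exists_rep_right` : every functional on `H¹(G_w, M')` (resp. `H¹(G_w, M)`)
                        is `η ↦ I.inv w (ξ ∪ η)` (resp. `ξ ↦ I.inv w (ξ ∪ η)`);
* `mem_B2`, `mem_B2_dual` : cochain forms of (L-b): a level 2-cocycle `z` of `M` (resp. `M'`)
                        with `I.inv w (z ∪ t) = 0` for all invariants `t` of the other side is a
                        level coboundary;
* `pkgL`, `pkgL_dual` : the local package `(ctxS p S hpS I.lamS).PkgL M` (resp. of `M'`) from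
                        `BaseAt I v` for `v ∈ S`.
Also the generic graded commutativity `cup11_add_cup11_flip` on 1-cocycles.
-/
import Fermat.Agent.S55.Base.EvalQ
import Fermat.Agent.S55.Abs.LocFinal

set_option autoImplicit false

open CategoryTheory groupCohomology ExtCitation

namespace Fermat.Agent.S55.Base.LDQ

open Fermat.Agent.S55.Abs Fermat.Agent.S55.Base.EvalQ

/-! ### Graded commutativity of the cup product of two 1-cocycles (cochain level) -/

section Comm

variable {k G : Type} [Field k] [Group G] {A B C : Rep.{0} k G} (β : EqPairing A B C)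

/-- The homotopy `g ↦ β (x g) (y g)`. -/
def diagCup (x : G → A) (y : G → B) : G → C := fun g => β.toFun (x g) (y g)

lemma diagCup_mem_C1 (𝒰 : LevelFamily G) {x : G → A} (hx : x ∈ C1 𝒰 A) {y : G → B}
    (hy : y ∈ C1 𝒰 B) : diagCup β x y ∈ C1 𝒰 C := by
  obtain ⟨U, hU, h⟩ := hx
  obtain ⟨U', hU', h'⟩ := hy
  obtain ⟨W, hW, hle⟩ := 𝒰.inter U hU U' hU'
  exact ⟨W, hW, fun g s hs => by
    simp only [diagCup]; rw [h g s (hle hs).1, h' g s (hle hs).2]⟩

/-- `x ∪ y + y ∪ x = -d (g ↦ β (x g) (y g))` for 1-cocycles `x`, `y`. -/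
theorem cup11_add_cup11_flip {x : G → A} {y : G → B} (hx : x ∈ cocycles₁ A)
    (hy : y ∈ cocycles₁ B) :
    cup11 β x y + cup11 β.flip y x = -(d₁₂ C).hom (diagCup β x y) := by
  funext ⟨g, h⟩
  have hx' := (mem_cocycles₁_iff x).1 hx g h
  have hy' := (mem_cocycles₁_iff y).1 hy g h
  simp only [Pi.add_apply, Pi.neg_apply, cup11_apply, d₁₂_hom_apply, diagCup,
    EqPairing.flip_toFun_apply]
  rw [hx', hy', ← β.equivariant g (x h) (y h)]
  simp only [map_add, LinearMap.add_apply]
  abel

/-- For level 1-cocycles, `x ∪ y + y ∪ x` is a level coboundary. -/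
theorem cup11_add_cup11_flip_mem_B2 (𝒰 : LevelFamily G) {x : G → A} (hx : x ∈ Z1 𝒰 A)
    {y : G → B} (hy : y ∈ Z1 𝒰 B) : cup11 β x y + cup11 β.flip y x ∈ B2 𝒰 C := by
  rw [cup11_add_cup11_flip β hx.2 hy.2]
  exact neg_mem ⟨_, diagCup_mem_C1 β 𝒰 hx.1 hy.1, rfl⟩

end Comm

/-! ### Discreteness at the local groups -/

section Disc

variable (p : ℕ) [Fact p.Prime]

/-- `μ_p` restricted to the local group at ANY prime `w` is discrete. -/
theorem disc_mu (w : Nat.Primes) :
    IsDisc (localLevel (primeLocalToGlobal w))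
      (muRep ((cycloChar p).comp (primeLocalToGlobal w))) :=
  isDisc_res (globalLevel {pPrime p}) (localLevel (primeLocalToGlobal w)) (primeLocalToGlobal w)
    (isLevelMap_localLevel (primeLocalToGlobal w) {pPrime p})
    (isDisc_mu p {pPrime p} (Finset.mem_singleton_self _))

/-- A module of `G_ℚ` which is discrete for some level `T` restricts to a discrete module of the
local group at any prime `w`. -/
theorem disc_res {k : Type} [Field k] {T : Finset Nat.Primes} {M : Rep.{0} k GQ}
    (hM : IsDisc (globalLevel T) M) (w : Nat.Primes) :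
    IsDisc (localLevel (primeLocalToGlobal w)) (Rep.res (primeLocalToGlobal w) M) :=
  isDisc_res (globalLevel T) (localLevel (primeLocalToGlobal w)) (primeLocalToGlobal w)
    (isLevelMap_localLevel (primeLocalToGlobal w) T) hM

variable {p}

/-- If `Res_w M` is discrete, so is `Res_w M'`, `M' = M.dualTwist (cycloChar p)`. -/
theorem disc_res_dual {M : Rep.{0} (ZMod p) GQ} {w : Nat.Primes}
    (hM : IsDisc (localLevel (primeLocalToGlobal w)) (Rep.res (primeLocalToGlobal w) M)) :
    IsDisc (localLevel (primeLocalToGlobal w))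
      (Rep.res (primeLocalToGlobal w) (M.dualTwist (cycloChar p))) :=
  isDisc_of_injective
    (resDualTwistHom (primeLocalToGlobal w) (cycloChar p) M) (fun _ _ h => h)
    (isDisc_dualTwist (localLevel (primeLocalToGlobal w))
      ((cycloChar p).comp (primeLocalToGlobal w)) (disc_mu p w) hM)

end Disc

/-! ### The base case hypothesis and its consequences -/

variable {p : ℕ} [Fact p.Prime] {S : Finset Nat.Primes}

/-- **The base case of the local devissage at the prime `w`** (conclusion of LOC-TDBASE at the
local group `G_w`, for the local invariant of the arithmetic input `I`). -/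
def BaseAt (I : ArithInput p S) (w : Nat.Primes) : Prop :=
  ∀ U : Subgroup (primeLocalGaloisGroup w), U.FiniteIndex →
    (∃ W ∈ (localLevel (primeLocalToGlobal w)).sets, W ≤ U) →
    (∀ u ∈ U, ((cycloChar p).comp (primeLocalToGlobal w)) u = 1) → ¬ p ∣ U.index →
    LocPkg (localLevel (primeLocalToGlobal w)) ((cycloChar p).comp (primeLocalToGlobal w))
      (disc_mu p w) (I.datum.invH w) (M0 (ZMod p) U)

section Main

variable {I : ArithInput p S} {w : Nat.Primes} (hb : BaseAt I w)
  (M : Rep.{0} (ZMod p) GQ) [FiniteDimensional (ZMod p) M]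
  (hM : IsDisc (localLevel (primeLocalToGlobal w)) (Rep.res (primeLocalToGlobal w) M))

include hb hM

/-- **LD-Q, pairing form**: the four local duality statements at `w` for `Res_w M`. -/
theorem ld :
    PairEpi (LPL1 (localLevel (primeLocalToGlobal w)) (I.datum.invH w)
      ((evPairing (cycloChar p) M).res (primeLocalToGlobal w)) (disc_res_dual hM) (disc_mu p w)) ∧
    PairMono (LPL2 (localLevel (primeLocalToGlobal w)) (I.datum.invH w)
      ((evPairing (cycloChar p) M).res (primeLocalToGlobal w)) (disc_res_dual hM) (disc_mu p w)) ∧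
    PairEpi (LPL1 (localLevel (primeLocalToGlobal w)) (I.datum.invH w)
      ((evPairing (cycloChar p) M).res (primeLocalToGlobal w)).flip hM (disc_mu p w)) ∧
    PairMono (LPL2 (localLevel (primeLocalToGlobal w)) (I.datum.invH w)
      ((evPairing (cycloChar p) M).res (primeLocalToGlobal w)).flip hM (disc_mu p w)) :=
  ld_res_of_base (primeLocalToGlobal w) (localLevel (primeLocalToGlobal w)) (cycloChar p)
    (disc_mu p w) (I.datum.invH w) hb M hM (disc_res_dual hM)

/-- **[LocRight w]**: a level 1-cocycle `η` of `Res_w M'` with `inv_w (ξ ∪ η) = 0` for every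
level 1-cocycle `ξ` of `Res_w M` is a coboundary. -/
theorem locRight {η : primeLocalGaloisGroup w → M.dualTwist (cycloChar p)}
    (hη : η ∈ Z1 (localLevel (primeLocalToGlobal w))
      (Rep.res (primeLocalToGlobal w) (M.dualTwist (cycloChar p))))
    (h : ∀ ξ ∈ Z1 (localLevel (primeLocalToGlobal w)) (Rep.res (primeLocalToGlobal w) M),
      I.inv w (cup11 ((evPairing (cycloChar p) M).res (primeLocalToGlobal w)) ξ η) = 0) :
    η ∈ coboundaries₁ (Rep.res (primeLocalToGlobal w) (M.dualTwist (cycloChar p))) := by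
  have h1 := PairEpi.right_kernel (ld hb M hM).1 (Submodule.Quotient.mk ⟨η, hη⟩) (fun x => by
    induction x using Submodule.Quotient.induction_on with
    | H ξ => exact h ξ.1 ξ.2)
  rw [Submodule.Quotient.mk_eq_zero] at h1
  exact h1

/-- **[LocLeft w]**: a level 1-cocycle `ξ` of `Res_w M` with `inv_w (ξ ∪ η) = 0` for every
level 1-cocycle `η` of `Res_w M'` is a coboundary. -/
theorem locLeft {ξ : primeLocalGaloisGroup w → M}
    (hξ : ξ ∈ Z1 (localLevel (primeLocalToGlobal w)) (Rep.res (primeLocalToGlobal w) M))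
    (h : ∀ η ∈ Z1 (localLevel (primeLocalToGlobal w))
        (Rep.res (primeLocalToGlobal w) (M.dualTwist (cycloChar p))),
      I.inv w (cup11 ((evPairing (cycloChar p) M).res (primeLocalToGlobal w)) ξ η) = 0) :
    ξ ∈ coboundaries₁ (Rep.res (primeLocalToGlobal w) M) := by
  have h1 := PairEpi.right_kernel (ld hb M hM).2.2.1 (Submodule.Quotient.mk ⟨ξ, hξ⟩) (fun y => by
    induction y using Submodule.Quotient.induction_on with
    | H η =>
      have h2 := I.inv_B2 w _ (cup11_add_cup11_flip_mem_B2
        ((evPairing (cycloChar p) M).res (primeLocalToGlobal w))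
        (localLevel (primeLocalToGlobal w)) hξ η.2)
      rw [map_add, h η.1 η.2, zero_add] at h2
      exact h2)
  rw [Submodule.Quotient.mk_eq_zero] at h1
  exact h1

/-- Every functional on `H¹(G_w, M')` is `η ↦ inv_w (ξ ∪ η)` for a level 1-cocycle `ξ` of
`Res_w M`. -/
theorem exists_rep_left
    (φ : H1 (localLevel (primeLocalToGlobal w))
      (Rep.res (primeLocalToGlobal w) (M.dualTwist (cycloChar p))) →ₗ[ZMod p] ZMod p) :
    ∃ ξ ∈ Z1 (localLevel (primeLocalToGlobal w)) (Rep.res (primeLocalToGlobal w) M),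
      ∀ (η : primeLocalGaloisGroup w → M.dualTwist (cycloChar p))
        (hη : η ∈ Z1 (localLevel (primeLocalToGlobal w))
          (Rep.res (primeLocalToGlobal w) (M.dualTwist (cycloChar p)))),
        φ (Submodule.Quotient.mk ⟨η, hη⟩)
          = I.inv w (cup11 ((evPairing (cycloChar p) M).res (primeLocalToGlobal w)) ξ η) := by
  obtain ⟨x, hx⟩ := (ld hb M hM).1 φ
  induction x using Submodule.Quotient.induction_on with
  | H ξ => exact ⟨ξ.1, ξ.2, fun η hη => hx (Submodule.Quotient.mk ⟨η, hη⟩)⟩

/-- Every functional on `H¹(G_w, M)` is `ξ ↦ inv_w (ξ ∪ η)` for a level 1-cocycle `η` of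
`Res_w M'`. -/
theorem exists_rep_right
    (φ : H1 (localLevel (primeLocalToGlobal w)) (Rep.res (primeLocalToGlobal w) M)
      →ₗ[ZMod p] ZMod p) :
    ∃ η ∈ Z1 (localLevel (primeLocalToGlobal w))
        (Rep.res (primeLocalToGlobal w) (M.dualTwist (cycloChar p))),
      ∀ (ξ : primeLocalGaloisGroup w → M)
        (hξ : ξ ∈ Z1 (localLevel (primeLocalToGlobal w)) (Rep.res (primeLocalToGlobal w) M)),
        φ (Submodule.Quotient.mk ⟨ξ, hξ⟩)
          = I.inv w (cup11 ((evPairing (cycloChar p) M).res (primeLocalToGlobal w)) ξ η) := by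
  obtain ⟨y, hy⟩ := (ld hb M hM).2.2.1 (-φ)
  induction y using Submodule.Quotient.induction_on with
  | H η =>
    refine ⟨η.1, η.2, fun ξ hξ => ?_⟩
    have h1 := hy (Submodule.Quotient.mk ⟨ξ, hξ⟩)
    have h2 := I.inv_B2 w _ (cup11_add_cup11_flip_mem_B2
      ((evPairing (cycloChar p) M).res (primeLocalToGlobal w))
      (localLevel (primeLocalToGlobal w)) hξ η.2)
    rw [map_add] at h2
    have h3 : I.inv w (cup11 ((evPairing (cycloChar p) M).res (primeLocalToGlobal w)).flip η.1 ξ)
        = -φ (Submodule.Quotient.mk ⟨ξ, hξ⟩) := h1.symm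
    rw [h3] at h2
    exact (sub_eq_zero.1 (by rw [sub_eq_add_neg]; exact h2)).symm

/-- **(L-b) for `M`, cochain form**: a level 2-cocycle `z` of `Res_w M` with `inv_w (z ∪ t) = 0`
for every `G_w`-invariant `t ∈ M'` is a level coboundary. -/
theorem mem_B2 {z : primeLocalGaloisGroup w × primeLocalGaloisGroup w → M}
    (hz : z ∈ Z2 (localLevel (primeLocalToGlobal w)) (Rep.res (primeLocalToGlobal w) M))
    (h : ∀ t ∈ (Rep.res (primeLocalToGlobal w) (M.dualTwist (cycloChar p))).ρ.invariants,
      I.inv w (cup20 ((evPairing (cycloChar p) M).res (primeLocalToGlobal w)) z t) = 0) :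
    z ∈ B2 (localLevel (primeLocalToGlobal w)) (Rep.res (primeLocalToGlobal w) M) := by
  have h1 := (ld hb M hM).2.1 (Submodule.Quotient.mk ⟨z, hz⟩) (fun t => h t.1 t.2)
  rw [Submodule.Quotient.mk_eq_zero] at h1
  exact h1

/-- **(L-b) for `M'`, cochain form**: a level 2-cocycle `z` of `Res_w M'` with
`inv_w (z ∪ m) = 0` for every `G_w`-invariant `m ∈ M` is a level coboundary. -/
theorem mem_B2_dual
    {z : primeLocalGaloisGroup w × primeLocalGaloisGroup w → M.dualTwist (cycloChar p)}
    (hz : z ∈ Z2 (localLevel (primeLocalToGlobal w))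
      (Rep.res (primeLocalToGlobal w) (M.dualTwist (cycloChar p))))
    (h : ∀ m ∈ (Rep.res (primeLocalToGlobal w) M).ρ.invariants,
      I.inv w (cup20 ((evPairing (cycloChar p) M).res (primeLocalToGlobal w)).flip z m) = 0) :
    z ∈ B2 (localLevel (primeLocalToGlobal w))
      (Rep.res (primeLocalToGlobal w) (M.dualTwist (cycloChar p))) := by
  have h1 := (ld hb M hM).2.2.2 (Submodule.Quotient.mk ⟨z, hz⟩) (fun t => h t.1 t.2)
  rw [Submodule.Quotient.mk_eq_zero] at h1
  exact h1

end Main

/-! ### The local package of the Poitou–Tate context `ctxS p S hpS I.lamS` -/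

section Ctx

variable (I : ArithInput p S) (hpS : pPrime p ∈ S)

/-- The local invariant of `ctxS p S hpS I.lamS` at `v ∈ S` is the class functional of `I.inv v`. -/
theorem ctx_inv_eq (v : ↥S) : (ctxS p S hpS I.lamS).inv v = I.datum.invH v.1 := by
  apply LinearMap.ext
  intro x
  induction x using Submodule.Quotient.induction_on with
  | H z => exact I.inv_eval hpS v z.1 z.2

/-- **The local package of `M`** in the context `ctxS p S hpS I.lamS`, from the base case at the
primes of `S`. -/
theorem pkgL (hb : ∀ v : ↥S, BaseAt I v.1) (M : Rep.{0} (ZMod p) GQ)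
    [FiniteDimensional (ZMod p) M] (hM : IsDisc (globalLevel S) M) :
    (ctxS p S hpS I.lamS).PkgL M where
  disc := hM
  locEpi := fun v => by
    have h := (ld (hb v) M (disc_res hM v.1)).1
    rw [← ctx_inv_eq I hpS v] at h
    exact h
  locMono := fun v => by
    have h := (ld (hb v) M (disc_res hM v.1)).2.1
    rw [← ctx_inv_eq I hpS v] at h
    exact h

/-- **The local package of `M' = M.dualTwist (cycloChar p)`** in the context
`ctxS p S hpS I.lamS`, from the base case at the primes of `S`. -/
theorem pkgL_dual (hb : ∀ v : ↥S, BaseAt I v.1) (M : Rep.{0} (ZMod p) GQ)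
    [FiniteDimensional (ZMod p) M] (hM : IsDisc (globalLevel S) M) :
    (ctxS p S hpS I.lamS).PkgL ((ctxS p S hpS I.lamS).dual M) :=
  have : FiniteDimensional (ZMod p) (M.dualTwist (cycloChar p)) :=
    inferInstanceAs (FiniteDimensional (ZMod p) (Module.Dual (ZMod p) M))
  pkgL I hpS hb (M.dualTwist (cycloChar p)) ((ctxS p S hpS I.lamS).disc_dual hM)

end Ctx

end Fermat.Agent.S55.Base.LDQ
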