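/-
`EvalCup`: the evaluation formulas of the Poitou–Tate pairing on classes whose global part dies
after adding ramification (the EVAL step of the S55 base case).

Generic datum: a global group `G`, local groups `H w` with homomorphisms `r w : H w →* G`
(`w` runs over all places), representations `A, B, C` of `G` over a field `k`, an equivariant
pairing `φ : A × B → C`.  All cochains are plain functions (the low-degree shapes of Mathlib),
cup products are those of `Fermat.Agent.S55.Abs.CupLow`.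

`Star r S lam inv C2 U2` is literally the (STAR) clause of
`Fermat.Agent.S55.Arith.LambdaStar.exists_lam'` for
`V2 := G × G → C`, `V3 := G × G × G → C`, `L2 w := H w × H w → C`, `d := d₂₃`,
`r2 w := res₂ (r w) C`, `r3 w := res₃ (r w) C`, `dl w := d₂₃` of the restricted representation.

* `eval₂₁` : for a cone 2-cocycle `(a, t)` with `a = d c'` (`c'` of level `S'`) and a 1-cocycle `y`,
  `lam ((a, t) ∪ y) = ∑_{v ∈ S} inv_v ((t_v - res_v c') ∪ y_v) + ∑_{w ∈ S' \ S} inv_w ((t_w - res_w c') ∪ y_w)`.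
* `eval₁₂` : for a cone 1-cocycle `(χ, c)` and a 2-cocycle `x = d u` (`u` of level `S'`), with
  unramified local primitives `m w` of `res_w x` at `w ∈ S' \ S`,
  `lam ((χ, c) ∪ x) = ∑_{w ∈ S' \ S} inv_w (χ_w ∪ (res_w u - m_w))`.

No vanishing of any `H^3` is used.
-/
import Fermat.Agent.S55.Abs.CupLow

set_option autoImplicit false

universe u

namespace Fermat.Agent.S55.Base.EvalCup

open groupCohomology Fermat.Agent.S55.Abs.CupLow Finset

section Restriction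

variable {k G : Type u} [CommRing k] [Group G] {H : Type u} [Group H] (r : H →* G)

/-- Restriction of `1`-cochains along `r`. -/
def res₁ (M : Rep k G) : (G → M) →ₗ[k] (H → Rep.res r M) :=
  LinearMap.funLeft k M r

/-- Restriction of `2`-cochains along `r`. -/
def res₂ (M : Rep k G) : (G × G → M) →ₗ[k] (H × H → Rep.res r M) :=
  LinearMap.funLeft k M (Prod.map r r)

/-- Restriction of `3`-cochains along `r`. -/
def res₃ (M : Rep k G) : (G × G × G → M) →ₗ[k] (H × H × H → Rep.res r M) :=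
  LinearMap.funLeft k M (Prod.map r (Prod.map r r))

@[simp] lemma res₁_apply (M : Rep k G) (x : G → M) (h : H) : res₁ r M x h = x (r h) := rfl

@[simp] lemma res₂_apply (M : Rep k G) (x : G × G → M) (p : H × H) :
    res₂ r M x p = x (r p.1, r p.2) := rfl

@[simp] lemma res₃_apply (M : Rep k G) (x : G × G × G → M) (p : H × H × H) :
    res₃ r M x p = x (r p.1, r p.2.1, r p.2.2) := rfl

/-- `d₀₁` commutes with restriction (the value does not change). -/
lemma d₀₁_res (M : Rep k G) (a : M) :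
    (d₀₁ (Rep.res r M)).hom a = res₁ r M ((d₀₁ M).hom a) := by
  funext g
  rfl

lemma d₁₂_res (M : Rep k G) (x : G → M) :
    (d₁₂ (Rep.res r M)).hom (res₁ r M x) = res₂ r M ((d₁₂ M).hom x) := by
  funext ⟨g, h⟩
  simp only [d₁₂_hom_apply, res₁_apply, res₂_apply, map_mul]
  rfl

lemma d₂₃_res (M : Rep k G) (x : G × G → M) :
    (d₂₃ (Rep.res r M)).hom (res₂ r M x) = res₃ r M ((d₂₃ M).hom x) := by
  funext ⟨g, h, j⟩
  simp only [d₂₃_hom_apply, res₂_apply, res₃_apply, map_mul]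
  rfl

variable {A B C : Rep k G} (φ : A →ₗ[k] B →ₗ[k] C)

/-- The pairing viewed on the restricted representations. -/
def resPairing : (Rep.res r A) →ₗ[k] (Rep.res r B) →ₗ[k] (Rep.res r C) := φ

lemma resPairing_equivariant {φ : A →ₗ[k] B →ₗ[k] C} (hφ : Equivariant φ) :
    Equivariant (resPairing r φ) :=
  fun g a b => hφ (r g) a b

lemma cup₁₁_res (x : G → A) (y : G → B) :
    cup₁₁ (resPairing r φ) (res₁ r A x) (res₁ r B y) = res₂ r C (cup₁₁ φ x y) := by
  funext ⟨g, h⟩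
  rfl

lemma cup₂₁_res (x : G × G → A) (y : G → B) :
    cup₂₁ (resPairing r φ) (res₂ r A x) (res₁ r B y) = res₃ r C (cup₂₁ φ x y) := by
  funext ⟨g, h, j⟩
  simp only [cup₂₁_apply, res₂_apply, res₁_apply, res₃_apply, map_mul]
  rfl

lemma cup₁₂_res (x : G → A) (y : G × G → B) :
    cup₁₂ (resPairing r φ) (res₁ r A x) (res₂ r B y) = res₃ r C (cup₁₂ φ x y) := by
  funext ⟨g, h, j⟩
  rfl

end Restriction

section Eval

variable {k G : Type u} [Field k] [Group G] {ι : Type*} [DecidableEq ι]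
  {H : ι → Type u} [∀ w, Group (H w)] (r : ∀ w, H w →* G)
  {A B C : Rep k G} (S : Finset ι)

/-- The (STAR) property of `LambdaStar.exists_lam'`, for the cochains of `(G, H, r)` with
coefficients in `C`. -/
def Star (lam : ((G × G × G → C) × (∀ v : ↥S, H v × H v → Rep.res (r v) C)) →ₗ[k] k)
    (inv : ∀ w, (H w × H w → Rep.res (r w) C) →ₗ[k] k)
    (C2 : Finset ι → Submodule k (G × G → C))
    (U2 : ∀ w, Submodule k (H w × H w → Rep.res (r w) C)) : Prop :=
  ∀ (A₃ : G × G × G → C) (B₂ : ∀ v : ↥S, H v × H v → Rep.res (r v) C) (S' : Finset ι)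
    (e : G × G → C) (u : ∀ w, H w × H w → Rep.res (r w) C),
    S ⊆ S' → e ∈ C2 S' → (d₂₃ C).hom e = A₃ →
    (∀ w ∈ S', w ∉ S → u w ∈ U2 w ∧ (d₂₃ (Rep.res (r w) C)).hom (u w) = res₃ (r w) C A₃) →
    lam (A₃, B₂) = ∑ v : ↥S, inv v (B₂ v - res₂ (r v) C e)
      + ∑ w ∈ S' \ S, inv w (u w - res₂ (r w) C e)

variable {r S} {φ : A →ₗ[k] B →ₗ[k] C}
  {lam : ((G × G × G → C) × (∀ v : ↥S, H v × H v → Rep.res (r v) C)) →ₗ[k] k}
  {inv : ∀ w, (H w × H w → Rep.res (r w) C) →ₗ[k] k}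
  {C2 : Finset ι → Submodule k (G × G → C)}
  {U2 : ∀ w, Submodule k (H w × H w → Rep.res (r w) C)}

/-- **Evaluation, bidegree (2,1).**  `(a, t)` a cone 2-cochain whose global part is `d c'`,
`y` a 1-cocycle. -/
theorem eval₂₁ (hφ : Equivariant φ) (hstar : Star r S lam inv C2 U2)
    (a : G × G → A) (c' : G → A) (hc' : (d₁₂ A).hom c' = a)
    (y : G → B) (hy : (d₁₂ B).hom y = 0)
    (S' : Finset ι) (hS : S ⊆ S')
    (t : ∀ w, H w → Rep.res (r w) A)
    (ht : ∀ w ∈ S', w ∉ S → (d₁₂ (Rep.res (r w) A)).hom (t w) = res₂ (r w) A a)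
    (hlev : cup₁₁ φ c' y ∈ C2 S')
    (hur : ∀ w ∈ S', w ∉ S → cup₁₁ (resPairing (r w) φ) (t w) (res₁ (r w) B y) ∈ U2 w) :
    lam (cup₂₁ φ a y, fun v : ↥S => cup₁₁ (resPairing (r v) φ) (t v) (res₁ (r v) B y))
      = ∑ v : ↥S, inv v (cup₁₁ (resPairing (r v) φ) (t v - res₁ (r v) A c') (res₁ (r v) B y))
        + ∑ w ∈ S' \ S,
            inv w (cup₁₁ (resPairing (r w) φ) (t w - res₁ (r w) A c') (res₁ (r w) B y)) := by
  have hde : (d₂₃ C).hom (cup₁₁ φ c' y) = cup₂₁ φ a y := by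
    rw [d₂₃_cup₁₁ hφ, hc', hy, map_zero, sub_zero]
  have hu : ∀ w ∈ S', w ∉ S →
      cup₁₁ (resPairing (r w) φ) (t w) (res₁ (r w) B y) ∈ U2 w ∧
      (d₂₃ (Rep.res (r w) C)).hom (cup₁₁ (resPairing (r w) φ) (t w) (res₁ (r w) B y))
        = res₃ (r w) C (cup₂₁ φ a y) := by
    intro w hw hwS
    refine ⟨hur w hw hwS, ?_⟩
    rw [d₂₃_cup₁₁ (resPairing_equivariant (r w) hφ), ht w hw hwS, d₁₂_res, hy, map_zero, map_zero,
      sub_zero, cup₂₁_res]
  have key := hstar (cup₂₁ φ a y)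
    (fun v : ↥S => cup₁₁ (resPairing (r v) φ) (t v) (res₁ (r v) B y)) S' (cup₁₁ φ c' y)
    (fun w => cup₁₁ (resPairing (r w) φ) (t w) (res₁ (r w) B y)) hS hlev hde hu
  rw [key]
  have hsub : ∀ w : ι, cup₁₁ (resPairing (r w) φ) (t w) (res₁ (r w) B y)
      - res₂ (r w) C (cup₁₁ φ c' y)
      = cup₁₁ (resPairing (r w) φ) (t w - res₁ (r w) A c') (res₁ (r w) B y) := by
    intro w
    rw [← cup₁₁_res, map_sub, LinearMap.sub_apply]
  congr 1
  · exact Finset.sum_congr rfl fun v _ => by rw [hsub]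
  · exact Finset.sum_congr rfl fun w _ => by rw [hsub]

/-- **Evaluation, bidegree (1,2).**  `(χ, c)` a cone 1-cocycle (`χ` a 1-cocycle, `χ_v = d c_v`
for `v ∈ S`), `x = d u` a 2-coboundary at level `S'`, `m w` local primitives of `res_w x`
at the new places. -/
theorem eval₁₂ (hφ : Equivariant φ) (hstar : Star r S lam inv C2 U2)
    (hinv : ∀ (w : ι) (f : H w → Rep.res (r w) C), inv w ((d₁₂ (Rep.res (r w) C)).hom f) = 0)
    (χ : G → A) (hχ : (d₁₂ A).hom χ = 0)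
    (c : ∀ w, Rep.res (r w) A)
    (hc : ∀ v ∈ S, (d₀₁ (Rep.res (r v) A)).hom (c v) = res₁ (r v) A χ)
    (x : G × G → B) (u : G → B) (hu : (d₁₂ B).hom u = x)
    (S' : Finset ι) (hS : S ⊆ S')
    (m : ∀ w, H w → Rep.res (r w) B)
    (hm : ∀ w ∈ S', w ∉ S → (d₁₂ (Rep.res (r w) B)).hom (m w) = res₂ (r w) B x)
    (hlev : cup₁₁ φ χ u ∈ C2 S')
    (hur : ∀ w ∈ S', w ∉ S → cup₁₁ (resPairing (r w) φ) (res₁ (r w) A χ) (m w) ∈ U2 w) :
    lam (cup₁₂ φ χ x, fun v : ↥S => cup₀₂ (resPairing (r v) φ) (c v) (res₂ (r v) B x))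
      = ∑ w ∈ S' \ S,
          inv w (cup₁₁ (resPairing (r w) φ) (res₁ (r w) A χ) (res₁ (r w) B u - m w)) := by
  have hde : (d₂₃ C).hom (-cup₁₁ φ χ u) = cup₁₂ φ χ x := by
    rw [map_neg, d₂₃_cup₁₁ hφ, hχ, hu, map_zero, LinearMap.zero_apply, zero_sub, neg_neg]
  have hw' : ∀ w ∈ S', w ∉ S →
      -cup₁₁ (resPairing (r w) φ) (res₁ (r w) A χ) (m w) ∈ U2 w ∧
      (d₂₃ (Rep.res (r w) C)).hom (-cup₁₁ (resPairing (r w) φ) (res₁ (r w) A χ) (m w))
        = res₃ (r w) C (cup₁₂ φ χ x) := by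
    intro w hw hwS
    refine ⟨Submodule.neg_mem _ (hur w hw hwS), ?_⟩
    rw [map_neg, d₂₃_cup₁₁ (resPairing_equivariant (r w) hφ), d₁₂_res, hχ, map_zero, map_zero,
      LinearMap.zero_apply, zero_sub, neg_neg, hm w hw hwS, cup₁₂_res]
  have key := hstar (cup₁₂ φ χ x)
    (fun v : ↥S => cup₀₂ (resPairing (r v) φ) (c v) (res₂ (r v) B x)) S' (-cup₁₁ φ χ u)
    (fun w => -cup₁₁ (resPairing (r w) φ) (res₁ (r w) A χ) (m w)) hS
    (Submodule.neg_mem _ hlev) hde hw'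
  rw [key]
  have h1 : ∑ v : ↥S, inv v (cup₀₂ (resPairing (r v) φ) (c v) (res₂ (r v) B x)
      - res₂ (r v) C (-cup₁₁ φ χ u)) = 0 := by
    refine Finset.sum_eq_zero fun v _ => ?_
    have e1 : cup₀₂ (resPairing (r v) φ) (c v) (res₂ (r v) B x) - res₂ (r v) C (-cup₁₁ φ χ u)
        = (d₁₂ (Rep.res (r v) C)).hom (cup₀₁ (resPairing (r v) φ) (c v) (res₁ (r v) B u)) := by
      rw [d₁₂_cup₀₁ (resPairing_equivariant (r v) hφ), hc v v.2, d₁₂_res, hu, map_neg,
        sub_neg_eq_add, cup₁₁_res, add_comm]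
    rw [e1, hinv]
  rw [h1, zero_add]
  refine Finset.sum_congr rfl fun w _ => ?_
  congr 1
  rw [map_neg, sub_neg_eq_add, ← cup₁₁_res, map_sub, neg_add_eq_sub]

end Eval

end Fermat.Agent.S55.Base.EvalCup
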