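/-
S55 / PROGRAM CFT, base case: the (c4) input of `Base/BaseFinal` for the concrete theta family
(helper185).

`c4Input_of_gen` : `BaseCase.C4Input I K` from `Gen` of helper257's concrete family
`C4Principal.thetaFam I hpS hK hζ F R` (restricted `ℚ`-side Kummer cocycles of uniformisers at the
places of `K` outside `S_K`): `Kill` is `C4Principal.kill`, the count is `C4K.finrank_P0_quot`.

`bricks3_of_gen` : the layer-3 bricks of `Wire/Layer2` from a REC family, `CapGen` and `Gen` for
every admissible field.
-/
import Fermat.Agent.S55.Base.BaseFinal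
import Fermat.Agent.S55.Base.C4Principal

set_option autoImplicit false

open scoped NumberField
open CategoryTheory groupCohomology ExtCitation

namespace Fermat.Agent.S55.Base.BaseCase

open Fermat.Agent.S55.Abs Fermat.Agent.S55.Base.EvalQ Fermat.Agent.S55.Shapiro Module
open Fermat.Agent.CFT.Global.CountV Fermat.Agent.CFT.Count

variable {p : ℕ} [Fact p.Prime] {S : Finset Nat.Primes}

/-- **The (c4) input from `Gen` of the concrete theta family.** -/
theorem c4Input_of_gen (I : ArithInput p S) (hpS : pPrime p ∈ S)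
    (K : IntermediateField ℚ (AlgebraicClosure ℚ)) [NumberField K]
    (hK : K.IsUnramifiedOutside S) {ζ : K} (hζ : IsPrimitiveRoot ζ p)
    (F : C4Principal.UFam p S K ζ) (R : Retr K.fixingSubgroup)
    (hG : (C4Principal.thetaFam I hpS hK hζ F R).Gen) : C4Input I K :=
  ⟨C4Principal.thetaFam I hpS hK hζ F R, LinearMap.range (C4K.ordP p S K), hG,
    C4Principal.kill I hpS hK hζ F R,
    fun _ hρ => ⟨(C4K.finrank_P0_quot hρ).1, (C4K.finrank_P0_quot hρ).2.le⟩⟩

/-- **Layer-3 bricks** from a REC family, `CapGen` and `Gen` of the concrete theta family for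
every admissible field. -/
theorem bricks3_of_gen (hp2 : p ≠ 2) (hpS : pPrime p ∈ S)
    (hrec : ∃ lamH : Wire.LamH p, Wire.IsRec p S lamH)
    (hcap : ∀ (I : ArithInput p S) (K : IntermediateField ℚ (AlgebraicClosure ℚ)),
      K.IsUnramifiedOutside S → Glue.cycloField p ≤ K →
        ConeKer.CapGen I.datum (M0 (ZMod p) K.fixingSubgroup))
    (hgen : ∀ (I : ArithInput p S) (K : IntermediateField ℚ (AlgebraicClosure ℚ))
      [NumberField K] (hK : K.IsUnramifiedOutside S), Glue.cycloField p ≤ K →
        ∃ (ζ : K) (hζ : IsPrimitiveRoot ζ p) (F : C4Principal.UFam p S K ζ)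
          (R : Retr K.fixingSubgroup), (C4Principal.thetaFam I hpS hK hζ F R).Gen) :
    Wire.Bricks3 p S hpS :=
  bricks3 hp2 hpS hrec hcap fun I K _ hK hc => by
    obtain ⟨ζ, hζ, F, R, hG⟩ := hgen I K hK hc
    exact c4Input_of_gen I hpS K hK hζ F R hG

end Fermat.Agent.S55.Base.BaseCase
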