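/-
S55 / PROGRAM CFT, base case, count (c4): `Gen` of a family `Θ : C4.ThetaFam D N` from a
generation statement with an arbitrary finite index type (helper154).

`gen_of_cover` : at every place `w ∉ S`, suppose given finitely many local cochains `ϑ j`
(`j : J`) such that
* every local level 1-cocycle at `w` is `∑ j, e j • ϑ j + (unramified cochain) + (coboundary)`;
* every `ϑ j` is one of the `Θ.θ w o`, `o` above `w`, up to an unramified cochain and a
  coboundary.
Then `Θ.Gen`.  No injectivity of `j ↦ o` is needed.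
-/
import Fermat.Agent.S55.Base.C4Shape

set_option autoImplicit false

open CategoryTheory groupCohomology

namespace Fermat.Agent.S55.Base.C4GenQ

open Fermat.Agent.S55.Abs Fermat.Agent.S55.Base.C4

variable {k G : Type} [Field k] [Group G] {C : Rep.{0} k G} {D : Eval.Datum k G C}
  {N : Rep.{0} k G}

/-- **`Gen` from a finite generating family covered by the `θ(o)`.** -/
theorem gen_of_cover (Θ : ThetaFam D N)
    (h : ∀ w, w ∉ D.S → ∃ (J : Type) (_ : Fintype J) (ϑ : J → D.Gv w → N),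
      (∀ z ∈ Z1 (D.𝒰v w) (Rep.res (D.loc w) N), ∃ (e : J → k) (u : D.Gv w → N) (m : N),
        u ∈ C1 (D.𝒰ur w) (Rep.res (D.loc w) N) ∧
        z = ∑ j, e j • ϑ j + u + (d₀₁ (Rep.res (D.loc w) N)).hom m) ∧
      (∀ j, ∃ o : Θ.O, Θ.pr o = w ∧ ∃ (u : D.Gv w → N) (m : N),
        u ∈ C1 (D.𝒰ur w) (Rep.res (D.loc w) N) ∧
        Θ.θ w o = ϑ j + u + (d₀₁ (Rep.res (D.loc w) N)).hom m)) :
    Θ.Gen := by
  classical
  intro w hw z hz
  obtain ⟨J, _, ϑ, hgen, hcov⟩ := h w hw
  obtain ⟨e, u, m, hu, hzeq⟩ := hgen z hz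
  choose o ho u' m' hu' hθ using hcov
  refine ⟨∑ j, Finsupp.single (o j) (e j), u - ∑ j, e j • u' j, m - ∑ j, e j • m' j, ?_, ?_, ?_⟩
  · intro x hx
    have hx' := Finsupp.support_finsetSum (s := Finset.univ)
      (f := fun j => Finsupp.single (o j) (e j)) hx
    rw [Finset.mem_biUnion] at hx'
    obtain ⟨j, -, hj⟩ := hx'
    have hxo : x = o j := by
      by_contra hne
      rw [Finsupp.mem_support_iff, Finsupp.single_apply, if_neg (fun h' => hne h'.symm)] at hj
      exact hj rfl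
    rw [hxo]
    exact ho j
  · exact sub_mem hu (Submodule.sum_mem _ fun j _ => Submodule.smul_mem _ _ (hu' j))
  · have hlc : Θ.lc w (∑ j, Finsupp.single (o j) (e j)) = ∑ j, e j • Θ.θ w (o j) := by
      rw [map_sum]
      refine Finset.sum_congr rfl fun j _ => ?_
      rw [ThetaFam.lc, Finsupp.linearCombination_single]
    have hsum : ∑ j, e j • Θ.θ w (o j)
        = ∑ j, e j • ϑ j + ∑ j, e j • u' j
          + (d₀₁ (Rep.res (D.loc w) N)).hom (∑ j, e j • m' j) := by
      rw [map_sum, ← Finset.sum_add_distrib, ← Finset.sum_add_distrib]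
      refine Finset.sum_congr rfl fun j _ => ?_
      rw [hθ j, smul_add, smul_add, map_smul]
    rw [hzeq, hlc, hsum, map_sub]
    abel

/-- **`Gen` from a finite generating subfamily of the `θ(o)`**: at every place `w ∉ S`, finitely
many places `o j` above `w` such that every local level 1-cocycle at `w` is
`∑ j, e j • Θ.θ w (o j) + (unramified cochain) + (coboundary)`. -/
theorem gen_of_index (Θ : ThetaFam D N)
    (h : ∀ w, w ∉ D.S → ∃ (J : Type) (_ : Fintype J) (o : J → Θ.O), (∀ j, Θ.pr (o j) = w) ∧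
      ∀ z ∈ Z1 (D.𝒰v w) (Rep.res (D.loc w) N), ∃ (e : J → k) (u : D.Gv w → N) (m : N),
        u ∈ C1 (D.𝒰ur w) (Rep.res (D.loc w) N) ∧
        z = ∑ j, e j • Θ.θ w (o j) + u + (d₀₁ (Rep.res (D.loc w) N)).hom m) :
    Θ.Gen := by
  refine gen_of_cover Θ fun w hw => ?_
  obtain ⟨J, hJ, o, ho, hgen⟩ := h w hw
  refine ⟨J, hJ, fun j => Θ.θ w (o j), hgen, fun j => ⟨o j, ho j, 0, 0, zero_mem _, ?_⟩⟩
  rw [map_zero, add_zero, add_zero]

end Fermat.Agent.S55.Base.C4GenQ
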