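/-
S55 / PROGRAM CFT, base case, count (c4): `Gen` for the concrete family
`C4Principal.thetaFam` of restricted Kummer cocycles of uniformisers (helper154).

`thetaFam_gen` : `(C4Principal.thetaFam I hpS hK hζ F R).Gen`, i.e. for every prime `l ∉ S`
every local level 1-cocycle at `l` with values in `M0(K)` is a combination of the restrictions
`res_l (ind₁ R (κ o))`, `o` a place of `K` above `l`, modulo unramified cochains and
coboundaries.

Proof: `C4GenQ.gen_of_cover` with the Mackey index `J` of a system of representatives of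
`G_K \ G_ℚ / G_l` (`Shapiro.DRep.nonempty`), the places `CapGen.vOf K l D j` of `K` above `l`
(helper16) and UNR3-Q in the normalisation `θ_j = res_l (ind₁ (χ j))`
(`Unr3Q.gen_res_ind`, helper196).
-/
import Fermat.Agent.S55.Base.C4GenQ
import Fermat.Agent.S55.Base.C4Principal
import Fermat.Agent.S55.Base.CapGenPlaces
import Fermat.Agent.S55.Base.EvalUR
import Fermat.Agent.S55.Shapiro.Unr3QGen
import Fermat.Agent.CFT.LocalBr.UnramUnif

set_option autoImplicit false

open CategoryTheory groupCohomology ExtCitation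
open scoped NumberField
open IsDedekindDomain

namespace Fermat.Agent.S55.Base.C4GenQ

open Fermat.Agent.S55.Abs Fermat.Agent.S55.Base.C4 Fermat.Agent.S55.Shapiro
  Fermat.Agent.S55.Base.EvalQ Fermat.Agent.CFT.Count Fermat.Agent.CFT.Global.CountV
  Fermat.Agent.CFT.LocalBr

variable {p : ℕ} [Fact p.Prime] {S : Finset Nat.Primes}
  {K : IntermediateField ℚ (AlgebraicClosure ℚ)} [NumberField K] {ζ : K}

/-- **(GEN) for the base case**: the restricted Kummer cocycles of uniformisers generate the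
local level 1-cocycles outside `S` modulo unramified cochains and coboundaries. -/
theorem thetaFam_gen (I : ArithInput p S) (hpS : pPrime p ∈ S) (hK : K.IsUnramifiedOutside S)
    (hζ : IsPrimitiveRoot ζ p) (F : C4Principal.UFam p S K ζ) (R : Retr K.fixingSubgroup) :
    (C4Principal.thetaFam I hpS hK hζ F R).Gen := by
  classical
  refine gen_of_index _ fun (l : Nat.Primes) (hl : l ∉ S) => ?_
  have hlS : l ∉ S := hl
  obtain ⟨D⟩ := DRep.nonempty K.fixingSubgroup (primeLocalToGlobal l)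
  have : Finite (DoubleCoset.Quotient (K.fixingSubgroup : Set GQ)
      ((primeLocalToGlobal l).range : Set GQ)) := CapGen.finite_of_drep K l D
  let _ : Fintype (DoubleCoset.Quotient (K.fixingSubgroup : Set GQ)
      ((primeLocalToGlobal l).range : Set GQ)) := Fintype.ofFinite _
  -- the places of `K` above `l`
  have hvS : ∀ j, CapGen.vOf K l D j ∉ SK S K := by
    intro j hmem
    obtain ⟨q, hqS, hq⟩ := (mem_SK_iff S K _).1 hmem
    have hql : q = l := C4Principal.prime_unique (CapGen.vOf K l D j) q l hq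
      (CapGen.vOf_mem K l D j)
    exact hlS (hql ▸ hqS)
  have hol : ∀ j, F.l ⟨CapGen.vOf K l D j, hvS j⟩ = l := fun j =>
    F.l_eq ⟨CapGen.vOf K l D j, hvS j⟩ l (CapGen.vOf_mem K l D j)
  have hcov : ∀ j, (C4Principal.thetaFam I hpS hK hζ F R).θ l ⟨CapGen.vOf K l D j, hvS j⟩
      = Unr3Q.resInd p (fun j => F.κ ⟨CapGen.vOf K l D j, hvS j⟩) R j := fun j =>
    C4Principal.thetaFam_θ_of_eq I hpS hK hζ F R l _ (hol j)
  refine ⟨_, inferInstance, fun j => ⟨CapGen.vOf K l D j, hvS j⟩, hol, fun z hz => ?_⟩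
  have hzlev : IsLevelConstant₁ (primeLocalToGlobal l) z :=
    (isLevelConstant₁_iff (primeLocalToGlobal l) z).2 hz.1
  obtain ⟨e, u, m, hu, hzeq⟩ := Unr3Q.gen_res_ind p D S hK hpS hlS ζ hζ
    (fun j => F.π ⟨CapGen.vOf K l D j, hvS j⟩)
    (fun j => (Unram.isUniformizerAt_iff (v := CapGen.vOf K l D j) rfl _).2
      (F.hπ ⟨CapGen.vOf K l D j, hvS j⟩))
    (fun i j hij => CapGen.valuation_unif_of_ne K l D hij
      (fun v hv hne => F.hπ' ⟨CapGen.vOf K l D j, hvS j⟩ v (by rw [hol j]; exact hv) hne))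
    (fun j => F.ϖ ⟨CapGen.vOf K l D j, hvS j⟩)
    (fun j => F.hϖ ⟨CapGen.vOf K l D j, hvS j⟩)
    (fun j => F.κ ⟨CapGen.vOf K l D j, hvS j⟩)
    (fun j σ => F.hκ ⟨CapGen.vOf K l D j, hvS j⟩ σ) R z hz.2 hzlev
  have hu' : u ∈ C1 (urLevel l)
      (Rep.res (primeLocalToGlobal l) (M0 (ZMod p) K.fixingSubgroup)) :=
    (mem_C1_urLevel_iff l (Rep.res (primeLocalToGlobal l) (M0 (ZMod p) K.fixingSubgroup)) u).2 hu
  refine ⟨e, u, m, hu', hzeq.trans ?_⟩
  exact congrArg (fun s : primeLocalGaloisGroup l → M0 (ZMod p) K.fixingSubgroup =>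
      s + u + (d₀₁ (Rep.res (primeLocalToGlobal l) (M0 (ZMod p) K.fixingSubgroup))).hom m)
    (Finset.sum_congr rfl fun j _ => congrArg (fun x => e j • x) (hcov j).symm)

end Fermat.Agent.S55.Base.C4GenQ
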