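/-
S55 / PROGRAM CFT, base case, cone route (helper186): the three ARITHMETIC kernel hypotheses
`h4`, `hA'`, `hI6` of helper185's `AsmCone.base_of_arith` from cochain-level inputs.

Generic part (any evaluation datum `D : Eval.Datum k G C` of helper36, any equivariant pairing
`β : A × B → C` of discrete modules):

* `right_kernel_Pc2`  : `y ∈ Z¹(G_S, B)` orthogonal to `H²_c(A)` is a coboundary      (`h4`)
    from `LocRight` (right kernels of the local pairings, all places), `CapGen A`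
    (every local class outside `S` is the ramification of a global cochain with level-`S`
    coboundary), `G4 B` (a locally trivial class is trivial);
* `fst_mem_coboundaries₁_of_Pc1` : a cone 1-cocycle `(χ, c)` of `A` orthogonal to the locally
    trivial classes of `H²(G_S, B)` has `χ` a coboundary                                (`hA'`)
    from `LocLeft`, `CapGen B`, `G4 A`;
* `res₂_mem_B2_of_Pc1` : `x ∈ Z²(G_S, B)` orthogonal to `H¹_c(A)` is locally a coboundary
    at the places of `S`                                                               (`hI6`)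
    from `Loc2`.

Concrete part: the same for `D = ctxS p S hpS I.lamS`, `I : EvalQ.ArithInput p S` arbitrary,
`β = evPairing (cycloChar p) M`, in the literal shapes of `AsmCone.base_of_arith`.
-/
import Fermat.Agent.S55.Base.EvalQ
import Fermat.Agent.S55.Base.AsmCone

set_option autoImplicit false

open CategoryTheory groupCohomology ExtCitation

namespace Fermat.Agent.S55.Base.ConeKer

open Fermat.Agent.S55.Abs

/-! ## Generic part -/

section Generic

variable {k G : Type} [Field k] [Group G] {C : Rep.{0} k G} (D : Eval.Datum k G C)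
  {A B : Rep.{0} k G} (β : EqPairing A B C)

/-- The right kernel of the local pairing `H¹(G_w, A) × H¹(G_w, B) → k` is trivial, at every
place `w` (cochain form). -/
def LocRight : Prop :=
  ∀ w : D.ι, ∀ η ∈ Z1 (D.𝒰v w) (Rep.res (D.loc w) B),
    (∀ ξ ∈ Z1 (D.𝒰v w) (Rep.res (D.loc w) A), D.inv w (cup11 (β.res (D.loc w)) ξ η) = 0) →
      η ∈ coboundaries₁ (Rep.res (D.loc w) B)

/-- The left kernel of the local pairing `H¹(G_w, A) × H¹(G_w, B) → k` is trivial, at every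
place `w` outside `S` (cochain form). -/
def LocLeft : Prop :=
  ∀ w : D.ι, w ∉ D.S → ∀ ξ ∈ Z1 (D.𝒰v w) (Rep.res (D.loc w) A),
    (∀ η ∈ Z1 (D.𝒰v w) (Rep.res (D.loc w) B), D.inv w (cup11 (β.res (D.loc w)) ξ η) = 0) →
      ξ ∈ coboundaries₁ (Rep.res (D.loc w) A)

/-- Every local 1-cocycle `ξ` at a place `l ∉ S` is, modulo unramified cochains and
coboundaries, the restriction of a global 1-cochain `c` of some finite level `T ⊇ S` whose
coboundary has level `S` and which is unramified (mod coboundaries) at the other places of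
`T` outside `S`. -/
def CapGen (N : Rep.{0} k G) : Prop :=
  ∀ l : D.ι, l ∉ D.S → ∀ ξ ∈ Z1 (D.𝒰v l) (Rep.res (D.loc l) N),
    ∃ (T : Finset D.ι) (c : G → N), D.S ⊆ T ∧ c ∈ C1 (D.𝒰 T) N ∧
      (d₁₂ N).hom c ∈ C2 (D.𝒰 D.S) N ∧
      (∃ u ∈ C1 (D.𝒰ur l) (Rep.res (D.loc l) N), ∃ m : N,
        res₁ D.loc N l c = ξ + u + (d₀₁ (Rep.res (D.loc l) N)).hom m) ∧
      ∀ w ∈ T, w ∉ D.S → w ≠ l → ∃ u ∈ C1 (D.𝒰ur w) (Rep.res (D.loc w) N), ∃ m : N,
        res₁ D.loc N w c = u + (d₀₁ (Rep.res (D.loc w) N)).hom m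

/-- A level-`S` 1-cocycle which is a coboundary at every place is a coboundary. -/
def G4 (N : Rep.{0} k G) : Prop :=
  ∀ y ∈ Z1 (D.𝒰 D.S) N,
    (∀ w : D.ι, res₁ D.loc N w y ∈ coboundaries₁ (Rep.res (D.loc w) N)) → y ∈ coboundaries₁ N

/-- The left kernel of the local pairing `H²(G_v, B) × H⁰(G_v, A) → k` is trivial at the
places of `S` (cochain form). -/
def Loc2 : Prop :=
  ∀ v : ↥D.S, ∀ z ∈ Z2 (D.𝒰v v) (Rep.res (D.loc v) B),
    (∀ s : A, (d₀₁ (Rep.res (D.loc v) A)).hom s = 0 →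
      D.inv v (cup02 (β.res (D.loc v)) s z) = 0) →
      z ∈ B2 (D.𝒰v v) (Rep.res (D.loc v) B)

/-- The cup product of a coboundary with a local level 1-cocycle has trivial invariant. -/
theorem inv_cup11_d₀₁_left (w : D.ι) (m : A) {η : D.Gv w → B}
    (hη : η ∈ Z1 (D.𝒰v w) (Rep.res (D.loc w) B)) :
    D.inv w (cup11 (β.res (D.loc w)) ((d₀₁ (Rep.res (D.loc w) A)).hom m) η) = 0 := by
  have h2 : (d₁₂ (Rep.res (D.loc w) B)).hom η = 0 := hη.2
  have e : cup11 (β.res (D.loc w)) ((d₀₁ (Rep.res (D.loc w) A)).hom m) η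
      = (d₁₂ (Rep.res (D.loc w) C)).hom (cup01 (β.res (D.loc w)) m η) := by
    rw [d₁₂_cup01, h2, map_zero, add_zero]
  rw [e]
  exact D.inv_B2 w _ ⟨_, cup01_mem_C1 (β.res (D.loc w)) (D.𝒰v w) m hη.1, rfl⟩

/-- The cup product of a local level 1-cocycle with a coboundary has trivial invariant. -/
theorem inv_cup11_d₀₁_right (hB : IsDisc (D.𝒰 D.S) B) (w : D.ι) {ξ : D.Gv w → A}
    (hξ : ξ ∈ Z1 (D.𝒰v w) (Rep.res (D.loc w) A)) (m : B) :
    D.inv w (cup11 (β.res (D.loc w)) ξ ((d₀₁ (Rep.res (D.loc w) B)).hom m)) = 0 := by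
  have h1 : (d₁₂ (Rep.res (D.loc w) A)).hom ξ = 0 := hξ.2
  have e : cup11 (β.res (D.loc w)) ξ ((d₀₁ (Rep.res (D.loc w) B)).hom m)
      = -(d₁₂ (Rep.res (D.loc w) C)).hom (cup10 (β.res (D.loc w)) ξ m) := by
    rw [d₁₂_cup10, h1, map_zero, LinearMap.zero_apply, zero_sub, neg_neg]
  rw [e, map_neg, neg_eq_zero]
  exact D.inv_B2 w _ ⟨_, cup10_mem_C1 (β.res (D.loc w)) (D.𝒰v w)
    (isDisc_res (D.𝒰 D.S) (D.𝒰v w) (D.loc w) (D.hloc D.S w) hB) hξ.1 m, rfl⟩

section Kernels

variable (hA : IsDisc (D.𝒰 D.S) A) (hB : IsDisc (D.𝒰 D.S) B) (hC : IsDisc (D.𝒰 D.S) C)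

/-- The coboundary of a global level-`T` 1-cochain with level-`S` coboundary, together with its
restrictions to the places of `S`, is a cone 2-cocycle. -/
theorem d_mem_Zc2 {N : Rep.{0} k G} {T : Finset D.ι} {c : G → N} (hc : c ∈ C1 (D.𝒰 T) N)
    (hdc : (d₁₂ N).hom c ∈ C2 (D.𝒰 D.S) N) :
    (((d₁₂ N).hom c, fun v : ↥D.S => res₁ D.loc N v c) :
        (G × G → N) × (∀ v : ↥D.S, D.GvS v → N)) ∈ Zc2 (D.𝒰 D.S) D.locS D.𝒰vS N := by
  refine ⟨⟨hdc, ?_⟩, fun v => ⟨D.res₁_mem_C1 T v hc, (D.d₁₂_res₁ N v c).symm⟩⟩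
  exact congrArg (fun f => f.hom c) (d₁₂_comp_d₂₃ N)

/-- **(h4), generic form.**  A level-`S` 1-cocycle `y` of `B` which is orthogonal to `H²_c(A)`
under the cone pairing is a coboundary. -/
theorem right_kernel_Pc2 (hLoc : LocRight D β) (hCap : CapGen D A) (hG4 : G4 D B)
    {y : G → B} (hy : y ∈ Z1 (D.𝒰 D.S) B)
    (h : ∀ x : Hc2 (D.𝒰 D.S) D.locS D.𝒰vS A,
      Pc2 (D.𝒰 D.S) D.locS D.𝒰vS β D.hlocS hA hB hC D.lam x
        (Submodule.Quotient.mk ⟨y, hy⟩) = 0) :
    y ∈ coboundaries₁ B := by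
  classical
  refine hG4 y hy fun w => ?_
  have hyw : ∀ w', res₁ D.loc B w' y ∈ Z1 (D.𝒰v w') (Rep.res (D.loc w') B) :=
    fun w' => D.res₁_mem_Z1 D.S w' hy
  refine hLoc w _ (hyw w) fun ξ hξ => ?_
  by_cases hw : w ∈ D.S
  · -- the class `(0, ξ at w)`
    have hz : (((0 : G × G → A), Pi.single (⟨w, hw⟩ : ↥D.S) ξ) :
        (G × G → A) × (∀ v : ↥D.S, D.GvS v → A)) ∈ Zc2 (D.𝒰 D.S) D.locS D.𝒰vS A := by
      refine ⟨zero_mem _, fun v' => ?_⟩
      dsimp only
      by_cases hv : v' = ⟨w, hw⟩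
      · subst hv
        rw [Pi.single_eq_same]
        refine ⟨hξ.1, ?_⟩
        have h1 : (d₁₂ (Rep.res (D.loc w) A)).hom ξ = 0 := hξ.2
        rw [map_zero]
        exact h1.symm
      · rw [Pi.single_eq_of_ne hv]
        exact ⟨zero_mem _, by rw [map_zero, map_zero]⟩
    have hP := D.Pc2_inr_eval β hA hB hC hz hy
    rw [h, Finset.sum_eq_single (⟨w, hw⟩ : ↥D.S)] at hP
    · rw [Pi.single_eq_same] at hP
      exact hP.symm
    · intro v' _ hv'
      rw [Pi.single_eq_of_ne hv', map_zero, LinearMap.zero_apply, map_zero]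
    · intro h'
      exact absurd (Finset.mem_univ _) h'
  · obtain ⟨T, c', hST, hc', hdc', ⟨u, hu, m, hres⟩, hoth⟩ := hCap w hw ξ hξ
    have hST' : D.S ⊆ insert w T := hST.trans (Finset.subset_insert w T)
    have hc'' : c' ∈ C1 (D.𝒰 (insert w T)) A := D.C1_mono (Finset.subset_insert w T) A hc'
    -- the ramified parts `e w'` of `res c'` at the places of `insert w T` outside `S`
    have key : ∀ w' : D.ι, ∃ e : D.Gv w' → A, w' ∈ insert w T → w' ∉ D.S →
        (res₁ D.loc A w' c' - e ∈ C1 (D.𝒰ur w') (Rep.res (D.loc w') A) ∧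
          (d₁₂ (Rep.res (D.loc w') A)).hom e = 0 ∧
          (w' = w → D.inv w' (cup11 (β.res (D.loc w')) e (res₁ D.loc B w' y))
            = D.inv w (cup11 (β.res (D.loc w)) ξ (res₁ D.loc B w y))) ∧
          (w' ≠ w → D.inv w' (cup11 (β.res (D.loc w')) e (res₁ D.loc B w' y)) = 0)) := by
      intro w'
      by_cases hw' : w' = w
      · subst hw'
        refine ⟨ξ + (d₀₁ (Rep.res (D.loc w') A)).hom m, fun _ _ => ⟨?_, ?_, fun _ => ?_,
          fun hne => absurd rfl hne⟩⟩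
        · have : res₁ D.loc A w' c' - (ξ + (d₀₁ (Rep.res (D.loc w') A)).hom m) = u := by
            rw [hres]; abel
          rw [this]
          exact hu
        · have h1 : (d₁₂ (Rep.res (D.loc w') A)).hom ξ = 0 := hξ.2
          have h2 : (d₁₂ (Rep.res (D.loc w') A)).hom ((d₀₁ (Rep.res (D.loc w') A)).hom m) = 0 :=
            congrArg (fun f => f.hom m) (d₀₁_comp_d₁₂ (Rep.res (D.loc w') A))
          rw [map_add, h1, h2, add_zero]
        · rw [map_add, LinearMap.add_apply, map_add, inv_cup11_d₀₁_left D β w' m (hyw w'),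
            add_zero]
      · by_cases hmem : w' ∈ insert w T ∧ w' ∉ D.S
        · obtain ⟨u', hu', m', hres'⟩ := hoth w'
            ((Finset.mem_insert.1 hmem.1).resolve_left hw') hmem.2 hw'
          refine ⟨(d₀₁ (Rep.res (D.loc w') A)).hom m', fun _ _ => ⟨?_, ?_,
            fun he => absurd he hw', fun _ => inv_cup11_d₀₁_left D β w' m' (hyw w')⟩⟩
          · have : res₁ D.loc A w' c' - (d₀₁ (Rep.res (D.loc w') A)).hom m' = u' := by
              rw [hres']; abel
            rw [this]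
            exact hu'
          · exact congrArg (fun f => f.hom m') (d₀₁_comp_d₁₂ (Rep.res (D.loc w') A))
        · exact ⟨0, fun h1 h2 => absurd ⟨h1, h2⟩ hmem⟩
    choose e he using key
    have hx := d_mem_Zc2 D hc' hdc'
    have hP := D.Pc2_eval β hA hB hC hx hy (insert w T) hST' c' hc'' rfl
      (fun w' => res₁ D.loc A w' c' - e w') (fun w' hw' hw'S => ⟨(he w' hw' hw'S).1, by
        rw [map_sub, (he w' hw' hw'S).2.1, sub_zero, D.d₁₂_res₁]⟩)
    rw [h] at hP
    have hS0 : ∑ v : ↥D.S, D.inv v (cup11 (β.res (D.loc v))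
        (res₁ D.loc A v c' - res₁ D.loc A v c') (res₁ D.loc B v y)) = 0 :=
      Finset.sum_eq_zero fun v _ => by
        rw [sub_self, map_zero, LinearMap.zero_apply, map_zero]
    have hwmem : w ∈ insert w T \ D.S := Finset.mem_sdiff.2 ⟨Finset.mem_insert_self w T, hw⟩
    have hS1 : ∑ w' ∈ insert w T \ D.S, D.inv w' (cup11 (β.res (D.loc w'))
        (res₁ D.loc A w' c' - e w' - res₁ D.loc A w' c') (res₁ D.loc B w' y))
        = - D.inv w (cup11 (β.res (D.loc w)) ξ (res₁ D.loc B w y)) := by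
      have hneg : ∀ w', res₁ D.loc A w' c' - e w' - res₁ D.loc A w' c' = - e w' :=
        fun w' => by abel
      rw [Finset.sum_eq_single w]
      · rw [hneg, map_neg, LinearMap.neg_apply, map_neg,
          (he w (Finset.mem_insert_self w T) hw).2.2.1 rfl]
      · intro w' hw' hne
        have hm := Finset.mem_sdiff.1 hw'
        rw [hneg, map_neg, LinearMap.neg_apply, map_neg, (he w' hm.1 hm.2).2.2.2 hne, neg_zero]
      · intro h'
        exact absurd hwmem h'
    rw [hS0, hS1, zero_add] at hP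
    exact neg_eq_zero.1 hP.symm

/-- **(hA'), generic form.**  A cone 1-cocycle `(χ, c)` of `A` whose class is orthogonal, under
the cone pairing, to every class of `H²(G_S, B)` which is locally trivial at the places of `S`,
has `χ` a coboundary. -/
theorem fst_mem_coboundaries₁_of_Pc1 (hLoc : LocLeft D β) (hCap : CapGen D B) (hG4 : G4 D A)
    {χ : G → A} {c : ↥D.S → A} (hx : (χ, c) ∈ Zc1 (D.𝒰 D.S) D.locS A)
    (h : ∀ (a : G × G → B) (ha : a ∈ Z2 (D.𝒰 D.S) B),
      (∀ v : ↥D.S, res₂ D.loc B v a ∈ B2 (D.𝒰v v) (Rep.res (D.loc v) B)) →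
      Pc1 (D.𝒰 D.S) D.locS D.𝒰vS β D.hlocS hA hB hC D.lam
        (Submodule.Quotient.mk ⟨(χ, c), hx⟩) (Submodule.Quotient.mk ⟨a, ha⟩) = 0) :
    χ ∈ coboundaries₁ A := by
  classical
  refine hG4 χ hx.1 fun w => ?_
  have hχw : ∀ w', res₁ D.loc A w' χ ∈ Z1 (D.𝒰v w') (Rep.res (D.loc w') A) :=
    fun w' => D.res₁_mem_Z1 D.S w' hx.1
  by_cases hw : w ∈ D.S
  · exact ⟨c ⟨w, hw⟩, (hx.2 ⟨w, hw⟩).symm⟩
  · refine hLoc w hw _ (hχw w) fun η hη => ?_
    obtain ⟨T, u, hST, hu, hdu, ⟨t₀, ht₀, m, hres⟩, hoth⟩ := hCap w hw η hη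
    have hST' : D.S ⊆ insert w T := hST.trans (Finset.subset_insert w T)
    have hu' : u ∈ C1 (D.𝒰 (insert w T)) B := D.C1_mono (Finset.subset_insert w T) B hu
    -- the ramified parts `e w'` of `res u` at the places of `insert w T` outside `S`
    have key : ∀ w' : D.ι, ∃ e : D.Gv w' → B, w' ∈ insert w T → w' ∉ D.S →
        (res₁ D.loc B w' u - e ∈ C1 (D.𝒰ur w') (Rep.res (D.loc w') B) ∧
          (d₁₂ (Rep.res (D.loc w') B)).hom e = 0 ∧
          (w' = w → D.inv w' (cup11 (β.res (D.loc w')) (res₁ D.loc A w' χ) e)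
            = D.inv w (cup11 (β.res (D.loc w)) (res₁ D.loc A w χ) η)) ∧
          (w' ≠ w → D.inv w' (cup11 (β.res (D.loc w')) (res₁ D.loc A w' χ) e) = 0)) := by
      intro w'
      by_cases hw' : w' = w
      · subst hw'
        refine ⟨η + (d₀₁ (Rep.res (D.loc w') B)).hom m, fun _ _ => ⟨?_, ?_, fun _ => ?_,
          fun hne => absurd rfl hne⟩⟩
        · have : res₁ D.loc B w' u - (η + (d₀₁ (Rep.res (D.loc w') B)).hom m) = t₀ := by
            rw [hres]; abel
          rw [this]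
          exact ht₀
        · have h1 : (d₁₂ (Rep.res (D.loc w') B)).hom η = 0 := hη.2
          have h2 : (d₁₂ (Rep.res (D.loc w') B)).hom ((d₀₁ (Rep.res (D.loc w') B)).hom m) = 0 :=
            congrArg (fun f => f.hom m) (d₀₁_comp_d₁₂ (Rep.res (D.loc w') B))
          rw [map_add, h1, h2, add_zero]
        · rw [map_add, map_add, inv_cup11_d₀₁_right D β hB w' (hχw w') m, add_zero]
      · by_cases hmem : w' ∈ insert w T ∧ w' ∉ D.S
        · obtain ⟨t', ht', m', hres'⟩ := hoth w'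
            ((Finset.mem_insert.1 hmem.1).resolve_left hw') hmem.2 hw'
          refine ⟨(d₀₁ (Rep.res (D.loc w') B)).hom m', fun _ _ => ⟨?_, ?_,
            fun he => absurd he hw', fun _ => inv_cup11_d₀₁_right D β hB w' (hχw w') m'⟩⟩
          · have : res₁ D.loc B w' u - (d₀₁ (Rep.res (D.loc w') B)).hom m' = t' := by
              rw [hres']; abel
            rw [this]
            exact ht'
          · exact congrArg (fun f => f.hom m') (d₀₁_comp_d₁₂ (Rep.res (D.loc w') B))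
        · exact ⟨0, fun h1 h2 => absurd ⟨h1, h2⟩ hmem⟩
    choose e he using key
    have ha : (d₁₂ B).hom u ∈ Z2 (D.𝒰 D.S) B := by
      refine ⟨hdu, ?_⟩
      exact congrArg (fun f => f.hom u) (d₁₂_comp_d₂₃ B)
    have hloc : ∀ v : ↥D.S, res₂ D.loc B v ((d₁₂ B).hom u)
        ∈ B2 (D.𝒰v v) (Rep.res (D.loc v) B) :=
      fun v => ⟨res₁ D.loc B v u, D.res₁_mem_C1 T v hu, D.d₁₂_res₁ B v u⟩
    have hP := D.Pc1_eval β hA hB hC hx ha (insert w T) hST' u hu' rfl
      (fun w' => res₁ D.loc B w' u - e w') (fun w' hw' hw'S => ⟨(he w' hw' hw'S).1, by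
        rw [map_sub, (he w' hw' hw'S).2.1, sub_zero, D.d₁₂_res₁]⟩)
    rw [h _ ha hloc] at hP
    have hwmem : w ∈ insert w T \ D.S := Finset.mem_sdiff.2 ⟨Finset.mem_insert_self w T, hw⟩
    have hS1 : ∑ w' ∈ insert w T \ D.S, D.inv w' (cup11 (β.res (D.loc w'))
        (res₁ D.loc A w' χ) (res₁ D.loc B w' u - (res₁ D.loc B w' u - e w')))
        = D.inv w (cup11 (β.res (D.loc w)) (res₁ D.loc A w χ) η) := by
      have hneg : ∀ w', res₁ D.loc B w' u - (res₁ D.loc B w' u - e w') = e w' :=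
        fun w' => by abel
      rw [Finset.sum_eq_single w]
      · rw [hneg, (he w (Finset.mem_insert_self w T) hw).2.2.1 rfl]
      · intro w' hw' hne
        have hm := Finset.mem_sdiff.1 hw'
        rw [hneg, (he w' hm.1 hm.2).2.2.2 hne]
      · intro h'
        exact absurd hwmem h'
    rw [hS1] at hP
    exact hP.symm

/-- **(hI6), generic form.**  A level-`S` 2-cocycle `x` of `B` whose class is orthogonal to
`H¹_c(A)` under the cone pairing is a local level coboundary at every place of `S`. -/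
theorem res₂_mem_B2_of_Pc1 (hLoc2 : Loc2 D β) {x : G × G → B} (hx' : x ∈ Z2 (D.𝒰 D.S) B)
    (h : ∀ X : Hc1 (D.𝒰 D.S) D.locS A,
      Pc1 (D.𝒰 D.S) D.locS D.𝒰vS β D.hlocS hA hB hC D.lam X
        (Submodule.Quotient.mk ⟨x, hx'⟩) = 0) (v : ↥D.S) :
    res₂ D.loc B v x ∈ B2 (D.𝒰v v) (Rep.res (D.loc v) B) := by
  classical
  refine hLoc2 v _ (D.res₂_mem_Z2 D.S v hx') fun s hs => ?_
  have hz : (((0 : G → A), Pi.single v s) : (G → A) × (↥D.S → A))
      ∈ Zc1 (D.𝒰 D.S) D.locS A := by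
    refine ⟨zero_mem _, fun v' => ?_⟩
    dsimp only
    rw [map_zero]
    by_cases hv : v' = v
    · subst hv
      rw [Pi.single_eq_same]
      exact hs.symm
    · rw [Pi.single_eq_of_ne hv, map_zero]
  have hP := D.Pc1_inr_eval β hA hB hC hz hx'
  rw [h, Finset.sum_eq_single v] at hP
  · rw [Pi.single_eq_same] at hP
    exact hP.symm
  · intro v' _ hv'
    rw [Pi.single_eq_of_ne hv', map_zero, LinearMap.zero_apply, map_zero]
  · intro h'
    exact absurd (Finset.mem_univ _) h'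

end Kernels

end Generic

/-! ## Concrete part: `ctxS p S hpS I.lamS` -/

section Concrete

open Fermat.Agent.S55.Abs.TopGlue

variable {p : ℕ} [Fact p.Prime] {S : Finset Nat.Primes} (I : EvalQ.ArithInput p S)
  (hpS : pPrime p ∈ S) {M : Rep.{0} (ZMod p) GQ} (hM : IsDisc (globalLevel S) M)

/-- **(h4)** of `AsmCone.base_of_arith`: the right kernel of `P2 : H²_c(M) × H¹(G_S, M') → 𝔽_p`
is trivial. -/
theorem h4 (hLoc : LocRight I.datum (evPairing (cycloChar p) M)) (hCap : CapGen I.datum M)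
    (hG4 : G4 I.datum (M.dualTwist (cycloChar p)))
    (y : H1 (ctxS p S hpS I.lamS).𝒰 ((ctxS p S hpS I.lamS).dual M))
    (h : ∀ x, (ctxS p S hpS I.lamS).P2 hM x y = 0) : y = 0 := by
  obtain ⟨⟨y, hy⟩, rfl⟩ := Submodule.mkQ_surjective _ y
  rw [Submodule.mkQ_apply, Submodule.Quotient.mk_eq_zero]
  exact right_kernel_Pc2 I.datum (evPairing (cycloChar p) M) hM
    ((ctxS p S hpS I.lamS).disc_dual hM) (isDisc_mu p S hpS) hLoc hCap hG4 hy h

/-- **(hA')** of `AsmCone.base_of_arith`: a class of `H¹_c(M)` orthogonal to the locally trivial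
classes of `H²(G_S, M')` has trivial image in `H¹(G_S, M)`. -/
theorem hA' (hLoc : LocLeft I.datum (evPairing (cycloChar p) M))
    (hCap : CapGen I.datum (M.dualTwist (cycloChar p))) (hG4 : G4 I.datum M)
    (x : Hc1 (ctxS p S hpS I.lamS).𝒰 (ctxS p S hpS I.lamS).loc M)
    (h : ∀ α : H2 (ctxS p S hpS I.lamS).𝒰 ((ctxS p S hpS I.lamS).dual M),
      loc2 (ctxS p S hpS I.lamS) ((ctxS p S hpS I.lamS).dual M) α = 0 →
        (ctxS p S hpS I.lamS).P1 hM x α = 0) :
    fgt1 (ctxS p S hpS I.lamS).𝒰 (ctxS p S hpS I.lamS).loc M x = 0 := by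
  obtain ⟨⟨⟨χ, c⟩, hx⟩, rfl⟩ := Submodule.mkQ_surjective _ x
  rw [Submodule.mkQ_apply, fgt1_mk, Submodule.Quotient.mk_eq_zero]
  refine fst_mem_coboundaries₁_of_Pc1 I.datum (evPairing (cycloChar p) M) hM
    ((ctxS p S hpS I.lamS).disc_dual hM) (isDisc_mu p S hpS) hLoc hCap hG4 hx
    (fun a ha hloc => h _ ?_)
  funext v
  show (Submodule.Quotient.mk (⟨res₂ (ctxS p S hpS I.lamS).loc
      ((ctxS p S hpS I.lamS).dual M) v a,
      res₂_mem_Z2 (ctxS p S hpS I.lamS).𝒰 (ctxS p S hpS I.lamS).loc (ctxS p S hpS I.lamS).𝒰v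
        (ctxS p S hpS I.lamS).hloc ((ctxS p S hpS I.lamS).dual M) v ha⟩ :
      ↥(Z2 ((ctxS p S hpS I.lamS).𝒰v v)
        (Rep.res ((ctxS p S hpS I.lamS).loc v) ((ctxS p S hpS I.lamS).dual M)))) :
      Abs.H2 ((ctxS p S hpS I.lamS).𝒰v v)
        (Rep.res ((ctxS p S hpS I.lamS).loc v) ((ctxS p S hpS I.lamS).dual M))) = 0
  rw [Submodule.Quotient.mk_eq_zero]
  exact hloc v

/-- **(hI6)** of `AsmCone.base_of_arith`: the right kernel of `P1 : H¹_c(M) × H²(G_S, M') → 𝔽_p`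
consists of locally trivial classes. -/
theorem hI6 (hLoc2 : Loc2 I.datum (evPairing (cycloChar p) M))
    (α : H2 (ctxS p S hpS I.lamS).𝒰 ((ctxS p S hpS I.lamS).dual M))
    (h : ∀ x, (ctxS p S hpS I.lamS).P1 hM x α = 0) :
    loc2 (ctxS p S hpS I.lamS) ((ctxS p S hpS I.lamS).dual M) α = 0 := by
  obtain ⟨⟨a, ha⟩, rfl⟩ := Submodule.mkQ_surjective _ α
  funext v
  show (Submodule.Quotient.mk (⟨res₂ (ctxS p S hpS I.lamS).loc
      ((ctxS p S hpS I.lamS).dual M) v a,
      res₂_mem_Z2 (ctxS p S hpS I.lamS).𝒰 (ctxS p S hpS I.lamS).loc (ctxS p S hpS I.lamS).𝒰v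
        (ctxS p S hpS I.lamS).hloc ((ctxS p S hpS I.lamS).dual M) v ha⟩ :
      ↥(Z2 ((ctxS p S hpS I.lamS).𝒰v v)
        (Rep.res ((ctxS p S hpS I.lamS).loc v) ((ctxS p S hpS I.lamS).dual M)))) :
      Abs.H2 ((ctxS p S hpS I.lamS).𝒰v v)
        (Rep.res ((ctxS p S hpS I.lamS).loc v) ((ctxS p S hpS I.lamS).dual M))) = 0
  rw [Submodule.Quotient.mk_eq_zero]
  exact res₂_mem_B2_of_Pc1 I.datum (evPairing (cycloChar p) M) hM
    ((ctxS p S hpS I.lamS).disc_dual hM) (isDisc_mu p S hpS) hLoc2 ha h v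

/-- **The base case for a discrete module `M` from the cochain-level inputs and the counts**
(cone route: `AsmCone.base_of_arith` with `h4`, `hA'`, `hI6` discharged). -/
theorem base_of_inputs [FiniteDimensional (ZMod p) M]
    [FiniteDimensional (ZMod p) (H1 (ctxS p S hpS I.lamS).𝒰 M)]
    [FiniteDimensional (ZMod p)
      (H1 (ctxS p S hpS I.lamS).𝒰 ((ctxS p S hpS I.lamS).dual M))]
    [∀ v, FiniteDimensional (ZMod p) (AsmCone.HM1 (ctxS p S hpS I.lamS) M v)]
    [FiniteDimensional (ZMod p) (LinearMap.ker (loc2 (ctxS p S hpS I.lamS) M))]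
    [FiniteDimensional (ZMod p)
      (LinearMap.ker (loc2 (ctxS p S hpS I.lamS) ((ctxS p S hpS I.lamS).dual M)))]
    (hLocR : LocRight I.datum (evPairing (cycloChar p) M))
    (hLocL : LocLeft I.datum (evPairing (cycloChar p) M))
    (hLoc2 : Loc2 I.datum (evPairing (cycloChar p) M))
    (hCap : CapGen I.datum M) (hCap' : CapGen I.datum (M.dualTwist (cycloChar p)))
    (hG4 : G4 I.datum M) (hG4' : G4 I.datum (M.dualTwist (cycloChar p)))
    (A Bd c : ℕ)
    (hc1 : ∑ v, Module.finrank (ZMod p) (AsmCone.HM1 (ctxS p S hpS I.lamS) M v) ≤ A)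
    (hc3 : Bd ≤ Module.finrank (ZMod p) (H1 (ctxS p S hpS I.lamS).𝒰 M))
    (hc3' : Bd ≤ Module.finrank (ZMod p)
      (H1 (ctxS p S hpS I.lamS).𝒰 ((ctxS p S hpS I.lamS).dual M)))
    (hc4 : Module.finrank (ZMod p) (LinearMap.ker (loc2 (ctxS p S hpS I.lamS) M)) ≤ c)
    (hc4' : Module.finrank (ZMod p)
      (LinearMap.ker (loc2 (ctxS p S hpS I.lamS) ((ctxS p S hpS I.lamS).dual M))) ≤ c)
    (hcount : A + 2 * c ≤ 2 * Bd) :
    PairMono ((ctxS p S hpS I.lamS).P2 hM) ∧ PairEpi ((ctxS p S hpS I.lamS).P2 hM) ∧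
      PairEpi ((ctxS p S hpS I.lamS).P1 hM) :=
  AsmCone.base_of_arith (ctxS p S hpS I.lamS) M hM A Bd c
    (h4 I hpS hM hLocR hCap hG4') (hA' I hpS hM hLocL hCap' hG4) (hI6 I hpS hM hLoc2)
    hc1 hc3 hc3' hc4 hc4' hcount

end Concrete

end Fermat.Agent.S55.Base.ConeKer

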