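/-
S55 / PROGRAM CFT, base case, cone route (helper297): the three LOCAL DUALITY inputs
`LocRight`, `LocLeft`, `Loc2` of `ConeKer` (helper186) from the base case of the local devissage
`LDQ.BaseAt I w` (helper195), for the evaluation pairing of a finite-dimensional module `M` which
is discrete at some level `T`.

`LDQ.BaseAt I w` itself follows from `I.datum.invH w ≠ 0` (`TDBase.baseAt_of_invH_ne_zero`,
`LDQInst.baseAt`); this file does not import the arithmetic.
-/
import Fermat.Agent.S55.Base.ConeKer
import Fermat.Agent.S55.Base.LDQ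

set_option autoImplicit false

open CategoryTheory groupCohomology ExtCitation

namespace Fermat.Agent.S55.Base.ConeLD

open Fermat.Agent.S55.Abs Fermat.Agent.S55.Base.EvalQ

variable {p : ℕ} [Fact p.Prime] {S : Finset Nat.Primes} (I : ArithInput p S)
  (M : Rep.{0} (ZMod p) GQ) [FiniteDimensional (ZMod p) M]
  {T : Finset Nat.Primes} (hM : IsDisc (globalLevel T) M)

include hM

/-- **`LocRight`** for the evaluation pairing of `M`, from the base case at every prime. -/
theorem locRight (hb : ∀ w : Nat.Primes, LDQ.BaseAt I w) :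
    ConeKer.LocRight I.datum (evPairing (cycloChar p) M) :=
  fun w _ hη h => LDQ.locRight (hb w) M (LDQ.disc_res hM w) hη h

/-- **`LocLeft`** for the evaluation pairing of `M`, from the base case at the primes outside
`S`. -/
theorem locLeft (hb : ∀ w : Nat.Primes, w ∉ S → LDQ.BaseAt I w) :
    ConeKer.LocLeft I.datum (evPairing (cycloChar p) M) :=
  fun w hw _ hξ h => LDQ.locLeft (hb w hw) M (LDQ.disc_res hM w) hξ h

/-- **`Loc2`** for the evaluation pairing of `M`, from the base case at the primes of `S`. -/
theorem loc2 (hb : ∀ v : ↥S, LDQ.BaseAt I v.1) :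
    ConeKer.Loc2 I.datum (evPairing (cycloChar p) M) := by
  intro (v : ↥S) z hz h
  refine LDQ.mem_B2_dual (hb v) M (LDQ.disc_res hM v.1) hz fun m hm => ?_
  have hd : (d₀₁ (Rep.res (primeLocalToGlobal v.1) M)).hom m = 0 := by
    funext g
    rw [d₀₁_hom_apply, hm g, sub_self]
    rfl
  have h1 := h m hd
  have key : cup20 ((evPairing (cycloChar p) M).res (primeLocalToGlobal v.1)).flip z m
      = cup02 ((evPairing (cycloChar p) M).res (primeLocalToGlobal v.1)) m z := by
    funext pq
    show ((evPairing (cycloChar p) M).res (primeLocalToGlobal v.1)).flip.toFun (z pq)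
        ((Rep.res (primeLocalToGlobal v.1) M).ρ (pq.1 * pq.2) m)
      = ((evPairing (cycloChar p) M).res (primeLocalToGlobal v.1)).toFun m (z pq)
    rw [hm (pq.1 * pq.2)]
    rfl
  rw [key]
  exact h1

end Fermat.Agent.S55.Base.ConeLD
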