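/-
S55 / PROGRAM CFT, base case, cone route (helper297): the LOCAL DUALITY inputs `LocRight`,
`LocLeft`, `Loc2` of `ConeKer`, UNCONDITIONALLY in the local arithmetic, from the non-vanishing
of the class functionals `I.datum.invH w` of an arithmetic input (the `ne_zero` field of the REC
family).
-/
import Fermat.Agent.S55.Base.ConeLD
import Fermat.Agent.CFT.LocalBr.TDBaseLDQ

set_option autoImplicit false

open CategoryTheory groupCohomology ExtCitation

namespace Fermat.Agent.S55.Base.ConeLD

open Fermat.Agent.S55.Abs Fermat.Agent.S55.Base.EvalQ Fermat.Agent.CFT.LocalBr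

variable {p : ℕ} [Fact p.Prime] {S : Finset Nat.Primes} (I : ArithInput p S)
  (M : Rep.{0} (ZMod p) GQ) [FiniteDimensional (ZMod p) M]
  {T : Finset Nat.Primes} (hM : IsDisc (globalLevel T) M)

include hM

/-- **`LocRight`** from `invH w ≠ 0` at every prime. -/
theorem locRight_of_ne_zero (hinv : ∀ w : Nat.Primes, I.datum.invH w ≠ 0) :
    ConeKer.LocRight I.datum (evPairing (cycloChar p) M) :=
  locRight I M hM fun w => TDBase.baseAt_of_invH_ne_zero I w (hinv w)

/-- **`LocLeft`** from `invH w ≠ 0` at every prime. -/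
theorem locLeft_of_ne_zero (hinv : ∀ w : Nat.Primes, I.datum.invH w ≠ 0) :
    ConeKer.LocLeft I.datum (evPairing (cycloChar p) M) :=
  locLeft I M hM fun w _ => TDBase.baseAt_of_invH_ne_zero I w (hinv w)

/-- **`Loc2`** from `invH w ≠ 0` at every prime. -/
theorem loc2_of_ne_zero (hinv : ∀ w : Nat.Primes, I.datum.invH w ≠ 0) :
    ConeKer.Loc2 I.datum (evPairing (cycloChar p) M) :=
  loc2 I M hM fun v => TDBase.baseAt_of_invH_ne_zero I v.1 (hinv v.1)

end Fermat.Agent.S55.Base.ConeLD
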