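/-
S55 / PROGRAM CFT, base case: the BASE deliverable of `Wire/Layer2` with every landed brick
plugged in (helper185, RULINGS #7/#8).

`baseGoal` : for class functionals `lamH` with `Wire.IsRec p S lamH` and an arithmetic input `I`
extending them, `Wire.BaseGoal p S hpS I.lamS` from the TWO remaining arithmetic inputs, for every
admissible `K` (`M := M0(K)`):

* `ConeKer.CapGen I.datum M`   — UNR3-Q generation + CAP-Q ("every local class outside `S` is,
  modulo unramified cochains and coboundaries, the restriction of a global cochain with level-`S`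
  coboundary");
* `C4Input I K`                — a theta family with `Gen`, `Kill P` and
  `dim (O →₀ 𝔽_p) ⧸ P ≤ ρ` (the count (c4) in the cone form of `Base/C4Cone`).

Discharged here: local duality (`ConeLD.locRight_of_ne_zero`, `loc2_of_ne_zero` from
`IsRec.ne_zero`), `G4` (`AdapterG4`), the Hasse principle (`AdapterHPQ.c4_hasse_M0`), the counts
and the self-duality (`BaseCase.baseAt_of_inputs`).
-/
import Fermat.Agent.S55.Base.BaseCase
import Fermat.Agent.S55.Base.ConeLDInst
import Fermat.Agent.S55.Base.LDQInst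
import Fermat.Agent.S55.Shapiro.AdapterG4
import Fermat.Agent.S55.Shapiro.AdapterHPQC4
import Fermat.Agent.S55.Wire.Layer2

set_option autoImplicit false

open scoped NumberField
open CategoryTheory groupCohomology ExtCitation

namespace Fermat.Agent.S55.Base.BaseCase

open Fermat.Agent.S55.Abs Fermat.Agent.S55.Base.EvalQ Module
open Fermat.Agent.CFT.Global.CountV

variable {p : ℕ} [Fact p.Prime] {S : Finset Nat.Primes}

/-- A field unramified outside `S` (in the sense of `IsUnramifiedOutside`: finite over `ℚ`) is a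
number field. -/
theorem numberField_of_isUnramifiedOutside {K : IntermediateField ℚ (AlgebraicClosure ℚ)}
    (hK : K.IsUnramifiedOutside S) : NumberField K :=
  haveI : FiniteDimensional ℚ K := hK.1
  ⟨⟩

/-- **The (c4) input** for one field `K`: a theta family for `M0(K)` with `Gen`, `Kill P` and
`dim (O →₀ 𝔽_p) ⧸ P ≤ ρ` for the `ρ` with `p ^ ρ = [Cl_K : Cl_K^p ⊔ ⟨S_K⟩]`. -/
def C4Input (I : ArithInput p S) (K : IntermediateField ℚ (AlgebraicClosure ℚ))
    [NumberField K] : Prop :=
  ∃ (Θ : C4.ThetaFam I.datum (M0 (ZMod p) K.fixingSubgroup))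
    (P : Submodule (ZMod p) (Θ.O →₀ ZMod p)), Θ.Gen ∧ Θ.Kill P ∧
      ∀ ρ : ℕ, (Fermat.Agent.CFT.Global.SelmerCount.clS (𝓞 K) p (SK S K)).index = p ^ ρ →
        FiniteDimensional (ZMod p) ((Θ.O →₀ ZMod p) ⧸ P) ∧
          finrank (ZMod p) ((Θ.O →₀ ZMod p) ⧸ P) ≤ ρ

/-- **The base case for one field** from the two remaining arithmetic inputs. -/
theorem baseAt (hp2 : p ≠ 2) (hpS : pPrime p ∈ S) {lamH : Wire.LamH p}
    (hrec : Wire.IsRec p S lamH) {I : ArithInput p S} (hI : Wire.Extends I lamH)
    (K : IntermediateField ℚ (AlgebraicClosure ℚ)) [NumberField K]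
    (hK : K.IsUnramifiedOutside S) (hc : Glue.cycloField p ≤ K)
    (hcap : ConeKer.CapGen I.datum (M0 (ZMod p) K.fixingSubgroup))
    (hc4 : C4Input I K) : Wire.BaseAt p S hpS I.lamS K := by
  obtain ⟨Θ, P, hG, hKill, hP⟩ := hc4
  have hinv : ∀ w : Nat.Primes, I.datum.invH w ≠ 0 := fun w => by
    rw [LDQ.invH_eq_of_extends hI w]
    exact hrec.ne_zero w
  have hMfd := ConeCnt.finiteDimensional_M0 (p := p) K
  have hM := Wire.disc_M0 p hK
  exact baseAt_of_inputs I hpS hp2 K hK hc
    (ConeLD.locRight_of_ne_zero I _ hM hinv) (ConeLD.loc2_of_ne_zero I _ hM hinv) hcap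
    (Shapiro.AdapterG4.g4_M0_dualTwist I K hK hc)
    (Shapiro.AdapterHPQ.c4_hasse_M0 I hp2 hpS K hK hc) Θ hG P hKill hP

/-- **BASE** (`Wire/Layer2`): the base obligations for the functional of an arithmetic input
extending a REC family, from `CapGen` and `C4Input` for every admissible `K`. -/
theorem baseGoal (hp2 : p ≠ 2) (hpS : pPrime p ∈ S) {lamH : Wire.LamH p}
    (hrec : Wire.IsRec p S lamH) {I : ArithInput p S} (hI : Wire.Extends I lamH)
    (hcap : ∀ K : IntermediateField ℚ (AlgebraicClosure ℚ), K.IsUnramifiedOutside S →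
      Glue.cycloField p ≤ K → ConeKer.CapGen I.datum (M0 (ZMod p) K.fixingSubgroup))
    (hc4 : ∀ (K : IntermediateField ℚ (AlgebraicClosure ℚ)) [NumberField K],
      K.IsUnramifiedOutside S → Glue.cycloField p ≤ K → C4Input I K) :
    Wire.BaseGoal p S hpS I.lamS := by
  intro K hK hc
  have := numberField_of_isUnramifiedOutside hK
  have h := baseAt hp2 hpS hrec hI K hK hc (hcap K hK hc) (hc4 K hK hc)
  exact ⟨h.a1epi, h.a2mono, h.a2epi⟩

/-- **Layer-3 bricks** from a REC family and the two remaining arithmetic inputs. -/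
theorem bricks3 (hp2 : p ≠ 2) (hpS : pPrime p ∈ S)
    (hrec : ∃ lamH : Wire.LamH p, Wire.IsRec p S lamH)
    (hcap : ∀ (I : ArithInput p S) (K : IntermediateField ℚ (AlgebraicClosure ℚ)),
      K.IsUnramifiedOutside S → Glue.cycloField p ≤ K →
        ConeKer.CapGen I.datum (M0 (ZMod p) K.fixingSubgroup))
    (hc4 : ∀ (I : ArithInput p S) (K : IntermediateField ℚ (AlgebraicClosure ℚ))
      [NumberField K], K.IsUnramifiedOutside S → Glue.cycloField p ≤ K → C4Input I K) :
    Wire.Bricks3 p S hpS :=
  Wire.bricks3_of_rec_base hrec fun _ hr I hI =>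
    baseGoal hp2 hpS hr hI (hcap I) (fun K _ => hc4 I K)

end Fermat.Agent.S55.Base.BaseCase
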