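import Fermat.Agent.S55.Base.AsmA2Epi
import Fermat.Agent.S55.Base.CapGenPlaces
import Fermat.Agent.S55.Shapiro.Unr3QFinal
import Fermat.Agent.CFT.LocalBr.UnramUnif
import Fermat.Agent.S55.Arith.UrEval
import Fermat.Agent.CFT.Global.CountAbs

/-!
# S55, BASE: `[CapGen]` for the permutation module `M0(K) = coind_{Fix K} 𝔽_p`

`Asm.CapGen S M` (`Base/AsmA2Epi.lean`) is the input of `Asm.right_kernel_P2` / `Asm.h4_M0`:
every local `1`-cocycle `ξ` at a prime `l ∉ S` is, modulo unramified cochains and coboundaries,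
the restriction of a global cochain `c'` of some level `T ⊇ S` whose coboundary has level `S`.

* `capGen_at_of_gen`, `capGen_of_forall` : the abstract assembly — a finite family `θ j` of local
  cochains which (GEN) generates the local level cocycles modulo unramified + coboundaries and
  (CAP) consists, modulo unramified + coboundaries, of restrictions of global cochains of level
  `S ∪ {l}` with coboundary of level `S`;
* `exists_cap_kum` : (CAP) for `res_l (ind₁ A R₀ κ_π)`, `π` a uniformiser at a place over `l`, a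
  unit at the other places over `l` (`CapitQ.capQ`);
* `res_kum_eq_thetaQ` : `res_l (ind₁ A R₀ κ_{π j}) = thetaQ j + unramified + coboundary`
  (`Unr3Q.kum_kummer` at `γ = π j`, `n = Pi.single j 1`);
* `gen_thetaQ` : (GEN) for the family `thetaQ j` in the vocabulary of `Abs` (`Unr3Q.gen_kummer`);
* `gen_res_kum` : (GEN) in the normalisation `θ j = res_l (ind₁ A R₀ κ_{π j})`, for EVERY
  retraction `R₀` and EVERY system of uniformisers `π j` (units at the other places over `l`);
* `capGen_M0` : **`Asm.CapGen S (M0 (ZMod p) K.fixingSubgroup)`** for `K` unramified outside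
  `S ∋ p` containing `μ_p`.
-/

set_option autoImplicit false

open CategoryTheory groupCohomology ExtCitation
open scoped NumberField IntermediateField Pointwise
open IsDedekindDomain

namespace Fermat.Agent.S55.Base.CapGen

local notation "Qb" => AlgebraicClosure ℚ

open Fermat.Agent.S55.Abs Fermat.Agent.S55.Base.EvalQ Fermat.Agent.S55.Base.Asm
open Fermat.Agent.S55.Shapiro Fermat.Agent.CFT.Global Fermat.Agent.CFT.LocalBr

attribute [local instance] Glue.isAlgebraicQbar_lg Glue.isAlgClosureQbar_lg Glue.normalQbar_lg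

variable {p : ℕ} [Fact p.Prime] {S : Finset Nat.Primes}

/-! ### The abstract assembly -/

/-- **[CapGen] at one prime, abstract assembly.**  If the local level `1`-cocycles at `l` are
generated, modulo unramified cochains and coboundaries, by finitely many cochains `θ j`, and
every `θ j` is, modulo unramified cochains and coboundaries, the restriction of a global cochain
of level `S ∪ {l}` whose coboundary has level `S`, then the clause of `Asm.CapGen S M` at `l`
holds (with `T = insert l S`). -/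
theorem capGen_at_of_gen (M : Rep.{0} (ZMod p) GQ) (l : Nat.Primes)
    {J : Type} [Fintype J] (θ : J → primeLocalGaloisGroup l → M)
    (hgen : ∀ ξ ∈ Z1 (localLevel (primeLocalToGlobal l)) (Rep.res (primeLocalToGlobal l) M),
      ∃ e : J → ZMod p, ∃ u ∈ C1 (urLevel l) (Rep.res (primeLocalToGlobal l) M), ∃ m : M,
        ξ = ∑ j, e j • θ j + u + (d₀₁ (Rep.res (primeLocalToGlobal l) M)).hom m)
    (hcap : ∀ j, ∃ c : GQ → M, c ∈ C1 (globalLevel (insert l S)) M ∧
      (d₁₂ M).hom c ∈ C2 (globalLevel S) M ∧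
      ∃ u ∈ C1 (urLevel l) (Rep.res (primeLocalToGlobal l) M), ∃ m : M,
        res₁ (fun w : Nat.Primes => primeLocalToGlobal w) M l c
          = θ j + u + (d₀₁ (Rep.res (primeLocalToGlobal l) M)).hom m)
    (ξ : primeLocalGaloisGroup l → M)
    (hξ : ξ ∈ Z1 (localLevel (primeLocalToGlobal l)) (Rep.res (primeLocalToGlobal l) M)) :
    ∃ (T : Finset Nat.Primes) (c' : GQ → M), S ⊆ T ∧ c' ∈ C1 (globalLevel T) M ∧
      (d₁₂ M).hom c' ∈ C2 (globalLevel S) M ∧
      (∃ u ∈ C1 (urLevel l) (Rep.res (primeLocalToGlobal l) M), ∃ m : M,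
        res₁ (fun w : Nat.Primes => primeLocalToGlobal w) M l c'
          = ξ + u + (d₀₁ (Rep.res (primeLocalToGlobal l) M)).hom m) ∧
      ∀ w ∈ T, w ∉ S → w ≠ l →
        ∃ u ∈ C1 (urLevel w) (Rep.res (primeLocalToGlobal w) M), ∃ m : M,
          res₁ (fun w : Nat.Primes => primeLocalToGlobal w) M w c'
            = u + (d₀₁ (Rep.res (primeLocalToGlobal w) M)).hom m := by
  classical
  obtain ⟨e, u₀, hu₀, m₀, hξe⟩ := hgen ξ hξ
  choose c hc hdc u hu m hcm using hcap
  refine ⟨insert l S, ∑ j, e j • c j, Finset.subset_insert l S, ?_, ?_, ?_, ?_⟩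
  · exact Submodule.sum_mem _ (fun j _ => Submodule.smul_mem _ _ (hc j))
  · rw [map_sum]
    refine Submodule.sum_mem _ (fun j _ => ?_)
    rw [map_smul]
    exact Submodule.smul_mem _ _ (hdc j)
  · refine ⟨∑ j, e j • u j - u₀,
      Submodule.sub_mem _ (Submodule.sum_mem _ (fun j _ => Submodule.smul_mem _ _ (hu j))) hu₀,
      ∑ j, e j • m j - m₀, ?_⟩
    rw [map_sum, hξe, map_sub, map_sum]
    have h1 : ∀ j, res₁ (fun w : Nat.Primes => primeLocalToGlobal w) M l (e j • c j)
        = e j • θ j + e j • u j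
          + (d₀₁ (Rep.res (primeLocalToGlobal l) M)).hom (e j • m j) := by
      intro j
      rw [map_smul, hcm j, smul_add, smul_add, map_smul]
    rw [Finset.sum_congr rfl (fun j _ => h1 j), Finset.sum_add_distrib, Finset.sum_add_distrib]
    abel
  · intro w hw hwS hwl
    rcases Finset.mem_insert.1 hw with h | h
    · exact absurd h hwl
    · exact absurd h hwS

/-- **[CapGen] from its local clauses.** -/
theorem capGen_of_forall (M : Rep.{0} (ZMod p) GQ)
    (h : ∀ l : Nat.Primes, l ∉ S →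
      ∃ (J : Type) (_ : Fintype J) (θ : J → primeLocalGaloisGroup l → M),
      (∀ ξ ∈ Z1 (localLevel (primeLocalToGlobal l)) (Rep.res (primeLocalToGlobal l) M),
        ∃ e : J → ZMod p, ∃ u ∈ C1 (urLevel l) (Rep.res (primeLocalToGlobal l) M), ∃ m : M,
          ξ = ∑ j, e j • θ j + u + (d₀₁ (Rep.res (primeLocalToGlobal l) M)).hom m) ∧
      (∀ j, ∃ c : GQ → M, c ∈ C1 (globalLevel (insert l S)) M ∧
        (d₁₂ M).hom c ∈ C2 (globalLevel S) M ∧
        ∃ u ∈ C1 (urLevel l) (Rep.res (primeLocalToGlobal l) M), ∃ m : M,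
          res₁ (fun w : Nat.Primes => primeLocalToGlobal w) M l c
            = θ j + u + (d₀₁ (Rep.res (primeLocalToGlobal l) M)).hom m)) :
    CapGen S M := by
  intro l hl ξ hξ
  obtain ⟨J, hJ, θ, hgen, hcap⟩ := h l hl
  exact capGen_at_of_gen M l θ hgen hcap ξ hξ

/-! ### (CAP) for the Kummer cocycle of a uniformiser -/

/-- **CAP-Q in the shape of `capGen_at_of_gen`.**  For a place `v₀` of `K` over `l ∉ S` and
`π ∈ Kˣ` a uniformiser at `v₀` which is a unit at the other places over `l`: the local cochain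
`res_l (ind₁ A R κ_π)` is, modulo an unramified cochain, the restriction of a global cochain of
level `S ∪ {l}` whose coboundary has level `S`. -/
theorem exists_cap_kum (hpS : pPrime p ∈ S) (K : IntermediateField ℚ Qb)
    (hK : K.IsUnramifiedOutside S) [NumberField K] (ζ : K) (hζ : IsPrimitiveRoot ζ p)
    (l : Nat.Primes) (hl : l ∉ S) (v₀ : HeightOneSpectrum (𝓞 K))
    (hv₀ : ((l : ℕ) : 𝓞 K) ∈ v₀.asIdeal) (π : Kˣ)
    (hπ : v₀.valuation K (π : K) = WithZero.exp (-1 : ℤ))
    (hπ' : ∀ v : HeightOneSpectrum (𝓞 K), ((l : ℕ) : 𝓞 K) ∈ v.asIdeal → v ≠ v₀ →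
      v.valuation K (π : K) = 1)
    (R : Retr K.fixingSubgroup) :
    ∃ c : GQ → M0 (ZMod p) K.fixingSubgroup,
      c ∈ C1 (globalLevel (insert l S)) (M0 (ZMod p) K.fixingSubgroup) ∧
      (d₁₂ (M0 (ZMod p) K.fixingSubgroup)).hom c
        ∈ C2 (globalLevel S) (M0 (ZMod p) K.fixingSubgroup) ∧
      ∃ u ∈ C1 (urLevel l) (Rep.res (primeLocalToGlobal l) (M0 (ZMod p) K.fixingSubgroup)),
      ∃ m : M0 (ZMod p) K.fixingSubgroup,
        res₁ (fun w : Nat.Primes => primeLocalToGlobal w) (M0 (ZMod p) K.fixingSubgroup) l c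
          = res₁ (fun w : Nat.Primes => primeLocalToGlobal w) (M0 (ZMod p) K.fixingSubgroup) l
              (ind₁ (Rep.trivial (ZMod p) K.fixingSubgroup (ZMod p)) R (CountV.kum K ζ hζ π))
            + u
            + (d₀₁ (Rep.res (primeLocalToGlobal l) (M0 (ZMod p) K.fixingSubgroup))).hom m := by
  obtain ⟨c', T', -, hlT', hA, ha, hB, -⟩ :=
    CapitQ.capQ S hpS K hK ζ hζ v₀ l hv₀ hl (π : K) hπ hπ' (CountV.root p K π)
      (CountV.root_pow K π) (CountV.kum K ζ hζ π)
      (fun s => CountV.kum_spec K ζ hζ π _ (CountV.root_pow K π) s) R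
  refine ⟨ind₁ (Rep.trivial (ZMod p) K.fixingSubgroup (ZMod p)) R c', hA, ha,
    res₁ (fun w : Nat.Primes => primeLocalToGlobal w) (M0 (ZMod p) K.fixingSubgroup) l
      (ind₁ (Rep.trivial (ZMod p) K.fixingSubgroup (ZMod p)) R c'
        - ind₁ (Rep.trivial (ZMod p) K.fixingSubgroup (ZMod p)) R (CountV.kum K ζ hζ π)),
    ?_, 0, ?_⟩
  · exact IsLev₁.precomp (isLevelMap_urLevel hlT') hB
  · rw [map_zero, add_zero, map_sub]
    abel

/-! ### The local generators -/

section Local

open Unr3Q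

variable (K : IntermediateField ℚ Qb) [NumberField K] (ζ : K) (hζ : IsPrimitiveRoot ζ p)
  (l : Nat.Primes) {J : Type} (D : DRep K.fixingSubgroup (primeLocalToGlobal l) J)
  (π : J → Kˣ)

/-- The Kummer character of `π j` on the local group of `K` at the place `τ j • primeLocalPlace l`
(the family `κ` of `Unr3Q.gen_kummer` / `kum_kummer`). -/
noncomputable def kappa (j : J) : ↥(DK K (plc l (D.τ j))) → ZMod p :=
  fun σ => CountV.kum K ζ hζ (π j) ⟨σ, σ.2.2⟩

omit [NumberField K] in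
theorem kappa_spec (j : J) (σ : ↥(DK K (plc l (D.τ j)))) :
    (σ : GQ) (CountV.root p K (π j))
      = (ζ : Qb) ^ (kappa K ζ hζ l D π j σ).val * CountV.root p K (π j) :=
  CountV.kum_spec K ζ hζ (π j) _ (CountV.root_pow K (π j)) ⟨σ, σ.2.2⟩

/-- A uniformiser at the place `vOf j` of `K` is a uniformiser at `τ j • primeLocalPlace l`. -/
theorem isUniformizerAt_of_vOf (j : J) (x : K)
    (hx : (vOf K l D j).valuation K x = WithZero.exp (-1 : ℤ)) :
    Unram.IsUniformizerAt K (plc l (D.τ j)) x :=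
  (Unram.isUniformizerAt_iff (v := vOf K l D j) (A := plc l (D.τ j)) rfl x).mpr hx

variable [Fintype J] [DecidableEq J]
  (R : ∀ j : J, Retr (Hg K l (D.τ j)))

/-- **(GEN) in the vocabulary of `Abs`.**  Every local level `1`-cocycle at `l ∉ S` with values in
`M0(K)` is `∑ e j • thetaQ j` modulo unramified cochains and coboundaries. -/
theorem gen_thetaQ (hpS : pPrime p ∈ S) (hK : K.IsUnramifiedOutside S) (hl : l ∉ S)
    (hπ : ∀ j, (vOf K l D j).valuation K ((π j : Kˣ) : K) = WithZero.exp (-1 : ℤ))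
    (ξ : primeLocalGaloisGroup l → M0 (ZMod p) K.fixingSubgroup)
    (hξ : ξ ∈ Z1 (localLevel (primeLocalToGlobal l))
      (Rep.res (primeLocalToGlobal l) (M0 (ZMod p) K.fixingSubgroup))) :
    ∃ e : J → ZMod p,
      ∃ u ∈ C1 (urLevel l) (Rep.res (primeLocalToGlobal l) (M0 (ZMod p) K.fixingSubgroup)),
      ∃ m : M0 (ZMod p) K.fixingSubgroup,
        ξ = ∑ j, e j • thetaQ p D R (kappa K ζ hζ l D π) j + u
          + (d₀₁ (Rep.res (primeLocalToGlobal l) (M0 (ZMod p) K.fixingSubgroup))).hom m := by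
  have hlev : IsLevelConstant₁ (primeLocalToGlobal l) ξ := by
    obtain ⟨_, ⟨F, hF, rfl⟩, h⟩ := hξ.1
    exact ⟨F, hF, fun g s hs => h g s (Subgroup.mem_comap.2 hs)⟩
  obtain ⟨e, u, m, hu, -, h⟩ := gen_kummer p D R S hK hpS hl ζ hζ (fun j => ((π j : Kˣ) : K))
    (fun j => isUniformizerAt_of_vOf K l D j _ (hπ j)) (fun j => CountV.root p K (π j))
    (fun j => CountV.root_pow K (π j)) (kappa K ζ hζ l D π) (kappa_spec K ζ hζ l D π) ξ hξ.2 hlev
  exact ⟨e, u, (Arith.UrEval.isLev₁_urLevel_iff l u).mpr hu, m, h⟩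

/-- **(KUM) at a uniformiser.**  `res_l (ind₁ A R₀ κ_{π j₀}) = thetaQ j₀` modulo unramified
cochains and coboundaries, when `π j₀` is a unit at the other places over `l`. -/
theorem res_kum_eq_thetaQ (hpS : pPrime p ∈ S) (hK : K.IsUnramifiedOutside S) (hl : l ∉ S)
    (hπ : ∀ j, (vOf K l D j).valuation K ((π j : Kˣ) : K) = WithZero.exp (-1 : ℤ))
    (hπ' : ∀ j, ∀ v : HeightOneSpectrum (𝓞 K), ((l : ℕ) : 𝓞 K) ∈ v.asIdeal → v ≠ vOf K l D j →
      v.valuation K ((π j : Kˣ) : K) = 1)
    (R₀ : Retr K.fixingSubgroup) (j₀ : J) :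
    ∃ u ∈ C1 (urLevel l) (Rep.res (primeLocalToGlobal l) (M0 (ZMod p) K.fixingSubgroup)),
    ∃ m : M0 (ZMod p) K.fixingSubgroup,
      res₁ (fun w : Nat.Primes => primeLocalToGlobal w) (M0 (ZMod p) K.fixingSubgroup) l
          (ind₁ (Rep.trivial (ZMod p) K.fixingSubgroup (ZMod p)) R₀ (CountV.kum K ζ hζ (π j₀)))
        = thetaQ p D R (kappa K ζ hζ l D π) j₀ + u
          + (d₀₁ (Rep.res (primeLocalToGlobal l) (M0 (ZMod p) K.fixingSubgroup))).hom m := by
  obtain ⟨u, m, hu, -, h⟩ := kum_kummer p D R S hK hpS hl ζ hζ (fun j => ((π j : Kˣ) : K))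
    (fun j => isUniformizerAt_of_vOf K l D j _ (hπ j)) (fun j => CountV.root p K (π j))
    (fun j => CountV.root_pow K (π j)) (kappa K ζ hζ l D π) (kappa_spec K ζ hζ l D π) R₀
    ((π j₀ : Kˣ) : K) (π j₀).ne_zero (CountV.root p K (π j₀)) (CountV.root_pow K (π j₀))
    (CountV.kum K ζ hζ (π j₀))
    (fun σ => CountV.kum_spec K ζ hζ (π j₀) _ (CountV.root_pow K (π j₀)) σ)
    (Pi.single j₀ 1) (fun j => by
      by_cases hj : j = j₀
      · subst hj
        rw [Pi.single_eq_same, zpow_one]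
      · rw [Pi.single_eq_of_ne hj, zpow_zero]
        exact valuation_unif_of_ne K l D hj (hπ' j₀))
  refine ⟨u, (Arith.UrEval.isLev₁_urLevel_iff l u).mpr hu, m, ?_⟩
  have hsum : ∑ j, (((Pi.single j₀ 1 : J → ℤ) j : ℤ) : ZMod p)
      • thetaQ p D R (kappa K ζ hζ l D π) j = thetaQ p D R (kappa K ζ hζ l D π) j₀ := by
    rw [Finset.sum_eq_single j₀]
    · rw [Pi.single_eq_same, Int.cast_one, one_smul]
    · intro j _ hj
      rw [Pi.single_eq_of_ne hj, Int.cast_zero, zero_smul]
    · intro h'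
      exact absurd (Finset.mem_univ _) h'
  rw [hsum] at h
  exact h

/-- **(GEN) in the normalisation `θ j = res_l (ind₁ A R₀ κ_{π j})`**, for every retraction `R₀`
and every system of uniformisers `π j` at the places `vOf j` which are units at the other places
over `l`. -/
theorem gen_res_kum (hpS : pPrime p ∈ S) (hK : K.IsUnramifiedOutside S) (hl : l ∉ S)
    (hπ : ∀ j, (vOf K l D j).valuation K ((π j : Kˣ) : K) = WithZero.exp (-1 : ℤ))
    (hπ' : ∀ j, ∀ v : HeightOneSpectrum (𝓞 K), ((l : ℕ) : 𝓞 K) ∈ v.asIdeal → v ≠ vOf K l D j →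
      v.valuation K ((π j : Kˣ) : K) = 1)
    (R₀ : Retr K.fixingSubgroup)
    (ξ : primeLocalGaloisGroup l → M0 (ZMod p) K.fixingSubgroup)
    (hξ : ξ ∈ Z1 (localLevel (primeLocalToGlobal l))
      (Rep.res (primeLocalToGlobal l) (M0 (ZMod p) K.fixingSubgroup))) :
    ∃ e : J → ZMod p,
      ∃ u ∈ C1 (urLevel l) (Rep.res (primeLocalToGlobal l) (M0 (ZMod p) K.fixingSubgroup)),
      ∃ m : M0 (ZMod p) K.fixingSubgroup,
        ξ = ∑ j, e j • res₁ (fun w : Nat.Primes => primeLocalToGlobal w)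
              (M0 (ZMod p) K.fixingSubgroup) l
              (ind₁ (Rep.trivial (ZMod p) K.fixingSubgroup (ZMod p)) R₀
                (CountV.kum K ζ hζ (π j)))
          + u
          + (d₀₁ (Rep.res (primeLocalToGlobal l) (M0 (ZMod p) K.fixingSubgroup))).hom m := by
  have hR : ∀ j, Nonempty (Retr (Hg K l (D.τ j))) := fun j => Retr.nonempty _
  choose R _ using fun j => (⟨(hR j).some, trivial⟩ : ∃ _ : Retr (Hg K l (D.τ j)), True)
  obtain ⟨e, u₀, hu₀, m₀, hξe⟩ := gen_thetaQ K ζ hζ l D π R hpS hK hl hπ ξ hξ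
  have hk := res_kum_eq_thetaQ K ζ hζ l D π R hpS hK hl hπ hπ' R₀
  choose u hu m hum using hk
  refine ⟨e, u₀ - ∑ j, e j • u j,
    Submodule.sub_mem _ hu₀ (Submodule.sum_mem _ (fun j _ => Submodule.smul_mem _ _ (hu j))),
    m₀ - ∑ j, e j • m j, ?_⟩
  have h1 : ∀ j, e j • res₁ (fun w : Nat.Primes => primeLocalToGlobal w)
        (M0 (ZMod p) K.fixingSubgroup) l
        (ind₁ (Rep.trivial (ZMod p) K.fixingSubgroup (ZMod p)) R₀ (CountV.kum K ζ hζ (π j)))
      = e j • thetaQ p D R (kappa K ζ hζ l D π) j + e j • u j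
        + (d₀₁ (Rep.res (primeLocalToGlobal l) (M0 (ZMod p) K.fixingSubgroup))).hom
          (e j • m j) := by
    intro j
    rw [hum j, smul_add, smul_add, map_smul]
  rw [Finset.sum_congr rfl (fun j _ => h1 j), Finset.sum_add_distrib, Finset.sum_add_distrib,
    hξe, map_sub, map_sum]
  abel

end Local

/-! ### `[CapGen]` for `M0(K)` -/

/-- **`[CapGen]` for the permutation module `M0(K)`**, `K` unramified outside `S ∋ p` and
containing `μ_p`: the input `hcap` of `Asm.h4_M0` / `Asm.a2epi_M0` / `Asm.right_kernel_P2`. -/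
theorem capGen_M0 (hpS : pPrime p ∈ S) (K : IntermediateField ℚ Qb)
    (hK : K.IsUnramifiedOutside S) (hc : Glue.cycloField p ≤ K) :
    CapGen S (M0 (ZMod p) K.fixingSubgroup) := by
  classical
  have hfd : FiniteDimensional ℚ K := hK.1
  have hnf : NumberField K := ⟨⟩
  obtain ⟨ζ, hζ⟩ := CountAbs.exists_primitiveRoot_of_cycloField_le (p := p) K hc
  intro l hl ξ hξ
  obtain ⟨D⟩ := DRep.nonempty K.fixingSubgroup (primeLocalToGlobal l)
  have hfin := finite_of_drep K l D
  let _ : Fintype (DoubleCoset.Quotient (K.fixingSubgroup : Set GQ)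
      ((primeLocalToGlobal l).range : Set GQ)) := Fintype.ofFinite _
  obtain ⟨π, hπ⟩ := exists_uniformizers K l D
  obtain ⟨R₀⟩ := Retr.nonempty K.fixingSubgroup
  refine capGen_at_of_gen (M0 (ZMod p) K.fixingSubgroup) l
    (fun j => res₁ (fun w : Nat.Primes => primeLocalToGlobal w) (M0 (ZMod p) K.fixingSubgroup) l
      (ind₁ (Rep.trivial (ZMod p) K.fixingSubgroup (ZMod p)) R₀ (CountV.kum K ζ hζ (π j))))
    (fun ξ hξ => gen_res_kum K ζ hζ l D π hpS hK hl
      (fun j => (hπ j).1) (fun j => (hπ j).2) R₀ ξ hξ)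
    (fun j => exists_cap_kum hpS K hK ζ hζ l hl (vOf K l D j) (vOf_mem K l D j) (π j)
      (hπ j).1 (hπ j).2 R₀) ξ hξ

end Fermat.Agent.S55.Base.CapGen
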