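import Fermat.Agent.S55.Base.Abstract

/-!
# S55 base case, K-side: `a1epi` from `a1_right_kernel` (pure linear algebra)

`KData.a1epi_of_right_kernel`: for a datum `D : KData k Γ ι` whose `V = H¹(G_S, μ_p)` is
finite-dimensional, the statement `a1epi` of `Base/Abstract.lean` follows from the statement
`a1_right_kernel` (taken as a hypothesis `hrk`).  No other field of `KHyp` is used.

Proof: the compactly supported 1-cocycles `Zc1 = {(χ, s) | IsZc1 χ s}` form a
finite-dimensional space (it embeds into `V × k^S`); `P1` is a bilinear pairing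
`Zc1 × Z2 → k` whose right kernel `N` consists of level-`S` coboundaries (`hrk`); so
`Z2 ⧸ N` embeds into `Dual Zc1`, the induced pairing `Zc1 × Z2 ⧸ N → k` is right
nondegenerate with finite-dimensional right factor, hence onto the dual
(`range_eq_top_of_right_nondegenerate`), and a functional `φ` killing the level-`S`
coboundaries factors through `Z2 ⧸ N`.
-/

set_option autoImplicit false

namespace Fermat.Agent.S55.Base

open groupCohomology Fermat.Agent.S55.Abs.CupLow Fermat.Agent.S55.Base.EvalCup Module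

namespace KData

variable {k : Type} [Field k] {Γ : Type} [Group Γ] {ι : Type} [DecidableEq ι] (D : KData k Γ ι)

/-- The compactly supported 1-cocycles `(χ, s)` as a submodule. -/
def Zc1Sub : Submodule k ((Γ → Tr k Γ) × (∀ v : ↥D.S, Rep.res (D.r v) (Tr k Γ))) where
  carrier := {x | D.IsZc1 x.1 x.2}
  add_mem' := by
    rintro ⟨χ, s⟩ ⟨χ', s'⟩ ⟨h1, h2⟩ ⟨h1', h2'⟩
    refine ⟨D.V.add_mem h1 h1', fun v => ?_⟩
    have e1 := h2 v
    have e2 := h2' v
    simp only at e1 e2
    show (d₀₁ (Rep.res (D.r v) (Tr k Γ))).hom (s v + s' v) = D.rs1 v (χ + χ')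
    rw [map_add, map_add, e1, e2]
  zero_mem' := by
    refine ⟨D.V.zero_mem, fun v => ?_⟩
    show (d₀₁ (Rep.res (D.r v) (Tr k Γ))).hom 0 = D.rs1 v 0
    rw [map_zero, map_zero]
  smul_mem' := by
    rintro c ⟨χ, s⟩ ⟨h1, h2⟩
    refine ⟨D.V.smul_mem c h1, fun v => ?_⟩
    have e1 := h2 v
    simp only at e1
    show (d₀₁ (Rep.res (D.r v) (Tr k Γ))).hom (c • s v) = D.rs1 v (c • χ)
    rw [map_smul, map_smul, e1]

theorem mem_Zc1Sub (x : (Γ → Tr k Γ) × (∀ v : ↥D.S, Rep.res (D.r v) (Tr k Γ))) :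
    x ∈ D.Zc1Sub ↔ D.IsZc1 x.1 x.2 := Iff.rfl

/-- The pairing `P1` as a bilinear map on all cochains. -/
noncomputable def P1Lin : ((Γ → Tr k Γ) × (∀ v : ↥D.S, Rep.res (D.r v) (Tr k Γ))) →ₗ[k]
    (Γ × Γ → Tr k Γ) →ₗ[k] k :=
  LinearMap.mk₂ k (fun x α => D.P1 x.1 x.2 α)
    (fun x x' α => by
      unfold P1
      rw [← map_add]
      congr 1
      refine Prod.ext ?_ ?_
      · simp
      · funext v
        simp)
    (fun c x α => by
      unfold P1
      rw [← map_smul]
      congr 1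
      refine Prod.ext ?_ ?_
      · simp
      · funext v
        show (cup₀₂ (resPairing (D.r v) (mulP k Γ)) (c • x.2 v)) (D.rs2 v α)
          = c • (cup₀₂ (resPairing (D.r v) (mulP k Γ)) (x.2 v)) (D.rs2 v α)
        rw [map_smul, LinearMap.smul_apply])
    (fun x α α' => by
      unfold P1
      rw [← map_add]
      congr 1
      refine Prod.ext ?_ ?_
      · simp
      · funext v
        simp)
    (fun c x α => by
      unfold P1
      rw [← map_smul]
      congr 1
      refine Prod.ext ?_ ?_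
      · simp
      · funext v
        simp)

@[simp] theorem P1Lin_apply (x : (Γ → Tr k Γ) × (∀ v : ↥D.S, Rep.res (D.r v) (Tr k Γ)))
    (α : Γ × Γ → Tr k Γ) : D.P1Lin x α = D.P1 x.1 x.2 α := rfl

/-- `Zc1Sub` is finite-dimensional when `V` is. -/
theorem finite_Zc1Sub (hfin : Module.Finite k ↥D.V) : Module.Finite k ↥D.Zc1Sub := by
  classical
  have := hfin
  have : ∀ v : ↥D.S, Module.Finite k (Rep.res (D.r v) (Tr k Γ)) := fun v =>
    (inferInstance : Module.Finite k k)
  let f : ↥D.Zc1Sub →ₗ[k] ↥D.V × (∀ v : ↥D.S, Rep.res (D.r v) (Tr k Γ)) :=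
    { toFun := fun x => (⟨x.1.1, x.2.1⟩, x.1.2)
      map_add' := fun x y => rfl
      map_smul' := fun c x => rfl }
  have hf : Function.Injective f := by
    intro x y hxy
    have h1 : x.1.1 = y.1.1 := congrArg (fun z => (z.1 : Γ → Tr k Γ)) hxy
    have h2 : x.1.2 = y.1.2 := congrArg (fun z => z.2) hxy
    exact Subtype.ext (Prod.ext h1 h2)
  exact Module.Finite.of_injective f hf

/-- **`a1epi` from `a1_right_kernel`.**  If `V` is finite-dimensional and every level-`S`
2-cocycle orthogonal to all compactly supported 1-cocycles is a level-`S` coboundary, then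
every linear functional on `Z²(G_S, μ_p)` vanishing on the level-`S` coboundaries is
`P1 (χ, s)` for a compactly supported 1-cocycle `(χ, s)`. -/
theorem a1epi_of_right_kernel (hfin : Module.Finite k ↥D.V)
    (hrk : ∀ α ∈ D.Z2, (∀ χ s, D.IsZc1 χ s → D.P1 χ s α = 0) → ∃ c ∈ D.C1 D.S, D.d1 c = α)
    (φ : ↥D.Z2 →ₗ[k] k)
    (hφ : ∀ (α : ↥D.Z2), (∃ c ∈ D.C1 D.S, D.d1 c = (α : Γ × Γ → Tr k Γ)) → φ α = 0) :
    ∃ (χ : Γ → Tr k Γ) (s : ∀ v : ↥D.S, Rep.res (D.r v) (Tr k Γ)),
      D.IsZc1 χ s ∧ ∀ α : ↥D.Z2, D.P1 χ s α = φ α := by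
  classical
  have := D.finite_Zc1Sub hfin
  -- the pairing `Zc1 × Z2 → k`
  let Φ : ↥D.Zc1Sub →ₗ[k] ↥D.Z2 →ₗ[k] k :=
    (D.P1Lin.domRestrict D.Zc1Sub).compr₂ (LinearMap.id) |>.flip.domRestrict D.Z2 |>.flip
  have hΦ : ∀ (x : ↥D.Zc1Sub) (α : ↥D.Z2), Φ x α = D.P1 x.1.1 x.1.2 α := fun x α => rfl
  -- its right kernel
  let N : Submodule k ↥D.Z2 := LinearMap.ker Φ.flip
  have hN : ∀ α : ↥D.Z2, α ∈ N ↔ ∀ x : ↥D.Zc1Sub, Φ x α = 0 := by
    intro α
    constructor
    · intro h x
      have := congrArg (fun f => f x) (LinearMap.mem_ker.1 h)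
      simpa using this
    · intro h
      rw [LinearMap.mem_ker]
      apply LinearMap.ext
      intro x
      simpa using h x
  -- `φ` kills `N`
  have hφN : N ≤ LinearMap.ker φ := by
    intro α hα
    rw [LinearMap.mem_ker]
    apply hφ α
    apply hrk α.1 α.2
    intro χ s hχs
    have := (hN α).1 hα ⟨(χ, s), hχs⟩
    rwa [hΦ] at this
  -- the induced pairing `Zc1 × Z2 ⧸ N → k`
  let Ψ : ↥D.Zc1Sub →ₗ[k] (↥D.Z2 ⧸ N) →ₗ[k] k :=
    (N.liftQ Φ.flip le_rfl).flip
  have hΨ : ∀ (x : ↥D.Zc1Sub) (α : ↥D.Z2), Ψ x (Submodule.Quotient.mk α) = Φ x α :=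
    fun x α => rfl
  -- `Z2 ⧸ N` is finite-dimensional
  have : Module.Finite k (↥D.Z2 ⧸ N) := by
    have hinj : Function.Injective (N.liftQ Φ.flip le_rfl) := by
      rw [← LinearMap.ker_eq_bot]
      exact Submodule.ker_liftQ_eq_bot _ _ _ le_rfl
    exact Module.Finite.of_injective _ hinj
  have hright : ∀ y : ↥D.Z2 ⧸ N, (∀ x, Ψ x y = 0) → y = 0 := by
    intro y
    induction y using Submodule.Quotient.induction_on with
    | _ α =>
      intro h
      rw [Submodule.Quotient.mk_eq_zero, hN]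
      intro x
      rw [← hΨ]
      exact h x
  have hsurj := range_eq_top_of_right_nondegenerate Ψ hright
  have hmem : N.liftQ φ hφN ∈ LinearMap.range Ψ := by
    rw [hsurj]
    exact Submodule.mem_top
  obtain ⟨x, hx⟩ := hmem
  refine ⟨x.1.1, x.1.2, x.2, fun α => ?_⟩
  have := congrArg (fun f => f (Submodule.Quotient.mk α)) hx
  simp only [hΨ, Submodule.liftQ_apply] at this
  rw [← hΦ]
  exact this

end KData

end Fermat.Agent.S55.Base
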