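import Fermat.Agent.S55.Abs.Machine
import Fermat.Agent.S55.Abs.Symm

/-!
# S55 base case, `ℚ`-side (Abs vocabulary): `a₁` epi from "right kernel trivial"

Port of `Base/A1EpiLA.lean` (K-side) to the shape consumed by `Base/Assemble.lean`:

* `pairEpi_of_right_kernel` : a pairing `P : X × T → k` with `X` finite-dimensional and trivial
  right kernel represents every functional on `T` (`PairEpi P`);
* `finite_Hc1` : `H¹_c(M)` is finite-dimensional as soon as `M` is, the index set of the local
  groups is finite and the image of `H¹_c(M) → H¹(M)` (the locally trivial classes) is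
  finite-dimensional (e.g. when `H¹(M)` is: `finite_Hc1_of_finite_H1`);
* `a1epi_of_right_kernel` (+ cocycle form `a1epi_of_right_kernel_cocycle`) : in a `PTContext`,
  `PairEpi (D.P1 hM)` follows from "every class of `H²(M')` orthogonal to `H¹_c(M)` vanishes".
-/

set_option autoImplicit false

open CategoryTheory groupCohomology

namespace Fermat.Agent.S55.Base.A1EpiQ

open Fermat.Agent.S55.Abs

section LA

variable {k : Type*} [Field k] {X T : Type*} [AddCommGroup X] [Module k X]
  [AddCommGroup T] [Module k T]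

/-- A pairing with finite-dimensional left factor and trivial right kernel has a
finite-dimensional right factor. -/
theorem finite_right_of_right_kernel [Module.Finite k X] (P : X →ₗ[k] T →ₗ[k] k)
    (h : ∀ t, (∀ x, P x t = 0) → t = 0) : Module.Finite k T := by
  have hinj : Function.Injective P.flip := by
    rw [← LinearMap.ker_eq_bot, Submodule.eq_bot_iff]
    intro t ht
    rw [LinearMap.mem_ker] at ht
    apply h t
    intro x
    have := congrArg (fun f => f x) ht
    simpa using this
  exact Module.Finite.of_injective P.flip hinj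

/-- **Right kernel trivial + left factor finite-dimensional ⇒ every functional is represented.** -/
theorem pairEpi_of_right_kernel [Module.Finite k X] (P : X →ₗ[k] T →ₗ[k] k)
    (h : ∀ t, (∀ x, P x t = 0) → t = 0) : PairEpi P := by
  have hT : Module.Finite k T := finite_right_of_right_kernel P h
  have hco : (LinearMap.range P).dualCoannihilator = ⊥ := by
    rw [Submodule.eq_bot_iff]
    intro t ht
    apply h t
    intro x
    rw [Submodule.mem_dualCoannihilator] at ht
    exact ht (P x) ⟨x, rfl⟩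
  have hrank := Subspace.finrank_add_finrank_dualCoannihilator_eq (LinearMap.range P)
  rw [hco, finrank_bot, add_zero] at hrank
  have htop : LinearMap.range P = ⊤ := by
    apply Submodule.eq_top_of_finrank_eq
    rw [hrank, Subspace.dual_finrank_eq]
  intro φ
  have hφ : φ ∈ LinearMap.range P := by
    rw [htop]
    exact Submodule.mem_top
  obtain ⟨x, hx⟩ := hφ
  exact ⟨x, fun t => by rw [← hx]⟩

end LA

section Cone

variable {k G : Type} [Field k] [Group G] (𝒰 : LevelFamily G)
  {ι : Type} {Gv : ι → Type} [∀ v, Group (Gv v)]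
  (loc : ∀ v, Gv v →* G) (M : Rep.{0} k G)

/-- The local parts `b` such that `(0, b)` is a compactly supported 1-cocycle. -/
def zeroPart : Submodule k (ι → M) :=
  (Zc1 𝒰 loc M).comap (LinearMap.inr k (G → M) (ι → M))

/-- `b ↦ [(0, b)] : zeroPart → H¹_c(M)`. -/
def zeroPartMap : ↥(zeroPart 𝒰 loc M) →ₗ[k] Hc1 𝒰 loc M :=
  (Submodule.mkQ _).comp
    (((LinearMap.inr k (G → M) (ι → M)).comp (zeroPart 𝒰 loc M).subtype).codRestrict
      (Zc1 𝒰 loc M) (fun b => b.2))

/-- The kernel of `H¹_c(M) → H¹(M)` consists of the classes `[(0, b)]`. -/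
theorem ker_fgt1_le_range_zeroPartMap :
    LinearMap.ker (fgt1 𝒰 loc M) ≤ LinearMap.range (zeroPartMap 𝒰 loc M) := by
  intro x hx
  induction x using Submodule.Quotient.induction_on with
  | _ x =>
    rw [LinearMap.mem_ker, fgt1_mk, Submodule.Quotient.mk_eq_zero, Submodule.mem_comap] at hx
    obtain ⟨m, hm⟩ := hx
    -- `x - bdry1 m = (0, x.2 - const m)`
    have hb : bdry1 (ι := ι) M m ∈ Zc1 𝒰 loc M := by
      have hmem : bdry1 (ι := ι) M m ∈ Bc1 (ι := ι) M := ⟨m, rfl⟩
      have h1 : (bdry1 (ι := ι) M m).1 = x.1.1 := hm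
      refine ⟨?_, fun v => ?_⟩
      · rw [h1]
        exact x.2.1
      · funext g
        rfl
    have hz : (x.1 - bdry1 (ι := ι) M m) ∈ Zc1 𝒰 loc M := Submodule.sub_mem _ x.2 hb
    have hfst : (x.1 - bdry1 (ι := ι) M m).1 = 0 := by
      have h1 : (bdry1 (ι := ι) M m).1 = x.1.1 := hm
      rw [Prod.fst_sub, h1, sub_self]
    have hz' : (x.1 - bdry1 (ι := ι) M m).2 ∈ zeroPart 𝒰 loc M := by
      show LinearMap.inr k (G → M) (ι → M) (x.1 - bdry1 (ι := ι) M m).2 ∈ Zc1 𝒰 loc M
      have e : LinearMap.inr k (G → M) (ι → M) (x.1 - bdry1 (ι := ι) M m).2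
          = x.1 - bdry1 (ι := ι) M m := by
        refine Prod.ext ?_ rfl
        rw [hfst]
        rfl
      rw [e]
      exact hz
    refine ⟨⟨_, hz'⟩, ?_⟩
    show Submodule.Quotient.mk _ = Submodule.Quotient.mk x
    rw [Submodule.Quotient.eq, Submodule.mem_comap]
    refine ⟨-m, ?_⟩
    show bdry1 (ι := ι) M (-m)
      = (LinearMap.inr k (G → M) (ι → M) (x.1 - bdry1 (ι := ι) M m).2 : (G → M) × (ι → M)) - x.1
    have e : LinearMap.inr k (G → M) (ι → M) (x.1 - bdry1 (ι := ι) M m).2
        = x.1 - bdry1 (ι := ι) M m := by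
      refine Prod.ext ?_ rfl
      rw [hfst]
      rfl
    rw [e, map_neg]
    abel

/-- **Finiteness of `H¹_c(M)`.** -/
theorem finite_Hc1 [Finite ι] [Module.Finite k M]
    (hfin : Module.Finite k ↥(LinearMap.range (fgt1 𝒰 loc M))) :
    Module.Finite k (Hc1 𝒰 loc M) := by
  have h1 : Module.Finite k ↥(LinearMap.range (zeroPartMap 𝒰 loc M)) :=
    Module.Finite.range (zeroPartMap 𝒰 loc M)
  have h2 : Module.Finite k ↥(LinearMap.ker (fgt1 𝒰 loc M)) :=
    Module.Finite.of_injective
      (Submodule.inclusion (ker_fgt1_le_range_zeroPartMap 𝒰 loc M))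
      (Submodule.inclusion_injective _)
  have h3 : Module.Finite k (Hc1 𝒰 loc M ⧸ LinearMap.ker (fgt1 𝒰 loc M)) :=
    Module.Finite.equiv (LinearMap.quotKerEquivRange (fgt1 𝒰 loc M)).symm
  exact Module.Finite.of_submodule_quotient (LinearMap.ker (fgt1 𝒰 loc M))

/-- `H¹_c(M)` is finite-dimensional when `H¹(M)` is. -/
theorem finite_Hc1_of_finite_H1 [Finite ι] [Module.Finite k M]
    (hfin : Module.Finite k (H1 𝒰 M)) : Module.Finite k (Hc1 𝒰 loc M) := by
  have : Module.Finite k ↥(LinearMap.range (fgt1 𝒰 loc M)) :=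
    Module.Finite.of_injective (LinearMap.range (fgt1 𝒰 loc M)).subtype
      (Submodule.subtype_injective _)
  exact finite_Hc1 𝒰 loc M this

end Cone

section Context

variable {k G : Type} [Field k] [Group G] (D : PTContext k G)

/-- **`a₁` epi from its right kernel.**  If `H¹_c(M)` is finite-dimensional (see `finite_Hc1`)
and every class of `H²(M')` orthogonal to `H¹_c(M)` vanishes, then every functional on
`H²(M')` is `P1 x` for some `x ∈ H¹_c(M)`. -/
theorem a1epi_of_right_kernel' {M : Rep.{0} k G} (hM : IsDisc D.𝒰 M)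
    (hfin : Module.Finite k (Hc1 D.𝒰 D.loc M))
    (hrk : ∀ α : H2 D.𝒰 (D.dual M), (∀ x, D.P1 hM x α = 0) → α = 0) :
    PairEpi (D.P1 hM) :=
  pairEpi_of_right_kernel (D.P1 hM) hrk

/-- **`a₁` epi from its right kernel** (finiteness of the locally trivial part of `H¹(M)`). -/
theorem a1epi_of_right_kernel {M : Rep.{0} k G} [Module.Finite k M] (hM : IsDisc D.𝒰 M)
    (hfin : Module.Finite k ↥(LinearMap.range (fgt1 D.𝒰 D.loc M)))
    (hrk : ∀ α : H2 D.𝒰 (D.dual M), (∀ x, D.P1 hM x α = 0) → α = 0) :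
    PairEpi (D.P1 hM) :=
  a1epi_of_right_kernel' D hM (finite_Hc1 D.𝒰 D.loc M hfin) hrk

/-- **`a₁` epi from its right kernel, cocycle form**: it suffices that every level 2-cocycle
`α` of `M'` whose class is orthogonal to `H¹_c(M)` is a level coboundary. -/
theorem a1epi_of_right_kernel_cocycle {M : Rep.{0} k G} [Module.Finite k M] (hM : IsDisc D.𝒰 M)
    (hfin : Module.Finite k ↥(LinearMap.range (fgt1 D.𝒰 D.loc M)))
    (hrk : ∀ (α : G × G → D.dual M) (hα : α ∈ Z2 D.𝒰 (D.dual M)),
      (∀ x, D.P1 hM x (Submodule.Quotient.mk ⟨α, hα⟩) = 0) → α ∈ B2 D.𝒰 (D.dual M)) :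
    PairEpi (D.P1 hM) := by
  refine a1epi_of_right_kernel D hM hfin (fun α => ?_)
  induction α using Submodule.Quotient.induction_on with
  | _ α =>
    intro h
    rw [Submodule.Quotient.mk_eq_zero, Submodule.mem_comap]
    exact hrk α.1 α.2 h

/-- Variant with `H¹(M)` finite-dimensional. -/
theorem a1epi_of_right_kernel_cocycle_of_finite_H1 {M : Rep.{0} k G} [Module.Finite k M]
    (hM : IsDisc D.𝒰 M) (hfin : Module.Finite k (H1 D.𝒰 M))
    (hrk : ∀ (α : G × G → D.dual M) (hα : α ∈ Z2 D.𝒰 (D.dual M)),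
      (∀ x, D.P1 hM x (Submodule.Quotient.mk ⟨α, hα⟩) = 0) → α ∈ B2 D.𝒰 (D.dual M)) :
    PairEpi (D.P1 hM) := by
  have : Module.Finite k ↥(LinearMap.range (fgt1 D.𝒰 D.loc M)) :=
    Module.Finite.of_injective (LinearMap.range (fgt1 D.𝒰 D.loc M)).subtype
      (Submodule.subtype_injective _)
  exact a1epi_of_right_kernel_cocycle D hM this hrk

end Context

end Fermat.Agent.S55.Base.A1EpiQ
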