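import Fermat.Agent.S55.Base.EvalCup
import Fermat.Agent.S55.Base.IdeleLA

/-!
# S55 base case, K-side: the abstract contract (BASE-SK, part 1)

This file is the contract between the base case of S55 (`A2mono`, `A2epi`, `A1epi` for the
trivial module `𝔽_p` over a number field `K ⊇ μ_p`, i.e. for `M0(K)` after Shapiro) and the
arithmetic packages.  It is PURE group cohomology + linear algebra: no number field appears.

## The datum `KData k Γ ι`

* `Γ` : the global group (`= Gal(ℚ̄/K)`), `k` the coefficient field (`= 𝔽_p`); all coefficients are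
  the trivial module `Tr k Γ` (`μ_p = 𝔽_p` over `K`), the pairing is multiplication `mulP`.
* `ι` : ALL finite places of `K`; `S : Finset ι` the places above the given set of primes.
* `H w`, `r w : H w →* Γ` : the local group at `w` (`= D_w ∩ Gal(ℚ̄/K)`).
* `C1 T`, `C2 T` : global 1- and 2-cochains of level `T` ("unramified outside `T`"), `T` a finite
  set of places; `C1 S`, `C2 S` are the cochains of `G_{K,S}`.
* `L1 w`, `L2 w` : level-constant (= continuous) local cochains; `U1 w`, `U2 w` : the unramified ones.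
* `κ w` : a ramified character of `H w` (Kummer character of a uniformiser), used for `w ∉ S`.
* `inv w` : a linear extension to all local 2-cochains of the local invariant.
* `lam` : the functional on cone 3-cochains `(A, (B_v)_{v ∈ S})`.

## The hypotheses `KHyp D` (who proves what in the concrete instance is listed in
`Base/Skeleton.lean`)

formal closure properties; `star` (LAM + REC-K + SHB); `hasse` (HP-K); `inv_dl1`, `loc_right`,
`loc_inj` (LOC); `ur3`, `unr2`, `unr3`, `kappa_ram` (LOC-UNR); `g4` (G4-AD); `fact` (FACT);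
`capit` (CAPIT); `finV`, `finHloc`, `finCl`, `count` (COUNT-V).

## The conclusions

`a2mono`, `a2epi`, `a1_right_kernel`, `a1epi`, stated on raw cochains (no quotients):
the pairings are
`P2 (a, t) y = lam (a ∪ y, (t_v ∪ res_v y)_v)` and `P1 (χ, s) α = lam (χ ∪ α, (s_v ∪ res_v α)_v)`.
-/

set_option autoImplicit false

namespace Fermat.Agent.S55.Base

open groupCohomology Fermat.Agent.S55.Abs.CupLow Fermat.Agent.S55.Base.EvalCup Module

/-- The trivial representation on `k` (the coefficient module `𝔽_p = μ_p` over `K`). -/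
abbrev Tr (k Γ : Type) [Field k] [Group Γ] : Rep k Γ := Rep.trivial k Γ k

/-- The multiplication pairing `𝔽_p × μ_p → μ_p`. -/
def mulP (k Γ : Type) [Field k] [Group Γ] : Tr k Γ →ₗ[k] Tr k Γ →ₗ[k] Tr k Γ := LinearMap.mul k k

theorem mulP_equivariant (k Γ : Type) [Field k] [Group Γ] : Equivariant (mulP k Γ) :=
  fun _ _ _ => rfl

@[simp] theorem mulP_apply (k Γ : Type) [Field k] [Group Γ] (a b : k) :
    mulP k Γ a b = a * b := rfl

/-- The abstract K-side datum. -/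
structure KData (k : Type) [Field k] (Γ : Type) [Group Γ] (ι : Type) [DecidableEq ι] where
  /-- the places above the given finite set of primes -/
  S : Finset ι
  /-- the local groups -/
  H : ι → Type
  [grp : ∀ w, Group (H w)]
  /-- the local-to-global maps -/
  r : ∀ w, H w →* Γ
  /-- global 1-cochains of level `T` (unramified outside `T`) -/
  C1 : Finset ι → Submodule k (Γ → Tr k Γ)
  /-- global 2-cochains of level `T` -/
  C2 : Finset ι → Submodule k (Γ × Γ → Tr k Γ)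
  /-- global 3-cochains of level `S` -/
  C3 : Submodule k (Γ × Γ × Γ → Tr k Γ)
  /-- level-constant local 1-cochains -/
  L1 : ∀ w, Submodule k (H w → Rep.res (r w) (Tr k Γ))
  /-- level-constant local 2-cochains -/
  L2 : ∀ w, Submodule k (H w × H w → Rep.res (r w) (Tr k Γ))
  /-- unramified local 1-cochains -/
  U1 : ∀ w, Submodule k (H w → Rep.res (r w) (Tr k Γ))
  /-- unramified local 2-cochains -/
  U2 : ∀ w, Submodule k (H w × H w → Rep.res (r w) (Tr k Γ))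
  /-- a ramified character of the local group (Kummer character of a uniformiser) -/
  κ : ∀ w, H w → Rep.res (r w) (Tr k Γ)
  /-- the local invariants, extended linearly to all local 2-cochains -/
  inv : ∀ w, (H w × H w → Rep.res (r w) (Tr k Γ)) →ₗ[k] k
  /-- the functional on cone 3-cochains -/
  lam : ((Γ × Γ × Γ → Tr k Γ) × (∀ v : ↥S, H v × H v → Rep.res (r v) (Tr k Γ))) →ₗ[k] k

attribute [instance] KData.grp

namespace KData

variable {k : Type} [Field k] {Γ : Type} [Group Γ] {ι : Type} [DecidableEq ι] (D : KData k Γ ι)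

/-- Global differential `C¹ → C²` (trivial coefficients): `(dc)(g,h) = c h - c (g h) + c g`. -/
abbrev d1 (_D : KData k Γ ι) : (Γ → Tr k Γ) →ₗ[k] (Γ × Γ → Tr k Γ) := (d₁₂ (Tr k Γ)).hom

/-- Global differential `C² → C³`. -/
abbrev d2 (_D : KData k Γ ι) : (Γ × Γ → Tr k Γ) →ₗ[k] (Γ × Γ × Γ → Tr k Γ) := (d₂₃ (Tr k Γ)).hom

/-- Local differential `C¹ → C²` at `w`. -/
abbrev dl1 (w : ι) : (D.H w → Rep.res (D.r w) (Tr k Γ)) →ₗ[k]
    (D.H w × D.H w → Rep.res (D.r w) (Tr k Γ)) :=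
  (d₁₂ (Rep.res (D.r w) (Tr k Γ))).hom

/-- Local differential `C² → C³` at `w`. -/
abbrev dl2 (w : ι) : (D.H w × D.H w → Rep.res (D.r w) (Tr k Γ)) →ₗ[k]
    (D.H w × D.H w × D.H w → Rep.res (D.r w) (Tr k Γ)) :=
  (d₂₃ (Rep.res (D.r w) (Tr k Γ))).hom

/-- Restriction of 1-cochains to the local group at `w`. -/
abbrev rs1 (w : ι) : (Γ → Tr k Γ) →ₗ[k] (D.H w → Rep.res (D.r w) (Tr k Γ)) :=
  res₁ (D.r w) (Tr k Γ)

/-- Restriction of 2-cochains to the local group at `w`. -/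
abbrev rs2 (w : ι) : (Γ × Γ → Tr k Γ) →ₗ[k] (D.H w × D.H w → Rep.res (D.r w) (Tr k Γ)) :=
  res₂ (D.r w) (Tr k Γ)

/-- Local cup product `C¹ × C¹ → C²` at `w`: `(x ∪ y)(g,h) = x g * y h`. -/
abbrev cupl (w : ι) : (D.H w → Rep.res (D.r w) (Tr k Γ)) →ₗ[k]
    (D.H w → Rep.res (D.r w) (Tr k Γ)) →ₗ[k] (D.H w × D.H w → Rep.res (D.r w) (Tr k Γ)) :=
  cup₁₁ (resPairing (D.r w) (mulP k Γ))

/-- `V = H¹(G_S, μ_p)`: the homomorphisms `Γ → k` of level `S`. -/
def V : Submodule k (Γ → Tr k Γ) := D.C1 D.S ⊓ LinearMap.ker D.d1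

/-- Level-`S` 2-cocycles. -/
def Z2 : Submodule k (Γ × Γ → Tr k Γ) := D.C2 D.S ⊓ LinearMap.ker D.d2

/-- The level-constant homomorphisms `H w → k` (`= H¹(K_w, 𝔽_p)`). -/
def Hloc (w : ι) : Submodule k (D.H w → Rep.res (D.r w) (Tr k Γ)) :=
  D.L1 w ⊓ LinearMap.ker (D.dl1 w)

/-- The places outside `S`. -/
abbrev Out : Type := {w : ι // w ∉ D.S}

/-- `𝕁 = ⊕_{v ∈ S} H¹(K_v, 𝔽_p) ⊕ ⊕_{w ∉ S} k` ("idèles mod `p` mod units outside `S`"). -/
abbrev J : Type := (∀ v : ↥D.S, ↥(D.Hloc v)) × (D.Out →₀ k)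

/-- The local part `⊕_{v ∈ S} H¹(K_v, 𝔽_p)` of `𝕁`. -/
noncomputable def JS : Submodule k D.J := LinearMap.range (LinearMap.inl k (∀ v : ↥D.S, ↥(D.Hloc v)) (D.Out →₀ k))

/-- `Ξ = (ξ, d)` is the image of the global character `c` (of some level `T ⊇ S`): `ξ_v = res_v c`
for `v ∈ S` and `res_w c - d_w κ_w` is unramified for all `w ∉ S` (`d_w = ord_w c`). -/
def IsGlobal (Ξ : D.J) : Prop :=
  ∃ T : Finset ι, D.S ⊆ T ∧ ∃ c ∈ D.C1 T, D.d1 c = 0 ∧
    (∀ v : ↥D.S, D.rs1 v c = (Ξ.1 v : D.H v → Rep.res (D.r v) (Tr k Γ))) ∧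
    ∀ w : D.Out, D.rs1 w c - Ξ.2 w • D.κ w ∈ D.U1 w

/-- `D(K^×/p) ⊆ 𝕁`: the span of the images of the global characters. -/
noncomputable def Dgl : Submodule k D.J := Submodule.span k {Ξ | D.IsGlobal Ξ}

/-- `(a, t)` is a compactly supported 2-cocycle: `a ∈ Z²(G_S)`, `t_v` level-constant with
`res_v a = d t_v` for `v ∈ S`. -/
def IsZc2 (a : Γ × Γ → Tr k Γ) (t : ∀ v : ↥D.S, D.H v → Rep.res (D.r v) (Tr k Γ)) : Prop :=
  a ∈ D.Z2 ∧ ∀ v : ↥D.S, t v ∈ D.L1 v ∧ D.dl1 v (t v) = D.rs2 v a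

/-- `(χ, s)` is a compactly supported 1-cocycle: `χ ∈ Z¹(G_S)`, `res_v χ = d s_v` for `v ∈ S`. -/
def IsZc1 (χ : Γ → Tr k Γ) (s : ∀ v : ↥D.S, Rep.res (D.r v) (Tr k Γ)) : Prop :=
  χ ∈ D.V ∧ ∀ v : ↥D.S, (d₀₁ (Rep.res (D.r v) (Tr k Γ))).hom (s v) = D.rs1 v χ

/-- The pairing `H²_c(𝔽_p) × H¹(μ_p) → k` on cochains: `lam (a ∪ y, (t_v ∪ res_v y)_v)`. -/
noncomputable def P2 (a : Γ × Γ → Tr k Γ) (t : ∀ v : ↥D.S, D.H v → Rep.res (D.r v) (Tr k Γ))
    (y : Γ → Tr k Γ) : k :=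
  D.lam (cup₂₁ (mulP k Γ) a y, fun v : ↥D.S => D.cupl v (t v) (D.rs1 v y))

/-- The pairing `H¹_c(𝔽_p) × H²(μ_p) → k` on cochains: `lam (χ ∪ α, (s_v ∪ res_v α)_v)`. -/
noncomputable def P1 (χ : Γ → Tr k Γ) (s : ∀ v : ↥D.S, Rep.res (D.r v) (Tr k Γ))
    (α : Γ × Γ → Tr k Γ) : k :=
  D.lam (cup₁₂ (mulP k Γ) χ α,
    fun v : ↥D.S => cup₀₂ (resPairing (D.r v) (mulP k Γ)) (s v) (D.rs2 v α))

/-- The hypotheses on the datum.  Each field is proved in the concrete instance by the package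
named in its docstring. -/
structure KHyp : Prop where
  /-- formal: levels are monotone -/
  C1_mono : ∀ {T T' : Finset ι}, T ⊆ T' → D.C1 T ≤ D.C1 T'
  /-- formal: `d` preserves the level -/
  d1_mem : ∀ {T : Finset ι} {c}, c ∈ D.C1 T → D.d1 c ∈ D.C2 T
  /-- formal: cup products preserve the level -/
  cup_mem : ∀ {T : Finset ι} {x y}, x ∈ D.C1 T → y ∈ D.C1 T → cup₁₁ (mulP k Γ) x y ∈ D.C2 T
  /-- formal: restrictions of level cochains are level-constant -/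
  rs1_mem_L1 : ∀ {T : Finset ι} {c} (w : ι), c ∈ D.C1 T → D.rs1 w c ∈ D.L1 w
  /-- formal -/
  rs2_mem_L2 : ∀ {T : Finset ι} {a} (w : ι), a ∈ D.C2 T → D.rs2 w a ∈ D.L2 w
  /-- formal: a cochain of level `T` is unramified at `w ∉ T` -/
  rs1_mem_U1 : ∀ {T : Finset ι} {c} {w : ι}, c ∈ D.C1 T → w ∉ T → D.rs1 w c ∈ D.U1 w
  /-- formal -/
  rs2_mem_U2 : ∀ {T : Finset ι} {a} {w : ι}, a ∈ D.C2 T → w ∉ T → D.rs2 w a ∈ D.U2 w
  /-- formal: unramified cochains are level-constant -/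
  U1_le_L1 : ∀ w, D.U1 w ≤ D.L1 w
  /-- formal: cup product of unramified cochains is unramified -/
  cupl_mem_U2 : ∀ {w : ι} {x y}, x ∈ D.U1 w → y ∈ D.U1 w → D.cupl w x y ∈ D.U2 w
  /-- formal: pointwise products of level-constant cochains are level-constant -/
  mul_mem_L1 : ∀ {w : ι} {x y : D.H w → Rep.res (D.r w) (Tr k Γ)}, x ∈ D.L1 w → y ∈ D.L1 w →
    (fun h => x h * y h) ∈ D.L1 w
  /-- formal: `κ_w` is a level-constant character -/
  kappa_mem : ∀ w, w ∉ D.S → D.κ w ∈ D.Hloc w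
  /-- LOC: the local invariant kills coboundaries of level-constant cochains -/
  inv_dl1 : ∀ w, ∀ f ∈ D.L1 w, D.inv w (D.dl1 w f) = 0
  /-- formal: cup products of level-`S` cochains have level `S` -/
  cup21_mem_C3 : ∀ {a y}, a ∈ D.C2 D.S → y ∈ D.C1 D.S → cup₂₁ (mulP k Γ) a y ∈ D.C3
  /-- formal -/
  cup12_mem_C3 : ∀ {χ α}, χ ∈ D.C1 D.S → α ∈ D.C2 D.S → cup₁₂ (mulP k Γ) χ α ∈ D.C3
  /-- LAM + REC-K + SHB: the (STAR) property of the functional, for cone 3-cochains `(A₃, B₂)`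
  whose global part `A₃` has level `S` and is the coboundary of a 2-cochain `e` of level `S'`
  (this is `EvalCup.Star` restricted to `A₃ ∈ C3`) -/
  star : ∀ (A₃ : Γ × Γ × Γ → Tr k Γ) (B₂ : ∀ v : ↥D.S, D.H v × D.H v → Rep.res (D.r v) (Tr k Γ))
    (S' : Finset ι) (e : Γ × Γ → Tr k Γ) (u : ∀ w, D.H w × D.H w → Rep.res (D.r w) (Tr k Γ)),
    A₃ ∈ D.C3 → D.S ⊆ S' → e ∈ D.C2 S' → D.d2 e = A₃ →
    (∀ w ∈ S', w ∉ D.S → u w ∈ D.U2 w ∧ D.dl2 w (u w) = res₃ (D.r w) (Tr k Γ) A₃) →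
    D.lam (A₃, B₂) = ∑ v : ↥D.S, D.inv v (B₂ v - D.rs2 v e)
      + ∑ w ∈ S' \ D.S, D.inv w (u w - D.rs2 w e)
  /-- HP-K (Hasse principle): a level-`S` 2-cocycle which is a local coboundary at the places of
  `S` is the coboundary of a cochain of some finite level -/
  hasse : ∀ a ∈ D.Z2, (∀ v : ↥D.S, ∃ t ∈ D.L1 v, D.dl1 v t = D.rs2 v a) →
    ∃ T : Finset ι, D.S ⊆ T ∧ ∃ c ∈ D.C1 T, D.d1 c = a
  /-- LOC (Hilbert symbol, right-nondegenerate) at the places of `S` -/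
  loc_right : ∀ v : ↥D.S, ∀ y ∈ D.Hloc v, (∀ ξ ∈ D.Hloc v, D.inv v (D.cupl v ξ y) = 0) → y = 0
  /-- LOC (`H²(K_v, μ_p)` is a line on which `inv_v` is injective) at the places of `S` -/
  loc_inj : ∀ v : ↥D.S, ∀ z ∈ D.L2 v, D.dl2 v z = 0 → D.inv v z = 0 → ∃ t ∈ D.L1 v, D.dl1 v t = z
  /-- LOC-UNR (UR3): unramified 2-cocycles are coboundaries of unramified cochains -/
  ur3 : ∀ w, w ∉ D.S → ∀ z ∈ D.U2 w, D.dl2 w z = 0 → ∃ t ∈ D.U1 w, D.dl1 w t = z
  /-- LOC-UNR (UNR-2): `κ_w ∪ y ≠ 0` for a nonzero unramified character `y` -/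
  unr2 : ∀ w, w ∉ D.S → ∀ y ∈ D.U1 w, D.dl1 w y = 0 → D.inv w (D.cupl w (D.κ w) y) = 0 → y = 0
  /-- LOC-UNR (UNR-3): every character is `e • κ_w +` unramified -/
  unr3 : ∀ w, w ∉ D.S → ∀ η ∈ D.Hloc w, ∃ e : k, η - e • D.κ w ∈ D.U1 w
  /-- LOC-UNR: `κ_w` is ramified -/
  kappa_ram : ∀ w, w ∉ D.S → ∀ e : k, e • D.κ w ∈ D.U1 w → e = 0
  /-- G4-AD: a character of level `S` which is locally trivial everywhere is trivial -/
  g4 : ∀ y ∈ D.V, (∀ w, D.rs1 w y = 0) → y = 0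
  /-- FACT: a cochain of finite level with level-`S` coboundary which is unramified at all places
  outside `S` has level `S` -/
  fact : ∀ (T : Finset ι), D.S ⊆ T → ∀ c ∈ D.C1 T, D.d1 c ∈ D.C2 D.S →
    (∀ w ∈ T, w ∉ D.S → D.rs1 w c ∈ D.U1 w) → c ∈ D.C1 D.S
  /-- CAPIT: every place `w₀ ∉ S` is the ramification divisor of a cochain with level-`S`
  coboundary -/
  capit : ∀ w₀ : D.Out, ∃ T : Finset ι, D.S ⊆ T ∧ ∃ c ∈ D.C1 T, D.d1 c ∈ D.C2 D.S ∧
    ∀ w : D.Out, D.rs1 w c - (if w = w₀ then (1 : k) else 0) • D.κ w ∈ D.U1 w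
  /-- COUNT-V: finiteness of `H¹(G_S, μ_p)` -/
  finV : Module.Finite k ↥D.V
  /-- COUNT-V: finiteness of the local `H¹` at the places of `S` -/
  finHloc : ∀ v : ↥D.S, Module.Finite k ↥(D.Hloc v)
  /-- COUNT-V: finiteness of `Cl_S / p` -/
  finCl : Module.Finite k (D.J ⧸ (D.Dgl ⊔ D.JS))
  /-- COUNT-V: `Σ_{v ∈ S} dim H¹(K_v) + 2 dim Cl_S/p = 2 dim H¹(G_S, μ_p)` -/
  count : ∑ v : ↥D.S, finrank k ↥(D.Hloc v) + 2 * finrank k (D.J ⧸ (D.Dgl ⊔ D.JS))
    = 2 * finrank k ↥D.V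

variable {D}

/-- **A2mono (K-side).**  A compactly supported 2-cocycle `(a, t)` orthogonal to `H¹(G_S, μ_p)`
is a compactly supported coboundary: `a = d c`, `t_v = res_v c` with `c` of level `S`. -/
theorem a2mono (h : D.KHyp) (a : Γ × Γ → Tr k Γ)
    (t : ∀ v : ↥D.S, D.H v → Rep.res (D.r v) (Tr k Γ)) (hx : D.IsZc2 a t)
    (hP : ∀ y ∈ D.V, D.P2 a t y = 0) :
    ∃ c ∈ D.C1 D.S, D.d1 c = a ∧ ∀ v : ↥D.S, D.rs1 v c = t v := by
  sorry

/-- **A2epi (K-side).**  Every linear functional on `H¹(G_S, μ_p)` is `P2 (a, t)` for some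
compactly supported 2-cocycle `(a, t)`. -/
theorem a2epi (h : D.KHyp) (φ : ↥D.V →ₗ[k] k) :
    ∃ (a : Γ × Γ → Tr k Γ) (t : ∀ v : ↥D.S, D.H v → Rep.res (D.r v) (Tr k Γ)),
      D.IsZc2 a t ∧ ∀ y : ↥D.V, D.P2 a t y = φ y := by
  sorry

/-- **A1 (K-side), right kernel.**  A level-`S` 2-cocycle orthogonal to all compactly supported
1-cocycles is the coboundary of a level-`S` cochain. -/
theorem a1_right_kernel (h : D.KHyp) (α : Γ × Γ → Tr k Γ) (hα : α ∈ D.Z2)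
    (hP : ∀ χ s, D.IsZc1 χ s → D.P1 χ s α = 0) : ∃ c ∈ D.C1 D.S, D.d1 c = α := by
  sorry

/-- **A1epi (K-side).**  Every linear functional on `Z²(G_S, μ_p)` vanishing on the level-`S`
coboundaries is `P1 (χ, s)` for some compactly supported 1-cocycle `(χ, s)`. -/
theorem a1epi (h : D.KHyp) (φ : ↥D.Z2 →ₗ[k] k)
    (hφ : ∀ (α : ↥D.Z2), (∃ c ∈ D.C1 D.S, D.d1 c = (α : Γ × Γ → Tr k Γ)) → φ α = 0) :
    ∃ (χ : Γ → Tr k Γ) (s : ∀ v : ↥D.S, Rep.res (D.r v) (Tr k Γ)),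
      D.IsZc1 χ s ∧ ∀ α : ↥D.Z2, D.P1 χ s α = φ α := by
  sorry

end KData

end Fermat.Agent.S55.Base
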