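/-
S55 / PROGRAM CFT, base case, row ASM-a1epi (helper145).

`a₁` epi is FORMAL: for any Poitou–Tate context `D` and any finite-dimensional discrete `M`,

  `a₂` mono for `M' = M^*(χ)`  +  the local package of `M'`  +  `H¹(G, M)` finite-dimensional
    ⟹  `a₁` epi for `M`   (`PairEpi (D.P1 hM)`).

Proof.  Let `α ∈ H²(G, M')` be in the right kernel of `P1 : H¹_c(M) × H²(M') → k`.
1. Pairing with the classes `(0, m at v)`, `m ∈ H⁰(G_v, M)`, and the local `a²_v` mono for `M'`
   (`cup02 m z = cup20 z (bidual m)`) show that `α` is locally trivial: `α = fgt2 x̃`.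
2. By the symmetry `Pc2_fgt1_eq_Pc1_fgt2` and `Pc1_natural` along `bidual`, the functional
   `P2_{M'}(x̃, ·)` kills the locally trivial classes of `H¹(G, M'')`; so it factors through
   `∏_v H¹(G_v, M'')` and by the local `a¹_v` epi for `M'` it is `P2_{M'}((0, ξ), ·)`.
3. `a₂` mono for `M'` gives `x̃ = (0, ξ)`, hence `α = fgt2 (0, ξ) = 0`.
Finally `H¹_c(M)` is finite-dimensional, so a trivial right kernel means `PairEpi`.
-/
import Fermat.Agent.S55.Abs.SymmTop
import Fermat.Agent.S55.Abs.TopGlue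
import Fermat.Agent.S55.Base.IdeleLA

set_option autoImplicit false

open CategoryTheory groupCohomology

namespace Fermat.Agent.S55.Base.Asm

open Fermat.Agent.S55.Abs Fermat.Agent.S55.Abs.TopGlue

/-! ### Linear algebra -/

section LA

variable {k : Type*} [Field k] {X T : Type*} [AddCommGroup X] [Module k X] [AddCommGroup T]
  [Module k T]

/-- A pairing with finite-dimensional RIGHT factor and trivial right kernel represents every
functional on the right factor. -/
theorem pairEpi_of_right_kernel_of_finite_right [Module.Finite k T] (P : X →ₗ[k] T →ₗ[k] k)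
    (h : ∀ t, (∀ x, P x t = 0) → t = 0) : PairEpi P := by
  have hr := range_eq_top_of_right_nondegenerate P h
  intro φ
  have hφ : φ ∈ LinearMap.range P := by rw [hr]; trivial
  obtain ⟨x, hx⟩ := hφ
  exact ⟨x, fun t => by rw [← hx]⟩

/-- A pairing with finite-dimensional LEFT factor and trivial right kernel represents every
functional on the right factor. -/
theorem pairEpi_of_right_kernel_of_finite_left [Module.Finite k X] (P : X →ₗ[k] T →ₗ[k] k)
    (h : ∀ t, (∀ x, P x t = 0) → t = 0) : PairEpi P := by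
  have hinj : Function.Injective P.flip := by
    rw [← LinearMap.ker_eq_bot, Submodule.eq_bot_iff]
    intro t ht
    apply h t
    intro x
    have := congrArg (fun f => f x) (LinearMap.mem_ker.1 ht)
    simpa using this
  have : Module.Finite k T := Module.Finite.of_injective P.flip hinj
  exact pairEpi_of_right_kernel_of_finite_right P h

end LA

/-! ### Finiteness of `H¹_c` -/

section Finite

variable {k G : Type} [Field k] [Group G]

/-- If `M` and `H¹(G, M)` are finite-dimensional, so is the space of level 1-cocycles. -/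
theorem finite_Z1 (𝒰 : LevelFamily G) (M : Rep.{0} k G) [Module.Finite k M]
    (hfin : Module.Finite k (H1 𝒰 M)) : Module.Finite k ↥(Z1 𝒰 M) := by
  have := hfin
  have : Module.Finite k ↥(coboundaries₁ M) := by
    show Module.Finite k ↥(LinearMap.range (d₀₁ M).hom)
    infer_instance
  have : Module.Finite k ↥((coboundaries₁ M).comap (Z1 𝒰 M).subtype) := by
    let f : ↥((coboundaries₁ M).comap (Z1 𝒰 M).subtype) →ₗ[k] ↥(coboundaries₁ M) :=
      { toFun := fun x => ⟨x.1.1, x.2⟩
        map_add' := fun _ _ => rfl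
        map_smul' := fun _ _ => rfl }
    refine Module.Finite.of_injective f ?_
    intro x y hxy
    exact Subtype.ext (Subtype.ext (congrArg (fun z : ↥(coboundaries₁ M) => (z : G → M)) hxy))
  exact Module.Finite.of_submodule_quotient ((coboundaries₁ M).comap (Z1 𝒰 M).subtype)

/-- If `M` and `H¹(G, M)` are finite-dimensional, so is `H¹_c(M)`. -/
theorem finite_Hc1 (D : PTContext k G) (M : Rep.{0} k G) [Module.Finite k M]
    (hfin : Module.Finite k (H1 D.𝒰 M)) : Module.Finite k (Hc1 D.𝒰 D.loc M) := by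
  have := finite_Z1 D.𝒰 M hfin
  have : Module.Finite k ↥(Zc1 D.𝒰 D.loc M) := by
    let f : ↥(Zc1 D.𝒰 D.loc M) →ₗ[k] ↥(Z1 D.𝒰 M) × (D.ι → M) :=
      { toFun := fun x => (⟨x.1.1, x.2.1⟩, x.1.2)
        map_add' := fun _ _ => rfl
        map_smul' := fun _ _ => rfl }
    refine Module.Finite.of_injective f ?_
    intro x y hxy
    apply Subtype.ext
    apply Prod.ext
    · exact congrArg (fun z : ↥(Z1 D.𝒰 M) × (D.ι → M) => (z.1 : G → M)) hxy
    · exact congrArg (fun z : ↥(Z1 D.𝒰 M) × (D.ι → M) => z.2) hxy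
  infer_instance

end Finite

/-! ### The right kernel of `P1` -/

section Main

variable {k G : Type} [Field k] [Group G] (D : PTContext k G)

/-- The classes `(0, m at v)`, `m` invariant under `G_v`, are compactly supported 1-cocycles. -/
theorem single_mem_Zc1 (M : Rep.{0} k G) (v : D.ι) (m : M)
    (hm : ∀ g : D.Gv v, M.ρ (D.loc v g) m = m) :
    ((0, Pi.single v m) : (G → M) × (D.ι → M)) ∈ Zc1 D.𝒰 D.loc M := by
  refine ⟨zero_mem _, fun w => ?_⟩
  show res₁ D.loc M w 0 = (d₀₁ (Rep.res (D.loc w) M)).hom ((Pi.single v m : D.ι → M) w)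
  rw [map_zero]
  by_cases hw : w = v
  · subst hw
    rw [Pi.single_eq_same]
    funext g
    show (0 : M) = M.ρ (D.loc w g) m - m
    rw [hm g, sub_self]
  · rw [Pi.single_eq_of_ne hw, map_zero]

/-- **The right kernel of `P1` is trivial**, from `a₂` mono and the local package of
`M' = M^*(χ)`. -/
theorem right_kernel_P1 {M : Rep.{0} k G} [FiniteDimensional k M] (hM : IsDisc D.𝒰 M)
    (h2 : PairMono (D.P2 (D.disc_dual hM)))
    (hL1 : ∀ v, PairEpi (D.PL1 (D.disc_dual hM) v))
    (hL2 : ∀ v, PairMono (D.PL2 (D.disc_dual hM) v))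
    (α : H2 D.𝒰 (D.dual M)) (hα : ∀ x, D.P1 hM x α = 0) : α = 0 := by
  classical
  obtain ⟨⟨a, ha⟩, rfl⟩ := Submodule.mkQ_surjective _ α
  -- Step 1: `a` is locally a level coboundary
  have hres : ∀ v, res₂ D.loc (D.dual M) v a ∈ B2 (D.𝒰v v) (Rep.res (D.loc v) (D.dual M)) := by
    intro v
    have hZ := res₂_mem_Z2 D.𝒰 D.loc D.𝒰v D.hloc (D.dual M) v ha
    have hzero : (Submodule.Quotient.mk ⟨res₂ D.loc (D.dual M) v a, hZ⟩ :
        H2 (D.𝒰v v) (Rep.res (D.loc v) (D.dual M))) = 0 := by
      refine hL2 v _ (fun t => ?_)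
      set m : M := (bidualInv D.χ M).hom t.1 with hmdef
      have hbm : (bidual D.χ M).hom m = t.1 := bidual_bidualInv D.χ M t.1
      have htinv : ∀ g : D.Gv v, (D.dual (D.dual M)).ρ (D.loc v g) t.1 = t.1 := fun g => t.2 g
      have hminv : ∀ g : D.Gv v, M.ρ (D.loc v g) m = m := by
        intro g
        have e1 := Rep.hom_comm_apply (bidual D.χ M) (D.loc v g) m
        rw [hbm, htinv g, ← hbm] at e1
        have e2 := congrArg (bidualInv D.χ M).hom e1
        rwa [bidualInv_bidual, bidualInv_bidual] at e2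
      have hx := single_mem_Zc1 D M v m hminv
      have h0 := hα (Submodule.Quotient.mk ⟨(0, Pi.single v m), hx⟩)
      have hcoch : jv (muRep D.χ) v (cup20 ((evPairing D.χ (D.dual M)).res (D.loc v))
            (res₂ D.loc (D.dual M) v a) t.1)
          = raw1 D.loc (evPairing D.χ M) ((0, Pi.single v m) : (G → M) × (D.ι → M)) a := by
        refine Prod.ext ?_ (funext fun w => ?_)
        · show (0 : G × G × G → muRep D.χ) = cup12 (evPairing D.χ M) 0 a
          rw [map_zero, LinearMap.zero_apply]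
        · show (Pi.single v (cup20 ((evPairing D.χ (D.dual M)).res (D.loc v))
              (res₂ D.loc (D.dual M) v a) t.1) : ∀ w, D.Gv w × D.Gv w → muRep D.χ) w
            = cup02 ((evPairing D.χ M).res (D.loc w)) ((Pi.single v m : D.ι → M) w)
                (res₂ D.loc (D.dual M) w a)
          by_cases hw : w = v
          · subst hw
            rw [Pi.single_eq_same, Pi.single_eq_same]
            funext q
            show (evPairing D.χ (D.dual M)).toFun (a (D.loc w q.1, D.loc w q.2))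
                ((D.dual (D.dual M)).ρ (D.loc w (q.1 * q.2)) t.1)
              = (evPairing D.χ M).toFun m (a (D.loc w q.1, D.loc w q.2))
            rw [htinv, ← hbm]
            rfl
          · rw [Pi.single_eq_of_ne hw, Pi.single_eq_of_ne hw, map_zero, LinearMap.zero_apply]
      refine Eq.trans ?_ h0
      exact congrArg D.lam (congrArg Submodule.Quotient.mk (Subtype.ext hcoch))
    rw [Submodule.Quotient.mk_eq_zero] at hzero
    exact hzero
  -- Step 2: lift to `H²_c(M')`
  obtain ⟨xt, hxt⟩ := exists_fgt2_eq D.𝒰 D.loc D.𝒰v (D.dual M) ha hres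
  -- Step 3: `P2_{M'}(xt, ·)` kills the locally trivial classes
  have hkill : ∀ y : H1 D.𝒰 (D.dual (D.dual M)), loc1 D (D.dual M) y = 0 →
      D.P2 (D.disc_dual hM) xt y = 0 := by
    intro y hy
    obtain ⟨⟨y, hyZ⟩, rfl⟩ := Submodule.mkQ_surjective _ y
    have hyres : ∀ v, res₁ D.loc (D.dual (D.dual M)) v y
        ∈ coboundaries₁ (Rep.res (D.loc v) (D.dual (D.dual M))) := by
      intro v
      have h := congrFun hy v
      have h' : (Submodule.Quotient.mk (⟨res₁ D.loc (D.dual (D.dual M)) v y,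
          res₁_mem_Z1 D.𝒰 D.loc D.𝒰v D.hloc (D.dual (D.dual M)) v hyZ⟩ :
            ↥(Z1 (D.𝒰v v) (Rep.res (D.loc v) (D.dual (D.dual M))))) :
          H1 (D.𝒰v v) (Rep.res (D.loc v) (D.dual (D.dual M)))) = 0 := h
      rw [Submodule.Quotient.mk_eq_zero] at h'
      exact h'
    obtain ⟨z, hz⟩ := exists_fgt1_eq D.𝒰 D.loc (D.dual (D.dual M)) hyZ hyres
    have hsym := Pc2_fgt1_eq_Pc1_fgt2 D.𝒰 D.loc D.𝒰v (evPairing D.χ (D.dual M)) D.hloc
      (D.disc_dual hM) (D.disc_dual (D.disc_dual hM)) D.hμ D.lam xt z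
    rw [hz, hxt] at hsym
    have hretr := Hc1map_retract D.𝒰 D.loc (bidualInv D.χ M) (bidual D.χ M)
      (bidual_bidualInv D.χ M) z
    have hnat := Pc1_natural D.𝒰 D.loc D.𝒰v (evPairing D.χ M) (evPairing D.χ (D.dual M)).flip
      (bidual D.χ M) (𝟙 (D.dual M)) (fun _ _ => rfl) D.hloc hM (D.disc_dual (D.disc_dual hM))
      (D.disc_dual hM) (D.disc_dual hM) D.hμ D.lam
      (Hc1map D.𝒰 D.loc (bidualInv D.χ M) z) (Submodule.Quotient.mk ⟨a, ha⟩)
    rw [hretr] at hnat
    have hid : H2map D.𝒰 (𝟙 (D.dual M)) (Submodule.Quotient.mk ⟨a, ha⟩)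
        = (Submodule.Quotient.mk ⟨a, ha⟩ : H2 D.𝒰 (D.dual M)) := rfl
    rw [hid] at hnat
    exact hsym.trans (hnat.trans (hα _))
  -- Step 4: represent it by local classes
  obtain ⟨ψ, hψ⟩ := exists_factor_of_ker_le (loc1 D (D.dual M)) (D.P2 (D.disc_dual hM) xt) hkill
  obtain ⟨ξ, hξ⟩ := exists_Lsum_eq D (D.disc_dual hM) hL1 ψ
  have hxt2 : xt - bd D.𝒰 D.loc D.𝒰v (D.dual M) ξ = 0 := by
    refine h2 _ (fun y => ?_)
    rw [map_sub, LinearMap.sub_apply, P2_bd D (D.disc_dual hM) ξ y, hξ, hψ y, sub_self]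
  -- Step 5: conclude
  rw [sub_eq_zero] at hxt2
  have hfin : fgt2 D.𝒰 D.loc D.𝒰v (D.dual M) (bd D.𝒰 D.loc D.𝒰v (D.dual M) ξ) = 0 := by
    show (Submodule.Quotient.mk (⟨(0 : G × G → D.dual M), _⟩ : ↥(Z2 D.𝒰 (D.dual M))) :
      H2 D.𝒰 (D.dual M)) = 0
    rw [Submodule.Quotient.mk_eq_zero]
    exact zero_mem _
  rw [← hxt2, hxt] at hfin
  exact hfin

/-- **`a₁` epi from `a₂` mono and the local package of the dual.** -/
theorem a1epi_of_dual {M : Rep.{0} k G} [FiniteDimensional k M] (hM : IsDisc D.𝒰 M)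
    (hfin : Module.Finite k (H1 D.𝒰 M))
    (h2 : PairMono (D.P2 (D.disc_dual hM)))
    (hL1 : ∀ v, PairEpi (D.PL1 (D.disc_dual hM) v))
    (hL2 : ∀ v, PairMono (D.PL2 (D.disc_dual hM) v)) :
    PairEpi (D.P1 hM) := by
  have := finite_Hc1 D M hfin
  exact pairEpi_of_right_kernel_of_finite_left (D.P1 hM)
    (fun α hα => right_kernel_P1 D hM h2 hL1 hL2 α hα)

end Main

end Fermat.Agent.S55.Base.Asm
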