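/-
S55 / PROGRAM CFT, base case: ASM core, `a2mono` (helper154; captain ruling 6).

A generic, cochain-level assembly theorem on top of the evaluation datum `Eval.Datum`
(`Base/Eval`): the left kernel of the Poitou-Tate pairing
`Pc2 : H²_c(A) × H¹(G_S, B) → k` is trivial, given four inputs stated on cochains:

* `Hasse D A`   : a level-`S` 2-cocycle which is a local level coboundary at every place of `S`
                  is the coboundary of a 1-cochain of some finite level `T ⊇ S`;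
* `UrPrim D A`  : unramified local 2-cocycles outside `S` have unramified primitives;
* `FactLev D A` : a 1-cochain of level `T ⊇ S` with level-`S` coboundary and unramified
                  restrictions at the places of `T \ S` has level `S`;
* `DgPerp D β`  : a family of local 1-cocycles of `A` on a finite set `T ⊇ S` of places which is
                  orthogonal (for the bracket `brk`) to all level-`S` 1-cocycles of `B` comes from
                  a global 1-cocycle of some finite level `T' ⊇ T`, up to local coboundaries at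
                  `S` and up to unramified cochains and coboundaries outside `S`.

There is no type of ideles and no diagonal map here: the theorem only speaks about cocycle
representatives, so it can be fed by any model of the linear-algebra side.

`a2mono_arith` is the instance for the concrete context `ctxS p S hpS I.lamS` of `Abs/Bridge`.
-/
import Fermat.Agent.S55.Base.EvalQ

set_option autoImplicit false

open CategoryTheory groupCohomology

namespace Fermat.Agent.S55.Base.AsmCore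

open Fermat.Agent.S55.Abs Fermat.Agent.S55.Base.Eval

section Generic

variable {k G : Type} [Field k] [Group G] {C : Rep.{0} k G} (D : Eval.Datum k G C)

/-- The bracket of a family of local 1-cochains of `A` (`zS v` at the places `v ∈ S`, `z w` at
the places `w ∈ T \ S`) with a global 1-cochain `y` of `B`: the sum of the local pairings. -/
noncomputable def brk {A B : Rep.{0} k G} (β : EqPairing A B C) (T : Finset D.ι)
    (zS : ∀ v : ↥D.S, D.GvS v → A) (z : ∀ w, D.Gv w → A) (y : G → B) : k :=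
  ∑ v : ↥D.S, D.inv v (cup11 (β.res (D.loc v)) (zS v) (res₁ D.loc B v y))
    + ∑ w ∈ T \ D.S, D.inv w (cup11 (β.res (D.loc w)) (z w) (res₁ D.loc B w y))

/-- **Hasse principle in degree 2, cochain form**: a level-`S` 2-cocycle of `N` whose
restrictions to the places of `S` are local level coboundaries is the coboundary of a 1-cochain
of some finite level `T ⊇ S`. -/
def Hasse (N : Rep.{0} k G) : Prop :=
  ∀ a ∈ Z2 (D.𝒰 D.S) N,
    (∀ v : ↥D.S, res₂ D.loc N v a ∈ B2 (D.𝒰v v) (Rep.res (D.loc v) N)) →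
    ∃ T, D.S ⊆ T ∧ ∃ c ∈ C1 (D.𝒰 T) N, (d₁₂ N).hom c = a

/-- **Unramified primitives**: an unramified local 2-cocycle at a place outside `S` is the
coboundary of an unramified 1-cochain. -/
def UrPrim (N : Rep.{0} k G) : Prop :=
  ∀ w, w ∉ D.S → ∀ z ∈ Z2 (D.𝒰ur w) (Rep.res (D.loc w) N),
    ∃ t ∈ C1 (D.𝒰ur w) (Rep.res (D.loc w) N), (d₁₂ (Rep.res (D.loc w) N)).hom t = z

/-- **Level descent**: a 1-cochain of level `T ⊇ S` whose coboundary has level `S` and whose
restrictions at the places of `T \ S` are unramified has level `S`. -/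
def FactLev (N : Rep.{0} k G) : Prop :=
  ∀ T, D.S ⊆ T → ∀ c ∈ C1 (D.𝒰 T) N, (d₁₂ N).hom c ∈ C2 (D.𝒰 D.S) N →
    (∀ w ∈ T, w ∉ D.S → res₁ D.loc N w c ∈ C1 (D.𝒰ur w) (Rep.res (D.loc w) N)) →
    c ∈ C1 (D.𝒰 D.S) N

/-- **The orthogonal of the level-`S` classes of `B` is contained in the diagonal image of the
global classes of `A`**, on cocycle representatives. -/
def DgPerp {A B : Rep.{0} k G} (β : EqPairing A B C) : Prop :=
  ∀ T, D.S ⊆ T → ∀ (zS : ∀ v : ↥D.S, D.GvS v → A) (z : ∀ w, D.Gv w → A),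
    (∀ v : ↥D.S, zS v ∈ Z1 (D.𝒰v v) (Rep.res (D.loc v) A)) →
    (∀ w ∈ T, w ∉ D.S → z w ∈ Z1 (D.𝒰v w) (Rep.res (D.loc w) A)) →
    (∀ y ∈ Z1 (D.𝒰 D.S) B, brk D β T zS z y = 0) →
    ∃ T', T ⊆ T' ∧ ∃ c ∈ Z1 (D.𝒰 T') A,
      (∀ v : ↥D.S, ∃ m : A,
        res₁ D.loc A v c - zS v = (d₀₁ (Rep.res (D.loc v) A)).hom m) ∧
      (∀ w ∈ T \ D.S, ∃ m : A,
        res₁ D.loc A w c - z w - (d₀₁ (Rep.res (D.loc w) A)).hom m
          ∈ C1 (D.𝒰ur w) (Rep.res (D.loc w) A)) ∧
      (∀ w ∈ T' \ T, ∃ m : A,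
        res₁ D.loc A w c - (d₀₁ (Rep.res (D.loc w) A)).hom m
          ∈ C1 (D.𝒰ur w) (Rep.res (D.loc w) A))

variable {A B : Rep.{0} k G} (β : EqPairing A B C)

/-- **ASM core, `a2mono`**: the left kernel of `Pc2 : H²_c(A) × H¹(G_S, B) → k` is trivial. -/
theorem pairMono_Pc2 (hA : IsDisc (D.𝒰 D.S) A) (hB : IsDisc (D.𝒰 D.S) B)
    (hC : IsDisc (D.𝒰 D.S) C)
    (hur : ∀ w, w ∉ D.S → C1 (D.𝒰ur w) (Rep.res (D.loc w) A)
      ≤ C1 (D.𝒰v w) (Rep.res (D.loc w) A))
    (hH : Hasse D A) (hU : UrPrim D A) (hF : FactLev D A) (hDg : DgPerp D β) :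
    PairMono (Pc2 (D.𝒰 D.S) D.locS D.𝒰vS β D.hlocS hA hB hC D.lam) := by
  intro x hx0
  obtain ⟨⟨⟨a, t⟩, hx⟩, rfl⟩ := Submodule.Quotient.mk_surjective _ x
  have ha : a ∈ Z2 (D.𝒰 D.S) A := hx.1
  have ht : ∀ v : ↥D.S, t v ∈ C1 (D.𝒰v v) (Rep.res (D.loc v) A) ∧
      res₂ D.loc A v a = (d₁₂ (Rep.res (D.loc v) A)).hom (t v) := hx.2
  -- the global component is a coboundary at some finite level `T ⊇ S`
  obtain ⟨T, hT, c', hc', hdc'⟩ := hH a ha (fun v => ⟨t v, (ht v).1, (ht v).2.symm⟩)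
  -- unramified primitives of `res_w a` at the places `w ∈ T \ S`
  have hex : ∀ w, ∃ t' : D.Gv w → A, w ∈ T → w ∉ D.S →
      t' ∈ C1 (D.𝒰ur w) (Rep.res (D.loc w) A) ∧
      (d₁₂ (Rep.res (D.loc w) A)).hom t' = res₂ D.loc A w a := by
    intro w
    by_cases hw : w ∈ D.S
    · exact ⟨0, fun _ h => absurd hw h⟩
    · have hz : res₂ D.loc A w a ∈ Z2 (D.𝒰ur w) (Rep.res (D.loc w) A) := by
        refine ⟨D.res₂_mem_ur hw ha.1, ?_⟩
        have h : (d₂₃ A).hom a = 0 := ha.2
        show (d₂₃ (Rep.res (D.loc w) A)).hom (res₂ D.loc A w a) = 0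
        rw [D.d₂₃_res₂, h, map_zero]
      obtain ⟨t', ht', hdt'⟩ := hU w hw _ hz
      exact ⟨t', fun _ _ => ⟨ht', hdt'⟩⟩
  choose t' ht' using hex
  -- the family of local cocycles `(t_v - res_v c', t'_w - res_w c')` is orthogonal to `Z¹(G_S, B)`
  have hbrk : ∀ y ∈ Z1 (D.𝒰 D.S) B,
      brk D β T (fun v : ↥D.S => t v - res₁ D.loc A v c')
        (fun w => t' w - res₁ D.loc A w c') y = 0 := by
    intro y hy
    have h := D.Pc2_eval β hA hB hC hx hy T hT c' hc' hdc' t' ht'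
    exact h.symm.trans (hx0 _)
  have hzS : ∀ v : ↥D.S, t v - res₁ D.loc A v c' ∈ Z1 (D.𝒰v v) (Rep.res (D.loc v) A) := by
    intro v
    refine ⟨sub_mem (ht v).1 (D.res₁_mem_C1 T v hc'), ?_⟩
    show (d₁₂ (Rep.res (D.loc v) A)).hom (t v - res₁ D.loc A v c') = 0
    rw [map_sub, D.d₁₂_res₁, hdc', ← (ht v).2, sub_self]
  have hz : ∀ w ∈ T, w ∉ D.S →
      t' w - res₁ D.loc A w c' ∈ Z1 (D.𝒰v w) (Rep.res (D.loc w) A) := by
    intro w hw hwS
    refine ⟨sub_mem (hur w hwS (ht' w hw hwS).1) (D.res₁_mem_C1 T w hc'), ?_⟩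
    show (d₁₂ (Rep.res (D.loc w) A)).hom (t' w - res₁ D.loc A w c') = 0
    rw [map_sub, D.d₁₂_res₁, hdc', (ht' w hw hwS).2, sub_self]
  -- hence it comes from a global cocycle `c`
  obtain ⟨T', hTT', c, hc, hcS, hcT, hcT'⟩ := hDg T hT
    (fun v : ↥D.S => t v - res₁ D.loc A v c') (fun w => t' w - res₁ D.loc A w c') hzS hz hbrk
  choose m hm using hcS
  have hdc : (d₁₂ A).hom c = 0 := hc.2
  have hST' : D.S ⊆ T' := hT.trans hTT'
  have hc'' : c' + c ∈ C1 (D.𝒰 T') A := add_mem (D.C1_mono hTT' A hc') hc.1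
  have hdc'' : (d₁₂ A).hom (c' + c) = a := by rw [map_add, hdc', hdc, add_zero]
  -- `c' + c` has level `S`
  have hlev : c' + c ∈ C1 (D.𝒰 D.S) A := by
    refine hF T' hST' _ hc'' (by rw [hdc'']; exact ha.1) ?_
    intro w hwT' hwS
    have hdisc : IsDisc (D.𝒰ur w) (Rep.res (D.loc w) A) :=
      isDisc_res (D.𝒰 D.S) (D.𝒰ur w) (D.loc w) (D.hlocur D.S w hwS) hA
    by_cases hwT : w ∈ T
    · obtain ⟨m', hm'⟩ := hcT w (Finset.mem_sdiff.2 ⟨hwT, hwS⟩)
      have hm'' : res₁ D.loc A w c - (t' w - res₁ D.loc A w c')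
          - (d₀₁ (Rep.res (D.loc w) A)).hom m' ∈ C1 (D.𝒰ur w) (Rep.res (D.loc w) A) := hm'
      have e : res₁ D.loc A w (c' + c)
          = (res₁ D.loc A w c - (t' w - res₁ D.loc A w c')
              - (d₀₁ (Rep.res (D.loc w) A)).hom m')
            + t' w + (d₀₁ (Rep.res (D.loc w) A)).hom m' := by
        rw [map_add]; abel
      rw [e]
      exact add_mem (add_mem hm'' (ht' w hwT hwS).1) (d₀₁_mem_C1 (D.𝒰ur w) hdisc m')
    · obtain ⟨m', hm'⟩ := hcT' w (Finset.mem_sdiff.2 ⟨hwT', hwT⟩)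
      have e : res₁ D.loc A w (c' + c)
          = res₁ D.loc A w c' + (res₁ D.loc A w c - (d₀₁ (Rep.res (D.loc w) A)).hom m')
            + (d₀₁ (Rep.res (D.loc w) A)).hom m' := by
        rw [map_add]; abel
      rw [e]
      exact add_mem (add_mem (D.res₁_mem_ur hwT hc') hm') (d₀₁_mem_C1 (D.𝒰ur w) hdisc m')
  -- so `(a, t)` is the cone coboundary of `(c' + c, m)`
  rw [Submodule.Quotient.mk_eq_zero]
  show (a, t) ∈ Bc2 (D.𝒰 D.S) D.locS A
  refine ⟨(c' + c, m), ⟨hlev, trivial⟩, ?_⟩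
  have hb : bdry2 D.locS A (c' + c, m) = ((d₁₂ A).hom (c' + c),
      fun v : ↥D.S => res₁ D.loc A v (c' + c) - (d₀₁ (Rep.res (D.loc v) A)).hom (m v)) := rfl
  rw [hb, hdc'']
  refine Prod.ext rfl ?_
  funext v
  have h := hm v
  have h' : res₁ D.loc A v c - (t v - res₁ D.loc A v c')
      = (d₀₁ (Rep.res (D.loc v) A)).hom (m v) := h
  show res₁ D.loc A v (c' + c) - (d₀₁ (Rep.res (D.loc v) A)).hom (m v) = t v
  rw [← h', map_add]
  abel

end Generic

/-! ### The instance for the concrete Poitou-Tate context -/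

section Arith

open ExtCitation

variable {p : ℕ} [Fact p.Prime] {S : Finset Nat.Primes}

/-- **`a2mono` for `ctxS p S hpS I.lamS`**: the pairing `P2 : H²_c(M) × H¹(G_S, M') → 𝔽_p` has
trivial left kernel, given the four cochain inputs for the datum `I.datum`. -/
theorem a2mono_arith (I : EvalQ.ArithInput p S) (hpS : pPrime p ∈ S)
    {M : Rep.{0} (ZMod p) GQ} (hM : IsDisc (globalLevel S) M)
    (hH : Hasse I.datum M) (hU : UrPrim I.datum M) (hF : FactLev I.datum M)
    (hDg : DgPerp I.datum (evPairing (cycloChar p) M)) :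
    PairMono ((ctxS p S hpS I.lamS).P2 hM) :=
  pairMono_Pc2 I.datum (evPairing (cycloChar p) M) hM
    ((ctxS p S hpS I.lamS).disc_dual hM) (isDisc_mu p S hpS)
    (fun w _ => EvalQ.C1_urLevel_le w _) hH hU hF hDg

end Arith

end Fermat.Agent.S55.Base.AsmCore
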