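/-
S55 / PROGRAM CFT, base case: ASM core `a2mono` over `ℚ` with the two local inputs discharged
(helper154).

For the concrete datum `I.datum` of `Base/EvalQ`:
* `factLev_arith` : `FactLev I.datum N`  from `FactAbs.fact_datum` (level descent);
* `urPrim_arith`  : `UrPrim I.datum N`   from `EvalQ.exists_ur_primitive` (unramified primitives);
* `a2mono_of_hasse_dgPerp` : `a2mono` for `ctxS p S hpS I.lamS` from the two remaining global
  inputs `Hasse I.datum M` (Hasse principle in degree 2 on cochains) and
  `DgPerp I.datum (evPairing (cycloChar p) M)` (the linear-algebra side).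
-/
import Fermat.Agent.S55.Base.AsmCore
import Fermat.Agent.S55.Base.FactAbs
import Fermat.Agent.S55.Base.EvalUR

set_option autoImplicit false

open CategoryTheory groupCohomology ExtCitation

namespace Fermat.Agent.S55.Base.AsmCore

open Fermat.Agent.S55.Abs Fermat.Agent.S55.Base.Eval

variable {p : ℕ} [Fact p.Prime] {S : Finset Nat.Primes}

/-- Level descent for the concrete datum. -/
theorem factLev_arith (I : EvalQ.ArithInput p S) {N : Rep.{0} (ZMod p) GQ}
    (hN : IsDisc (globalLevel S) N) : FactLev I.datum N :=
  fun T _ c hc hd hur => FactAbs.fact_datum I hN T c hc hd hur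

/-- Unramified primitives for the concrete datum. -/
theorem urPrim_arith (I : EvalQ.ArithInput p S) (hpS : pPrime p ∈ S) {N : Rep.{0} (ZMod p) GQ}
    (hN : IsDisc (globalLevel S) N) : UrPrim I.datum N :=
  fun _ hw z hz => EvalQ.exists_ur_primitive hpS hw hN z hz

/-- **`a2mono` for `ctxS p S hpS I.lamS`** from the Hasse principle in degree 2 and the
linear-algebra input `DgPerp`. -/
theorem a2mono_of_hasse_dgPerp (I : EvalQ.ArithInput p S) (hpS : pPrime p ∈ S)
    {M : Rep.{0} (ZMod p) GQ} (hM : IsDisc (globalLevel S) M)
    (hH : Hasse I.datum M) (hDg : DgPerp I.datum (evPairing (cycloChar p) M)) :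
    PairMono ((ctxS p S hpS I.lamS).P2 hM) :=
  a2mono_arith I hpS hM hH (urPrim_arith I hpS hM) (factLev_arith I hM) hDg

end Fermat.Agent.S55.Base.AsmCore
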