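/-
S55 / PROGRAM CFT, base case, row ASM-a1epi (helper145): `a₁` epi for self-dual modules.

* `a1epi_of_selfdual` : for a Poitou–Tate context `D` and a finite-dimensional discrete `M`
  with morphisms `i : M' ⟶ M`, `r : M ⟶ M'`, `r ∘ i = id` (`M' = M^*(χ)`; e.g. an isomorphism
  `M ≅ M'`):  `a₂` mono for `M` + the local package of `M` + `H¹(G, M)` finite-dimensional
  ⟹ `a₁` epi for `M`.   (`AsmA1Epi.a1epi_of_dual` + the retract lemmas of `Abs/Functor`.)
* `a1epi_M0`, `pkgI_M0` : the instance `M = M0(K) = coind_{G_K}^{G_ℚ} 𝔽_p`, `μ_p ⊆ K`, in the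
  concrete context `ctxS p S hpS lam` (any `lam`), by the self-duality
  `Glue.CoindDual.dualTwistIso`.
-/
import Fermat.Agent.S55.Base.AsmA1Epi
import Fermat.Agent.S55.Glue.CoindDual

set_option autoImplicit false

open CategoryTheory groupCohomology ExtCitation

namespace Fermat.Agent.S55.Base.Asm

open Fermat.Agent.S55.Abs

section Generic

variable {k G : Type} [Field k] [Group G] (D : PTContext k G)

/-- **`a₁` epi for a module which is a retract of its twisted dual's dual side**: if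
`i : M' ⟶ M`, `r : M ⟶ M'` satisfy `r ∘ i = id`, then `a₂` mono and the local package of `M`
(plus finiteness of `H¹(G, M)`) give `a₁` epi for `M`. -/
theorem a1epi_of_selfdual {M : Rep.{0} k G} [FiniteDimensional k M] (hM : IsDisc D.𝒰 M)
    (i : D.dual M ⟶ M) (r : M ⟶ D.dual M) (hri : ∀ m, r.hom (i.hom m) = m)
    (hfin : Module.Finite k (H1 D.𝒰 M))
    (h2 : PairMono (D.P2 hM))
    (hL1 : ∀ v, PairEpi (D.PL1 hM v)) (hL2 : ∀ v, PairMono (D.PL2 hM v)) :
    PairEpi (D.P1 hM) :=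
  a1epi_of_dual D hM hfin
    (pairMono_Pc2_retract D.𝒰 D.loc D.𝒰v D.χ D.hloc D.hμ D.lam i r hri (D.disc_dual hM)
      (D.disc_dual (D.disc_dual hM)) hM (D.disc_dual hM) h2)
    (fun v => pairEpi_cupH11_retract (D.𝒰v v) (D.loc v) D.χ _ (D.inv v) i r hri _ _ (hL1 v))
    (fun v => pairMono_cupH20_retract (D.𝒰v v) (D.loc v) D.χ _ (D.inv v) i r hri _ _ (hL2 v))

end Generic

section Concrete

variable {p : ℕ} [Fact p.Prime] {S : Finset Nat.Primes}

/-- **`a₁` epi for the base module `M0(K)`** (`K` unramified outside `S`, `μ_p ⊆ K`), from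
`a₂` mono, the local package at the primes of `S` and the finiteness of `H¹(G_S, M0(K))`. -/
theorem a1epi_M0 (hpS : pPrime p ∈ S) (lam : LamS p S)
    (K : IntermediateField ℚ (AlgebraicClosure ℚ)) (hK : K.IsUnramifiedOutside S)
    (hc : Glue.cycloField p ≤ K)
    (hM : IsDisc (globalLevel S) (M0 (ZMod p) K.fixingSubgroup))
    (hfin : Module.Finite (ZMod p) (H1 (globalLevel S) (M0 (ZMod p) K.fixingSubgroup)))
    (h2 : PairMono ((ctxS p S hpS lam).P2 hM))
    (hL1 : ∀ q, PairEpi ((ctxS p S hpS lam).PL1 hM q))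
    (hL2 : ∀ q, PairMono ((ctxS p S hpS lam).PL2 hM q)) :
    PairEpi ((ctxS p S hpS lam).P1 hM) := by
  have hfi : K.fixingSubgroup.FiniteIndex := (globalLevel S).finiteIndex _ ⟨K, hK, rfl⟩
  have hχ : ∀ u ∈ K.fixingSubgroup, cycloChar p u = 1 := fun _ hu =>
    Glue.cycloChar_eq_one_of_mem_fixingSubgroup p
      (IntermediateField.fixingSubgroup_antitone hc hu)
  have hfd : FiniteDimensional (ZMod p) (M0 (ZMod p) K.fixingSubgroup) :=
    Glue.CoindDual.finite_M0
  let e := Glue.CoindDual.dualTwistIso (k := ZMod p) (U := K.fixingSubgroup) (cycloChar p) hχ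
  refine a1epi_of_selfdual (ctxS p S hpS lam) hM e.inv e.hom (fun m => ?_) hfin h2 hL1 hL2
  have h := congrArg (fun φ => φ.hom m) e.inv_hom_id
  exact h

/-- **Package I for the base module `M0(K)`** from `a₂` mono, the local package at the primes of
`S` and the finiteness of `H¹(G_S, M0(K))`. -/
theorem pkgI_M0 (hpS : pPrime p ∈ S) (lam : LamS p S)
    (K : IntermediateField ℚ (AlgebraicClosure ℚ)) (hK : K.IsUnramifiedOutside S)
    (hc : Glue.cycloField p ≤ K)
    (hM : IsDisc (globalLevel S) (M0 (ZMod p) K.fixingSubgroup))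
    (hfin : Module.Finite (ZMod p) (H1 (globalLevel S) (M0 (ZMod p) K.fixingSubgroup)))
    (h2 : PairMono ((ctxS p S hpS lam).P2 hM))
    (hL1 : ∀ q, PairEpi ((ctxS p S hpS lam).PL1 hM q))
    (hL2 : ∀ q, PairMono ((ctxS p S hpS lam).PL2 hM q)) :
    (ctxS p S hpS lam).PkgI (M0 (ZMod p) K.fixingSubgroup) :=
  ⟨hM, a1epi_M0 hpS lam K hK hc hM hfin h2 hL1 hL2, h2⟩

end Concrete

end Fermat.Agent.S55.Base.Asm
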