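/-
S55 / PROGRAM CFT, LD-Q, final instance (helper195): the base-case hypothesis `LDQ.BaseAt I w`
holds at EVERY prime `w` as soon as the local functional `I.inv w` of the arithmetic input is
NONZERO on the level cohomology `H²(G_w, μ_p)`.  Hence all consumer shapes of `Base/LDQ.lean`
(`locRight`, `locLeft`, `exists_rep_left/right`, `mem_B2`, `mem_B2_dual`, `ld`, `pkgL`,
`pkgL_dual`) hold under that single hypothesis, which is part of the REC deliverable
(`Wire.IsRec.ne_zero` for the class functionals `lamH` that `I` extends).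

* `baseAt_of_invH_ne_zero` : `I.datum.invH w ≠ 0 → BaseAt I w`;
* `baseAt`                 : the same from the cochain form `InvNonzero I w`;
* `baseAt_of_extends`      : the same from `lamH w ≠ 0` when `I` extends `lamH`
                             (hypothesis `hext` is literally `Wire.Extends I lamH`);
* `pkgL_of_extends`, `pkgL_dual_of_extends` : the local packages of `ctxS p S hpS I.lamS`.

Inputs: `TDBase.h_base_Gq` (helper297: base case of the local devissage at `Gq q`, via
`TDBaseAbs.locPkg_M0` + `TDAdapt`) and `LocalBr.finrank_H2mu` (LOC (C)).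
-/
import Fermat.Agent.S55.Base.LDQ
import Fermat.Agent.CFT.LocalBr.TDBase
import Fermat.Agent.CFT.LocalBr.Main

set_option autoImplicit false

open CategoryTheory groupCohomology ExtCitation

namespace Fermat.Agent.S55.Base.LDQ

open Fermat.Agent.S55.Abs Fermat.Agent.S55.Base.EvalQ Fermat.Agent.CFT.LocalBr

variable {p : ℕ} [Fact p.Prime] {S : Finset Nat.Primes}

/-- **The base case of the local devissage holds at every prime `w`** where the class functional
of `I.inv w` is nonzero. -/
theorem baseAt_of_invH_ne_zero {I : ArithInput p S} {w : Nat.Primes}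
    (h : I.datum.invH w ≠ 0) : BaseAt I w :=
  haveI : Fact (w : ℕ).Prime := ⟨w.2⟩
  TDBase.h_base_Gq (q := (w : ℕ)) p (disc_mu p w) (I.datum.invH w) h
    (fun _ hU => finrank_H2mu p hU)

/-- "`I.inv w` is not zero on the level 2-cocycles of `μ_p` at `w`" (cochain form). -/
def InvNonzero (I : ArithInput p S) (w : Nat.Primes) : Prop :=
  ∃ z ∈ Z2 (localLevel (primeLocalToGlobal w))
    (Rep.res (primeLocalToGlobal w) (muRep (cycloChar p))), I.inv w z ≠ 0

theorem invH_ne_zero {I : ArithInput p S} {w : Nat.Primes} (h : InvNonzero I w) :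
    I.datum.invH w ≠ 0 := by
  obtain ⟨z, hz, hne⟩ := h
  intro h0
  apply hne
  have h1 : I.datum.invH w (Submodule.Quotient.mk ⟨z, hz⟩) = I.inv w z := rfl
  rw [← h1, h0, LinearMap.zero_apply]

/-- The base case at `w` from the cochain form of "`I.inv w ≠ 0`". -/
theorem baseAt {I : ArithInput p S} {w : Nat.Primes} (h : InvNonzero I w) : BaseAt I w :=
  baseAt_of_invH_ne_zero (invH_ne_zero h)

section Extends

variable {I : ArithInput p S}
  {lamH : ∀ w : Nat.Primes, H2 (localLevel (primeLocalToGlobal w))
    (Rep.res (primeLocalToGlobal w) (muRep (cycloChar p))) →ₗ[ZMod p] ZMod p}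
  (hext : ∀ (w : Nat.Primes)
    (z : primeLocalGaloisGroup w × primeLocalGaloisGroup w → muRep (cycloChar p))
    (hz : z ∈ Z2 (localLevel (primeLocalToGlobal w))
      (Rep.res (primeLocalToGlobal w) (muRep (cycloChar p)))),
    I.inv w z = lamH w (Submodule.Quotient.mk ⟨z, hz⟩))

include hext

/-- If `I` extends the class functionals `lamH`, the class functional of `I.inv w` is `lamH w`. -/
theorem invH_eq_of_extends (w : Nat.Primes) : I.datum.invH w = lamH w := by
  apply LinearMap.ext
  intro x
  induction x using Submodule.Quotient.induction_on with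
  | H z => exact hext w z.1 z.2

/-- The base case at `w` when `I` extends class functionals `lamH` with `lamH w ≠ 0`
(`hext` is `Wire.Extends I lamH`, `hne` is `Wire.IsRec.ne_zero`). -/
theorem baseAt_of_extends {w : Nat.Primes} (hne : lamH w ≠ 0) : BaseAt I w :=
  baseAt_of_invH_ne_zero (by rw [invH_eq_of_extends hext w]; exact hne)

/-- The local package of every finite-dimensional level-`S` module `M` in the context
`ctxS p S hpS I.lamS`. -/
theorem pkgL_of_extends (hpS : pPrime p ∈ S) (hne : ∀ w : Nat.Primes, lamH w ≠ 0)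
    (M : Rep.{0} (ZMod p) GQ) [FiniteDimensional (ZMod p) M] (hM : IsDisc (globalLevel S) M) :
    (ctxS p S hpS I.lamS).PkgL M :=
  pkgL I hpS (fun v => baseAt_of_extends hext (hne v.1)) M hM

/-- The local package of `M' = M.dualTwist (cycloChar p)` in the context
`ctxS p S hpS I.lamS`. -/
theorem pkgL_dual_of_extends (hpS : pPrime p ∈ S) (hne : ∀ w : Nat.Primes, lamH w ≠ 0)
    (M : Rep.{0} (ZMod p) GQ) [FiniteDimensional (ZMod p) M] (hM : IsDisc (globalLevel S) M) :
    (ctxS p S hpS I.lamS).PkgL ((ctxS p S hpS I.lamS).dual M) :=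
  pkgL_dual I hpS (fun v => baseAt_of_extends hext (hne v.1)) M hM

end Extends

end Fermat.Agent.S55.Base.LDQ
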