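/-
S55 / PROGRAM CFT, base case (helper145): `(h4)` of the cone count and `a₂` epi for `M0(K)`,
with every input except `[CapGen]` discharged.

`D := ctxS p S hpS I.lamS`, `I : EvalQ.ArithInput p S` ARBITRARY with nonzero class functionals
`I.datum.invH w` at every prime `w` (for `I` extending `lamH` with `IsRec p S lamH` this is
`LDQ.invH_eq_of_extends` + `IsRec.ne_zero`).

* `locRight_of_invH_ne_zero` : `[LocRight w]` at EVERY prime `w` for every finite-dimensional
  discrete `M` (LD-Q: `LDQ.locRight` + `LDQ.baseAt_of_invH_ne_zero`);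
* `h4_of_capGen`  : the right kernel of `P2` is trivial, in the literal shape of the hypothesis
  `h4` of `AsmCone.base_of_arith` / `ConeCnt.base_of_counts` / `ConeSymm.base_of_arith_selfdual`;
* `h4_M0`         : the same for `M = M0(K)`, `K` unramified outside `S`, `μ_p ⊆ K`
  (`[G4]` by `G4Asm.g4_M0_dualTwist`): the ONLY remaining input is `CapGen S (M0(K))`;
* `a2epi_M0`      : `PairEpi (D.P2 hM)` for `M = M0(K)` (finiteness of `H¹(G_S, M')` by
  `CountAbs.cnt`), again from `CapGen S (M0(K))` only.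
-/
import Fermat.Agent.S55.Base.AsmA2Epi
import Fermat.Agent.S55.Base.LDQInst
import Fermat.Agent.CFT.Global.G4Asm
import Fermat.Agent.CFT.Global.CountAbs

set_option autoImplicit false

open CategoryTheory groupCohomology ExtCitation

namespace Fermat.Agent.S55.Base.Asm

open Fermat.Agent.S55.Abs Fermat.Agent.S55.Base.EvalQ

variable {p : ℕ} [Fact p.Prime] {S : Finset Nat.Primes}

/-- **[LocRight]** at every prime `w`, for every finite-dimensional module of some level `T`,
as soon as the class functional of `I.inv w` is nonzero. -/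
theorem locRight_of_invH_ne_zero (I : ArithInput p S) (M : Rep.{0} (ZMod p) GQ)
    [FiniteDimensional (ZMod p) M] {T : Finset Nat.Primes} (hM : IsDisc (globalLevel T) M)
    (w : Nat.Primes) (h : I.datum.invH w ≠ 0) : LocRight I M w :=
  fun _ hη hh => LDQ.locRight (LDQ.baseAt_of_invH_ne_zero h) M (LDQ.disc_res hM w) hη hh

/-- **(h4)** of the cone count for a finite-dimensional level-`S` module `M`, in the literal
shape of `AsmCone.base_of_arith`: the right kernel of `P2 : H²_c(M) × H¹(G_S, M') → 𝔽_p` is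
trivial, from `[CapGen]` for `M` and `[G4]` for `M'`. -/
theorem h4_of_capGen (I : ArithInput p S) (hpS : pPrime p ∈ S) {M : Rep.{0} (ZMod p) GQ}
    [FiniteDimensional (ZMod p) M] (hM : IsDisc (ctxS p S hpS I.lamS).𝒰 M)
    (hne : ∀ w : Nat.Primes, I.datum.invH w ≠ 0) (hcap : CapGen S M)
    (hg4 : G4 S (M.dualTwist (cycloChar p)))
    (y : H1 (ctxS p S hpS I.lamS).𝒰 ((ctxS p S hpS I.lamS).dual M))
    (h : ∀ x, (ctxS p S hpS I.lamS).P2 hM x y = 0) : y = 0 :=
  right_kernel_P2 I hpS hM (fun w => locRight_of_invH_ne_zero I M hM w (hne w)) hcap hg4 y h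

/-- **(h4) for `M0(K)`**: the only remaining input is `CapGen S (M0(K))`. -/
theorem h4_M0 (I : ArithInput p S) (hpS : pPrime p ∈ S)
    (K : IntermediateField ℚ (AlgebraicClosure ℚ)) (hK : K.IsUnramifiedOutside S)
    (hc : Glue.cycloField p ≤ K)
    (hM : IsDisc (ctxS p S hpS I.lamS).𝒰 (M0 (ZMod p) K.fixingSubgroup))
    (hne : ∀ w : Nat.Primes, I.datum.invH w ≠ 0)
    (hcap : CapGen S (M0 (ZMod p) K.fixingSubgroup))
    (y : H1 (ctxS p S hpS I.lamS).𝒰
      ((ctxS p S hpS I.lamS).dual (M0 (ZMod p) K.fixingSubgroup)))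
    (h : ∀ x, (ctxS p S hpS I.lamS).P2 hM x y = 0) : y = 0 := by
  have := hK.1
  have : FiniteDimensional (ZMod p) (M0 (ZMod p) K.fixingSubgroup) :=
    finiteDimensional_coindTriv K.fixingSubgroup (ZMod p)
  exact h4_of_capGen I hpS hM hne hcap
    (Fermat.Agent.CFT.Global.G4Asm.g4_M0_dualTwist S K hc) y h

/-- **`a₂` epi for `M0(K)`** (`p` odd): the only remaining input is `CapGen S (M0(K))`. -/
theorem a2epi_M0 (hp2 : p ≠ 2) (I : ArithInput p S) (hpS : pPrime p ∈ S)
    (K : IntermediateField ℚ (AlgebraicClosure ℚ)) (hK : K.IsUnramifiedOutside S)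
    (hc : Glue.cycloField p ≤ K)
    (hM : IsDisc (ctxS p S hpS I.lamS).𝒰 (M0 (ZMod p) K.fixingSubgroup))
    (hne : ∀ w : Nat.Primes, I.datum.invH w ≠ 0)
    (hcap : CapGen S (M0 (ZMod p) K.fixingSubgroup)) :
    PairEpi ((ctxS p S hpS I.lamS).P2 hM) := by
  have hfd := hK.1
  have : NumberField K := ⟨⟩
  have : FiniteDimensional (ZMod p) (M0 (ZMod p) K.fixingSubgroup) :=
    finiteDimensional_coindTriv K.fixingSubgroup (ZMod p)
  obtain ⟨-, -, -, ⟨hfin', -⟩, -⟩ :=
    Fermat.Agent.CFT.Global.CountAbs.cnt (p := p) S K hp2 hpS hK hc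
  exact a2epi I hpS hM hfin' (fun w => locRight_of_invH_ne_zero I _ hM w (hne w)) hcap
    (Fermat.Agent.CFT.Global.G4Asm.g4_M0_dualTwist S K hc)

end Fermat.Agent.S55.Base.Asm
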