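/-
S55 / PROGRAM CFT, base case (helper145): adapters for the inputs of `Base/AsmA2Epi.lean`.

* `locRight_of_pairEpi` : `[LocRight w]` from the class-level statement `PairEpi (LPL1 ..)` of the
  local duality package (`Abs/LocPkg`, `Abs/LocFinal`), for any class functional `invH` which
  agrees with `I.inv w` on local level 2-cocycles (`I.datum.invH w`, or the `lamH w` of
  reciprocity);
* `IsCap S M l ξ` : the local cochain `ξ` at `l ∉ S` is "capitulating": the conclusion of
  `[CapGen]` for `ξ`.  It is closed under sums and scalar multiples (`IsCap.add`, `IsCap.smul`),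
  holds for unramified cochains and coboundaries (`isCap_of_ur`, `isCap_of_coboundary`), and for
  the restriction of a global cochain `k` which differs from a cochain `c` with level-`S`
  coboundary by a cochain unramified at `l` (`isCap_of_global`: the literal output of CAP-Q);
* `capGen_of_span` : `[CapGen]` from a family of capitulating cocycles which generates every
  local cocycle modulo unramified cochains and coboundaries (UNR3-Q generation).
-/
import Fermat.Agent.S55.Base.AsmA2Epi
import Fermat.Agent.S55.Abs.LocPkg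
import Fermat.Agent.S55.Abs.SymmTop

set_option autoImplicit false

open CategoryTheory groupCohomology ExtCitation

namespace Fermat.Agent.S55.Base.Asm

open Fermat.Agent.S55.Abs Fermat.Agent.S55.Base.EvalQ

attribute [local instance] Glue.isAlgebraicQbar_lg Glue.isAlgClosureQbar_lg Glue.normalQbar_lg

variable {p : ℕ} [Fact p.Prime] {S : Finset Nat.Primes}

/-! ### `[LocRight]` from the local duality package -/

/-- **`[LocRight w]` from `PairEpi (LPL1 ..)`**: if `invH` is a functional on the local level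
cohomology `H²(G_w, μ_p)` which agrees with `I.inv w` on local level 2-cocycles and the local
pairing `H¹(G_w, M) × H¹(G_w, M') → 𝔽_p`, `(x, y) ↦ invH (x ∪ y)` represents every functional of
the right factor, then the right kernel of the cochain-level local pairing is trivial. -/
theorem locRight_of_pairEpi (I : ArithInput p S) (M : Rep.{0} (ZMod p) GQ) (w : Nat.Primes)
    (invH : H2 (localLevel (primeLocalToGlobal w))
      (Rep.res (primeLocalToGlobal w) (muRep (cycloChar p))) →ₗ[ZMod p] ZMod p)
    (hinv : ∀ (z : primeLocalGaloisGroup w × primeLocalGaloisGroup w → muRep (cycloChar p))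
      (hz : z ∈ Z2 (localLevel (primeLocalToGlobal w))
        (Rep.res (primeLocalToGlobal w) (muRep (cycloChar p)))),
      I.inv w z = invH (Submodule.Quotient.mk ⟨z, hz⟩))
    (hX' : IsDisc (localLevel (primeLocalToGlobal w))
      (Rep.res (primeLocalToGlobal w) (M.dualTwist (cycloChar p))))
    (hC : IsDisc (localLevel (primeLocalToGlobal w))
      (Rep.res (primeLocalToGlobal w) (muRep (cycloChar p))))
    (h : PairEpi (LPL1 (localLevel (primeLocalToGlobal w)) invH
      ((evPairing (cycloChar p) M).res (primeLocalToGlobal w)) hX' hC)) :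
    LocRight I M w := by
  intro η hη hall
  have h0 : (Submodule.Quotient.mk ⟨η, hη⟩ : H1 (localLevel (primeLocalToGlobal w))
      (Rep.res (primeLocalToGlobal w) (M.dualTwist (cycloChar p)))) = 0 := by
    refine h.right_kernel _ (fun x => ?_)
    obtain ⟨⟨ξ, hξ⟩, rfl⟩ := Submodule.mkQ_surjective _ x
    have e : LPL1 (localLevel (primeLocalToGlobal w)) invH
          ((evPairing (cycloChar p) M).res (primeLocalToGlobal w)) hX' hC
          (Submodule.Quotient.mk ⟨ξ, hξ⟩) (Submodule.Quotient.mk ⟨η, hη⟩)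
        = invH (Submodule.Quotient.mk ⟨cup11 ((evPairing (cycloChar p) M).res
            (primeLocalToGlobal w)) ξ η,
          cup11_mem_Z2 (localLevel (primeLocalToGlobal w))
            ((evPairing (cycloChar p) M).res (primeLocalToGlobal w)) hX' hC hξ hη⟩) := rfl
    exact e.trans ((hinv _ _).symm.trans (hall ξ hξ))
  rw [Submodule.Quotient.mk_eq_zero] at h0
  exact h0

/-- `[LocRight w]` for the class functional `I.datum.invH w` induced by `I.inv w`. -/
theorem locRight_of_pairEpi_invH (I : ArithInput p S) (M : Rep.{0} (ZMod p) GQ) (w : Nat.Primes)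
    (hX' : IsDisc (localLevel (primeLocalToGlobal w))
      (Rep.res (primeLocalToGlobal w) (M.dualTwist (cycloChar p))))
    (hC : IsDisc (localLevel (primeLocalToGlobal w))
      (Rep.res (primeLocalToGlobal w) (muRep (cycloChar p))))
    (h : PairEpi (LPL1 (localLevel (primeLocalToGlobal w)) (I.datum.invH w)
      ((evPairing (cycloChar p) M).res (primeLocalToGlobal w)) hX' hC)) :
    LocRight I M w :=
  locRight_of_pairEpi I M w (I.datum.invH w) (fun _ _ => rfl) hX' hC h

/-! ### Capitulating local cochains -/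

/-- Level cochains are monotone in the set of ramified primes. -/
theorem C1_globalLevel_mono {T T' : Finset Nat.Primes} (h : T ⊆ T') (M : Rep.{0} (ZMod p) GQ) :
    C1 (globalLevel T) M ≤ C1 (globalLevel T') M := by
  rintro f ⟨U, hU, hf⟩
  exact ⟨U, globalSets_mono h hU, hf⟩

/-- The restriction of a level-`T` cochain to a prime outside `T` is unramified. -/
theorem res₁_mem_urLevel {T : Finset Nat.Primes} {w : Nat.Primes} (hw : w ∉ T)
    {M : Rep.{0} (ZMod p) GQ} {c : GQ → M} (hc : c ∈ C1 (globalLevel T) M) :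
    res₁ (fun w : Nat.Primes => primeLocalToGlobal w) M w c
      ∈ C1 (urLevel w) (Rep.res (primeLocalToGlobal w) M) :=
  IsLev₁.precomp (isLevelMap_urLevel hw) hc

/-- **Capitulating cochains**: the conclusion of `[CapGen]` for the local cochain `ξ` at `l`. -/
def IsCap (S : Finset Nat.Primes) (M : Rep.{0} (ZMod p) GQ) (l : Nat.Primes)
    (ξ : primeLocalGaloisGroup l → M) : Prop :=
  ∃ (T : Finset Nat.Primes) (c' : GQ → M), S ⊆ T ∧ c' ∈ C1 (globalLevel T) M ∧
    (d₁₂ M).hom c' ∈ C2 (globalLevel S) M ∧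
    (∃ u ∈ C1 (urLevel l) (Rep.res (primeLocalToGlobal l) M), ∃ m : M,
      res₁ (fun w : Nat.Primes => primeLocalToGlobal w) M l c'
        = ξ + u + (d₀₁ (Rep.res (primeLocalToGlobal l) M)).hom m) ∧
    ∀ w ∈ T, w ∉ S → w ≠ l →
      ∃ u ∈ C1 (urLevel w) (Rep.res (primeLocalToGlobal w) M), ∃ m : M,
        res₁ (fun w : Nat.Primes => primeLocalToGlobal w) M w c'
          = u + (d₀₁ (Rep.res (primeLocalToGlobal w) M)).hom m

theorem capGen_iff (S : Finset Nat.Primes) (M : Rep.{0} (ZMod p) GQ) :
    CapGen S M ↔ ∀ l : Nat.Primes, l ∉ S →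
      ∀ ξ ∈ Z1 (localLevel (primeLocalToGlobal l)) (Rep.res (primeLocalToGlobal l) M),
        IsCap S M l ξ := Iff.rfl

section IsCap

variable {M : Rep.{0} (ZMod p) GQ} {l : Nat.Primes}

/-- Unramified cochains are capitulating (`c' = 0`). -/
theorem isCap_of_ur {ξ : primeLocalGaloisGroup l → M}
    (hξ : ξ ∈ C1 (urLevel l) (Rep.res (primeLocalToGlobal l) M)) : IsCap S M l ξ := by
  refine ⟨S, 0, subset_rfl, zero_mem _, ?_, ⟨-ξ, neg_mem hξ, 0, ?_⟩, fun w _ _ _ =>
    ⟨0, zero_mem _, 0, ?_⟩⟩
  · rw [map_zero]; exact zero_mem _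
  · rw [map_zero, map_zero, add_zero, add_neg_cancel]
  · rw [map_zero, map_zero, add_zero]

/-- Coboundaries are capitulating (`c' = 0`). -/
theorem isCap_of_coboundary (m : M) :
    IsCap S M l ((d₀₁ (Rep.res (primeLocalToGlobal l) M)).hom m) := by
  refine ⟨S, 0, subset_rfl, zero_mem _, ?_, ⟨0, zero_mem _, -m, ?_⟩, fun w _ _ _ =>
    ⟨0, zero_mem _, 0, ?_⟩⟩
  · rw [map_zero]; exact zero_mem _
  · rw [map_zero, map_neg, add_zero, add_neg_cancel]
  · rw [map_zero, map_zero, add_zero]

/-- Sums of capitulating cochains are capitulating. -/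
theorem IsCap.add {ξ ξ' : primeLocalGaloisGroup l → M} (h : IsCap S M l ξ)
    (h' : IsCap S M l ξ') : IsCap S M l (ξ + ξ') := by
  classical
  obtain ⟨T, c, hST, hc, hdc, ⟨u, hu, m, hm⟩, hoth⟩ := h
  obtain ⟨T', c', hST', hc', hdc', ⟨u', hu', m', hm'⟩, hoth'⟩ := h'
  refine ⟨T ∪ T', c + c', hST.trans Finset.subset_union_left,
    add_mem (C1_globalLevel_mono Finset.subset_union_left M hc)
      (C1_globalLevel_mono Finset.subset_union_right M hc'), ?_,
    ⟨u + u', add_mem hu hu', m + m', ?_⟩, fun w hw hwS hwl => ?_⟩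
  · rw [map_add]; exact add_mem hdc hdc'
  · rw [map_add, hm, hm', map_add]; abel
  · by_cases h1 : w ∈ T
    · obtain ⟨u₁, hu₁, m₁, hm₁⟩ := hoth w h1 hwS hwl
      by_cases h2 : w ∈ T'
      · obtain ⟨u₂, hu₂, m₂, hm₂⟩ := hoth' w h2 hwS hwl
        refine ⟨u₁ + u₂, add_mem hu₁ hu₂, m₁ + m₂, ?_⟩
        rw [map_add, hm₁, hm₂, map_add]; abel
      · refine ⟨u₁ + res₁ (fun w : Nat.Primes => primeLocalToGlobal w) M w c',
          add_mem hu₁ (res₁_mem_urLevel h2 hc'), m₁, ?_⟩
        rw [map_add, hm₁]; abel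
    · have h2 : w ∈ T' := (Finset.mem_union.1 hw).resolve_left h1
      obtain ⟨u₂, hu₂, m₂, hm₂⟩ := hoth' w h2 hwS hwl
      refine ⟨res₁ (fun w : Nat.Primes => primeLocalToGlobal w) M w c + u₂,
        add_mem (res₁_mem_urLevel h1 hc) hu₂, m₂, ?_⟩
      rw [map_add, hm₂]; abel

/-- Scalar multiples of capitulating cochains are capitulating. -/
theorem IsCap.smul (a : ZMod p) {ξ : primeLocalGaloisGroup l → M} (h : IsCap S M l ξ) :
    IsCap S M l (a • ξ) := by
  obtain ⟨T, c, hST, hc, hdc, ⟨u, hu, m, hm⟩, hoth⟩ := h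
  refine ⟨T, a • c, hST, Submodule.smul_mem _ a hc, ?_,
    ⟨a • u, Submodule.smul_mem _ a hu, a • m, ?_⟩, fun w hw hwS hwl => ?_⟩
  · rw [map_smul]; exact Submodule.smul_mem _ a hdc
  · rw [map_smul, hm, map_smul, smul_add, smul_add]
  · obtain ⟨u₁, hu₁, m₁, hm₁⟩ := hoth w hw hwS hwl
    refine ⟨a • u₁, Submodule.smul_mem _ a hu₁, a • m₁, ?_⟩
    rw [map_smul, hm₁, map_smul, smul_add]

/-- A cochain which differs from a capitulating cochain by an unramified cochain and a
coboundary is capitulating. -/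
theorem IsCap.congr {ξ ξ' : primeLocalGaloisGroup l → M} (h : IsCap S M l ξ)
    {u : primeLocalGaloisGroup l → M} (hu : u ∈ C1 (urLevel l) (Rep.res (primeLocalToGlobal l) M))
    (m : M) (hξ' : ξ' = ξ + u + (d₀₁ (Rep.res (primeLocalToGlobal l) M)).hom m) :
    IsCap S M l ξ' := by
  rw [hξ']
  exact (h.add (isCap_of_ur hu)).add (isCap_of_coboundary m)

/-- **The literal output of CAP-Q**: if `c` is a cochain of level `insert l S` whose coboundary
has level `S`, and `c - k` has a level `T'` not containing `l`, then the restriction of `k` to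
the prime `l` is capitulating. -/
theorem isCap_of_global (c k : GQ → M) (hc : c ∈ C1 (globalLevel (insert l S)) M)
    (hdc : (d₁₂ M).hom c ∈ C2 (globalLevel S) M) (T' : Finset Nat.Primes) (hl : l ∉ T')
    (hck : c - k ∈ C1 (globalLevel T') M) :
    IsCap S M l (res₁ (fun w : Nat.Primes => primeLocalToGlobal w) M l k) := by
  classical
  refine ⟨insert l S, c, Finset.subset_insert l S, hc, hdc,
    ⟨res₁ (fun w : Nat.Primes => primeLocalToGlobal w) M l (c - k), res₁_mem_urLevel hl hck, 0,
      ?_⟩, fun w hw hwS hwl => ?_⟩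
  · rw [map_zero, add_zero, map_sub]; abel
  · exact absurd ((Finset.mem_insert.1 hw).resolve_left hwl) hwS

end IsCap

/-- **`[CapGen]` from generation by capitulating cocycles**: if at every `l ∉ S` every local
level 1-cocycle is, modulo unramified cochains and coboundaries, in the span of a set `Θ l` of
capitulating cochains, then `CapGen S M`. -/
theorem capGen_of_span (M : Rep.{0} (ZMod p) GQ)
    (Θ : ∀ l : Nat.Primes, Set (primeLocalGaloisGroup l → M))
    (hΘ : ∀ l : Nat.Primes, l ∉ S → ∀ θ ∈ Θ l, IsCap S M l θ)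
    (hgen : ∀ l : Nat.Primes, l ∉ S →
      ∀ ξ ∈ Z1 (localLevel (primeLocalToGlobal l)) (Rep.res (primeLocalToGlobal l) M),
      ∃ ξ₀ ∈ Submodule.span (ZMod p) (Θ l),
        ∃ u ∈ C1 (urLevel l) (Rep.res (primeLocalToGlobal l) M), ∃ m : M,
          ξ = ξ₀ + u + (d₀₁ (Rep.res (primeLocalToGlobal l) M)).hom m) :
    CapGen S M := by
  intro l hl ξ hξ
  obtain ⟨ξ₀, hξ₀, u, hu, m, hm⟩ := hgen l hl ξ hξ
  have hcap : IsCap S M l ξ₀ := by
    refine Submodule.span_induction (p := fun x _ => IsCap S M l x) (fun θ hθ => hΘ l hl θ hθ)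
      ?_ (fun x y _ _ hx hy => hx.add hy) (fun a x _ hx => hx.smul a) hξ₀
    exact isCap_of_ur (zero_mem _)
  exact hcap.congr hu m hm

end Fermat.Agent.S55.Base.Asm
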