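import Fermat.Agent.S55.Base.JJ

/-!
# S55 base case, `ℚ`-side form: the two-orientation linear algebra (a)–(d)

Pure linear algebra over a field `k` for the section "Linear algebra" of
`notes/helper3/S55_base_Q.md`.  There are two sides (`N = M` unprimed, `N' = M'` primed).  For the
unprimed side:

* `J`   : `J(N) = J_S(N) ⊕ ⊕_{l ∉ S} H¹(G_l, N)/H¹_ur` (possibly infinite-dimensional);
* `JSs` : the finite-dimensional local part `J_S(N)`;
* `D`   : the image `Dg(N)` of the level-constant global classes;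
* `V`   : `H¹(G_{ℚ,S}, N)` (finite-dimensional), `ι : V → J` its localisation (image in `D ⊓ JSs`,
          kernel `Ш¹(N)`);
* `B`   : the pairing `J(N) × V(N') → k`.

Hypotheses: (a) `D ⊂ V'^⊥`, (b) right kernel `0`, (S) the `J_S`-part of the pairing only sees the
localisation, and the three counts as INEQUALITIES
`finrank JSs ≤ A`, `Bd ≤ finrank V`, `finrank (J ⧸ (D ⊔ JSs)) ≤ c` with `A + 2 * c ≤ 2 * Bd`.

Conclusions (for both sides): `D = V'^⊥`, `dim Ш¹ = c`, `J_S + Dg = Ш¹^⊥`, and all counts are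
equalities.
-/

set_option autoImplicit false

namespace Fermat.Agent.S55.Base.LAQ

open Module

variable {k : Type*} [Field k]

section OneSide

variable {J V V' : Type*} [AddCommGroup J] [Module k J] [AddCommGroup V] [Module k V]
  [AddCommGroup V'] [Module k V']

/-- `perpS B JSs = {y | ∀ ξ ∈ JSs, B ξ y = 0}`. -/
def perpS (B : J →ₗ[k] V' →ₗ[k] k) (JSs : Submodule k J) : Submodule k V' where
  carrier := {y | ∀ ξ ∈ JSs, B ξ y = 0}
  add_mem' := by
    intro y y' hy hy' ξ hξ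
    rw [map_add, hy ξ hξ, hy' ξ hξ, add_zero]
  zero_mem' := by
    intro ξ _
    exact map_zero _
  smul_mem' := by
    intro c y hy ξ hξ
    rw [map_smul, hy ξ hξ, smul_zero]

theorem mem_perpS (B : J →ₗ[k] V' →ₗ[k] k) (JSs : Submodule k J) (y : V') :
    y ∈ perpS B JSs ↔ ∀ ξ ∈ JSs, B ξ y = 0 := Iff.rfl

theorem perpS_eq_dualCoannihilator (B : J →ₗ[k] V' →ₗ[k] k) (JSs : Submodule k J) :
    perpS B JSs = (LinearMap.range (B.domRestrict JSs)).dualCoannihilator := by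
  ext y
  rw [Submodule.mem_dualCoannihilator, mem_perpS]
  constructor
  · rintro h f ⟨ξ, rfl⟩
    exact h ξ.1 ξ.2
  · intro h ξ hξ
    exact h (B.domRestrict JSs ⟨ξ, hξ⟩) ⟨⟨ξ, hξ⟩, rfl⟩

/-- The pairing induced on `Z × J ⧸ T` when `T` and `Z` are orthogonal. -/
noncomputable def subPairing (B : J →ₗ[k] V' →ₗ[k] k) (T : Submodule k J) (Z : Submodule k V')
    (h : ∀ t ∈ T, ∀ y ∈ Z, B t y = 0) : Z →ₗ[k] Module.Dual k (J ⧸ T) where
  toFun y := T.liftQ (B.flip y.1) (by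
    intro t ht
    rw [LinearMap.mem_ker, LinearMap.flip_apply]
    exact h t ht y.1 y.2)
  map_add' y y' := by
    apply LinearMap.ext
    intro q
    induction q using Submodule.Quotient.induction_on with
    | _ Ξ => simp
  map_smul' c y := by
    apply LinearMap.ext
    intro q
    induction q using Submodule.Quotient.induction_on with
    | _ Ξ => simp

@[simp] theorem subPairing_mk (B : J →ₗ[k] V' →ₗ[k] k) (T : Submodule k J) (Z : Submodule k V')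
    (h : ∀ t ∈ T, ∀ y ∈ Z, B t y = 0) (y : Z) (Ξ : J) :
    subPairing B T Z h y (Submodule.Quotient.mk Ξ) = B Ξ y.1 := rfl

theorem subPairing_injective (B : J →ₗ[k] V' →ₗ[k] k) (T : Submodule k J) (Z : Submodule k V')
    (h : ∀ t ∈ T, ∀ y ∈ Z, B t y = 0) (hb : ∀ y, (∀ Ξ, B Ξ y = 0) → y = 0) :
    Function.Injective (subPairing B T Z h) := by
  rw [← LinearMap.ker_eq_bot, Submodule.eq_bot_iff]
  intro y hy
  rw [LinearMap.mem_ker] at hy
  apply Subtype.ext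
  apply hb y.1
  intro Ξ
  have := congrArg (fun f => f (Submodule.Quotient.mk Ξ)) hy
  simpa using this

/-- `dim (J_S)^⊥ ≤ dim J/(D + J_S)`, and in the case of equality the class pairing is perfect. -/
theorem finrank_perpS_le [FiniteDimensional k V'] (B : J →ₗ[k] V' →ₗ[k] k) (D JSs : Submodule k J)
    (ha : ∀ d ∈ D, ∀ y, B d y = 0) (hb : ∀ y, (∀ Ξ, B Ξ y = 0) → y = 0)
    [FiniteDimensional k (J ⧸ (D ⊔ JSs))] :
    finrank k (perpS B JSs) ≤ finrank k (J ⧸ (D ⊔ JSs)) ∧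
    (finrank k (perpS B JSs) = finrank k (J ⧸ (D ⊔ JSs)) →
      ∀ Ξ, (∀ y ∈ perpS B JSs, B Ξ y = 0) → Ξ ∈ D ⊔ JSs) := by
  have h : ∀ t ∈ D ⊔ JSs, ∀ y ∈ perpS B JSs, B t y = 0 := by
    intro t ht y hy
    obtain ⟨d, hd, ξ, hξ, rfl⟩ := Submodule.mem_sup.1 ht
    rw [map_add, LinearMap.add_apply, ha d hd, hy ξ hξ, add_zero]
  have hψ := subPairing_injective B (D ⊔ JSs) (perpS B JSs) h hb
  refine ⟨?_, fun heq Ξ hΞ => ?_⟩
  · have := LinearMap.finrank_le_finrank_of_injective hψ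
    rwa [Subspace.dual_finrank_eq] at this
  · have hsurj : Function.Surjective (subPairing B (D ⊔ JSs) (perpS B JSs) h) := by
      apply (LinearMap.injective_iff_surjective_of_finrank_eq_finrank ?_).1 hψ
      rw [Subspace.dual_finrank_eq, heq]
    rw [← Submodule.Quotient.mk_eq_zero, ← Module.forall_dual_apply_eq_zero_iff k]
    intro f
    obtain ⟨y, rfl⟩ := hsurj f
    rw [subPairing_mk]
    exact hΞ y.1 y.2

/-- The basic count of one side, and its case of equality. -/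
theorem side_count [FiniteDimensional k V] [FiniteDimensional k V'] (B : J →ₗ[k] V' →ₗ[k] k)
    (D JSs : Submodule k J) [FiniteDimensional k JSs] (ι : V →ₗ[k] J)
    (ha : ∀ d ∈ D, ∀ y, B d y = 0) (hι : LinearMap.range ι ≤ D ⊓ JSs) :
    finrank k V' + finrank k V ≤ finrank k JSs + finrank k (LinearMap.ker ι)
      + finrank k (perpS B JSs) ∧
    (finrank k V' + finrank k V = finrank k JSs + finrank k (LinearMap.ker ι)
      + finrank k (perpS B JSs) →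
      (∀ ξ ∈ JSs, (∀ y, B ξ y = 0) → ξ ∈ D) ∧ D ⊓ JSs ≤ LinearMap.range ι) := by
  classical
  set BS : JSs →ₗ[k] V' →ₗ[k] k := B.domRestrict JSs with hBS
  have hrange : finrank k (LinearMap.range BS) + finrank k (perpS B JSs) = finrank k V' := by
    rw [perpS_eq_dualCoannihilator]
    exact Subspace.finrank_add_finrank_dualCoannihilator_eq (LinearMap.range BS)
  have hrn := LinearMap.finrank_range_add_finrank_ker BS
  have hιrn := LinearMap.finrank_range_add_finrank_ker ι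
  have hle : Submodule.comap JSs.subtype D ≤ LinearMap.ker BS := by
    intro ξ hξ
    rw [LinearMap.mem_ker]
    apply LinearMap.ext
    intro y
    simpa [hBS] using ha _ (Submodule.mem_comap.1 hξ) y
  have hle2 := Submodule.finrank_mono hle
  have hle3 : Submodule.comap JSs.subtype (LinearMap.range ι) ≤ Submodule.comap JSs.subtype D :=
    Submodule.comap_mono (hι.trans inf_le_left)
  have hle4 := Submodule.finrank_mono hle3
  have hcomap : finrank k (Submodule.comap JSs.subtype (LinearMap.range ι))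
      = finrank k (LinearMap.range ι) :=
    (Submodule.comapSubtypeEquivOfLe (hι.trans inf_le_right)).finrank_eq
  have hcomapD : finrank k (Submodule.comap JSs.subtype D) = finrank k ↥(D ⊓ JSs) := by
    have e1 : Submodule.comap JSs.subtype D = Submodule.comap JSs.subtype (D ⊓ JSs) := by
      ext ξ
      simp
    rw [e1]
    exact (Submodule.comapSubtypeEquivOfLe (inf_le_right : D ⊓ JSs ≤ JSs)).finrank_eq
  refine ⟨by omega, fun heq => ⟨fun ξ hξ hB => ?_, ?_⟩⟩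
  · have heq2 : Submodule.comap JSs.subtype D = LinearMap.ker BS := by
      apply Submodule.eq_of_le_of_finrank_eq hle
      omega
    have : (⟨ξ, hξ⟩ : JSs) ∈ LinearMap.ker BS := by
      rw [LinearMap.mem_ker]
      apply LinearMap.ext
      intro y
      simpa [hBS] using hB y
    rw [← heq2] at this
    exact Submodule.mem_comap.1 this
  · have : LinearMap.range ι = D ⊓ JSs := by
      apply Submodule.eq_of_le_of_finrank_eq hι
      omega
    rw [this]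

end OneSide

section TwoSides

variable {J V J' V' : Type*} [AddCommGroup J] [Module k J] [AddCommGroup V] [Module k V]
  [AddCommGroup J'] [Module k J'] [AddCommGroup V'] [Module k V']

/-- **The two-orientation linear algebra, conclusions for the unprimed side.**
`B : J × V' → k`, `B' : J' × V → k`; `ι : V → J`, `ι' : V' → J'` the localisations of the level-`S`
classes (`ker ι = Ш¹`, `ker ι' = Ш¹'`). -/
theorem la_side [FiniteDimensional k V] [FiniteDimensional k V']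
    (B : J →ₗ[k] V' →ₗ[k] k) (B' : J' →ₗ[k] V →ₗ[k] k)
    (D JSs : Submodule k J) (D' JSs' : Submodule k J')
    [FiniteDimensional k JSs] [FiniteDimensional k JSs']
    (ι : V →ₗ[k] J) (ι' : V' →ₗ[k] J')
    -- (a) the global classes are orthogonal to the level-`S` classes (reciprocity)
    (ha : ∀ d ∈ D, ∀ y, B d y = 0) (ha' : ∀ d ∈ D', ∀ y, B' d y = 0)
    -- (b) the right kernels are trivial
    (hb : ∀ y, (∀ Ξ, B Ξ y = 0) → y = 0) (hb' : ∀ y, (∀ Ξ, B' Ξ y = 0) → y = 0)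
    -- the level-`S` classes are global and unramified outside `S`
    (hι : LinearMap.range ι ≤ D ⊓ JSs) (hι' : LinearMap.range ι' ≤ D' ⊓ JSs')
    -- (S) the `J_S`-part of the pairing only sees the localisation at `S`
    (hS : ∀ y, ι' y = 0 → ∀ ξ ∈ JSs, B ξ y = 0) (hS' : ∀ y, ι y = 0 → ∀ ξ ∈ JSs', B' ξ y = 0)
    -- the counts (inequalities)
    [FiniteDimensional k (J ⧸ (D ⊔ JSs))] [FiniteDimensional k (J' ⧸ (D' ⊔ JSs'))]
    (A Bd c : ℕ)
    (hA : finrank k JSs ≤ A) (hA' : finrank k JSs' ≤ A)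
    (hV : Bd ≤ finrank k V) (hV' : Bd ≤ finrank k V')
    (hc : finrank k (J ⧸ (D ⊔ JSs)) ≤ c) (hc' : finrank k (J' ⧸ (D' ⊔ JSs')) ≤ c)
    (hcount : A + 2 * c ≤ 2 * Bd) :
    -- (d) `D` is exactly the left kernel
    (∀ Ξ, (∀ y, B Ξ y = 0) ↔ Ξ ∈ D) ∧
    -- every functional on `V'` is represented
    (∀ φ : V' →ₗ[k] k, ∃ Ξ, B Ξ = φ) ∧
    -- `J_S + Dg = (Ш¹')^⊥`
    (∀ Ξ, (∀ y, ι' y = 0 → B Ξ y = 0) ↔ Ξ ∈ D ⊔ JSs) ∧
    -- `(J_S)^⊥ = Ш¹'` (the converse of (S))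
    (∀ y, (∀ ξ ∈ JSs, B ξ y = 0) ↔ ι' y = 0) ∧
    -- `D ⊓ J_S` is the image of the level-`S` classes
    (∀ ξ ∈ D ⊓ JSs, ∃ y, ι y = ξ) ∧
    -- the counts are equalities
    finrank k (LinearMap.ker ι) = c ∧ finrank k V = Bd ∧ finrank k JSs = A ∧
    finrank k (J ⧸ (D ⊔ JSs)) = c := by
  classical
  obtain ⟨hz, hzeq⟩ := finrank_perpS_le B D JSs ha hb
  obtain ⟨hz', -⟩ := finrank_perpS_le B' D' JSs' ha' hb'
  obtain ⟨hcnt, hcnteq⟩ := side_count B D JSs ι ha hι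
  obtain ⟨hcnt', -⟩ := side_count B' D' JSs' ι' ha' hι'
  have hsh' : LinearMap.ker ι' ≤ perpS B JSs := fun y hy => hS y (LinearMap.mem_ker.1 hy)
  have hsh : LinearMap.ker ι ≤ perpS B' JSs' := fun y hy => hS' y (LinearMap.mem_ker.1 hy)
  have hshle' := Submodule.finrank_mono hsh'
  have hshle := Submodule.finrank_mono hsh
  -- all the counts are equalities
  have e1 : finrank k (LinearMap.ker ι) = c := by omega
  have e2 : finrank k V = Bd := by omega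
  have e3 : finrank k JSs = A := by omega
  have e4 : finrank k (J ⧸ (D ⊔ JSs)) = c := by omega
  have e5 : finrank k (perpS B JSs) = finrank k (J ⧸ (D ⊔ JSs)) := by omega
  have e6 : finrank k (LinearMap.ker ι') = finrank k (perpS B JSs) := by omega
  have e7 : finrank k V' + finrank k V = finrank k JSs + finrank k (LinearMap.ker ι)
      + finrank k (perpS B JSs) := by omega
  have hker : LinearMap.ker ι' = perpS B JSs := Submodule.eq_of_le_of_finrank_eq hsh' e6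
  obtain ⟨hJSD, hDJS⟩ := hcnteq e7
  have hperf : ∀ Ξ, (∀ y, ι' y = 0 → B Ξ y = 0) → Ξ ∈ D ⊔ JSs := by
    intro Ξ hΞ
    apply hzeq e5 Ξ
    intro y hy
    rw [← hker] at hy
    exact hΞ y (LinearMap.mem_ker.1 hy)
  refine ⟨fun Ξ => ⟨fun h => ?_, fun h y => ha Ξ h y⟩, fun φ => ?_, fun Ξ => ⟨hperf Ξ, fun h y hy => ?_⟩,
    fun y => ?_, fun ξ hξ => hDJS hξ, e1, e2, e3, e4⟩
  · obtain ⟨d, hd, ξ, hξ, rfl⟩ := Submodule.mem_sup.1 (hperf Ξ (fun y _ => h y))
    refine D.add_mem hd (hJSD ξ hξ (fun y => ?_))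
    have := h y
    rwa [map_add, LinearMap.add_apply, ha d hd, zero_add] at this
  · have := range_eq_top_of_right_nondegenerate B hb
    have hφ : φ ∈ LinearMap.range B := by rw [this]; trivial
    exact hφ
  · obtain ⟨d, hd, ξ, hξ, rfl⟩ := Submodule.mem_sup.1 h
    rw [map_add, LinearMap.add_apply, ha d hd, hS y hy ξ hξ, add_zero]
  · rw [← mem_perpS, ← hker, LinearMap.mem_ker]

/-- **The two-orientation linear algebra (a)–(d) of the `ℚ`-side base case**: both sides. -/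
theorem la_two_sides [FiniteDimensional k V] [FiniteDimensional k V']
    (B : J →ₗ[k] V' →ₗ[k] k) (B' : J' →ₗ[k] V →ₗ[k] k)
    (D JSs : Submodule k J) (D' JSs' : Submodule k J')
    [FiniteDimensional k JSs] [FiniteDimensional k JSs']
    (ι : V →ₗ[k] J) (ι' : V' →ₗ[k] J')
    (ha : ∀ d ∈ D, ∀ y, B d y = 0) (ha' : ∀ d ∈ D', ∀ y, B' d y = 0)
    (hb : ∀ y, (∀ Ξ, B Ξ y = 0) → y = 0) (hb' : ∀ y, (∀ Ξ, B' Ξ y = 0) → y = 0)
    (hι : LinearMap.range ι ≤ D ⊓ JSs) (hι' : LinearMap.range ι' ≤ D' ⊓ JSs')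
    (hS : ∀ y, ι' y = 0 → ∀ ξ ∈ JSs, B ξ y = 0) (hS' : ∀ y, ι y = 0 → ∀ ξ ∈ JSs', B' ξ y = 0)
    [FiniteDimensional k (J ⧸ (D ⊔ JSs))] [FiniteDimensional k (J' ⧸ (D' ⊔ JSs'))]
    (A Bd c : ℕ)
    (hA : finrank k JSs ≤ A) (hA' : finrank k JSs' ≤ A)
    (hV : Bd ≤ finrank k V) (hV' : Bd ≤ finrank k V')
    (hc : finrank k (J ⧸ (D ⊔ JSs)) ≤ c) (hc' : finrank k (J' ⧸ (D' ⊔ JSs')) ≤ c)
    (hcount : A + 2 * c ≤ 2 * Bd) :
    ((∀ Ξ, (∀ y, B Ξ y = 0) ↔ Ξ ∈ D) ∧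
      (∀ φ : V' →ₗ[k] k, ∃ Ξ, B Ξ = φ) ∧
      (∀ Ξ, (∀ y, ι' y = 0 → B Ξ y = 0) ↔ Ξ ∈ D ⊔ JSs) ∧
      (∀ y, (∀ ξ ∈ JSs, B ξ y = 0) ↔ ι' y = 0) ∧
      (∀ ξ ∈ D ⊓ JSs, ∃ y, ι y = ξ) ∧
      finrank k (LinearMap.ker ι) = c ∧ finrank k V = Bd ∧ finrank k JSs = A ∧
      finrank k (J ⧸ (D ⊔ JSs)) = c) ∧
    ((∀ Ξ, (∀ y, B' Ξ y = 0) ↔ Ξ ∈ D') ∧
      (∀ φ : V →ₗ[k] k, ∃ Ξ, B' Ξ = φ) ∧
      (∀ Ξ, (∀ y, ι y = 0 → B' Ξ y = 0) ↔ Ξ ∈ D' ⊔ JSs') ∧
      (∀ y, (∀ ξ ∈ JSs', B' ξ y = 0) ↔ ι y = 0) ∧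
      (∀ ξ ∈ D' ⊓ JSs', ∃ y, ι' y = ξ) ∧
      finrank k (LinearMap.ker ι') = c ∧ finrank k V' = Bd ∧ finrank k JSs' = A ∧
      finrank k (J' ⧸ (D' ⊔ JSs')) = c) :=
  ⟨la_side B B' D JSs D' JSs' ι ι' ha ha' hb hb' hι hι' hS hS' A Bd c hA hA' hV hV' hc hc' hcount,
   la_side B' B D' JSs' D JSs ι' ι ha' ha hb' hb hι' hι hS' hS A Bd c hA' hA hV' hV hc' hc hcount⟩

end TwoSides

section Theta

variable {P0 Γ R0 : Type*} [AddCommGroup P0] [Module k P0] [AddCommGroup Γ] [Module k Γ]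
  [AddCommGroup R0] [Module k R0]

/-- The count (c4) from a surjection `Theta` killing principal divisors:
if `θ : P0 → R0` is onto modulo `T` and sends `range ord` into `T`, then
`dim R0/T ≤ dim P0/range ord`. -/
theorem finrank_quot_le_of_theta (θ : P0 →ₗ[k] R0) (ord : Γ →ₗ[k] P0) (T : Submodule k R0)
    (hsurj : ∀ η : R0, ∃ d, η - θ d ∈ T) (hkill : ∀ γ, θ (ord γ) ∈ T)
    [FiniteDimensional k (P0 ⧸ LinearMap.range ord)] :
    FiniteDimensional k (R0 ⧸ T) ∧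
      finrank k (R0 ⧸ T) ≤ finrank k (P0 ⧸ LinearMap.range ord) := by
  have hle : LinearMap.range ord ≤ LinearMap.ker (T.mkQ.comp θ) := by
    rintro _ ⟨γ, rfl⟩
    rw [LinearMap.mem_ker, LinearMap.comp_apply, Submodule.mkQ_apply,
      Submodule.Quotient.mk_eq_zero]
    exact hkill γ
  have hs : Function.Surjective ((LinearMap.range ord).liftQ (T.mkQ.comp θ) hle) := by
    intro q
    obtain ⟨η, rfl⟩ := Submodule.mkQ_surjective _ q
    obtain ⟨d, hd⟩ := hsurj η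
    refine ⟨Submodule.Quotient.mk d, ?_⟩
    rw [Submodule.liftQ_apply, LinearMap.comp_apply, Submodule.mkQ_apply, Submodule.mkQ_apply,
      eq_comm, Submodule.Quotient.eq]
    exact hd
  exact ⟨Module.Finite.of_surjective _ hs, LinearMap.finrank_le_finrank_of_surjective hs⟩

end Theta

section Prod

variable {JS R H V JS' R' H' V' : Type*}
  [AddCommGroup JS] [Module k JS] [AddCommGroup R] [Module k R] [AddCommGroup H] [Module k H]
  [AddCommGroup V] [Module k V]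
  [AddCommGroup JS'] [Module k JS'] [AddCommGroup R'] [Module k R'] [AddCommGroup H'] [Module k H']
  [AddCommGroup V'] [Module k V']

/-- The local part `JS × 0` of `J = JS × R`. -/
def JSsub (k : Type*) [Field k] (JS R : Type*) [AddCommGroup JS] [Module k JS] [AddCommGroup R]
    [Module k R] : Submodule k (JS × R) :=
  LinearMap.range (LinearMap.inl k JS R)

theorem mem_JSsub_iff (Ξ : JS × R) : Ξ ∈ JSsub k JS R ↔ Ξ.2 = 0 := by
  constructor
  · rintro ⟨ξ, rfl⟩; rfl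
  · intro h
    exact ⟨Ξ.1, Prod.ext rfl h.symm⟩

instance [FiniteDimensional k JS] : FiniteDimensional k (JSsub k JS R) := by
  unfold JSsub
  infer_instance

theorem finrank_JSsub [FiniteDimensional k JS] : finrank k (JSsub k JS R) = finrank k JS := by
  unfold JSsub
  rw [LinearMap.finrank_range_of_inj LinearMap.inl_injective]

/-- `J ⧸ (Dg + J_S) ≃ R ⧸ pr₂(Dg)`. -/
noncomputable def prodQuotEquiv (Dg : H →ₗ[k] JS × R) :
    ((JS × R) ⧸ (LinearMap.range Dg ⊔ JSsub k JS R)) ≃ₗ[k]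
      (R ⧸ LinearMap.range ((LinearMap.snd k JS R).comp Dg)) :=
  (Submodule.quotEquivOfEq _ _ (by
    ext Ξ
    simp only [LinearMap.mem_ker, LinearMap.comp_apply, Submodule.mkQ_apply,
      Submodule.Quotient.mk_eq_zero, LinearMap.snd_apply]
    constructor
    · intro hΞ
      obtain ⟨d, ⟨γ, rfl⟩, ξ, hξ, rfl⟩ := Submodule.mem_sup.1 hΞ
      rw [mem_JSsub_iff] at hξ
      exact ⟨γ, by simp [hξ]⟩
    · rintro ⟨γ, hγ⟩
      refine Submodule.mem_sup.2 ⟨Dg γ, ⟨γ, rfl⟩, Ξ - Dg γ, ?_, by abel⟩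
      rw [mem_JSsub_iff]
      simpa [sub_eq_zero] using hγ.symm)).trans
    (LinearMap.quotKerEquivOfSurjective
      ((LinearMap.range ((LinearMap.snd k JS R).comp Dg)).mkQ.comp (LinearMap.snd k JS R))
      (fun q => by
        obtain ⟨d, rfl⟩ := Submodule.mkQ_surjective _ q
        exact ⟨(0, d), rfl⟩))

/-- **Product form of the two-orientation linear algebra**, conclusions for the unprimed side:
`J = JS × R`, `Dg : H → J` (`H = H¹_lc`), `inc : V → H`, `loc : V → JS` with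
`Dg (inc y) = (loc y, 0)`; pairings `B : J × V' → k`, `B' : J' × V → k`. -/
theorem la_prod_side [FiniteDimensional k JS] [FiniteDimensional k JS'] [FiniteDimensional k V]
    [FiniteDimensional k V']
    (B : JS × R →ₗ[k] V' →ₗ[k] k) (B' : JS' × R' →ₗ[k] V →ₗ[k] k)
    (Dg : H →ₗ[k] JS × R) (Dg' : H' →ₗ[k] JS' × R')
    (inc : V →ₗ[k] H) (inc' : V' →ₗ[k] H') (loc : V →ₗ[k] JS) (loc' : V' →ₗ[k] JS')
    -- the level-`S` classes are global classes unramified outside `S`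
    (hinc : ∀ y, Dg (inc y) = (loc y, 0)) (hinc' : ∀ y, Dg' (inc' y) = (loc' y, 0))
    -- (a) reciprocity
    (ha : ∀ κ y, B (Dg κ) y = 0) (ha' : ∀ κ y, B' (Dg' κ) y = 0)
    -- (b) right kernels trivial
    (hb : ∀ y, (∀ Ξ, B Ξ y = 0) → y = 0) (hb' : ∀ y, (∀ Ξ, B' Ξ y = 0) → y = 0)
    -- (S) the `J_S`-part of the pairing only sees the localisation at `S`
    (hS : ∀ y, loc' y = 0 → ∀ ξ, B (ξ, 0) y = 0) (hS' : ∀ y, loc y = 0 → ∀ ξ, B' (ξ, 0) y = 0)
    -- the counts (inequalities)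
    [FiniteDimensional k (R ⧸ LinearMap.range ((LinearMap.snd k JS R).comp Dg))]
    [FiniteDimensional k (R' ⧸ LinearMap.range ((LinearMap.snd k JS' R').comp Dg'))]
    (A Bd c : ℕ)
    (hA : finrank k JS ≤ A) (hA' : finrank k JS' ≤ A)
    (hV : Bd ≤ finrank k V) (hV' : Bd ≤ finrank k V')
    (hc : finrank k (R ⧸ LinearMap.range ((LinearMap.snd k JS R).comp Dg)) ≤ c)
    (hc' : finrank k (R' ⧸ LinearMap.range ((LinearMap.snd k JS' R').comp Dg')) ≤ c)
    (hcount : A + 2 * c ≤ 2 * Bd) :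
    -- (d) `Dg = V'^⊥`
    (∀ Ξ, (∀ y, B Ξ y = 0) ↔ ∃ κ, Dg κ = Ξ) ∧
    -- every functional on `V'` is represented
    (∀ φ : V' →ₗ[k] k, ∃ Ξ, B Ξ = φ) ∧
    -- `J_S + Dg = (Ш¹')^⊥`
    (∀ Ξ, (∀ y, loc' y = 0 → B Ξ y = 0) ↔ ∃ κ ξ, Ξ = Dg κ + (ξ, 0)) ∧
    -- the converse of (S)
    (∀ y, (∀ ξ, B (ξ, 0) y = 0) ↔ loc' y = 0) ∧
    -- a global class unramified outside `S` comes from a level-`S` class (on `J`)
    (∀ κ, (Dg κ).2 = 0 → ∃ y, Dg (inc y) = Dg κ) ∧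
    -- the counts are equalities
    finrank k (LinearMap.ker loc) = c ∧ finrank k V = Bd ∧ finrank k JS = A ∧
    finrank k (R ⧸ LinearMap.range ((LinearMap.snd k JS R).comp Dg)) = c := by
  classical
  set ι : V →ₗ[k] JS × R := Dg.comp inc with hι
  set ι' : V' →ₗ[k] JS' × R' := Dg'.comp inc' with hι'
  have hι0 : ∀ y, ι y = 0 ↔ loc y = 0 := by
    intro y
    rw [hι, LinearMap.comp_apply, hinc, Prod.mk_eq_zero]
    exact ⟨fun h => h.1, fun h => ⟨h, rfl⟩⟩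
  have hι0' : ∀ y, ι' y = 0 ↔ loc' y = 0 := by
    intro y
    rw [hι', LinearMap.comp_apply, hinc', Prod.mk_eq_zero]
    exact ⟨fun h => h.1, fun h => ⟨h, rfl⟩⟩
  have hkι : LinearMap.ker ι = LinearMap.ker loc := by
    ext y
    rw [LinearMap.mem_ker, LinearMap.mem_ker, hι0]
  let e := prodQuotEquiv Dg
  let e' := prodQuotEquiv Dg'
  have : FiniteDimensional k ((JS × R) ⧸ (LinearMap.range Dg ⊔ JSsub k JS R)) :=
    LinearEquiv.finiteDimensional e.symm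
  have : FiniteDimensional k ((JS' × R') ⧸ (LinearMap.range Dg' ⊔ JSsub k JS' R')) :=
    LinearEquiv.finiteDimensional e'.symm
  obtain ⟨h1, h2, h3, h4, h5, h6, h7, h8, h9⟩ :=
    la_side B B' (LinearMap.range Dg) (JSsub k JS R) (LinearMap.range Dg') (JSsub k JS' R') ι ι'
      (by rintro _ ⟨κ, rfl⟩ y; exact ha κ y) (by rintro _ ⟨κ, rfl⟩ y; exact ha' κ y) hb hb'
      (by
        rintro _ ⟨y, rfl⟩
        exact ⟨⟨inc y, rfl⟩, by
          rw [SetLike.mem_coe, mem_JSsub_iff, hι, LinearMap.comp_apply, hinc]⟩)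
      (by
        rintro _ ⟨y, rfl⟩
        exact ⟨⟨inc' y, rfl⟩, by
          rw [SetLike.mem_coe, mem_JSsub_iff, hι', LinearMap.comp_apply, hinc']⟩)
      (by
        intro y hy ξ hξ
        rw [mem_JSsub_iff] at hξ
        have := hS y ((hι0' y).1 hy) ξ.1
        rwa [← hξ] at this)
      (by
        intro y hy ξ hξ
        rw [mem_JSsub_iff] at hξ
        have := hS' y ((hι0 y).1 hy) ξ.1
        rwa [← hξ] at this)
      A Bd c (by rw [finrank_JSsub]; exact hA) (by rw [finrank_JSsub]; exact hA') hV hV'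
      (by rw [e.finrank_eq]; exact hc) (by rw [e'.finrank_eq]; exact hc') hcount
  have hsup : ∀ Ξ : JS × R, Ξ ∈ LinearMap.range Dg ⊔ JSsub k JS R ↔ ∃ κ ξ, Ξ = Dg κ + (ξ, 0) := by
    intro Ξ
    constructor
    · intro h
      obtain ⟨d, ⟨κ, rfl⟩, ξ, hξ, rfl⟩ := Submodule.mem_sup.1 h
      rw [mem_JSsub_iff] at hξ
      exact ⟨κ, ξ.1, by rw [← hξ]⟩
    · rintro ⟨κ, ξ, rfl⟩
      exact Submodule.add_mem_sup ⟨κ, rfl⟩ ((mem_JSsub_iff _).2 rfl)
  refine ⟨fun Ξ => (h1 Ξ).trans Iff.rfl, h2, fun Ξ => ?_, fun y => ?_, fun κ hκ => ?_, ?_, h7, ?_, ?_⟩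
  · rw [← hsup, ← h3 Ξ]
    exact forall_congr' fun y => by rw [hι0']
  · rw [← hι0', ← h4 y]
    constructor
    · intro h ξ hξ
      rw [mem_JSsub_iff] at hξ
      have := h ξ.1
      rwa [← hξ] at this
    · intro h ξ
      exact h (ξ, 0) ((mem_JSsub_iff _).2 rfl)
  · obtain ⟨y, hy⟩ := h5 (Dg κ) ⟨⟨κ, rfl⟩, (mem_JSsub_iff _).2 hκ⟩
    exact ⟨y, hy⟩
  · rw [← hkι]
    exact h6
  · rw [← finrank_JSsub (k := k) (JS := JS) (R := R)]
    exact h8
  · rw [← e.finrank_eq]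
    exact h9

/-- **Product form of the two-orientation linear algebra (a)–(d)**: both sides. -/
theorem la_prod [FiniteDimensional k JS] [FiniteDimensional k JS'] [FiniteDimensional k V]
    [FiniteDimensional k V']
    (B : JS × R →ₗ[k] V' →ₗ[k] k) (B' : JS' × R' →ₗ[k] V →ₗ[k] k)
    (Dg : H →ₗ[k] JS × R) (Dg' : H' →ₗ[k] JS' × R')
    (inc : V →ₗ[k] H) (inc' : V' →ₗ[k] H') (loc : V →ₗ[k] JS) (loc' : V' →ₗ[k] JS')
    (hinc : ∀ y, Dg (inc y) = (loc y, 0)) (hinc' : ∀ y, Dg' (inc' y) = (loc' y, 0))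
    (ha : ∀ κ y, B (Dg κ) y = 0) (ha' : ∀ κ y, B' (Dg' κ) y = 0)
    (hb : ∀ y, (∀ Ξ, B Ξ y = 0) → y = 0) (hb' : ∀ y, (∀ Ξ, B' Ξ y = 0) → y = 0)
    (hS : ∀ y, loc' y = 0 → ∀ ξ, B (ξ, 0) y = 0) (hS' : ∀ y, loc y = 0 → ∀ ξ, B' (ξ, 0) y = 0)
    [FiniteDimensional k (R ⧸ LinearMap.range ((LinearMap.snd k JS R).comp Dg))]
    [FiniteDimensional k (R' ⧸ LinearMap.range ((LinearMap.snd k JS' R').comp Dg'))]
    (A Bd c : ℕ)
    (hA : finrank k JS ≤ A) (hA' : finrank k JS' ≤ A)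
    (hV : Bd ≤ finrank k V) (hV' : Bd ≤ finrank k V')
    (hc : finrank k (R ⧸ LinearMap.range ((LinearMap.snd k JS R).comp Dg)) ≤ c)
    (hc' : finrank k (R' ⧸ LinearMap.range ((LinearMap.snd k JS' R').comp Dg')) ≤ c)
    (hcount : A + 2 * c ≤ 2 * Bd) :
    ((∀ Ξ, (∀ y, B Ξ y = 0) ↔ ∃ κ, Dg κ = Ξ) ∧
      (∀ φ : V' →ₗ[k] k, ∃ Ξ, B Ξ = φ) ∧
      (∀ Ξ, (∀ y, loc' y = 0 → B Ξ y = 0) ↔ ∃ κ ξ, Ξ = Dg κ + (ξ, 0)) ∧
      (∀ y, (∀ ξ, B (ξ, 0) y = 0) ↔ loc' y = 0) ∧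
      (∀ κ, (Dg κ).2 = 0 → ∃ y, Dg (inc y) = Dg κ) ∧
      finrank k (LinearMap.ker loc) = c ∧ finrank k V = Bd ∧ finrank k JS = A ∧
      finrank k (R ⧸ LinearMap.range ((LinearMap.snd k JS R).comp Dg)) = c) ∧
    ((∀ Ξ, (∀ y, B' Ξ y = 0) ↔ ∃ κ, Dg' κ = Ξ) ∧
      (∀ φ : V →ₗ[k] k, ∃ Ξ, B' Ξ = φ) ∧
      (∀ Ξ, (∀ y, loc y = 0 → B' Ξ y = 0) ↔ ∃ κ ξ, Ξ = Dg' κ + (ξ, 0)) ∧
      (∀ y, (∀ ξ, B' (ξ, 0) y = 0) ↔ loc y = 0) ∧
      (∀ κ, (Dg' κ).2 = 0 → ∃ y, Dg' (inc' y) = Dg' κ) ∧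
      finrank k (LinearMap.ker loc') = c ∧ finrank k V' = Bd ∧ finrank k JS' = A ∧
      finrank k (R' ⧸ LinearMap.range ((LinearMap.snd k JS' R').comp Dg')) = c) :=
  ⟨la_prod_side B B' Dg Dg' inc inc' loc loc' hinc hinc' ha ha' hb hb' hS hS' A Bd c hA hA' hV hV'
      hc hc' hcount,
   la_prod_side B' B Dg' Dg inc' inc loc' loc hinc' hinc ha' ha hb' hb hS' hS A Bd c hA' hA hV' hV
      hc' hc hcount⟩

end Prod

end Fermat.Agent.S55.Base.LAQ
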