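/-
S55 / PROGRAM CFT, base case: the `J`-side in generic `Eval.Datum` form (helper26).

For an arithmetic datum `D : Eval.Datum k G C` and a coefficient module `N` we build ONE quotient
type `J D N` ("idèle-class-like" local classes: families of local 1-cocycles modulo coboundaries
at the places of `S` and modulo coboundaries + unramified cochains outside `S`), the bracket
`J D A × H¹(G_S, B) → k`, the subspaces `Dg` (global classes) and `JS` (classes supported on `S`)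
and the localisation `ι : H¹(G_S, N) → J D N`, and we instantiate the landed linear algebra
`LAQ.la_two_sides`.  Output: `V(B)^⊥ = Dg(A)` in representative (cochain) form (`dgPerp`).
-/
import Fermat.Agent.S55.Base.Eval
import Fermat.Agent.S55.Base.AssembleLA

set_option autoImplicit false

open CategoryTheory groupCohomology

namespace Fermat.Agent.S55.Base.AsmJ

open Fermat.Agent.S55.Abs Fermat.Agent.S55.Base.Eval

variable {k G : Type} [Field k] [Group G] {C : Rep.{0} k G} (D : Datum k G C)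

/-! ### The model -/

section Model

variable (N : Rep.{0} k G)

/-- The unramified local 1-cochains at `w ∉ S`; `⊥` at the places of `S`. -/
def Ur (w : D.ι) : Submodule k (D.Gv w → Rep.res (D.loc w) N) :=
  if w ∈ D.S then ⊥ else C1 (D.𝒰ur w) (Rep.res (D.loc w) N)

theorem Ur_of_mem {w : D.ι} (hw : w ∈ D.S) : Ur D N w = ⊥ := if_pos hw

theorem Ur_of_notMem {w : D.ι} (hw : w ∉ D.S) :
    Ur D N w = C1 (D.𝒰ur w) (Rep.res (D.loc w) N) := if_neg hw

/-- The negligible local 1-cochains at `w`: coboundaries (`w ∈ S`), coboundaries plus unramified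
cochains (`w ∉ S`). -/
def Negl (w : D.ι) : Submodule k (D.Gv w → Rep.res (D.loc w) N) :=
  coboundaries₁ (Rep.res (D.loc w) N) ⊔ Ur D N w

theorem mem_Negl_iff {w : D.ι} (ξ : D.Gv w → Rep.res (D.loc w) N) :
    ξ ∈ Negl D N w ↔ ∃ m : N, ξ - (d₀₁ (Rep.res (D.loc w) N)).hom m ∈ Ur D N w := by
  constructor
  · intro h
    obtain ⟨b, hb, u, hu, rfl⟩ := Submodule.mem_sup.1 h
    obtain ⟨m, rfl⟩ := hb
    exact ⟨m, by simpa using hu⟩
  · rintro ⟨m, hm⟩
    have : ξ = (d₀₁ (Rep.res (D.loc w) N)).hom m + (ξ - (d₀₁ (Rep.res (D.loc w) N)).hom m) := by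
      abel
    rw [this]
    exact Submodule.add_mem _ (Submodule.mem_sup_left ⟨m, rfl⟩) (Submodule.mem_sup_right hm)

theorem mem_Negl_of_mem {w : D.ι} (hw : w ∈ D.S) (ξ : D.Gv w → Rep.res (D.loc w) N) :
    ξ ∈ Negl D N w ↔ ∃ m : N, ξ = (d₀₁ (Rep.res (D.loc w) N)).hom m := by
  rw [mem_Negl_iff, Ur_of_mem D N hw]
  simp only [Submodule.mem_bot, sub_eq_zero]

theorem mem_Negl_of_notMem {w : D.ι} (hw : w ∉ D.S) (ξ : D.Gv w → Rep.res (D.loc w) N) :
    ξ ∈ Negl D N w ↔ ∃ m : N, ξ - (d₀₁ (Rep.res (D.loc w) N)).hom m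
      ∈ C1 (D.𝒰ur w) (Rep.res (D.loc w) N) := by
  rw [mem_Negl_iff, Ur_of_notMem D N hw]

/-- Families of local 1-cocycles which are negligible at almost all places. -/
def Zfam : Submodule k (∀ w, D.Gv w → Rep.res (D.loc w) N) where
  carrier := {z | (∀ w, z w ∈ Z1 (D.𝒰v w) (Rep.res (D.loc w) N)) ∧
    {w | z w ∉ Negl D N w}.Finite}
  add_mem' := by
    rintro z z' ⟨hz, hf⟩ ⟨hz', hf'⟩
    refine ⟨fun w => Submodule.add_mem _ (hz w) (hz' w), (hf.union hf').subset ?_⟩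
    intro w hw
    by_contra hcon
    simp only [Set.mem_union, Set.mem_ofPred_eq, not_or, not_not] at hcon
    exact hw (Submodule.add_mem _ hcon.1 hcon.2)
  zero_mem' := by
    refine ⟨fun w => Submodule.zero_mem _, ?_⟩
    convert Set.finite_empty
    ext w
    simp only [Set.mem_ofPred_eq, Set.mem_empty_iff_false, iff_false, not_not]
    exact Submodule.zero_mem _
  smul_mem' := by
    rintro c z ⟨hz, hf⟩
    refine ⟨fun w => Submodule.smul_mem _ c (hz w), hf.subset ?_⟩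
    intro w hw
    by_contra hcon
    simp only [Set.mem_ofPred_eq, not_not] at hcon
    exact hw (Submodule.smul_mem _ c hcon)

/-- The negligible families. -/
def Efam : Submodule k (∀ w, D.Gv w → Rep.res (D.loc w) N) :=
  Submodule.pi Set.univ (Negl D N)

theorem mem_Efam_iff (z : ∀ w, D.Gv w → Rep.res (D.loc w) N) :
    z ∈ Efam D N ↔ ∀ w, z w ∈ Negl D N w := by
  simp [Efam, Submodule.mem_pi]

/-- **The space `J(N)`**: local classes at all places (modulo unramified classes outside `S`),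
almost all trivial. -/
abbrev J : Type := ↥(Zfam D N) ⧸ (Efam D N).comap (Zfam D N).subtype

end Model

/-! ### Descending a bilinear form to two quotients -/

section Desc

variable {E F : Type*} [AddCommGroup E] [Module k E] [AddCommGroup F] [Module k F]

/-- A bilinear form vanishing on `BE × F` and on `E × BF` descends to `E/BE × F/BF`. -/
noncomputable def descForm (b : E →ₗ[k] F →ₗ[k] k) (BE : Submodule k E) (BF : Submodule k F)
    (hE : ∀ e ∈ BE, ∀ f, b e f = 0) (hF : ∀ e, ∀ f ∈ BF, b e f = 0) :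
    (E ⧸ BE) →ₗ[k] (F ⧸ BF) →ₗ[k] k :=
  BE.liftQ
    { toFun := fun e => BF.liftQ (b e) (fun f hf => hF e f hf)
      map_add' := fun e e' => by
        apply Submodule.linearMap_qext; ext f
        show b (e + e') f = b e f + b e' f
        rw [map_add, LinearMap.add_apply]
      map_smul' := fun c e => by
        apply Submodule.linearMap_qext; ext f
        show b (c • e) f = c • b e f
        rw [map_smul, LinearMap.smul_apply] }
    (fun e he => by
      rw [LinearMap.mem_ker]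
      apply Submodule.linearMap_qext; ext f
      exact hE e he f)

@[simp] theorem descForm_mk (b : E →ₗ[k] F →ₗ[k] k) (BE : Submodule k E) (BF : Submodule k F)
    (hE : ∀ e ∈ BE, ∀ f, b e f = 0) (hF : ∀ e, ∀ f ∈ BF, b e f = 0) (e : E) (f : F) :
    descForm b BE BF hE hF (Submodule.Quotient.mk e) (Submodule.Quotient.mk f) = b e f := rfl

end Desc

/-! ### The bracket -/

section Bracket

variable {A B : Rep.{0} k G} (β : EqPairing A B C)

/-- The local term of the bracket at `w`. -/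
noncomputable def tm (w : D.ι) (ξ : D.Gv w → Rep.res (D.loc w) A) (y : G → B) : k :=
  D.inv w (cup11 (β.res (D.loc w)) ξ (res₁ D.loc B w y))

theorem tm_add_left (w : D.ι) (ξ ξ' : D.Gv w → Rep.res (D.loc w) A) (y : G → B) :
    tm D β w (ξ + ξ') y = tm D β w ξ y + tm D β w ξ' y := by
  simp only [tm, map_add, LinearMap.add_apply]

theorem tm_smul_left (w : D.ι) (c : k) (ξ : D.Gv w → Rep.res (D.loc w) A) (y : G → B) :
    tm D β w (c • ξ) y = c * tm D β w ξ y := by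
  simp only [tm, map_smul, LinearMap.smul_apply, smul_eq_mul]

theorem tm_add_right (w : D.ι) (ξ : D.Gv w → Rep.res (D.loc w) A) (y y' : G → B) :
    tm D β w ξ (y + y') = tm D β w ξ y + tm D β w ξ y' := by
  simp only [tm, map_add]

theorem tm_smul_right (w : D.ι) (c : k) (ξ : D.Gv w → Rep.res (D.loc w) A) (y : G → B) :
    tm D β w ξ (c • y) = c * tm D β w ξ y := by
  simp only [tm, map_smul, smul_eq_mul]

theorem tm_zero_left (w : D.ι) (y : G → B) : tm D β w 0 y = 0 := by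
  simp only [tm, map_zero, LinearMap.zero_apply]

theorem tm_sub_left (w : D.ι) (ξ ξ' : D.Gv w → Rep.res (D.loc w) A) (y : G → B) :
    tm D β w (ξ - ξ') y = tm D β w ξ y - tm D β w ξ' y := by
  simp only [tm, map_sub, LinearMap.sub_apply]

/-- A coboundary in the first variable pairs trivially with a level-`S` cocycle. -/
theorem tm_d₀₁_left (w : D.ι) (m : A) {y : G → B} (hy : y ∈ Z1 (D.𝒰 D.S) B) :
    tm D β w ((d₀₁ (Rep.res (D.loc w) A)).hom m) y = 0 := by
  have hdy : (d₁₂ B).hom y = 0 := hy.2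
  have e1 : cup11 (β.res (D.loc w)) ((d₀₁ (Rep.res (D.loc w) A)).hom m) (res₁ D.loc B w y)
      = (d₁₂ (Rep.res (D.loc w) C)).hom (cup01 (β.res (D.loc w)) m (res₁ D.loc B w y)) := by
    rw [d₁₂_cup01, D.d₁₂_res₁, hdy, map_zero, map_zero, add_zero]
  rw [tm, e1]
  exact D.inv_B2 w _ ⟨_, cup01_mem_C1 (β.res (D.loc w)) (D.𝒰v w) m
    (D.res₁_mem_C1 D.S w hy.1), rfl⟩

variable (hB : IsDisc (D.𝒰 D.S) B)

include hB in
/-- A negligible cocycle in the first variable pairs trivially with a level-`S` cocycle. -/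
theorem tm_eq_zero_of_mem_Negl {w : D.ι} {ξ : D.Gv w → Rep.res (D.loc w) A}
    (hξ : ξ ∈ Z1 (D.𝒰v w) (Rep.res (D.loc w) A)) (hn : ξ ∈ Negl D A w) {y : G → B}
    (hy : y ∈ Z1 (D.𝒰 D.S) B) : tm D β w ξ y = 0 := by
  obtain ⟨m, hm⟩ := (mem_Negl_iff D A ξ).1 hn
  have hsplit : ξ = (d₀₁ (Rep.res (D.loc w) A)).hom m
      + (ξ - (d₀₁ (Rep.res (D.loc w) A)).hom m) := by abel
  rw [hsplit, tm_add_left, tm_d₀₁_left D β w m hy, zero_add]
  by_cases hw : w ∈ D.S
  · rw [Ur_of_mem D A hw, Submodule.mem_bot] at hm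
    rw [hm, tm_zero_left]
  · rw [Ur_of_notMem D A hw] at hm
    have hξ2 : (d₁₂ (Rep.res (D.loc w) A)).hom ξ = 0 := hξ.2
    have hcoc : (d₁₂ (Rep.res (D.loc w) A)).hom (ξ - (d₀₁ (Rep.res (D.loc w) A)).hom m) = 0 := by
      rw [map_sub, hξ2, d₀₁_comp_d₁₂_apply, sub_zero]
    have hdy : (d₁₂ B).hom y = 0 := hy.2
    have hy' : res₁ D.loc B w y ∈ Z1 (D.𝒰ur w) (Rep.res (D.loc w) B) := by
      refine ⟨D.res₁_mem_ur hw hy.1, ?_⟩
      show (d₁₂ (Rep.res (D.loc w) B)).hom (res₁ D.loc B w y) = 0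
      rw [D.d₁₂_res₁, hdy, map_zero]
    exact D.inv_cup11_ur β hB hw ⟨hm, hcoc⟩ hy'

/-- The raw bracket of a family of local cochains with a global cochain. -/
noncomputable def brkRaw (z : ∀ w, D.Gv w → Rep.res (D.loc w) A) (y : G → B) : k :=
  ∑ᶠ w, tm D β w (z w) y

include hB in
theorem support_tm_subset {z : ∀ w, D.Gv w → Rep.res (D.loc w) A} (hz : z ∈ Zfam D A)
    {y : G → B} (hy : y ∈ Z1 (D.𝒰 D.S) B) :
    Function.support (fun w => tm D β w (z w) y) ⊆ {w | z w ∉ Negl D A w} := by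
  intro w hw
  by_contra hcon
  simp only [Set.mem_ofPred_eq, not_not] at hcon
  exact hw (tm_eq_zero_of_mem_Negl D β hB (hz.1 w) hcon hy)

include hB in
theorem support_tm_finite {z : ∀ w, D.Gv w → Rep.res (D.loc w) A} (hz : z ∈ Zfam D A)
    {y : G → B} (hy : y ∈ Z1 (D.𝒰 D.S) B) :
    (Function.support (fun w => tm D β w (z w) y)).Finite :=
  hz.2.subset (support_tm_subset D β hB hz hy)

/-- The bracket on representatives, as a bilinear form. -/
noncomputable def brkL : ↥(Zfam D A) →ₗ[k] ↥(Z1 (D.𝒰 D.S) B) →ₗ[k] k :=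
  LinearMap.mk₂ k (fun z y => brkRaw D β z.1 y.1)
    (fun z z' y => by
      show ∑ᶠ w, tm D β w (z.1 w + z'.1 w) y.1 = _
      simp only [tm_add_left]
      exact finsum_add_distrib (support_tm_finite D β hB z.2 y.2)
        (support_tm_finite D β hB z'.2 y.2))
    (fun c z y => by
      show ∑ᶠ w, tm D β w (c • z.1 w) y.1 = c • ∑ᶠ w, tm D β w (z.1 w) y.1
      simp only [tm_smul_left, smul_eq_mul]
      exact (mul_finsum _ _).symm)
    (fun z y y' => by
      show ∑ᶠ w, tm D β w (z.1 w) (y.1 + y'.1) = _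
      simp only [tm_add_right]
      exact finsum_add_distrib (support_tm_finite D β hB z.2 y.2)
        (support_tm_finite D β hB z.2 y'.2))
    (fun c z y => by
      show ∑ᶠ w, tm D β w (z.1 w) (c • y.1) = c • ∑ᶠ w, tm D β w (z.1 w) y.1
      simp only [tm_smul_right, smul_eq_mul]
      exact (mul_finsum _ _).symm)

theorem brkL_apply (z : ↥(Zfam D A)) (y : ↥(Z1 (D.𝒰 D.S) B)) :
    brkL D β hB z y = brkRaw D β z.1 y.1 := rfl

include hB in
/-- A coboundary in the second variable pairs trivially with a local cocycle. -/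
theorem inv_cup11_d₀₁_right {w : D.ι} {ξ : D.Gv w → Rep.res (D.loc w) A}
    (hξ : ξ ∈ Z1 (D.𝒰v w) (Rep.res (D.loc w) A)) (m : B) :
    D.inv w (cup11 (β.res (D.loc w)) ξ ((d₀₁ (Rep.res (D.loc w) B)).hom m)) = 0 := by
  have hξ2 : (d₁₂ (Rep.res (D.loc w) A)).hom ξ = 0 := hξ.2
  have hBw : IsDisc (D.𝒰v w) (Rep.res (D.loc w) B) :=
    isDisc_res (D.𝒰 D.S) (D.𝒰v w) (D.loc w) (D.hloc D.S w) hB
  have e1 : cup11 (β.res (D.loc w)) ξ ((d₀₁ (Rep.res (D.loc w) B)).hom m)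
      = (d₁₂ (Rep.res (D.loc w) C)).hom (-(cup10 (β.res (D.loc w)) ξ m)) := by
    rw [map_neg, d₁₂_cup10, hξ2, map_zero, LinearMap.zero_apply, zero_sub, neg_neg]
  rw [e1]
  exact D.inv_B2 w _ ⟨_, Submodule.neg_mem _ (cup10_mem_C1 (β.res (D.loc w)) (D.𝒰v w) hBw hξ.1 m),
    rfl⟩

omit hB in
/-- Restriction commutes with `d₀₁`. -/
theorem res₁_d₀₁ (N : Rep.{0} k G) (w : D.ι) (m : N) :
    res₁ D.loc N w ((d₀₁ N).hom m) = (d₀₁ (Rep.res (D.loc w) N)).hom m := by
  funext g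
  simp only [res₁_apply, d₀₁_hom_apply]
  rfl

include hB in
/-- A global coboundary in the second variable pairs trivially. -/
theorem tm_d₀₁_right {w : D.ι} {ξ : D.Gv w → Rep.res (D.loc w) A}
    (hξ : ξ ∈ Z1 (D.𝒰v w) (Rep.res (D.loc w) A)) (m : B) :
    tm D β w ξ ((d₀₁ B).hom m) = 0 := by
  rw [tm, res₁_d₀₁]
  exact inv_cup11_d₀₁_right D β hB hξ m

/-- **The bracket** `J(A) × H¹(G_S, B) → k`. -/
noncomputable def brkJ : J D A →ₗ[k] H1 (D.𝒰 D.S) B →ₗ[k] k :=
  descForm (brkL D β hB) _ _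
    (fun z hz y => by
      rw [brkL_apply]
      refine finsum_eq_zero_of_forall_eq_zero fun w => ?_
      exact tm_eq_zero_of_mem_Negl D β hB (z.2.1 w) ((mem_Efam_iff D A _).1 hz w) y.2)
    (fun z y hy => by
      rw [brkL_apply]
      obtain ⟨m, hm⟩ := hy
      refine finsum_eq_zero_of_forall_eq_zero fun w => ?_
      have : y.1 = (d₀₁ B).hom m := hm.symm
      rw [this]
      exact tm_d₀₁_right D β hB (z.2.1 w) m)

theorem brkJ_mk (z : ↥(Zfam D A)) (y : ↥(Z1 (D.𝒰 D.S) B)) :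
    brkJ D β hB (Submodule.Quotient.mk z) (Submodule.Quotient.mk y) = brkRaw D β z.1 y.1 := rfl

end Bracket

/-! ### Global classes, classes supported on `S`, localisation -/

section Global

variable (N : Rep.{0} k G)

theorem Z1_mono {T T' : Finset D.ι} (h : T ⊆ T') : Z1 (D.𝒰 T) N ≤ Z1 (D.𝒰 T') N :=
  fun _ hf => ⟨D.C1_mono h N hf.1, hf.2⟩

/-- The 1-cocycles of some finite level (all of `H¹_lc`). -/
def ZL : Submodule k (G → N) where
  carrier := {κ | ∃ T : Finset D.ι, κ ∈ Z1 (D.𝒰 T) N}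
  add_mem' := by
    rintro κ κ' ⟨T, h⟩ ⟨T', h'⟩
    exact ⟨T ∪ T', Submodule.add_mem _ (Z1_mono D N Finset.subset_union_left h)
      (Z1_mono D N Finset.subset_union_right h')⟩
  zero_mem' := ⟨∅, Submodule.zero_mem _⟩
  smul_mem' := by
    rintro c κ ⟨T, h⟩
    exact ⟨T, Submodule.smul_mem _ c h⟩

/-- The family of the restrictions of a global cochain. -/
def resfam : (G → N) →ₗ[k] (∀ w, D.Gv w → Rep.res (D.loc w) N) :=
  LinearMap.pi fun w => res₁ D.loc N w

@[simp] theorem resfam_apply (κ : G → N) (w : D.ι) : resfam D N κ w = res₁ D.loc N w κ := rfl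

theorem resfam_mem_Zfam {T : Finset D.ι} {κ : G → N} (hκ : κ ∈ Z1 (D.𝒰 T) N) :
    resfam D N κ ∈ Zfam D N := by
  refine ⟨fun w => D.res₁_mem_Z1 T w hκ, (T ∪ D.S).finite_toSet.subset ?_⟩
  intro w hw
  by_contra hcon
  have hwT : w ∉ T := fun h => hcon (Finset.mem_coe.2 (Finset.mem_union_left _ h))
  have hwS : w ∉ D.S := fun h => hcon (Finset.mem_coe.2 (Finset.mem_union_right _ h))
  apply hw
  rw [mem_Negl_of_notMem D N hwS]
  refine ⟨0, ?_⟩
  rw [map_zero, sub_zero]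
  exact D.res₁_mem_ur hwT hκ.1

/-- Restriction, from cocycles of some level to `Zfam`. -/
def resZ : ↥(ZL D N) →ₗ[k] ↥(Zfam D N) :=
  ((resfam D N).domRestrict (ZL D N)).codRestrict (Zfam D N) (fun κ => by
    obtain ⟨T, h⟩ := κ.2
    exact resfam_mem_Zfam D N h)

/-- **The global classes** `Dg(N) ⊆ J(N)`. -/
def DgJ : Submodule k (J D N) :=
  LinearMap.range ((Submodule.mkQ ((Efam D N).comap (Zfam D N).subtype)) ∘ₗ resZ D N)

theorem mem_DgJ_iff (Ξ : J D N) :
    Ξ ∈ DgJ D N ↔ ∃ (T : Finset D.ι) (κ : G → N) (h : κ ∈ Z1 (D.𝒰 T) N),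
      Ξ = Submodule.Quotient.mk ⟨resfam D N κ, resfam_mem_Zfam D N h⟩ := by
  constructor
  · rintro ⟨⟨κ, T, h⟩, rfl⟩
    exact ⟨T, κ, h, rfl⟩
  · rintro ⟨T, κ, h, rfl⟩
    exact ⟨⟨κ, T, h⟩, rfl⟩

/-- The families supported on `S`. -/
def SuppS : Submodule k ↥(Zfam D N) :=
  (Submodule.pi {w | w ∉ D.S} (fun w => (⊥ : Submodule k (D.Gv w → Rep.res (D.loc w) N)))).comap
    (Zfam D N).subtype

theorem mem_SuppS_iff (z : ↥(Zfam D N)) : z ∈ SuppS D N ↔ ∀ w, w ∉ D.S → z.1 w = 0 := by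
  simp [SuppS, Submodule.mem_pi]

/-- **The classes supported on `S`**, `J_S(N) ⊆ J(N)`. -/
def JSJ : Submodule k (J D N) :=
  (SuppS D N).map (Submodule.mkQ ((Efam D N).comap (Zfam D N).subtype))

/-- Restriction, from level-`S` cocycles to `Zfam`. -/
def resS : ↥(Z1 (D.𝒰 D.S) N) →ₗ[k] ↥(Zfam D N) :=
  ((resfam D N).domRestrict (Z1 (D.𝒰 D.S) N)).codRestrict (Zfam D N) (fun y =>
    resfam_mem_Zfam D N y.2)

theorem cob_le_Negl (w : D.ι) : coboundaries₁ (Rep.res (D.loc w) N) ≤ Negl D N w := le_sup_left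

/-- **The localisation** `ι : H¹(G_S, N) → J(N)`. -/
noncomputable def iota : H1 (D.𝒰 D.S) N →ₗ[k] J D N :=
  Submodule.mapQ _ _ (resS D N) (by
    rintro y ⟨m, hm⟩
    show resfam D N y.1 ∈ Efam D N
    rw [mem_Efam_iff]
    intro w
    have : y.1 = (d₀₁ N).hom m := hm.symm
    rw [resfam_apply, this, res₁_d₀₁]
    exact cob_le_Negl D N w ⟨m, rfl⟩)

theorem iota_mk (y : ↥(Z1 (D.𝒰 D.S) N)) :
    iota D N (Submodule.Quotient.mk y) = Submodule.Quotient.mk (resS D N y) := rfl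

end Global

/-! ### The hypotheses of the linear algebra -/

section Props

variable {A B : Rep.{0} k G} (β : EqPairing A B C) (hB : IsDisc (D.𝒰 D.S) B)

/-- **[LocRight]**: at every place the right kernel of the local pairing on `H¹ × H¹` is
trivial. -/
def LocRight : Prop :=
  ∀ (w : D.ι) (η : D.Gv w → Rep.res (D.loc w) B), η ∈ Z1 (D.𝒰v w) (Rep.res (D.loc w) B) →
    (∀ ξ : D.Gv w → Rep.res (D.loc w) A, ξ ∈ Z1 (D.𝒰v w) (Rep.res (D.loc w) A) →
      D.inv w (cup11 (β.res (D.loc w)) ξ η) = 0) →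
    η ∈ coboundaries₁ (Rep.res (D.loc w) B)

/-- **[G4]**: a level-`S` class which is locally trivial at every place is trivial. -/
def G4 (N : Rep.{0} k G) : Prop :=
  ∀ y : G → N, y ∈ Z1 (D.𝒰 D.S) N →
    (∀ w, res₁ D.loc N w y ∈ coboundaries₁ (Rep.res (D.loc w) N)) → y ∈ coboundaries₁ N

include hB in
/-- **(a)**: global classes are orthogonal to the level-`S` classes (reciprocity). -/
theorem brkJ_DgJ (d : J D A) (hd : d ∈ DgJ D A) (y : H1 (D.𝒰 D.S) B) : brkJ D β hB d y = 0 := by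
  obtain ⟨T, κ, hκ, rfl⟩ := (mem_DgJ_iff D A d).1 hd
  induction y using Submodule.Quotient.induction_on with
  | _ y =>
  obtain ⟨y, hy⟩ := y
  rw [brkJ_mk]
  show ∑ᶠ w, tm D β w (res₁ D.loc A w κ) y = 0
  have hT' : D.S ⊆ T ∪ D.S := Finset.subset_union_right
  have hκ' : κ ∈ Z1 (D.𝒰 (T ∪ D.S)) A := Z1_mono D A Finset.subset_union_left hκ
  have hy' : y ∈ C1 (D.𝒰 (T ∪ D.S)) B := D.C1_mono hT' B hy.1
  have hBT : IsDisc (D.𝒰 (T ∪ D.S)) B := D.isDisc_mono hT' hB
  have hdκ : (d₁₂ A).hom κ = 0 := hκ'.2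
  have hdy : (d₁₂ B).hom y = 0 := hy.2
  have hz : cup11 β κ y ∈ Z2 (D.𝒰 (T ∪ D.S)) C := by
    refine ⟨cup11_mem_C2 β (D.𝒰 (T ∪ D.S)) hBT hκ'.1 hy', ?_⟩
    show (d₂₃ C).hom (cup11 β κ y) = 0
    rw [d₂₃_cup11, hdκ, hdy, map_zero, map_zero, LinearMap.zero_apply, sub_zero]
  have hterm : ∀ w, tm D β w (res₁ D.loc A w κ) y = D.inv w (res₂ D.loc C w (cup11 β κ y)) := by
    intro w
    rw [tm, D.cup11_res]
  simp only [hterm]
  rw [finsum_eq_sum_of_support_subset (s := T ∪ D.S)]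
  · exact D.REC (T ∪ D.S) hT' _ hz
  · intro w hw
    by_contra hcon
    have hwS : w ∉ D.S := fun h => hcon (Finset.mem_coe.2 (Finset.mem_union_right _ h))
    apply hw
    refine D.UR w hwS _ ⟨D.res₂_mem_ur (fun h => hcon (Finset.mem_coe.2 h)) hz.1, ?_⟩
    have h3 : (d₂₃ C).hom (cup11 β κ y) = 0 := hz.2
    show (d₂₃ (Rep.res (D.loc w) C)).hom (res₂ D.loc C w (cup11 β κ y)) = 0
    rw [D.d₂₃_res₂, h3, map_zero]

/-- A family concentrated at one place. -/
theorem single_mem_Zfam (N : Rep.{0} k G) (w : D.ι) {ξ : D.Gv w → Rep.res (D.loc w) N}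
    (hξ : ξ ∈ Z1 (D.𝒰v w) (Rep.res (D.loc w) N)) :
    (Pi.single w ξ : ∀ w', D.Gv w' → Rep.res (D.loc w') N) ∈ Zfam D N := by
  refine ⟨fun w' => ?_, (Set.finite_singleton w).subset ?_⟩
  · by_cases h : w' = w
    · subst h
      rw [Pi.single_eq_same]
      exact hξ
    · rw [Pi.single_eq_of_ne h]
      exact Submodule.zero_mem _
  · intro w' hw'
    by_contra hcon
    apply hw'
    rw [Pi.single_eq_of_ne hcon]
    exact Submodule.zero_mem _

theorem brkRaw_single (w : D.ι) (ξ : D.Gv w → Rep.res (D.loc w) A) (y : G → B) :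
    brkRaw D β (Pi.single w ξ) y = tm D β w ξ y := by
  rw [brkRaw, finsum_eq_single _ w]
  · rw [Pi.single_eq_same]
  · intro w' hw'
    rw [Pi.single_eq_of_ne hw', tm_zero_left]

include hB in
/-- **(b)**: the right kernel of the bracket is trivial. -/
theorem brkJ_right_kernel (hLoc : LocRight D β) (hG4 : G4 D B) (y : H1 (D.𝒰 D.S) B)
    (h : ∀ Ξ, brkJ D β hB Ξ y = 0) : y = 0 := by
  induction y using Submodule.Quotient.induction_on with
  | _ y =>
  obtain ⟨y, hy⟩ := y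
  rw [Submodule.Quotient.mk_eq_zero]
  show y ∈ coboundaries₁ B
  refine hG4 y hy fun w => hLoc w _ (D.res₁_mem_Z1 D.S w hy) fun ξ hξ => ?_
  have h1 := h (Submodule.Quotient.mk ⟨Pi.single w ξ, single_mem_Zfam D A w hξ⟩)
  rw [brkJ_mk] at h1
  have h2 : brkRaw D β (Pi.single w ξ) y = tm D β w ξ y := brkRaw_single D β w ξ y
  rw [h2] at h1
  exact h1

/-- A class which is negligible outside `S` is supported on `S`. -/
theorem mk_mem_JSJ (N : Rep.{0} k G) (z : ↥(Zfam D N))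
    (h : ∀ w, w ∉ D.S → z.1 w ∈ Negl D N w) :
    (Submodule.Quotient.mk z : J D N) ∈ JSJ D N := by
  classical
  have hz : (fun w => if w ∈ D.S then z.1 w else 0 :
      ∀ w, D.Gv w → Rep.res (D.loc w) N) ∈ Zfam D N := by
    refine ⟨fun w => ?_, D.S.finite_toSet.subset ?_⟩
    · by_cases hw : w ∈ D.S
      · simp only [if_pos hw]
        exact z.2.1 w
      · simp only [if_neg hw]
        exact Submodule.zero_mem _
    · intro w hw
      by_contra hcon
      apply hw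
      have hwS : w ∉ D.S := fun h => hcon (Finset.mem_coe.2 h)
      simp only [if_neg hwS]
      exact Submodule.zero_mem _
  refine ⟨⟨_, hz⟩, ?_, ?_⟩
  · rw [SetLike.mem_coe, mem_SuppS_iff]
    intro w hw
    show (if w ∈ D.S then z.1 w else 0) = 0
    rw [if_neg hw]
  · rw [Submodule.mkQ_apply, Submodule.Quotient.eq]
    show (fun w => if w ∈ D.S then z.1 w else 0) - z.1 ∈ Efam D N
    rw [mem_Efam_iff]
    intro w
    by_cases hw : w ∈ D.S
    · have : ((fun w => if w ∈ D.S then z.1 w else 0) - z.1) w = 0 := by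
        show (if w ∈ D.S then z.1 w else 0) - z.1 w = 0
        rw [if_pos hw, sub_self]
      rw [this]
      exact Submodule.zero_mem _
    · have : ((fun w => if w ∈ D.S then z.1 w else 0) - z.1) w = -(z.1 w) := by
        show (if w ∈ D.S then z.1 w else 0) - z.1 w = _
        rw [if_neg hw, zero_sub]
      rw [this]
      exact Submodule.neg_mem _ (h w hw)

/-- The restriction of a level-`S` cocycle is negligible outside `S`. -/
theorem res₁_mem_Negl (N : Rep.{0} k G) {y : G → N} (hy : y ∈ C1 (D.𝒰 D.S) N) {w : D.ι}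
    (hw : w ∉ D.S) : res₁ D.loc N w y ∈ Negl D N w := by
  rw [mem_Negl_of_notMem D N hw]
  refine ⟨0, ?_⟩
  rw [map_zero, sub_zero]
  exact D.res₁_mem_ur hw hy

/-- The family of restrictions of a level-`S` cocycle is supported on `S`. -/
theorem resS_mem_JSJ (N : Rep.{0} k G) (y : ↥(Z1 (D.𝒰 D.S) N)) :
    (Submodule.Quotient.mk (resS D N y) : J D N) ∈ JSJ D N :=
  mk_mem_JSJ D N _ fun _ hw => res₁_mem_Negl D N y.2.1 hw

/-- The level-`S` classes are global classes supported on `S`. -/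
theorem range_iota_le (N : Rep.{0} k G) :
    LinearMap.range (iota D N) ≤ DgJ D N ⊓ JSJ D N := by
  rintro _ ⟨y, rfl⟩
  induction y using Submodule.Quotient.induction_on with
  | _ y =>
  rw [iota_mk]
  exact ⟨(mem_DgJ_iff D N _).2 ⟨D.S, y.1, y.2, rfl⟩, resS_mem_JSJ D N y⟩

/-- `ι y = 0` means that `y` is locally trivial at the places of `S`. -/
theorem iota_eq_zero_iff (N : Rep.{0} k G) (y : ↥(Z1 (D.𝒰 D.S) N)) :
    iota D N (Submodule.Quotient.mk y) = 0 ↔
      ∀ w ∈ D.S, ∃ m : N, res₁ D.loc N w y.1 = (d₀₁ (Rep.res (D.loc w) N)).hom m := by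
  rw [iota_mk, Submodule.Quotient.mk_eq_zero]
  show resfam D N y.1 ∈ Efam D N ↔ _
  rw [mem_Efam_iff]
  constructor
  · intro h w hw
    exact (mem_Negl_of_mem D N hw _).1 (h w)
  · intro h w
    by_cases hw : w ∈ D.S
    · exact (mem_Negl_of_mem D N hw _).2 (h w hw)
    · rw [mem_Negl_of_notMem D N hw]
      refine ⟨0, ?_⟩
      rw [map_zero, sub_zero]
      exact D.res₁_mem_ur hw y.2.1

include hB in
/-- **(S)**: the `J_S`-part of the bracket only sees the localisation at `S`. -/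
theorem brkJ_JSJ (y : H1 (D.𝒰 D.S) B) (hy : iota D B y = 0) (ξ : J D A) (hξ : ξ ∈ JSJ D A) :
    brkJ D β hB ξ y = 0 := by
  induction y using Submodule.Quotient.induction_on with
  | _ y =>
  obtain ⟨z, hz, rfl⟩ := hξ
  rw [SetLike.mem_coe, mem_SuppS_iff] at hz
  rw [Submodule.mkQ_apply, brkJ_mk]
  have hloc := (iota_eq_zero_iff D B y).1 hy
  refine finsum_eq_zero_of_forall_eq_zero fun w => ?_
  by_cases hw : w ∈ D.S
  · obtain ⟨m, hm⟩ := hloc w hw
    rw [tm, hm]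
    exact inv_cup11_d₀₁_right D β hB (z.2.1 w) m
  · rw [hz w hw, tm_zero_left]

end Props

/-! ### Counting `J_S` -/

section Count

variable (N : Rep.{0} k G)

/-- The local `H¹` at `v ∈ S` (a `def` with explicit instances: instance search under binders
does not see through `Rep.res`). -/
def HS1 (D : Datum k G C) (N : Rep.{0} k G) (v : ↥D.S) : Type :=
  H1 (D.𝒰v v) (Rep.res (D.loc v) N)

noncomputable instance instAddCommGroupHS1 (v : ↥D.S) : AddCommGroup (HS1 D N v) :=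
  inferInstanceAs (AddCommGroup (H1 (D.𝒰v v) (Rep.res (D.loc v) N)))

noncomputable instance instModuleHS1 (v : ↥D.S) : Module k (HS1 D N v) :=
  inferInstanceAs (Module k (H1 (D.𝒰v v) (Rep.res (D.loc v) N)))

/-- The classes of the components at the places of `S`. -/
noncomputable def locZ : ↥(Zfam D N) →ₗ[k] ∀ v : ↥D.S, HS1 D N v :=
  LinearMap.pi fun v =>
    ({ toFun := fun z => (Submodule.Quotient.mk ⟨z.1 v, z.2.1 v⟩ :
          H1 (D.𝒰v v) (Rep.res (D.loc v) N))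
       map_add' := fun _ _ => rfl
       map_smul' := fun _ _ => rfl } : ↥(Zfam D N) →ₗ[k] HS1 D N v)

theorem locZ_apply (z : ↥(Zfam D N)) (v : ↥D.S) :
    locZ D N z v = (Submodule.Quotient.mk ⟨z.1 v, z.2.1 v⟩ :
      H1 (D.𝒰v v) (Rep.res (D.loc v) N)) := rfl

theorem locZ_eq_zero_iff (z : ↥(Zfam D N)) :
    locZ D N z = 0 ↔ ∀ v : ↥D.S, z.1 v ∈ coboundaries₁ (Rep.res (D.loc v) N) := by
  constructor
  · intro h v
    have h1 : (Submodule.Quotient.mk ⟨z.1 v, z.2.1 v⟩ :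
        H1 (D.𝒰v v) (Rep.res (D.loc v) N)) = 0 := congrFun h v
    rw [Submodule.Quotient.mk_eq_zero] at h1
    exact h1
  · intro h
    funext v
    show (Submodule.Quotient.mk ⟨z.1 v, z.2.1 v⟩ :
        H1 (D.𝒰v v) (Rep.res (D.loc v) N)) = 0
    rw [Submodule.Quotient.mk_eq_zero]
    exact h v

/-- The localisation at `S` on `J(N)`. -/
noncomputable def locJ : J D N →ₗ[k] ∀ v : ↥D.S, HS1 D N v :=
  Submodule.liftQ _ (locZ D N) (by
    intro z hz
    rw [LinearMap.mem_ker, locZ_eq_zero_iff]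
    intro v
    obtain ⟨m, hm⟩ := (mem_Negl_of_mem D N v.2 _).1 ((mem_Efam_iff D N _).1 hz v)
    exact ⟨m, hm.symm⟩)

theorem locJ_mk (z : ↥(Zfam D N)) : locJ D N (Submodule.Quotient.mk z) = locZ D N z := rfl

theorem eq_zero_of_locJ_eq_zero (Ξ : J D N) (hΞ : Ξ ∈ JSJ D N) (h : locJ D N Ξ = 0) : Ξ = 0 := by
  obtain ⟨z, hz, rfl⟩ := hΞ
  rw [SetLike.mem_coe, mem_SuppS_iff] at hz
  rw [Submodule.mkQ_apply, locJ_mk, locZ_eq_zero_iff] at h
  rw [Submodule.mkQ_apply, Submodule.Quotient.mk_eq_zero]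
  show z.1 ∈ Efam D N
  rw [mem_Efam_iff]
  intro w
  by_cases hw : w ∈ D.S
  · exact cob_le_Negl D N w (h ⟨w, hw⟩)
  · rw [hz w hw]
    exact Submodule.zero_mem _

/-- **(c1) for the model**: `J_S(N)` is finite-dimensional of dimension at most the sum of the
dimensions of the local `H¹` at the places of `S`. -/
theorem finrank_JSJ_le
    (hfin : ∀ v : ↥D.S, Module.Finite k (H1 (D.𝒰v v) (Rep.res (D.loc v) N))) :
    Module.Finite k ↥(JSJ D N) ∧ Module.finrank k ↥(JSJ D N)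
      ≤ ∑ v : ↥D.S, Module.finrank k (H1 (D.𝒰v v) (Rep.res (D.loc v) N)) := by
  have : ∀ v : ↥D.S, Module.Finite k (HS1 D N v) := hfin
  have hinj : Function.Injective ((locJ D N) ∘ₗ (JSJ D N).subtype) := by
    rw [injective_iff_map_eq_zero]
    intro Ξ hΞ
    exact Subtype.ext (eq_zero_of_locJ_eq_zero D N Ξ.1 Ξ.2 hΞ)
  refine ⟨Module.Finite.of_injective _ hinj, ?_⟩
  have h1 := LinearMap.finrank_le_finrank_of_injective hinj
  have h2 : Module.finrank k (∀ v : ↥D.S, HS1 D N v)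
      = ∑ v : ↥D.S, Module.finrank k (HS1 D N v) := Module.finrank_pi_fintype k
  rw [h2] at h1
  exact h1

end Count

/-! ### The linear algebra, instantiated -/

section Main

variable {A B : Rep.{0} k G} (β : EqPairing A B C) (β' : EqPairing B A C)
  (hA : IsDisc (D.𝒰 D.S) A) (hB : IsDisc (D.𝒰 D.S) B)

include hA in
/-- **The two-orientation linear algebra `LAQ.la_two_sides` for the model** (conclusions for the
orientation `J(A) × H¹(G_S, B)`): `Dg(A)` is exactly the left kernel, every functional on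
`H¹(G_S, B)` is a bracket, and `Dg(A) + J_S(A)` is the orthogonal of the classes of `H¹(G_S, B)`
which are locally trivial at `S`. -/
theorem la_inst (hLoc : LocRight D β) (hLoc' : LocRight D β') (hG4 : G4 D B) (hG4' : G4 D A)
    (hfinA : ∀ v : ↥D.S, Module.Finite k (H1 (D.𝒰v v) (Rep.res (D.loc v) A)))
    (hfinB : ∀ v : ↥D.S, Module.Finite k (H1 (D.𝒰v v) (Rep.res (D.loc v) B)))
    [Module.Finite k (H1 (D.𝒰 D.S) A)] [Module.Finite k (H1 (D.𝒰 D.S) B)]
    [Module.Finite k (J D A ⧸ (DgJ D A ⊔ JSJ D A))] [Module.Finite k (J D B ⧸ (DgJ D B ⊔ JSJ D B))]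
    (Acnt Bd c : ℕ)
    (hc1 : ∑ v : ↥D.S, Module.finrank k (H1 (D.𝒰v v) (Rep.res (D.loc v) A)) ≤ Acnt)
    (hc1' : ∑ v : ↥D.S, Module.finrank k (H1 (D.𝒰v v) (Rep.res (D.loc v) B)) ≤ Acnt)
    (hc3 : Bd ≤ Module.finrank k (H1 (D.𝒰 D.S) A))
    (hc3' : Bd ≤ Module.finrank k (H1 (D.𝒰 D.S) B))
    (hc4 : Module.finrank k (J D A ⧸ (DgJ D A ⊔ JSJ D A)) ≤ c)
    (hc4' : Module.finrank k (J D B ⧸ (DgJ D B ⊔ JSJ D B)) ≤ c)
    (hcount : Acnt + 2 * c ≤ 2 * Bd) :
    (∀ Ξ : J D A, (∀ y, brkJ D β hB Ξ y = 0) ↔ Ξ ∈ DgJ D A) ∧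
    (∀ φ : H1 (D.𝒰 D.S) B →ₗ[k] k, ∃ Ξ : J D A, brkJ D β hB Ξ = φ) ∧
    (∀ Ξ : J D A, (∀ y, iota D B y = 0 → brkJ D β hB Ξ y = 0) ↔ Ξ ∈ DgJ D A ⊔ JSJ D A) := by
  obtain ⟨hfA, hrA⟩ := finrank_JSJ_le D A hfinA
  obtain ⟨hfB, hrB⟩ := finrank_JSJ_le D B hfinB
  have h := (LAQ.la_two_sides (brkJ D β hB) (brkJ D β' hA) (DgJ D A) (JSJ D A) (DgJ D B) (JSJ D B)
    (iota D A) (iota D B)
    (fun d hd y => brkJ_DgJ D β hB d hd y) (fun d hd y => brkJ_DgJ D β' hA d hd y)
    (fun y hy => brkJ_right_kernel D β hB hLoc hG4 y hy)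
    (fun y hy => brkJ_right_kernel D β' hA hLoc' hG4' y hy)
    (range_iota_le D A) (range_iota_le D B)
    (fun y hy ξ hξ => brkJ_JSJ D β hB y hy ξ hξ) (fun y hy ξ hξ => brkJ_JSJ D β' hA y hy ξ hξ)
    Acnt Bd c (hrA.trans hc1) (hrB.trans hc1') hc3 hc3' hc4 hc4' hcount).1
  exact ⟨h.1, h.2.1, h.2.2.1⟩

/-! ### Representative form -/

/-- The family glued from local cocycles `zS v` at the places of `S` and `z w` at the places of
`T \ S` (zero elsewhere). -/
noncomputable def glue (T : Finset D.ι) (zS : ∀ v : ↥D.S, D.Gv v → Rep.res (D.loc v) A)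
    (z : ∀ w, D.Gv w → Rep.res (D.loc w) A) : ∀ w, D.Gv w → Rep.res (D.loc w) A :=
  fun w => if h : w ∈ D.S then zS ⟨w, h⟩ else if w ∈ T then z w else 0

omit hA in
theorem glue_of_mem (T : Finset D.ι) (zS : ∀ v : ↥D.S, D.Gv v → Rep.res (D.loc v) A)
    (z : ∀ w, D.Gv w → Rep.res (D.loc w) A) (v : ↥D.S) : glue D T zS z v = zS v := by
  unfold glue
  rw [dif_pos v.2]

omit hA in
theorem glue_of_mem_sdiff (T : Finset D.ι) (zS : ∀ v : ↥D.S, D.Gv v → Rep.res (D.loc v) A)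
    (z : ∀ w, D.Gv w → Rep.res (D.loc w) A) {w : D.ι} (hw : w ∈ T \ D.S) :
    glue D T zS z w = z w := by
  unfold glue
  rw [dif_neg (Finset.mem_sdiff.1 hw).2, if_pos (Finset.mem_sdiff.1 hw).1]

omit hA in
theorem glue_of_notMem (T : Finset D.ι) (zS : ∀ v : ↥D.S, D.Gv v → Rep.res (D.loc v) A)
    (z : ∀ w, D.Gv w → Rep.res (D.loc w) A) {w : D.ι} (hwS : w ∉ D.S) (hwT : w ∉ T) :
    glue D T zS z w = 0 := by
  unfold glue
  rw [dif_neg hwS, if_neg hwT]

omit hA in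
theorem glue_mem_Zfam (T : Finset D.ι) (zS : ∀ v : ↥D.S, D.Gv v → Rep.res (D.loc v) A)
    (hzS : ∀ v : ↥D.S, zS v ∈ Z1 (D.𝒰v v) (Rep.res (D.loc v) A))
    (z : ∀ w, D.Gv w → Rep.res (D.loc w) A)
    (hz : ∀ w ∈ T, w ∉ D.S → z w ∈ Z1 (D.𝒰v w) (Rep.res (D.loc w) A)) :
    glue D T zS z ∈ Zfam D A := by
  refine ⟨fun w => ?_, (T ∪ D.S).finite_toSet.subset ?_⟩
  · by_cases hwS : w ∈ D.S
    · have := glue_of_mem D T zS z ⟨w, hwS⟩
      rw [this]
      exact hzS ⟨w, hwS⟩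
    · by_cases hwT : w ∈ T
      · rw [glue_of_mem_sdiff D T zS z (Finset.mem_sdiff.2 ⟨hwT, hwS⟩)]
        exact hz w hwT hwS
      · rw [glue_of_notMem D T zS z hwS hwT]
        exact Submodule.zero_mem _
  · intro w hw
    by_contra hcon
    have hwT : w ∉ T := fun h => hcon (Finset.mem_coe.2 (Finset.mem_union_left _ h))
    have hwS : w ∉ D.S := fun h => hcon (Finset.mem_coe.2 (Finset.mem_union_right _ h))
    apply hw
    rw [glue_of_notMem D T zS z hwS hwT]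
    exact Submodule.zero_mem _

/-- The bracket on representatives: the sum over `S` plus the sum over `T \ S`. -/
noncomputable def brkT (T : Finset D.ι) (zS : ∀ v : ↥D.S, D.Gv v → Rep.res (D.loc v) A)
    (z : ∀ w, D.Gv w → Rep.res (D.loc w) A) (y : G → B) : k :=
  ∑ v : ↥D.S, D.inv v (cup11 (β.res (D.loc v)) (zS v) (res₁ D.loc B v y))
    + ∑ w ∈ T \ D.S, D.inv w (cup11 (β.res (D.loc w)) (z w) (res₁ D.loc B w y))

omit hA in
theorem brkRaw_glue (T : Finset D.ι) (hT : D.S ⊆ T)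
    (zS : ∀ v : ↥D.S, D.Gv v → Rep.res (D.loc v) A) (z : ∀ w, D.Gv w → Rep.res (D.loc w) A)
    (y : G → B) : brkRaw D β (glue D T zS z) y = brkT D β T zS z y := by
  rw [brkRaw, finsum_eq_sum_of_support_subset (s := T)]
  · rw [← Finset.sum_sdiff hT, brkT, add_comm]
    congr 1
    · rw [← Finset.sum_coe_sort D.S]
      refine Finset.sum_congr rfl fun v _ => ?_
      rw [glue_of_mem D T zS z v]
      rfl
    · refine Finset.sum_congr rfl fun w hw => ?_
      rw [glue_of_mem_sdiff D T zS z hw]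
      rfl
  · intro w hw
    by_contra hcon
    have hwT : w ∉ T := fun h => hcon (Finset.mem_coe.2 h)
    apply hw
    show tm D β w (glue D T zS z w) y = 0
    rw [glue_of_notMem D T zS z (fun h => hwT (hT h)) hwT, tm_zero_left]

include hA hB in
/-- **`DgPerp`** (`V(B)^⊥ ⊆ Dg(A)`, representative form): local cocycles `zS v` (`v ∈ S`), `z w`
(`w ∈ T \ S`) whose bracket with every level-`S` cocycle of `B` vanishes come from a global
cocycle `c` of `A` (of some level `T' ⊇ T`): `res_v c ~ zS v` at `S`, `res_w c ~ z w` modulo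
unramified cochains on `T \ S`, and `res_w c` unramified modulo coboundaries on `T' \ T`. -/
theorem dgPerp (hLoc : LocRight D β) (hLoc' : LocRight D β') (hG4 : G4 D B) (hG4' : G4 D A)
    (hfinA : ∀ v : ↥D.S, Module.Finite k (H1 (D.𝒰v v) (Rep.res (D.loc v) A)))
    (hfinB : ∀ v : ↥D.S, Module.Finite k (H1 (D.𝒰v v) (Rep.res (D.loc v) B)))
    [Module.Finite k (H1 (D.𝒰 D.S) A)] [Module.Finite k (H1 (D.𝒰 D.S) B)]
    [Module.Finite k (J D A ⧸ (DgJ D A ⊔ JSJ D A))] [Module.Finite k (J D B ⧸ (DgJ D B ⊔ JSJ D B))]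
    (Acnt Bd c : ℕ)
    (hc1 : ∑ v : ↥D.S, Module.finrank k (H1 (D.𝒰v v) (Rep.res (D.loc v) A)) ≤ Acnt)
    (hc1' : ∑ v : ↥D.S, Module.finrank k (H1 (D.𝒰v v) (Rep.res (D.loc v) B)) ≤ Acnt)
    (hc3 : Bd ≤ Module.finrank k (H1 (D.𝒰 D.S) A))
    (hc3' : Bd ≤ Module.finrank k (H1 (D.𝒰 D.S) B))
    (hc4 : Module.finrank k (J D A ⧸ (DgJ D A ⊔ JSJ D A)) ≤ c)
    (hc4' : Module.finrank k (J D B ⧸ (DgJ D B ⊔ JSJ D B)) ≤ c)
    (hcount : Acnt + 2 * c ≤ 2 * Bd)
    (T : Finset D.ι) (hT : D.S ⊆ T)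
    (zS : ∀ v : ↥D.S, D.Gv v → Rep.res (D.loc v) A)
    (hzS : ∀ v : ↥D.S, zS v ∈ Z1 (D.𝒰v v) (Rep.res (D.loc v) A))
    (z : ∀ w, D.Gv w → Rep.res (D.loc w) A)
    (hz : ∀ w ∈ T, w ∉ D.S → z w ∈ Z1 (D.𝒰v w) (Rep.res (D.loc w) A))
    (h : ∀ y : G → B, y ∈ Z1 (D.𝒰 D.S) B → brkT D β T zS z y = 0) :
    ∃ T' : Finset D.ι, T ⊆ T' ∧ ∃ c : G → A, c ∈ Z1 (D.𝒰 T') A ∧
      (∀ v : ↥D.S, ∃ m : A, res₁ D.loc A v c - zS v = (d₀₁ (Rep.res (D.loc v) A)).hom m) ∧
      (∀ w ∈ T \ D.S, ∃ m : A, res₁ D.loc A w c - z w - (d₀₁ (Rep.res (D.loc w) A)).hom m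
        ∈ C1 (D.𝒰ur w) (Rep.res (D.loc w) A)) ∧
      (∀ w ∈ T' \ T, ∃ m : A, res₁ D.loc A w c - (d₀₁ (Rep.res (D.loc w) A)).hom m
        ∈ C1 (D.𝒰ur w) (Rep.res (D.loc w) A)) := by
  obtain ⟨hd, -, -⟩ := la_inst D β β' hA hB hLoc hLoc' hG4 hG4' hfinA hfinB Acnt Bd c hc1 hc1'
    hc3 hc3' hc4 hc4' hcount
  have hZ := glue_mem_Zfam D T zS hzS z hz
  have hmem : (Submodule.Quotient.mk ⟨glue D T zS z, hZ⟩ : J D A) ∈ DgJ D A := by
    refine (hd _).1 fun y => ?_
    induction y using Submodule.Quotient.induction_on with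
    | _ y =>
    rw [brkJ_mk, brkRaw_glue D β T hT zS z y.1]
    exact h y.1 y.2
  obtain ⟨T₀, κ, hκ, hΞ⟩ := (mem_DgJ_iff D A _).1 hmem
  have hE' := (Submodule.Quotient.eq _).1 hΞ
  have hE : glue D T zS z - resfam D A κ ∈ Efam D A := hE'
  rw [mem_Efam_iff] at hE
  refine ⟨T ∪ T₀, Finset.subset_union_left, κ, Z1_mono D A Finset.subset_union_right hκ,
    fun v => ?_, fun w hw => ?_, fun w hw => ?_⟩
  · have h1 := hE v
    have h2 : (glue D T zS z - resfam D A κ) v = zS v - res₁ D.loc A v κ := by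
      show glue D T zS z v - res₁ D.loc A v κ = _
      rw [glue_of_mem D T zS z v]
    rw [h2, mem_Negl_of_mem D A v.2] at h1
    obtain ⟨m, hm⟩ := h1
    refine ⟨-m, ?_⟩
    rw [map_neg, ← hm]
    abel
  · have hwS : w ∉ D.S := (Finset.mem_sdiff.1 hw).2
    have h1 := hE w
    have h2 : (glue D T zS z - resfam D A κ) w = z w - res₁ D.loc A w κ := by
      show glue D T zS z w - res₁ D.loc A w κ = _
      rw [glue_of_mem_sdiff D T zS z hw]
    rw [h2, mem_Negl_of_notMem D A hwS] at h1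
    obtain ⟨m, hm⟩ := h1
    refine ⟨-m, ?_⟩
    have : res₁ D.loc A w κ - z w - (d₀₁ (Rep.res (D.loc w) A)).hom (-m)
        = -(z w - res₁ D.loc A w κ - (d₀₁ (Rep.res (D.loc w) A)).hom m) := by
      rw [map_neg]; abel
    rw [this]
    exact Submodule.neg_mem _ hm
  · have hwT : w ∉ T := (Finset.mem_sdiff.1 hw).2
    have hwS : w ∉ D.S := fun h => hwT (hT h)
    have h1 := hE w
    have h2 : (glue D T zS z - resfam D A κ) w = -(res₁ D.loc A w κ) := by
      show glue D T zS z w - res₁ D.loc A w κ = _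
      rw [glue_of_notMem D T zS z hwS hwT, zero_sub]
    rw [h2, mem_Negl_of_notMem D A hwS] at h1
    obtain ⟨m, hm⟩ := h1
    refine ⟨-m, ?_⟩
    have : res₁ D.loc A w κ - (d₀₁ (Rep.res (D.loc w) A)).hom (-m)
        = -(-(res₁ D.loc A w κ) - (d₀₁ (Rep.res (D.loc w) A)).hom m) := by
      rw [map_neg]; abel
    rw [this]
    exact Submodule.neg_mem _ hm

end Main

end Fermat.Agent.S55.Base.AsmJ
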