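/-
S55 / PROGRAM CFT, base case: the `DgPerp` input of the `a2mono` core (`Base/AsmCore`) from the
two-orientation linear algebra on the model `J(N)` of `Base/AsmJ` (helper26).

`dgPerp_core` is `AsmJ.dgPerp` restated against the literal `AsmCore.DgPerp D β`.
-/
import Fermat.Agent.S55.Base.AsmJ
import Fermat.Agent.S55.Base.AsmCore

set_option autoImplicit false

open CategoryTheory groupCohomology

namespace Fermat.Agent.S55.Base.AsmJ

open Fermat.Agent.S55.Abs Fermat.Agent.S55.Base.Eval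

variable {k G : Type} [Field k] [Group G] {C : Rep.{0} k G} (D : Eval.Datum k G C)
  {A B : Rep.{0} k G} (β : EqPairing A B C) (β' : EqPairing B A C)

/-- **`AsmCore.DgPerp`** from local right-nondegeneracy at all places (`LocRight`, both
orientations), global injectivity (`G4`, both modules) and the counts (c1), (c3), (c4). -/
theorem dgPerp_core (hA : IsDisc (D.𝒰 D.S) A) (hB : IsDisc (D.𝒰 D.S) B)
    (hLoc : LocRight D β) (hLoc' : LocRight D β') (hG4 : G4 D B) (hG4' : G4 D A)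
    (hfinA : ∀ v : ↥D.S, Module.Finite k (H1 (D.𝒰v v) (Rep.res (D.loc v) A)))
    (hfinB : ∀ v : ↥D.S, Module.Finite k (H1 (D.𝒰v v) (Rep.res (D.loc v) B)))
    [Module.Finite k (H1 (D.𝒰 D.S) A)] [Module.Finite k (H1 (D.𝒰 D.S) B)]
    [Module.Finite k (J D A ⧸ (DgJ D A ⊔ JSJ D A))] [Module.Finite k (J D B ⧸ (DgJ D B ⊔ JSJ D B))]
    (Acnt Bd c : ℕ)
    (hc1 : ∑ v : ↥D.S, Module.finrank k (H1 (D.𝒰v v) (Rep.res (D.loc v) A)) ≤ Acnt)
    (hc1' : ∑ v : ↥D.S, Module.finrank k (H1 (D.𝒰v v) (Rep.res (D.loc v) B)) ≤ Acnt)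
    (hc3 : Bd ≤ Module.finrank k (H1 (D.𝒰 D.S) A))
    (hc3' : Bd ≤ Module.finrank k (H1 (D.𝒰 D.S) B))
    (hc4 : Module.finrank k (J D A ⧸ (DgJ D A ⊔ JSJ D A)) ≤ c)
    (hc4' : Module.finrank k (J D B ⧸ (DgJ D B ⊔ JSJ D B)) ≤ c)
    (hcount : Acnt + 2 * c ≤ 2 * Bd) :
    AsmCore.DgPerp D β :=
  fun T hT zS z hzS hz h =>
    dgPerp D β β' hA hB hLoc hLoc' hG4 hG4' hfinA hfinB Acnt Bd c hc1 hc1' hc3 hc3' hc4 hc4'
      hcount T hT zS hzS z hz h

end Fermat.Agent.S55.Base.AsmJ
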