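/-
S55 / PROGRAM CFT, base case, Q-side form (helper257; task 316, ASM half).

Small linear-algebra helpers for `Base/Assemble.lean` (the two-orientation count itself is
helper185's `Base/AssembleLA.lean`):

* `finite_of_nondeg`, `finite_of_ker_of_range_le`, `finite_V` : finite-dimensionality of the
  level-`S` classes `V` is FREE (no input (c0) needed): `Ш¹` embeds into the dual of the finite
  `J'/(Dg' + JS')` and `V/Ш¹` embeds into the finite `JS`;
* `pairMono_of_rel`, `pairEpi_of_rel`, `rel_surj_of_cap`, `rightKer_of_rel`,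
  `pairEpi_of_rightKer`, `finite_of_ker_cover` : the "Base interface" of
  `notes/helper3/S55_base_Q.md` for abstract pairings related to the bracket through a RELATION
  `R x ξ` ("`ξ` is a value of `Ξ(x)`"), so that `Ξ` never has to be made a linear map.
-/
import Fermat.Agent.S55.Base.IdeleLA
import Fermat.Agent.S55.Abs.FourLemma

set_option autoImplicit false

namespace Fermat.Agent.S55.Base.AsmRel

open Module Fermat.Agent.S55.Abs

variable {k : Type*} [Field k]

section Gen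

variable {J W : Type*} [AddCommGroup J] [Module k J] [AddCommGroup W] [Module k W]

/-- The map `W → (J ⧸ D)^*` induced by a pairing `br : J × W → k` which kills `D`. -/
noncomputable def dualQ (br : J →ₗ[k] W →ₗ[k] k) (D : Submodule k J)
    (h : ∀ d ∈ D, ∀ y, br d y = 0) : W →ₗ[k] Dual k (J ⧸ D) :=
  (D.liftQ br (fun d hd => LinearMap.mem_ker.2 (LinearMap.ext (h d hd)))).flip

@[simp] theorem dualQ_mk (br : J →ₗ[k] W →ₗ[k] k) (D : Submodule k J)
    (h : ∀ d ∈ D, ∀ y, br d y = 0) (y : W) (ξ : J) :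
    dualQ br D h y (Submodule.Quotient.mk ξ) = br ξ y := rfl

theorem dualQ_injective (br : J →ₗ[k] W →ₗ[k] k) (D : Submodule k J)
    (h : ∀ d ∈ D, ∀ y, br d y = 0) (hb : ∀ y, (∀ ξ, br ξ y = 0) → y = 0) :
    Function.Injective (dualQ br D h) := by
  rw [← LinearMap.ker_eq_bot, Submodule.eq_bot_iff]
  intro y hy
  rw [LinearMap.mem_ker] at hy
  apply hb y
  intro ξ
  have := congrArg (fun f => f (Submodule.Quotient.mk ξ)) hy
  simpa using this

/-- A right-nondegenerate pairing killing `D` with `J ⧸ D` finite: `W` is finite. -/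
theorem finite_of_nondeg (br : J →ₗ[k] W →ₗ[k] k) (D : Submodule k J)
    (h : ∀ d ∈ D, ∀ y, br d y = 0) (hb : ∀ y, (∀ ξ, br ξ y = 0) → y = 0)
    [FiniteDimensional k (J ⧸ D)] : FiniteDimensional k W :=
  FiniteDimensional.of_injective (dualQ br D h) (dualQ_injective br D h hb)

theorem finrank_le_of_nondeg (br : J →ₗ[k] W →ₗ[k] k) (D : Submodule k J)
    (h : ∀ d ∈ D, ∀ y, br d y = 0) (hb : ∀ y, (∀ ξ, br ξ y = 0) → y = 0)
    [FiniteDimensional k (J ⧸ D)] : finrank k W ≤ finrank k (J ⧸ D) := by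
  have := LinearMap.finrank_le_finrank_of_injective (dualQ_injective br D h hb)
  rwa [Subspace.dual_finrank_eq] at this

/-- If moreover `dim J ⧸ D ≤ dim W`, then `D` is exactly the left kernel. -/
theorem mem_of_finrank_le (br : J →ₗ[k] W →ₗ[k] k) (D : Submodule k J)
    (h : ∀ d ∈ D, ∀ y, br d y = 0) (hb : ∀ y, (∀ ξ, br ξ y = 0) → y = 0)
    [FiniteDimensional k (J ⧸ D)] (hle : finrank k (J ⧸ D) ≤ finrank k W)
    (ξ : J) (hξ : ∀ y, br ξ y = 0) : ξ ∈ D := by
  have := finite_of_nondeg br D h hb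
  have hinj := dualQ_injective br D h hb
  have hsurj : Function.Surjective (dualQ br D h) := by
    apply (LinearMap.injective_iff_surjective_of_finrank_eq_finrank ?_).1 hinj
    rw [Subspace.dual_finrank_eq]
    exact le_antisymm (finrank_le_of_nondeg br D h hb) hle
  rw [← Submodule.Quotient.mk_eq_zero, ← Module.forall_dual_apply_eq_zero_iff k]
  intro f
  obtain ⟨y, rfl⟩ := hsurj f
  rw [dualQ_mk]
  exact hξ y

/-- `dim J/D + dim R ≤ dim J/(D + JS) + dim JS` for `R ≤ D ⊓ JS`; in particular `J ⧸ D` is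
finite-dimensional. -/
theorem finrank_quot_add_le (D JS R : Submodule k J) (hR : R ≤ D ⊓ JS) [FiniteDimensional k JS]
    [FiniteDimensional k (J ⧸ (D ⊔ JS))] :
    FiniteDimensional k (J ⧸ D) ∧
      finrank k (J ⧸ D) + finrank k R ≤ finrank k (J ⧸ (D ⊔ JS)) + finrank k JS := by
  have hle : D ≤ LinearMap.ker (D ⊔ JS).mkQ := by
    intro d hd
    rw [LinearMap.mem_ker, Submodule.mkQ_apply, Submodule.Quotient.mk_eq_zero]
    exact Submodule.mem_sup_left hd
  set π : (J ⧸ D) →ₗ[k] (J ⧸ (D ⊔ JS)) := D.liftQ (D ⊔ JS).mkQ hle with hπ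
  set g : JS →ₗ[k] (J ⧸ D) := D.mkQ.comp JS.subtype with hg
  have hπmk : ∀ ξ : J, π (Submodule.Quotient.mk ξ) = Submodule.Quotient.mk ξ := fun ξ => rfl
  have hπs : Function.Surjective π := by
    intro q
    obtain ⟨ξ, rfl⟩ := Submodule.mkQ_surjective _ q
    exact ⟨Submodule.Quotient.mk ξ, rfl⟩
  have hex : Function.Exact g π := by
    intro q
    obtain ⟨ξ, rfl⟩ := Submodule.mkQ_surjective _ q
    rw [Submodule.mkQ_apply, hπmk, Submodule.Quotient.mk_eq_zero]
    constructor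
    · intro h0
      obtain ⟨d, hd, s, hs, rfl⟩ := Submodule.mem_sup.1 h0
      refine ⟨⟨s, hs⟩, ?_⟩
      rw [hg, LinearMap.comp_apply, Submodule.subtype_apply, Submodule.mkQ_apply]
      symm
      rw [Submodule.Quotient.eq]
      simpa using hd
    · rintro ⟨s, hs⟩
      rw [hg, LinearMap.comp_apply, Submodule.subtype_apply, Submodule.mkQ_apply,
        Submodule.Quotient.eq] at hs
      have : ξ = s.1 - (s.1 - ξ) := by abel
      rw [this]
      exact Submodule.sub_mem _ (Submodule.mem_sup_right s.2) (Submodule.mem_sup_left hs)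
  have : FiniteDimensional k (J ⧸ D) := Module.Finite.of_exact hex hπs
  refine ⟨inferInstance, ?_⟩
  have h1 := LinearMap.finrank_range_add_finrank_ker π
  have h2 := LinearMap.finrank_range_add_finrank_ker g
  have h3 : finrank k (LinearMap.range π) = finrank k (J ⧸ (D ⊔ JS)) := by
    rw [LinearMap.range_eq_top.2 hπs, finrank_top]
  have h4 : LinearMap.ker π = LinearMap.range g := (LinearMap.exact_iff.1 hex)
  have h5 : finrank k R ≤ finrank k (LinearMap.ker g) := by
    have hRJS : R ≤ JS := hR.trans inf_le_right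
    let f : R →ₗ[k] LinearMap.ker g :=
      LinearMap.codRestrict (LinearMap.ker g) (Submodule.inclusion hRJS) (by
        intro r
        rw [LinearMap.mem_ker, hg, LinearMap.comp_apply, Submodule.subtype_apply,
          Submodule.mkQ_apply, Submodule.Quotient.mk_eq_zero]
        exact (hR r.2).1)
    have hf : Function.Injective f := by
      intro r r' hrr
      have := congrArg (fun z : LinearMap.ker g => (z.1 : J)) hrr
      exact Subtype.ext this
    exact LinearMap.finrank_le_finrank_of_injective hf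
  rw [h4] at h1
  omega

/-- If `ι : V → J` has finite-dimensional kernel and range inside a finite-dimensional `JS`, then
`V` is finite-dimensional. -/
theorem finite_of_ker_of_range_le {V : Type*} [AddCommGroup V] [Module k V] (ι : V →ₗ[k] J)
    (JS : Submodule k J) [FiniteDimensional k JS] [FiniteDimensional k (LinearMap.ker ι)]
    (h : ∀ v, ι v ∈ JS) : FiniteDimensional k V := by
  have : FiniteDimensional k (LinearMap.range ι) :=
    Submodule.finiteDimensional_of_le (by rintro _ ⟨v, rfl⟩; exact h v : LinearMap.range ι ≤ JS)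
  exact Module.Finite.of_exact (f := (LinearMap.ker ι).subtype) (g := ι.rangeRestrict)
    (by
      intro v
      constructor
      · intro hv
        exact ⟨⟨v, LinearMap.mem_ker.2 (congrArg Subtype.val hv)⟩, rfl⟩
      · rintro ⟨w, rfl⟩
        exact Subtype.ext (LinearMap.mem_ker.1 w.2))
    ι.surjective_rangeRestrict

end Gen

section FinV

variable {J₁ J₂ V₁ : Type*} [AddCommGroup J₁] [Module k J₁] [AddCommGroup J₂] [Module k J₂]
  [AddCommGroup V₁] [Module k V₁]

/-- **Finite-dimensionality of the level-`S` classes is free.**  `ι₁ : V₁ → J₁` the localisation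
(image in the finite `JS₁`), `br₂ : J₂ × V₁ → k` the bracket of the other side, which kills
`Dg₂` (reciprocity), pairs `JS₂` trivially with `ker ι₁ = Ш¹` and has trivial right kernel. -/
theorem finite_V (br₂ : J₂ →ₗ[k] V₁ →ₗ[k] k) (Dg₂ JS₂ : Submodule k J₂) (JS₁ : Submodule k J₁)
    (ι₁ : V₁ →ₗ[k] J₁)
    (ha₂ : ∀ d ∈ Dg₂, ∀ y, br₂ d y = 0) (hb₂ : ∀ y, (∀ ξ, br₂ ξ y = 0) → y = 0)
    (hs₂ : ∀ y, ι₁ y = 0 → ∀ ξ ∈ JS₂, br₂ ξ y = 0) (hr₁ : ∀ v, ι₁ v ∈ JS₁)
    [FiniteDimensional k JS₁] [FiniteDimensional k (J₂ ⧸ (Dg₂ ⊔ JS₂))] :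
    FiniteDimensional k V₁ := by
  have hsha : FiniteDimensional k (LinearMap.ker ι₁) := by
    refine finite_of_nondeg (br₂.compl₂ (LinearMap.ker ι₁).subtype) (Dg₂ ⊔ JS₂) ?_ ?_
    · intro d hd y
      obtain ⟨d', hd', s, hs, rfl⟩ := Submodule.mem_sup.1 hd
      rw [map_add, LinearMap.add_apply, LinearMap.compl₂_apply, LinearMap.compl₂_apply,
        Submodule.subtype_apply, ha₂ d' hd', hs₂ y.1 (LinearMap.mem_ker.1 y.2) s hs, add_zero]
    · intro y hy
      exact Subtype.ext (hb₂ y.1 hy)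
  exact finite_of_ker_of_range_le ι₁ JS₁ hr₁

end FinV

section Interface

variable {J V X T : Type*} [AddCommGroup J] [Module k J] [AddCommGroup V] [Module k V]
  [AddCommGroup X] [Module k X] [AddCommGroup T] [Module k T]

/-- **A2mono from `perp`.**  `R x ξ` : "`ξ` is a value of `Ξ(x)`". -/
theorem pairMono_of_rel (P : X →ₗ[k] V →ₗ[k] k) (br : J →ₗ[k] V →ₗ[k] k) (Dg : Submodule k J)
    (R : X → J → Prop)
    (hperp : ∀ ξ, (∀ y, br ξ y = 0) → ξ ∈ Dg)
    (hex : ∀ x, ∃ ξ, R x ξ)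
    (heval : ∀ x ξ, R x ξ → ∀ y, P x y = br ξ y)
    (hzero : ∀ x ξ, R x ξ → ξ ∈ Dg → x = 0) : PairMono P := by
  intro x hx
  obtain ⟨ξ, hξ⟩ := hex x
  exact hzero x ξ hξ (hperp ξ fun y => by rw [← heval x ξ hξ y, hx y])

/-- **A2epi from `repr`.** -/
theorem pairEpi_of_rel (P : X →ₗ[k] V →ₗ[k] k) (br : J →ₗ[k] V →ₗ[k] k) (Dg : Submodule k J)
    (R : X → J → Prop)
    (ha : ∀ d ∈ Dg, ∀ y, br d y = 0)
    (hrepr : ∀ φ : V →ₗ[k] k, ∃ ξ, ∀ y, φ y = br ξ y)
    (heval : ∀ x ξ, R x ξ → ∀ y, P x y = br ξ y)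
    (hsurj : ∀ ξ, ∃ x ξ', R x ξ' ∧ ξ' - ξ ∈ Dg) : PairEpi P := by
  intro φ
  obtain ⟨ξ, hξ⟩ := hrepr φ
  obtain ⟨x, ξ', hR, hd⟩ := hsurj ξ
  refine ⟨x, fun y => ?_⟩
  have h0 := ha _ hd y
  rw [map_sub, LinearMap.sub_apply, sub_eq_zero] at h0
  rw [hξ y, heval x ξ' hR y, h0]

/-- The surjectivity hypothesis of `pairEpi_of_rel` from (c4)+(CAP) (`hcap`) and "`Ξ` can be
moved by any element of `JS`" (`hJS` : add `(0, ξ_S)` to the cone cocycle). -/
theorem rel_surj_of_cap {X : Type*} (Dg JS : Submodule k J) (R : X → J → Prop)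
    (hcap : ∀ ξ, ∃ x ξ', R x ξ' ∧ ξ' - ξ ∈ Dg ⊔ JS)
    (hJS : ∀ x ξ, R x ξ → ∀ η ∈ JS, ∃ x', R x' (ξ + η)) :
    ∀ ξ, ∃ x ξ', R x ξ' ∧ ξ' - ξ ∈ Dg := by
  intro ξ
  obtain ⟨x, ξ', hR, hmem⟩ := hcap ξ
  obtain ⟨d, hd, s, hs, hds⟩ := Submodule.mem_sup.1 hmem
  obtain ⟨x', hR'⟩ := hJS x ξ' hR (-s) (JS.neg_mem hs)
  refine ⟨x', ξ' + -s, hR', ?_⟩
  have hd' : d = ξ' - ξ - s := eq_sub_of_add_eq hds
  have : ξ' + -s - ξ = d := by rw [hd']; abel
  rw [this]
  exact hd

/-- A pairing with finite-dimensional left factor and trivial right kernel is `PairEpi`. -/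
theorem pairEpi_of_rightKer [FiniteDimensional k X] (P : X →ₗ[k] T →ₗ[k] k)
    (h : ∀ t, (∀ x, P x t = 0) → t = 0) : PairEpi P := by
  have hinj : Function.Injective P.flip := by
    rw [← LinearMap.ker_eq_bot, Submodule.eq_bot_iff]
    intro t ht
    rw [LinearMap.mem_ker] at ht
    apply h t
    intro x
    have := congrArg (fun f : X →ₗ[k] k => f x) ht
    simpa using this
  have : FiniteDimensional k T := FiniteDimensional.of_injective P.flip hinj
  have hr := range_eq_top_of_right_nondegenerate P h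
  intro φ
  have hφ : φ ∈ LinearMap.range P := by rw [hr]; trivial
  obtain ⟨x, hx⟩ := hφ
  exact ⟨x, fun t => by rw [hx]⟩

/-- **A1: trivial right kernel from `perpSha`.**  `R' α ξ` : "`ξ` is a value of `Ξ(α)`",
`κ : H¹_c → V` the forgetful map (onto `Ш¹ = ker ι`). -/
theorem rightKer_of_rel {J' : Type*} [AddCommGroup J'] [Module k J']
    (P : X →ₗ[k] T →ₗ[k] k) (κ : X →ₗ[k] V) (ι : V →ₗ[k] J')
    (br : J →ₗ[k] V →ₗ[k] k) (E : Submodule k J) (R' : T → J → Prop)
    (hperp : ∀ ξ, (∀ y, ι y = 0 → br ξ y = 0) → ξ ∈ E)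
    (hlift : ∀ χ, ι χ = 0 → ∃ x, κ x = χ)
    (hex : ∀ α, (∀ x, P x α = 0) → ∃ ξ, R' α ξ)
    (heval : ∀ α ξ, R' α ξ → ∀ x, P x α = 0 → br ξ (κ x) = 0)
    (hzero : ∀ α ξ, R' α ξ → ξ ∈ E → α = 0) :
    ∀ α, (∀ x, P x α = 0) → α = 0 := by
  intro α hα
  obtain ⟨ξ, hξ⟩ := hex α hα
  refine hzero α ξ hξ (hperp ξ fun y hy => ?_)
  obtain ⟨x, rfl⟩ := hlift y hy
  exact heval α ξ hξ x (hα x)

/-- `H¹_c` is finite-dimensional: `κ : X → V` with `V` finite and `ker κ` covered by a
finite-dimensional space. -/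
theorem finite_of_ker_cover {W : Type*} [AddCommGroup W] [Module k W] [FiniteDimensional k W]
    [FiniteDimensional k V] (κ : X →ₗ[k] V) (f : W →ₗ[k] X)
    (hker : ∀ x, κ x = 0 → ∃ w, f w = x) : FiniteDimensional k X := by
  have h1 : FiniteDimensional k (LinearMap.range f) := inferInstance
  have hle : LinearMap.ker κ ≤ LinearMap.range f := fun x hx =>
    LinearMap.mem_range.2 (hker x (LinearMap.mem_ker.1 hx))
  have h2 : FiniteDimensional k (LinearMap.ker κ) := Submodule.finiteDimensional_of_le hle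
  exact Module.Finite.of_exact (f := (LinearMap.ker κ).subtype) (g := κ.rangeRestrict)
    (by
      intro v
      constructor
      · intro hv
        exact ⟨⟨v, LinearMap.mem_ker.2 (congrArg Subtype.val hv)⟩, rfl⟩
      · rintro ⟨w, rfl⟩
        exact Subtype.ext (LinearMap.mem_ker.1 w.2))
    κ.surjective_rangeRestrict

end Interface

end Fermat.Agent.S55.Base.AsmRel
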