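/-
S55 / PROGRAM CFT, base case, Q-side form: THE ASSEMBLY (helper257; tasks row 316, ASM half).

Generic over helper36's `Eval.Datum k G C` (`Base/Eval.lean`): a leveled global group `G`, all
places `w : D.ι` with local groups `D.Gv w`, the level families `D.𝒰 T` ("unramified outside
`T`"), local levels `D.𝒰v w`, unramified local levels `D.𝒰ur w`, local functionals `D.inv w`
with reciprocity.  Coefficients: `A`, `B` with an equivariant pairing `β : A × B → C`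
(in the application `A = M0(K)`, `B = A.dualTwist`, `C = μ_p`).

Vocabulary (`N` any coefficient module):
* `Hloc D N w = H¹(G_w, N)` (level classes), `Hur D N w` its unramified classes;
* `Jt D N = ⨁_w H¹(G_w, N)`; `JS D N` = the families supported in `S`;
  `Dg D N` = the families `Ξ` which agree with the localisation of ONE global level class `κ`
  (any level `T ⊇ S`) at the places of `S` and modulo unramified classes outside `S`.
  So `Jt/Dg` and `Jt/(Dg + JS)` are the spaces `J(N)/Dg(N)`, `J(N)/(J_S(N)+Dg(N))` of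
  `notes/helper3/S55_base_Q.md` (the quotient by unramified classes is inside `Dg`);
* `brA : Jt A × H¹(G_S, B) → k`, `brB : Jt B × H¹(G_S, A) → k` the sums of the local pairings.
-/
import Fermat.Agent.S55.Base.Eval
import Fermat.Agent.S55.Base.AssembleLA
import Fermat.Agent.S55.Base.AsmRel

set_option autoImplicit false

open CategoryTheory groupCohomology

namespace Fermat.Agent.S55.Base.AsmG

open Fermat.Agent.S55.Abs Fermat.Agent.S55.Base.Eval Module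

variable {k G : Type} [Field k] [Group G] {C : Rep.{0} k G} (D : Datum k G C)

/-! ### Local classes -/

section Local

variable (N : Rep.{0} k G) (w : D.ι)

/-- `H¹(G_w, N)` (level classes). -/
abbrev Hloc : Type := H1 (D.𝒰v w) (Rep.res (D.loc w) N)

/-- Explicit instances: the instance search under the binder of `Π₀ w, Hloc D N w` does not find
the quotient-module instances by itself. -/
noncomputable instance instAddCommGroupHloc : AddCommGroup (Hloc D N w) := inferInstance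

noncomputable instance instModuleHloc : Module k (Hloc D N w) := inferInstance

open Classical in
/-- The class of a local cochain (zero if it is not a level cocycle). -/
noncomputable def clsOf (f : D.Gv w → N) : Hloc D N w :=
  if h : f ∈ Z1 (D.𝒰v w) (Rep.res (D.loc w) N) then Submodule.Quotient.mk ⟨f, h⟩ else 0

variable {N w}

theorem clsOf_of_mem {f : D.Gv w → N} (h : f ∈ Z1 (D.𝒰v w) (Rep.res (D.loc w) N)) :
    clsOf D N w f = Submodule.Quotient.mk ⟨f, h⟩ := dif_pos h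

theorem clsOf_add {f g : D.Gv w → N} (hf : f ∈ Z1 (D.𝒰v w) (Rep.res (D.loc w) N))
    (hg : g ∈ Z1 (D.𝒰v w) (Rep.res (D.loc w) N)) :
    clsOf D N w (f + g) = clsOf D N w f + clsOf D N w g := by
  rw [clsOf_of_mem D hf, clsOf_of_mem D hg, clsOf_of_mem D (add_mem hf hg)]
  rfl

theorem clsOf_sub {f g : D.Gv w → N} (hf : f ∈ Z1 (D.𝒰v w) (Rep.res (D.loc w) N))
    (hg : g ∈ Z1 (D.𝒰v w) (Rep.res (D.loc w) N)) :
    clsOf D N w (f - g) = clsOf D N w f - clsOf D N w g := by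
  rw [clsOf_of_mem D hf, clsOf_of_mem D hg, clsOf_of_mem D (sub_mem hf hg)]
  rfl

theorem clsOf_smul (c : k) {f : D.Gv w → N} (hf : f ∈ Z1 (D.𝒰v w) (Rep.res (D.loc w) N)) :
    clsOf D N w (c • f) = c • clsOf D N w f := by
  rw [clsOf_of_mem D hf, clsOf_of_mem D (Submodule.smul_mem _ c hf)]
  rfl

theorem clsOf_zero : clsOf D N w 0 = 0 := by
  rw [clsOf_of_mem D (zero_mem _)]
  rfl

theorem clsOf_eq_zero_iff {f : D.Gv w → N} (hf : f ∈ Z1 (D.𝒰v w) (Rep.res (D.loc w) N)) :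
    clsOf D N w f = 0 ↔ f ∈ coboundaries₁ (Rep.res (D.loc w) N) := by
  rw [clsOf_of_mem D hf, Submodule.Quotient.mk_eq_zero]
  rfl

theorem exists_clsOf (ξ : Hloc D N w) :
    ∃ f, f ∈ Z1 (D.𝒰v w) (Rep.res (D.loc w) N) ∧ clsOf D N w f = ξ := by
  obtain ⟨f, rfl⟩ := Submodule.Quotient.mk_surjective _ ξ
  exact ⟨f.1, f.2, clsOf_of_mem D f.2⟩

variable (N w)

/-- The unramified classes in `H¹(G_w, N)`. -/
noncomputable def Hur : Submodule k (Hloc D N w) :=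
  ((Z1 (D.𝒰ur w) (Rep.res (D.loc w) N)).comap
    (Z1 (D.𝒰v w) (Rep.res (D.loc w) N)).subtype).map (Submodule.mkQ _)

variable {N w}

theorem mem_Hur_iff (ξ : Hloc D N w) : ξ ∈ Hur D N w ↔
    ∃ u, u ∈ Z1 (D.𝒰ur w) (Rep.res (D.loc w) N) ∧ u ∈ Z1 (D.𝒰v w) (Rep.res (D.loc w) N) ∧
      ξ = clsOf D N w u := by
  constructor
  · rintro ⟨u, hu, rfl⟩
    exact ⟨u.1, hu, u.2, (clsOf_of_mem D u.2).symm⟩
  · rintro ⟨u, hu, hu', rfl⟩
    rw [clsOf_of_mem D hu']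
    exact ⟨⟨u, hu'⟩, hu, rfl⟩

theorem clsOf_mem_Hur {u : D.Gv w → N} (hu : u ∈ Z1 (D.𝒰ur w) (Rep.res (D.loc w) N))
    (hu' : u ∈ Z1 (D.𝒰v w) (Rep.res (D.loc w) N)) : clsOf D N w u ∈ Hur D N w :=
  (mem_Hur_iff D _).2 ⟨u, hu, hu', rfl⟩

/-- Restriction of a coboundary is a coboundary. -/
theorem res₁_d₀₁ (m : N) :
    res₁ D.loc N w ((d₀₁ N).hom m) = (d₀₁ (Rep.res (D.loc w) N)).hom m := by
  funext g
  rfl

theorem res₁_mem_coboundaries {f : G → N} (hf : f ∈ coboundaries₁ N) :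
    res₁ D.loc N w f ∈ coboundaries₁ (Rep.res (D.loc w) N) := by
  obtain ⟨m, rfl⟩ := hf
  exact ⟨m, (res₁_d₀₁ D m).symm⟩

variable (N w)

/-- Restriction of level-`T` classes to the local group at `w`. -/
noncomputable def resH (T : Finset D.ι) : H1 (D.𝒰 T) N →ₗ[k] Hloc D N w :=
  subquotMap (res₁ D.loc N w) (Z1 (D.𝒰 T) N) (coboundaries₁ N)
    (Z1 (D.𝒰v w) (Rep.res (D.loc w) N)) (coboundaries₁ (Rep.res (D.loc w) N))
    (fun _ hf => D.res₁_mem_Z1 T w hf) (fun _ _ hf => res₁_mem_coboundaries D hf)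

variable {N w}

theorem resH_mk (T : Finset D.ι) (f : ↥(Z1 (D.𝒰 T) N)) :
    resH D N w T (Submodule.Quotient.mk f) = clsOf D N w (res₁ D.loc N w f.1) := by
  rw [clsOf_of_mem D (D.res₁_mem_Z1 T w f.2)]
  rfl

theorem Z1_mono {T T' : Finset D.ι} (h : T ⊆ T') (N : Rep.{0} k G) :
    Z1 (D.𝒰 T) N ≤ Z1 (D.𝒰 T') N :=
  inf_le_inf_right _ (D.C1_mono h N)

theorem disc_loc {N : Rep.{0} k G} (hN : IsDisc (D.𝒰 D.S) N) (w : D.ι) :
    IsDisc (D.𝒰v w) (Rep.res (D.loc w) N) :=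
  isDisc_res (D.𝒰 D.S) (D.𝒰v w) (D.loc w) (D.hloc D.S w) hN

end Local

/-! ### The local pairings -/

section LocalPairing

variable {A B : Rep.{0} k G} (β : EqPairing A B C)
  (hB : IsDisc (D.𝒰 D.S) B) (hC : IsDisc (D.𝒰 D.S) C)

/-- The local pairing `H¹(G_w, A) × H¹(G_w, B) → k`, `(ξ, η) ↦ inv_w (ξ ∪ η)`. -/
noncomputable def PLw (w : D.ι) : Hloc D A w →ₗ[k] Hloc D B w →ₗ[k] k :=
  (cupH11 (D.𝒰v w) (β.res (D.loc w)) (disc_loc D hB w) (disc_loc D hC w)).compr₂ (D.invH w)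

theorem PLw_clsOf (w : D.ι) {ξ : D.Gv w → A} (hξ : ξ ∈ Z1 (D.𝒰v w) (Rep.res (D.loc w) A))
    {η : D.Gv w → B} (hη : η ∈ Z1 (D.𝒰v w) (Rep.res (D.loc w) B)) :
    PLw D β hB hC w (clsOf D A w ξ) (clsOf D B w η) = D.inv w (cup11 (β.res (D.loc w)) ξ η) := by
  rw [clsOf_of_mem D hξ, clsOf_of_mem D hη]
  rfl

end LocalPairing

/-! ### The space `Jt = ⨁_w H¹(G_w, N)` -/

section J

variable (N : Rep.{0} k G)

/-- `⨁_w H¹(G_w, N)`. -/
abbrev Jt : Type := Π₀ w : D.ι, Hloc D N w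

/-- The families supported in `S`. -/
def JS : Submodule k (Jt D N) where
  carrier := {Ξ | ∀ w, w ∉ D.S → Ξ w = 0}
  add_mem' := by
    intro Ξ Ξ' h h' w hw
    rw [DFinsupp.add_apply, h w hw, h' w hw, add_zero]
  zero_mem' := fun w _ => rfl
  smul_mem' := by
    intro c Ξ h w hw
    rw [DFinsupp.smul_apply, h w hw, smul_zero]

theorem mem_JS_iff (Ξ : Jt D N) : Ξ ∈ JS D N ↔ ∀ w, w ∉ D.S → Ξ w = 0 := Iff.rfl

/-- The families which are global modulo unramified classes outside `S`. -/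
def Dg : Submodule k (Jt D N) where
  carrier := {Ξ | ∃ (T : Finset D.ι) (κ : G → N), D.S ⊆ T ∧ κ ∈ Z1 (D.𝒰 T) N ∧
    (∀ w, w ∈ D.S → Ξ w = clsOf D N w (res₁ D.loc N w κ)) ∧
    (∀ w, w ∉ D.S → Ξ w - clsOf D N w (res₁ D.loc N w κ) ∈ Hur D N w)}
  add_mem' := by
    rintro Ξ Ξ' ⟨T, κ, hT, hκ, h1, h2⟩ ⟨T', κ', hT', hκ', h1', h2'⟩
    have hm : κ ∈ Z1 (D.𝒰 (T ∪ T')) N := Z1_mono D Finset.subset_union_left N hκ
    have hm' : κ' ∈ Z1 (D.𝒰 (T ∪ T')) N := Z1_mono D Finset.subset_union_right N hκ'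
    refine ⟨T ∪ T', κ + κ', hT.trans Finset.subset_union_left, add_mem hm hm', ?_, ?_⟩
    · intro w hw
      rw [DFinsupp.add_apply, h1 w hw, h1' w hw, map_add,
        clsOf_add D (D.res₁_mem_Z1 T w hκ) (D.res₁_mem_Z1 T' w hκ')]
    · intro w hw
      rw [DFinsupp.add_apply, map_add,
        clsOf_add D (D.res₁_mem_Z1 T w hκ) (D.res₁_mem_Z1 T' w hκ')]
      have := add_mem (h2 w hw) (h2' w hw)
      convert this using 1
      abel
  zero_mem' := by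
    refine ⟨D.S, 0, subset_rfl, zero_mem _, ?_, ?_⟩
    · intro w _
      rw [map_zero, clsOf_zero]
      rfl
    · intro w _
      rw [map_zero, clsOf_zero, sub_zero]
      exact zero_mem _
  smul_mem' := by
    rintro c Ξ ⟨T, κ, hT, hκ, h1, h2⟩
    refine ⟨T, c • κ, hT, Submodule.smul_mem _ c hκ, ?_, ?_⟩
    · intro w hw
      rw [DFinsupp.smul_apply, h1 w hw, map_smul, clsOf_smul D c (D.res₁_mem_Z1 T w hκ)]
    · intro w hw
      rw [DFinsupp.smul_apply, map_smul, clsOf_smul D c (D.res₁_mem_Z1 T w hκ), ← smul_sub]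
      exact Submodule.smul_mem _ c (h2 w hw)

variable {N}

/-- A family supported in the finite set `T` is the sum of its components. -/
theorem eq_sum_single (T : Finset D.ι) (Ξ : Jt D N) (h : ∀ w, w ∉ T → Ξ w = 0) :
    Ξ = ∑ w ∈ T, DFinsupp.single w (Ξ w) := by
  refine DFinsupp.ext fun w => ?_
  rw [DFinsupp.finsetSum_apply]
  by_cases hw : w ∈ T
  · rw [Finset.sum_eq_single w]
    · rw [DFinsupp.single_eq_same]
    · intro w' _ hw'
      exact DFinsupp.single_eq_of_ne (Ne.symm hw')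
    · intro h'
      exact absurd hw h'
  · rw [h w hw]
    symm
    refine Finset.sum_eq_zero fun w' hw' => ?_
    refine DFinsupp.single_eq_of_ne ?_
    rintro rfl
    exact hw hw'

/-- Components of a finite sum of singles. -/
theorem sum_single_apply (T : Finset D.ι) (f : ∀ w, Hloc D N w) (w : D.ι) :
    (∑ w' ∈ T, DFinsupp.single w' (f w') : Jt D N) w = if w ∈ T then f w else 0 := by
  rw [DFinsupp.finsetSum_apply]
  split_ifs with hw
  · rw [Finset.sum_eq_single w]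
    · rw [DFinsupp.single_eq_same]
    · intro w' _ hw'
      exact DFinsupp.single_eq_of_ne (Ne.symm hw')
    · intro h'
      exact absurd hw h'
  · refine Finset.sum_eq_zero fun w' hw' => ?_
    refine DFinsupp.single_eq_of_ne ?_
    rintro rfl
    exact hw hw'

end J

/-! ### The localisation of the level-`S` classes -/

section LocJ

variable (N : Rep.{0} k G)

theorem res₁_mem_Z1ur {T : Finset D.ι} {w : D.ι} (hw : w ∉ T) {f : G → N}
    (hf : f ∈ Z1 (D.𝒰 T) N) : res₁ D.loc N w f ∈ Z1 (D.𝒰ur w) (Rep.res (D.loc w) N) :=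
  ⟨D.res₁_mem_ur hw hf.1, (D.res₁_mem_Z1 T w hf).2⟩

/-- The localisation at the places of `S` of a level-`S` class, as a family in `Jt`. -/
noncomputable def locJ : H1 (D.𝒰 D.S) N →ₗ[k] Jt D N :=
  ∑ v ∈ D.S, (DFinsupp.lsingle v).comp (resH D N v D.S)

theorem locJ_apply (y : H1 (D.𝒰 D.S) N) (w : D.ι) :
    locJ D N y w = if w ∈ D.S then resH D N w D.S y else 0 := by
  unfold locJ
  rw [LinearMap.sum_apply]
  exact sum_single_apply D D.S (fun v => resH D N v D.S y) w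

theorem locJ_eq_zero_iff (y : H1 (D.𝒰 D.S) N) :
    locJ D N y = 0 ↔ ∀ v, v ∈ D.S → resH D N v D.S y = 0 := by
  constructor
  · intro h v hv
    have := congrArg (fun Ξ : Jt D N => Ξ v) h
    simpa [locJ_apply, hv] using this
  · intro h
    refine DFinsupp.ext fun w => ?_
    rw [locJ_apply]
    split_ifs with hw
    · exact h w hw
    · rfl

theorem locJ_mem_JS (y : H1 (D.𝒰 D.S) N) : locJ D N y ∈ JS D N := by
  intro w hw
  rw [locJ_apply, if_neg hw]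

theorem locJ_mem_Dg (y : H1 (D.𝒰 D.S) N) : locJ D N y ∈ Dg D N := by
  obtain ⟨y0, rfl⟩ := Submodule.Quotient.mk_surjective _ y
  refine ⟨D.S, y0.1, subset_rfl, y0.2, ?_, ?_⟩
  · intro w hw
    rw [locJ_apply, if_pos hw, resH_mk]
  · intro w hw
    rw [locJ_apply, if_neg hw, zero_sub]
    exact neg_mem (clsOf_mem_Hur D (res₁_mem_Z1ur D N hw y0.2) (D.res₁_mem_Z1 D.S w y0.2))

end LocJ

/-! ### The brackets -/

section Bracket

variable {A B : Rep.{0} k G} (β : EqPairing A B C)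
  (hB : IsDisc (D.𝒰 D.S) B) (hC : IsDisc (D.𝒰 D.S) C)

/-- `brA : Jt A × H¹(G_S, B) → k`, `(Ξ, y) ↦ ∑_w inv_w (Ξ_w ∪ res_w y)`. -/
noncomputable def brA : Jt D A →ₗ[k] H1 (D.𝒰 D.S) B →ₗ[k] k :=
  DFinsupp.lsum ℕ fun w => (PLw D β hB hC w).compl₂ (resH D B w D.S)

/-- `brB : Jt B × H¹(G_S, A) → k`, `(Ξ, χ) ↦ ∑_w inv_w (res_w χ ∪ Ξ_w)`. -/
noncomputable def brB : Jt D B →ₗ[k] H1 (D.𝒰 D.S) A →ₗ[k] k :=
  DFinsupp.lsum ℕ fun w => ((PLw D β hB hC w).flip).compl₂ (resH D A w D.S)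

theorem brA_single (w : D.ι) (ξ : Hloc D A w) (y : H1 (D.𝒰 D.S) B) :
    brA D β hB hC (DFinsupp.single w ξ) y = PLw D β hB hC w ξ (resH D B w D.S y) := by
  unfold brA
  rw [DFinsupp.lsum_single]
  rfl

theorem brB_single (w : D.ι) (ξ : Hloc D B w) (χ : H1 (D.𝒰 D.S) A) :
    brB D β hB hC (DFinsupp.single w ξ) χ = PLw D β hB hC w (resH D A w D.S χ) ξ := by
  unfold brB
  rw [DFinsupp.lsum_single]
  rfl

theorem brA_eq_sum (T : Finset D.ι) (Ξ : Jt D A) (h : ∀ w, w ∉ T → Ξ w = 0)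
    (y : H1 (D.𝒰 D.S) B) :
    brA D β hB hC Ξ y = ∑ w ∈ T, PLw D β hB hC w (Ξ w) (resH D B w D.S y) := by
  conv_lhs => rw [eq_sum_single D T Ξ h]
  rw [map_sum, LinearMap.sum_apply]
  exact Finset.sum_congr rfl fun w _ => brA_single D β hB hC w _ y

theorem brB_eq_sum (T : Finset D.ι) (Ξ : Jt D B) (h : ∀ w, w ∉ T → Ξ w = 0)
    (χ : H1 (D.𝒰 D.S) A) :
    brB D β hB hC Ξ χ = ∑ w ∈ T, PLw D β hB hC w (resH D A w D.S χ) (Ξ w) := by
  conv_lhs => rw [eq_sum_single D T Ξ h]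
  rw [map_sum, LinearMap.sum_apply]
  exact Finset.sum_congr rfl fun w _ => brB_single D β hB hC w _ χ

/-- **(a)** for `brA`: the global families are orthogonal to `H¹(G_S, B)` (reciprocity + the
unramified cup product is trivial). -/
theorem brA_Dg (Ξ : Jt D A) (hΞ : Ξ ∈ Dg D A) (y : H1 (D.𝒰 D.S) B) :
    brA D β hB hC Ξ y = 0 := by
  classical
  obtain ⟨T, κ, hT, hκ, h1, h2⟩ := hΞ
  obtain ⟨y0, rfl⟩ := Submodule.Quotient.mk_surjective _ y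
  have hsupp : ∀ w, w ∉ T ∪ Ξ.support → Ξ w = 0 := by
    intro w hw
    have : w ∉ Ξ.support := fun h => hw (Finset.mem_union_right _ h)
    rwa [DFinsupp.notMem_support_iff] at this
  have hTT : D.S ⊆ T ∪ Ξ.support := hT.trans Finset.subset_union_left
  rw [brA_eq_sum D β hB hC (T ∪ Ξ.support) Ξ hsupp]
  have hκT' : κ ∈ Z1 (D.𝒰 (T ∪ Ξ.support)) A := Z1_mono D Finset.subset_union_left A hκ
  have hy0T' : y0.1 ∈ Z1 (D.𝒰 (T ∪ Ξ.support)) B := Z1_mono D hTT B y0.2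
  have hterm : ∀ w ∈ T ∪ Ξ.support,
      PLw D β hB hC w (Ξ w) (resH D B w D.S (Submodule.Quotient.mk y0))
        = D.inv w (res₂ D.loc C w (cup11 β κ y0.1)) := by
    intro w _
    rw [resH_mk, ← D.cup11_res,
      ← PLw_clsOf D β hB hC w (D.res₁_mem_Z1 T w hκ) (D.res₁_mem_Z1 D.S w y0.2)]
    by_cases hwS : w ∈ D.S
    · rw [h1 w hwS]
    · obtain ⟨u, hu, hu', hue⟩ := (mem_Hur_iff D _).1 (h2 w hwS)
      have e : Ξ w = clsOf D A w (res₁ D.loc A w κ) + clsOf D A w u := by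
        rw [← hue]; abel
      rw [e, map_add, LinearMap.add_apply,
        PLw_clsOf D β hB hC w hu' (D.res₁_mem_Z1 D.S w y0.2),
        D.inv_cup11_ur β hB hwS hu (res₁_mem_Z1ur D B hwS y0.2), add_zero]
  rw [Finset.sum_congr rfl hterm]
  refine D.REC (T ∪ Ξ.support) hTT _ ⟨?_, ?_⟩
  · exact cup11_mem_C2 β (D.𝒰 (T ∪ Ξ.support)) (D.isDisc_mono hTT hB) hκT'.1 hy0T'.1
  · show (d₂₃ C).hom (cup11 β κ y0.1) = 0
    rw [d₂₃_cup11, (show (d₁₂ A).hom κ = 0 from hκ.2),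
      (show (d₁₂ B).hom y0.1 = 0 from y0.2.2), map_zero, map_zero, LinearMap.zero_apply,
      sub_zero]

/-- **(a)** for `brB`. -/
theorem brB_Dg (Ξ : Jt D B) (hΞ : Ξ ∈ Dg D B) (χ : H1 (D.𝒰 D.S) A) :
    brB D β hB hC Ξ χ = 0 := by
  classical
  obtain ⟨T, κ, hT, hκ, h1, h2⟩ := hΞ
  obtain ⟨χ0, rfl⟩ := Submodule.Quotient.mk_surjective _ χ
  have hsupp : ∀ w, w ∉ T ∪ Ξ.support → Ξ w = 0 := by
    intro w hw
    have : w ∉ Ξ.support := fun h => hw (Finset.mem_union_right _ h)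
    rwa [DFinsupp.notMem_support_iff] at this
  have hTT : D.S ⊆ T ∪ Ξ.support := hT.trans Finset.subset_union_left
  rw [brB_eq_sum D β hB hC (T ∪ Ξ.support) Ξ hsupp]
  have hκT' : κ ∈ Z1 (D.𝒰 (T ∪ Ξ.support)) B := Z1_mono D Finset.subset_union_left B hκ
  have hχ0T' : χ0.1 ∈ Z1 (D.𝒰 (T ∪ Ξ.support)) A := Z1_mono D hTT A χ0.2
  have hterm : ∀ w ∈ T ∪ Ξ.support,
      PLw D β hB hC w (resH D A w D.S (Submodule.Quotient.mk χ0)) (Ξ w)
        = D.inv w (res₂ D.loc C w (cup11 β χ0.1 κ)) := by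
    intro w _
    rw [resH_mk, ← D.cup11_res,
      ← PLw_clsOf D β hB hC w (D.res₁_mem_Z1 D.S w χ0.2) (D.res₁_mem_Z1 T w hκ)]
    by_cases hwS : w ∈ D.S
    · rw [h1 w hwS]
    · obtain ⟨u, hu, hu', hue⟩ := (mem_Hur_iff D _).1 (h2 w hwS)
      have e : Ξ w = clsOf D B w (res₁ D.loc B w κ) + clsOf D B w u := by
        rw [← hue]; abel
      rw [e, map_add,
        PLw_clsOf D β hB hC w (D.res₁_mem_Z1 D.S w χ0.2) hu',
        D.inv_cup11_ur β hB hwS (res₁_mem_Z1ur D A hwS χ0.2) hu, add_zero]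
  rw [Finset.sum_congr rfl hterm]
  refine D.REC (T ∪ Ξ.support) hTT _ ⟨?_, ?_⟩
  · exact cup11_mem_C2 β (D.𝒰 (T ∪ Ξ.support)) (D.isDisc_mono hTT hB) hχ0T'.1 hκT'.1
  · show (d₂₃ C).hom (cup11 β χ0.1 κ) = 0
    rw [d₂₃_cup11, (show (d₁₂ A).hom χ0.1 = 0 from χ0.2.2),
      (show (d₁₂ B).hom κ = 0 from hκ.2), map_zero, map_zero, LinearMap.zero_apply,
      sub_zero]

/-- **(S)** for `brA`: the `S`-part of the bracket only sees the localisation at `S`. -/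
theorem brA_JS (y : H1 (D.𝒰 D.S) B) (hy : locJ D B y = 0) (Ξ : Jt D A) (hΞ : Ξ ∈ JS D A) :
    brA D β hB hC Ξ y = 0 := by
  rw [brA_eq_sum D β hB hC D.S Ξ hΞ]
  refine Finset.sum_eq_zero fun w hw => ?_
  rw [(locJ_eq_zero_iff D B y).1 hy w hw, map_zero]

/-- **(S)** for `brB`. -/
theorem brB_JS (χ : H1 (D.𝒰 D.S) A) (hχ : locJ D A χ = 0) (Ξ : Jt D B) (hΞ : Ξ ∈ JS D B) :
    brB D β hB hC Ξ χ = 0 := by
  rw [brB_eq_sum D β hB hC D.S Ξ hΞ]
  refine Finset.sum_eq_zero fun w hw => ?_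
  rw [(locJ_eq_zero_iff D A χ).1 hχ w hw, map_zero, LinearMap.zero_apply]

end Bracket

/-! ### The arithmetic inputs, in `Datum` vocabulary -/

section Inputs

variable (N : Rep.{0} k G)

/-- Formal: the unramified local levels are local levels. -/
def UrLe : Prop := ∀ w, (D.𝒰ur w).sets ⊆ (D.𝒰v w).sets

variable {D} in
theorem UrLe.C1_le (h : UrLe D) (N : Rep.{0} k G) (w : D.ι) :
    C1 (D.𝒰ur w) (Rep.res (D.loc w) N) ≤ C1 (D.𝒰v w) (Rep.res (D.loc w) N) := by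
  rintro f ⟨U, hU, hf⟩
  exact ⟨U, h w hU, hf⟩

/-- **(UR)** for `N`: an unramified local 2-cocycle at a place outside `S` is the coboundary of
an unramified 1-cochain. -/
def HasUR : Prop :=
  ∀ w, w ∉ D.S → ∀ z ∈ Z2 (D.𝒰ur w) (Rep.res (D.loc w) N),
    ∃ t ∈ C1 (D.𝒰ur w) (Rep.res (D.loc w) N), (d₁₂ (Rep.res (D.loc w) N)).hom t = z

/-- **(HPQ)** for `N`: a level-`S` 2-cocycle which is a local (level) coboundary at every place
is the coboundary of a global cochain of some finite level `T ⊇ S`. -/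
def HasHP : Prop :=
  ∀ a ∈ Z2 (D.𝒰 D.S) N,
    (∀ w, ∃ t ∈ C1 (D.𝒰v w) (Rep.res (D.loc w) N),
      (d₁₂ (Rep.res (D.loc w) N)).hom t = res₂ D.loc N w a) →
    ∃ T, D.S ⊆ T ∧ ∃ c ∈ C1 (D.𝒰 T) N, (d₁₂ N).hom c = a

/-- **(G4Q)** for `N`: a level-`S` 1-cocycle which is a local coboundary at every place is a
coboundary. -/
def HasG4 : Prop :=
  ∀ y ∈ Z1 (D.𝒰 D.S) N,
    (∀ w, res₁ D.loc N w y ∈ coboundaries₁ (Rep.res (D.loc w) N)) → y ∈ coboundaries₁ N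

/-- **(FACT)** for `N`: a global 1-cochain `c` of some finite level `T ⊇ S` whose coboundary has
level `S` and whose restriction to every place outside `S` is (unramified) + (coboundary) has
level `S`. -/
def HasFact : Prop :=
  ∀ T, D.S ⊆ T → ∀ c ∈ C1 (D.𝒰 T) N, (d₁₂ N).hom c ∈ C2 (D.𝒰 D.S) N →
    (∀ w, w ∉ D.S → ∃ t ∈ C1 (D.𝒰ur w) (Rep.res (D.loc w) N), ∃ m : N,
      res₁ D.loc N w c = t + (d₀₁ (Rep.res (D.loc w) N)).hom m) →
    c ∈ C1 (D.𝒰 D.S) N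

end Inputs

section LocInputs

variable {A B : Rep.{0} k G} (β : EqPairing A B C)

/-- **(LOC)**, left kernel of `H¹(G_w, A) × H¹(G_w, B) → k` trivial, every place. -/
def LocLeft : Prop :=
  ∀ w, ∀ ξ ∈ Z1 (D.𝒰v w) (Rep.res (D.loc w) A),
    (∀ η ∈ Z1 (D.𝒰v w) (Rep.res (D.loc w) B), D.inv w (cup11 (β.res (D.loc w)) ξ η) = 0) →
    ξ ∈ coboundaries₁ (Rep.res (D.loc w) A)

/-- **(LOC)**, right kernel of `H¹(G_w, A) × H¹(G_w, B) → k` trivial, every place. -/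
def LocRight : Prop :=
  ∀ w, ∀ η ∈ Z1 (D.𝒰v w) (Rep.res (D.loc w) B),
    (∀ ξ ∈ Z1 (D.𝒰v w) (Rep.res (D.loc w) A), D.inv w (cup11 (β.res (D.loc w)) ξ η) = 0) →
    η ∈ coboundaries₁ (Rep.res (D.loc w) B)

/-- **(LOC)**, `H²`-kernel of `H⁰(G_v, A) × H²(G_v, B) → k` trivial, places of `S`. -/
def LocH2 : Prop :=
  ∀ v, v ∈ D.S → ∀ z ∈ Z2 (D.𝒰v v) (Rep.res (D.loc v) B),
    (∀ s ∈ (Rep.res (D.loc v) A).ρ.invariants, D.inv v (cup02 (β.res (D.loc v)) s z) = 0) →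
    z ∈ B2 (D.𝒰v v) (Rep.res (D.loc v) B)

variable (hB : IsDisc (D.𝒰 D.S) B) (hC : IsDisc (D.𝒰 D.S) C)

/-- **(b)** for `brA`: the right kernel is trivial. -/
theorem brA_right (hR : LocRight D β) (hG : HasG4 D B) (y : H1 (D.𝒰 D.S) B)
    (h : ∀ Ξ, brA D β hB hC Ξ y = 0) : y = 0 := by
  obtain ⟨y0, rfl⟩ := Submodule.Quotient.mk_surjective _ y
  rw [Submodule.Quotient.mk_eq_zero]
  refine hG y0.1 y0.2 fun w => hR w _ (D.res₁_mem_Z1 D.S w y0.2) fun ξ hξ => ?_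
  have := h (DFinsupp.single w (clsOf D A w ξ))
  rwa [brA_single, resH_mk, PLw_clsOf D β hB hC w hξ (D.res₁_mem_Z1 D.S w y0.2)] at this

/-- **(b)** for `brB`: the right kernel is trivial. -/
theorem brB_right (hL : LocLeft D β) (hG : HasG4 D A) (χ : H1 (D.𝒰 D.S) A)
    (h : ∀ Ξ, brB D β hB hC Ξ χ = 0) : χ = 0 := by
  obtain ⟨χ0, rfl⟩ := Submodule.Quotient.mk_surjective _ χ
  rw [Submodule.Quotient.mk_eq_zero]
  refine hG χ0.1 χ0.2 fun w => hL w _ (D.res₁_mem_Z1 D.S w χ0.2) fun η hη => ?_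
  have := h (DFinsupp.single w (clsOf D B w η))
  rwa [brB_single, resH_mk, PLw_clsOf D β hB hC w (D.res₁_mem_Z1 D.S w χ0.2) hη] at this

end LocInputs

/-! ### The `S`-part is finite-dimensional -/

section JSfin

variable (N : Rep.{0} k G)

/-- The components at `S` of a family supported in `S`. -/
noncomputable def JScomp : JS D N →ₗ[k] (∀ v : ↥D.S, Hloc D N v) :=
  (LinearMap.pi fun v : ↥D.S => DFinsupp.lapply (v : D.ι)).comp (JS D N).subtype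

theorem JScomp_injective : Function.Injective (JScomp D N) := by
  intro Ξ Ξ' h
  apply Subtype.ext
  refine DFinsupp.ext fun w => ?_
  by_cases hw : w ∈ D.S
  · exact congrFun h ⟨w, hw⟩
  · rw [Ξ.2 w hw, Ξ'.2 w hw]

theorem JS_finite (hfin : ∀ v, v ∈ D.S → FiniteDimensional k (Hloc D N v)) :
    FiniteDimensional k (JS D N) := by
  have : ∀ v : ↥D.S, FiniteDimensional k (Hloc D N v) := fun v => hfin v v.2
  exact FiniteDimensional.of_injective (JScomp D N) (JScomp_injective D N)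

theorem finrank_JS_le (hfin : ∀ v, v ∈ D.S → FiniteDimensional k (Hloc D N v)) :
    finrank k (JS D N) ≤ ∑ v ∈ D.S, finrank k (Hloc D N v) := by
  have : ∀ v : ↥D.S, FiniteDimensional k (Hloc D N v) := fun v => hfin v v.2
  have h := LinearMap.finrank_le_finrank_of_injective (JScomp_injective D N)
  rw [Module.finrank_pi_fintype] at h
  rwa [Finset.sum_coe_sort D.S (fun v => finrank k (Hloc D N v))] at h

end JSfin

/-! ### The relation `Ξ` on `H²_c(A)` -/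

section Xi2

variable {A B : Rep.{0} k G} (β : EqPairing A B C)
  (hA : IsDisc (D.𝒰 D.S) A) (hB : IsDisc (D.𝒰 D.S) B) (hC : IsDisc (D.𝒰 D.S) C)

/-- `Xi2 x ξ` : "`ξ` is a value of `Ξ(x)`" for `x ∈ H²_c(A)`: `x = [(a, t)]`, `a = d c` with `c` of
level `T ⊇ S`, `t' w` unramified primitives of `res_w a` at `w ∈ T \ S` (and `t' v = t v` on `S`),
`ξ_w = [t'_w - res_w c]` for `w ∈ T` and `ξ_w = 0` outside `T`. -/
def Xi2 (A : Rep.{0} k G) (x : Hc2 (D.𝒰 D.S) D.locS D.𝒰vS A) (ξ : Jt D A) : Prop :=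
  ∃ (a : G × G → A) (t : ∀ v : ↥D.S, D.GvS v → A)
    (hx : (a, t) ∈ Zc2 (D.𝒰 D.S) D.locS D.𝒰vS A) (T : Finset D.ι) (c : G → A)
    (t' : ∀ w, D.Gv w → A),
    x = Submodule.Quotient.mk ⟨(a, t), hx⟩ ∧ D.S ⊆ T ∧ c ∈ C1 (D.𝒰 T) A ∧
    (d₁₂ A).hom c = a ∧ (∀ v : ↥D.S, t' v = t v) ∧
    (∀ w, w ∈ T → w ∉ D.S → t' w ∈ C1 (D.𝒰ur w) (Rep.res (D.loc w) A) ∧
      (d₁₂ (Rep.res (D.loc w) A)).hom (t' w) = res₂ D.loc A w a) ∧
    (∀ w, w ∈ T → ξ w = clsOf D A w (t' w - res₁ D.loc A w c)) ∧ (∀ w, w ∉ T → ξ w = 0)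

/-- The local cochains `t'_w - res_w c` are level cocycles. -/
theorem Xi2_mem_Z1 (hUr : UrLe D) {a : G × G → A} {t : ∀ v : ↥D.S, D.GvS v → A}
    (hx : (a, t) ∈ Zc2 (D.𝒰 D.S) D.locS D.𝒰vS A) {T : Finset D.ι} {c : G → A}
    (hc : c ∈ C1 (D.𝒰 T) A) (hdc : (d₁₂ A).hom c = a) {t' : ∀ w, D.Gv w → A}
    (htS : ∀ v : ↥D.S, t' v = t v)
    (htT : ∀ w, w ∈ T → w ∉ D.S → t' w ∈ C1 (D.𝒰ur w) (Rep.res (D.loc w) A) ∧
      (d₁₂ (Rep.res (D.loc w) A)).hom (t' w) = res₂ D.loc A w a)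
    (w : D.ι) (hw : w ∈ T) :
    t' w - res₁ D.loc A w c ∈ Z1 (D.𝒰v w) (Rep.res (D.loc w) A) := by
  have h1 : t' w ∈ C1 (D.𝒰v w) (Rep.res (D.loc w) A) ∧
      (d₁₂ (Rep.res (D.loc w) A)).hom (t' w) = res₂ D.loc A w a := by
    by_cases hwS : w ∈ D.S
    · have h := hx.2 ⟨w, hwS⟩
      have e : t' w = t ⟨w, hwS⟩ := htS ⟨w, hwS⟩
      rw [e]
      exact ⟨h.1, h.2.symm⟩
    · exact ⟨hUr.C1_le A w (htT w hw hwS).1, (htT w hw hwS).2⟩
  refine ⟨sub_mem h1.1 (D.res₁_mem_C1 T w hc), ?_⟩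
  show (d₁₂ (Rep.res (D.loc w) A)).hom (t' w - res₁ D.loc A w c) = 0
  rw [map_sub, h1.2, D.d₁₂_res₁, hdc, sub_self]

/-- **`Ξ` exists** ((UR) + cone condition + (HPQ)). -/
theorem Xi2_exists (hUr : UrLe D) (hUR : HasUR D A) (hHP : HasHP D A)
    (x : Hc2 (D.𝒰 D.S) D.locS D.𝒰vS A) : ∃ ξ, Xi2 D A x ξ := by
  classical
  obtain ⟨⟨⟨a, t⟩, hx⟩, rfl⟩ := Submodule.Quotient.mk_surjective _ x
  have ha : a ∈ Z2 (D.𝒰 D.S) A := hx.1
  have hloc : ∀ w, ∃ s : D.Gv w → A, s ∈ C1 (D.𝒰v w) (Rep.res (D.loc w) A) ∧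
      (w ∉ D.S → s ∈ C1 (D.𝒰ur w) (Rep.res (D.loc w) A)) ∧
      (∀ h : w ∈ D.S, s = t ⟨w, h⟩) ∧
      (d₁₂ (Rep.res (D.loc w) A)).hom s = res₂ D.loc A w a := by
    intro w
    by_cases hw : w ∈ D.S
    · exact ⟨t ⟨w, hw⟩, (hx.2 ⟨w, hw⟩).1, fun h => absurd hw h, fun _ => rfl,
        ((hx.2 ⟨w, hw⟩).2).symm⟩
    · obtain ⟨s, hs, hds⟩ := hUR w hw (res₂ D.loc A w a)
        ⟨D.res₂_mem_ur hw ha.1, (D.res₂_mem_Z2 D.S w ha).2⟩
      exact ⟨s, hUr.C1_le A w hs, fun _ => hs, fun h => absurd h hw, hds⟩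
  choose t' ht'1 ht'2 ht'3 ht'4 using hloc
  obtain ⟨T, hT, c, hc, hdc⟩ := hHP a ha (fun w => ⟨t' w, ht'1 w, ht'4 w⟩)
  refine ⟨∑ w ∈ T, DFinsupp.single w (clsOf D A w (t' w - res₁ D.loc A w c)), a, t, hx, T, c, t',
    rfl, hT, hc, hdc, fun v => ht'3 v v.2, fun w _ hwS => ⟨ht'2 w hwS, ht'4 w⟩, ?_, ?_⟩
  · intro w hw
    rw [sum_single_apply D T (fun w => clsOf D A w (t' w - res₁ D.loc A w c)), if_pos hw]
  · intro w hw
    rw [sum_single_apply D T (fun w => clsOf D A w (t' w - res₁ D.loc A w c)), if_neg hw]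

/-- **EVAL**: `P2 x y = [Ξ(x), y]`. -/
theorem Xi2_eval (hUr : UrLe D) {x : Hc2 (D.𝒰 D.S) D.locS D.𝒰vS A} {ξ : Jt D A}
    (h : Xi2 D A x ξ) (y : H1 (D.𝒰 D.S) B) :
    Pc2 (D.𝒰 D.S) D.locS D.𝒰vS β D.hlocS hA hB hC D.lam x y = brA D β hB hC ξ y := by
  classical
  obtain ⟨a, t, hx, T, c, t', rfl, hT, hc, hdc, htS, htT, hξT, hξ0⟩ := h
  obtain ⟨y0, rfl⟩ := Submodule.Quotient.mk_surjective _ y
  have hz := Xi2_mem_Z1 D hUr hx hc hdc htS htT
  have e1 := D.Pc2_eval β hA hB hC hx y0.2 T hT c hc hdc t' htT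
  rw [e1, brA_eq_sum D β hB hC T ξ hξ0, ← Finset.sum_sdiff hT, add_comm]
  congr 1
  · refine Finset.sum_congr rfl fun w hw => ?_
    rw [hξT w (Finset.mem_sdiff.1 hw).1, resH_mk,
      PLw_clsOf D β hB hC w (hz w (Finset.mem_sdiff.1 hw).1) (D.res₁_mem_Z1 D.S w y0.2)]
  · rw [← Finset.sum_coe_sort D.S
      (fun w => PLw D β hB hC w (ξ w) (resH D B w D.S (Submodule.Quotient.mk y0)))]
    refine Finset.sum_congr rfl fun v _ => ?_
    have e : t' v = t v := htS v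
    rw [hξT v (hT v.2), resH_mk,
      PLw_clsOf D β hB hC v (hz v (hT v.2)) (D.res₁_mem_Z1 D.S v y0.2), e]

/-- **ZERO**: if `Ξ(x)` is global then `x = 0` in `H²_c(A)` ((FACT)). -/
theorem Xi2_zero (hUr : UrLe D) (hF : HasFact D A) {x : Hc2 (D.𝒰 D.S) D.locS D.𝒰vS A}
    {ξ : Jt D A} (h : Xi2 D A x ξ) (hξ : ξ ∈ Dg D A) : x = 0 := by
  classical
  obtain ⟨a, t, hx, T, c, t', rfl, hT, hc, hdc, htS, htT, hξT, hξ0⟩ := h
  obtain ⟨T₁, κ, hT₁, hκ, h1, h2⟩ := hξ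
  have hz := Xi2_mem_Z1 D hUr hx hc hdc htS htT
  have hc'' : c + κ ∈ C1 (D.𝒰 (T ∪ T₁)) A :=
    add_mem (D.C1_mono Finset.subset_union_left A hc) (D.C1_mono Finset.subset_union_right A hκ.1)
  have hd'' : (d₁₂ A).hom (c + κ) = a := by
    rw [map_add, hdc, (show (d₁₂ A).hom κ = 0 from hκ.2), add_zero]
  have hlev : c + κ ∈ C1 (D.𝒰 D.S) A := by
    refine hF (T ∪ T₁) (hT.trans Finset.subset_union_left) (c + κ) hc''
      (by rw [hd'']; exact hx.1.1) ?_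
    intro w hwS
    obtain ⟨u, hu, hu', hue⟩ := (mem_Hur_iff D _).1 (h2 w hwS)
    have hκw := D.res₁_mem_Z1 T₁ w hκ
    by_cases hwT : w ∈ T
    · rw [hξT w hwT, ← clsOf_sub D (hz w hwT) hκw, ← sub_eq_zero,
        ← clsOf_sub D (sub_mem (hz w hwT) hκw) hu',
        clsOf_eq_zero_iff D (sub_mem (sub_mem (hz w hwT) hκw) hu')] at hue
      obtain ⟨m, hm⟩ := hue
      refine ⟨t' w - u, sub_mem (htT w hwT hwS).1 hu.1, -m, ?_⟩
      have hm' : (d₀₁ (Rep.res (D.loc w) A)).hom m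
          = t' w - res₁ D.loc A w c - res₁ D.loc A w κ - u := hm
      rw [map_add, map_neg, hm']
      abel
    · rw [hξ0 w hwT, zero_sub, neg_eq_iff_add_eq_zero, ← clsOf_add D hκw hu',
        clsOf_eq_zero_iff D (add_mem hκw hu')] at hue
      obtain ⟨m, hm⟩ := hue
      refine ⟨res₁ D.loc A w c - u, sub_mem (D.res₁_mem_ur hwT hc) hu.1, m, ?_⟩
      have hm' : (d₀₁ (Rep.res (D.loc w) A)).hom m = res₁ D.loc A w κ + u := hm
      rw [map_add, hm']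
      abel
  have hm : ∀ v : ↥D.S, ∃ m : A,
      (d₀₁ (Rep.res (D.loc v) A)).hom m = t v - res₁ D.loc A v (c + κ) := by
    intro v
    have hκw := D.res₁_mem_Z1 T₁ v hκ
    have h := h1 v v.2
    rw [hξT v (hT v.2), ← sub_eq_zero, ← clsOf_sub D (hz v (hT v.2)) hκw,
      clsOf_eq_zero_iff D (sub_mem (hz v (hT v.2)) hκw)] at h
    obtain ⟨m, hm⟩ := h
    have e : t' v = t v := htS v
    have hm' : (d₀₁ (Rep.res (D.loc v) A)).hom m
        = t' v - res₁ D.loc A v c - res₁ D.loc A v κ := hm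
    exact ⟨m, by rw [hm', e, map_add]; abel⟩
  choose m hm using hm
  rw [Submodule.Quotient.mk_eq_zero]
  show (a, t) ∈ Bc2 (D.𝒰 D.S) D.locS A
  refine ⟨(c + κ, fun v => -m v), ⟨hlev, trivial⟩, ?_⟩
  refine Prod.ext hd'' (funext fun v => ?_)
  show res₁ D.locS A v (c + κ) - (d₀₁ (Rep.res (D.locS v) A)).hom (-m v) = t v
  have hmv : (d₀₁ (Rep.res (D.locS v) A)).hom (m v) = t v - res₁ D.locS A v (c + κ) := hm v
  rw [map_neg, hmv]
  abel

/-- `Ξ` can be moved by any family supported in `S` (add `(0, e)` to the cone cocycle). -/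
theorem Xi2_JS (hUr : UrLe D) {x : Hc2 (D.𝒰 D.S) D.locS D.𝒰vS A} {ξ : Jt D A}
    (h : Xi2 D A x ξ) (η : Jt D A) (hη : η ∈ JS D A) : ∃ x', Xi2 D A x' (ξ + η) := by
  classical
  obtain ⟨a, t, hx, T, c, t', rfl, hT, hc, hdc, htS, htT, hξT, hξ0⟩ := h
  have hz := Xi2_mem_Z1 D hUr hx hc hdc htS htT
  have hrep : ∀ w, ∃ e, e ∈ Z1 (D.𝒰v w) (Rep.res (D.loc w) A) ∧ clsOf D A w e = η w :=
    fun w => exists_clsOf D (η w)
  choose e he1 he2 using hrep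
  have hx₂ : ((a, fun v : ↥D.S => t v + e v) : (G × G → A) × (∀ v : ↥D.S, D.GvS v → A))
      ∈ Zc2 (D.𝒰 D.S) D.locS D.𝒰vS A := by
    refine ⟨hx.1, fun v => ⟨add_mem (hx.2 v).1 (he1 v).1, ?_⟩⟩
    show res₂ D.locS A v a = (d₁₂ (Rep.res (D.locS v) A)).hom (t v + e v)
    rw [map_add, ← (hx.2 v).2,
      (show (d₁₂ (Rep.res (D.locS v) A)).hom (e v) = 0 from (he1 v).2), add_zero]
  refine ⟨Submodule.Quotient.mk ⟨(a, fun v : ↥D.S => t v + e v), hx₂⟩, a,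
    fun v : ↥D.S => t v + e v, hx₂, T, c, fun w => if w ∈ D.S then t' w + e w else t' w,
    rfl, hT, hc, hdc, ?_, ?_, ?_, ?_⟩
  · intro v
    have e' : t' v = t v := htS v
    dsimp only
    rw [if_pos v.2, e']
  · intro w hwT hwS
    dsimp only
    rw [if_neg hwS]
    exact htT w hwT hwS
  · intro w hwT
    dsimp only
    rw [DFinsupp.add_apply, hξT w hwT]
    by_cases hwS : w ∈ D.S
    · rw [if_pos hwS, ← he2 w, ← clsOf_add D (hz w hwT) (he1 w)]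
      congr 1
      abel
    · rw [if_neg hwS, hη w hwS, add_zero]
  · intro w hwT
    rw [DFinsupp.add_apply, hξ0 w hwT, hη w (fun h => hwT (hT h)), add_zero]

end Xi2

/-! ### `H¹_c(A)`: the forgetful map to `H¹(G_S, A)` and finite-dimensionality -/

section Hc1

variable (A : Rep.{0} k G)

/-- The forgetful map `H¹_c(A) → H¹(G_S, A)`, `[(χ, s)] ↦ [χ]`. -/
noncomputable def forget : Hc1 (D.𝒰 D.S) D.locS A →ₗ[k] H1 (D.𝒰 D.S) A :=
  subquotMap (LinearMap.fst k (G → A) (↥D.S → A)) (Zc1 (D.𝒰 D.S) D.locS A) (Bc1 A)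
    (Z1 (D.𝒰 D.S) A) (coboundaries₁ A) (fun _ hx => hx.1)
    (fun _ _ hx => by
      obtain ⟨m, rfl⟩ := hx
      exact ⟨m, rfl⟩)

theorem forget_mk (x : ↥(Zc1 (D.𝒰 D.S) D.locS A)) :
    forget D A (Submodule.Quotient.mk x) = Submodule.Quotient.mk ⟨x.1.1, x.2.1⟩ := rfl

/-- Every class of `Ш¹ = ker (locJ)` lifts to `H¹_c(A)`. -/
theorem forget_surj_sha (χ : H1 (D.𝒰 D.S) A) (hχ : locJ D A χ = 0) :
    ∃ x, forget D A x = χ := by
  obtain ⟨χ0, rfl⟩ := Submodule.Quotient.mk_surjective _ χ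
  have h := (locJ_eq_zero_iff D A _).1 hχ
  have hs : ∀ v : ↥D.S, ∃ s : A,
      res₁ D.locS A v χ0.1 = (d₀₁ (Rep.res (D.locS v) A)).hom s := by
    intro v
    have hv := h v v.2
    rw [resH_mk, clsOf_eq_zero_iff D (D.res₁_mem_Z1 D.S v χ0.2)] at hv
    obtain ⟨s, hs⟩ := hv
    exact ⟨s, hs.symm⟩
  choose s hs using hs
  exact ⟨Submodule.Quotient.mk ⟨(χ0.1, s), χ0.2, hs⟩, rfl⟩

/-- The families `(s_v)_{v ∈ S}` with `s_v ∈ H⁰(G_v, A)`. -/
def invFam : Submodule k (↥D.S → A) where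
  carrier := {s | ∀ v : ↥D.S, (d₀₁ (Rep.res (D.locS v) A)).hom (s v) = 0}
  add_mem' := by
    intro s s' h h' v
    rw [Pi.add_apply, map_add, h v, h' v, add_zero]
  zero_mem' := fun v => by rw [Pi.zero_apply, map_zero]
  smul_mem' := by
    intro c s h v
    rw [Pi.smul_apply, map_smul, h v, smul_zero]

theorem inr_mem_Zc1 (s : ↥(invFam D A)) :
    ((0, s.1) : (G → A) × (↥D.S → A)) ∈ Zc1 (D.𝒰 D.S) D.locS A :=
  ⟨zero_mem _, fun v => by rw [map_zero]; exact (s.2 v).symm⟩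

/-- `(s_v) ↦ [(0, s)]`. -/
noncomputable def inrHc1 : ↥(invFam D A) →ₗ[k] Hc1 (D.𝒰 D.S) D.locS A :=
  (Submodule.mkQ _).comp
    (LinearMap.codRestrict (Zc1 (D.𝒰 D.S) D.locS A)
      ((LinearMap.inr k (G → A) (↥D.S → A)).comp (invFam D A).subtype)
      (fun s => inr_mem_Zc1 D A s))

theorem inrHc1_apply (s : ↥(invFam D A)) :
    inrHc1 D A s = Submodule.Quotient.mk ⟨(0, s.1), inr_mem_Zc1 D A s⟩ := rfl

/-- The kernel of the forgetful map consists of the classes `[(0, s)]`. -/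
theorem ker_forget_le (x : Hc1 (D.𝒰 D.S) D.locS A) (hx : forget D A x = 0) :
    ∃ s, inrHc1 D A s = x := by
  obtain ⟨⟨⟨χ, s⟩, hz⟩, rfl⟩ := Submodule.Quotient.mk_surjective _ x
  rw [forget_mk, Submodule.Quotient.mk_eq_zero] at hx
  obtain ⟨m, hm⟩ := hx
  have hm' : (d₀₁ A).hom m = χ := hm
  have hmem : (fun v : ↥D.S => s v - m) ∈ invFam D A := by
    intro v
    have h1 : res₁ D.locS A v χ = (d₀₁ (Rep.res (D.locS v) A)).hom (s v) := hz.2 v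
    have h2 : (d₀₁ (Rep.res (D.locS v) A)).hom m = res₁ D.locS A v χ := by
      rw [← hm']
      funext g
      rfl
    show (d₀₁ (Rep.res (D.locS v) A)).hom (s v - m) = 0
    rw [map_sub, ← h1, h2, sub_self]
  refine ⟨⟨_, hmem⟩, ?_⟩
  rw [inrHc1_apply]
  symm
  rw [Submodule.Quotient.eq]
  show (χ, s) - (0, fun v : ↥D.S => s v - m) ∈ Bc1 A
  refine ⟨m, ?_⟩
  refine Prod.ext ?_ (funext fun v => ?_)
  · show (d₀₁ A).hom m = χ - 0
    rw [hm', sub_zero]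
  · show m = s v - (s v - m)
    abel

/-- `H¹_c(A)` is finite-dimensional when `A` and `H¹(G_S, A)` are. -/
theorem finite_Hc1 [FiniteDimensional k A] [FiniteDimensional k (H1 (D.𝒰 D.S) A)] :
    FiniteDimensional k (Hc1 (D.𝒰 D.S) D.locS A) :=
  AsmRel.finite_of_ker_cover (forget D A) (inrHc1 D A) (ker_forget_le D A)

end Hc1

/-! ### The relation `Ξ` on `H²(G_S, B)` -/

section Xi1

variable {A B : Rep.{0} k G} (β : EqPairing A B C)
  (hA : IsDisc (D.𝒰 D.S) A) (hB : IsDisc (D.𝒰 D.S) B) (hC : IsDisc (D.𝒰 D.S) C)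

/-- `Xi1 α ξ` : "`ξ` is a value of `Ξ(α)`" for `α ∈ H²(G_S, B)`: `α = [x]`, `x = d u` with `u` of
level `T ⊇ S`, `m w` local primitives of `res_w x` for `w ∈ T` (unramified for `w ∉ S`),
`ξ_w = [res_w u - m_w]` for `w ∈ T` and `ξ_w = 0` outside `T`. -/
def Xi1 (B : Rep.{0} k G) (α : H2 (D.𝒰 D.S) B) (ξ : Jt D B) : Prop :=
  ∃ (x : G × G → B) (hx : x ∈ Z2 (D.𝒰 D.S) B) (T : Finset D.ι) (u : G → B)
    (m : ∀ w, D.Gv w → B),
    α = Submodule.Quotient.mk ⟨x, hx⟩ ∧ D.S ⊆ T ∧ u ∈ C1 (D.𝒰 T) B ∧ (d₁₂ B).hom u = x ∧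
    (∀ w, w ∈ T → m w ∈ C1 (D.𝒰v w) (Rep.res (D.loc w) B) ∧
      (d₁₂ (Rep.res (D.loc w) B)).hom (m w) = res₂ D.loc B w x) ∧
    (∀ w, w ∈ T → w ∉ D.S → m w ∈ C1 (D.𝒰ur w) (Rep.res (D.loc w) B)) ∧
    (∀ w, w ∈ T → ξ w = clsOf D B w (res₁ D.loc B w u - m w)) ∧ (∀ w, w ∉ T → ξ w = 0)

theorem Xi1_mem_Z1 {x : G × G → B} {T : Finset D.ι} {u : G → B} (hu : u ∈ C1 (D.𝒰 T) B)
    (hdu : (d₁₂ B).hom u = x) {m : ∀ w, D.Gv w → B}
    (hm : ∀ w, w ∈ T → m w ∈ C1 (D.𝒰v w) (Rep.res (D.loc w) B) ∧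
      (d₁₂ (Rep.res (D.loc w) B)).hom (m w) = res₂ D.loc B w x)
    (w : D.ι) (hw : w ∈ T) :
    res₁ D.loc B w u - m w ∈ Z1 (D.𝒰v w) (Rep.res (D.loc w) B) := by
  refine ⟨sub_mem (D.res₁_mem_C1 T w hu) (hm w hw).1, ?_⟩
  show (d₁₂ (Rep.res (D.loc w) B)).hom (res₁ D.loc B w u - m w) = 0
  rw [map_sub, (hm w hw).2, D.d₁₂_res₁, hdu, sub_self]

/-- **`Ξ(α)` exists** when `α` is orthogonal to `H¹_c(A)`: the classes `(0, s)` and (LOC) give
local triviality on `S`, (UR) outside `S`, then (HPQ). -/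
theorem Xi1_exists (hUr : UrLe D) (hL2 : LocH2 D β) (hUR : HasUR D B) (hHP : HasHP D B)
    (α : H2 (D.𝒰 D.S) B)
    (hα : ∀ x, Pc1 (D.𝒰 D.S) D.locS D.𝒰vS β D.hlocS hA hB hC D.lam x α = 0) :
    ∃ ξ, Xi1 D B α ξ := by
  classical
  obtain ⟨⟨x, hx⟩, rfl⟩ := Submodule.Quotient.mk_surjective _ α
  have hloc : ∀ w, ∃ s : D.Gv w → B, s ∈ C1 (D.𝒰v w) (Rep.res (D.loc w) B) ∧
      (w ∉ D.S → s ∈ C1 (D.𝒰ur w) (Rep.res (D.loc w) B)) ∧
      (d₁₂ (Rep.res (D.loc w) B)).hom s = res₂ D.loc B w x := by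
    intro w
    by_cases hw : w ∈ D.S
    · have hz : res₂ D.loc B w x ∈ B2 (D.𝒰v w) (Rep.res (D.loc w) B) := by
        refine hL2 w hw _ (D.res₂_mem_Z2 D.S w hx) fun s hs => ?_
        have hs0 : (d₀₁ (Rep.res (D.loc w) A)).hom s = 0 := by
          funext g
          rw [d₀₁_hom_apply, hs g, sub_self]
          rfl
        have hmem : ((0, Pi.single (⟨w, hw⟩ : ↥D.S) s) : (G → A) × (↥D.S → A))
            ∈ Zc1 (D.𝒰 D.S) D.locS A := by
          refine ⟨zero_mem _, fun v => ?_⟩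
          rw [map_zero]
          dsimp only
          by_cases hv : v = ⟨w, hw⟩
          · subst hv
            rw [Pi.single_eq_same]
            exact hs0.symm
          · rw [Pi.single_eq_of_ne hv, map_zero]
        have h1 := hα (Submodule.Quotient.mk ⟨_, hmem⟩)
        rw [D.Pc1_inr_eval β hA hB hC hmem hx, Finset.sum_eq_single (⟨w, hw⟩ : ↥D.S)] at h1
        · rwa [Pi.single_eq_same] at h1
        · intro v _ hv
          rw [Pi.single_eq_of_ne hv, map_zero, LinearMap.zero_apply, map_zero]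
        · intro h
          exact absurd (Finset.mem_univ _) h
      obtain ⟨s, hs, hds⟩ := hz
      exact ⟨s, hs, fun h => absurd hw h, hds⟩
    · obtain ⟨s, hs, hds⟩ := hUR w hw (res₂ D.loc B w x)
        ⟨D.res₂_mem_ur hw hx.1, (D.res₂_mem_Z2 D.S w hx).2⟩
      exact ⟨s, hUr.C1_le B w hs, fun _ => hs, hds⟩
  choose m hm1 hm2 hm3 using hloc
  obtain ⟨T, hT, u, hu, hdu⟩ := hHP x hx (fun w => ⟨m w, hm1 w, hm3 w⟩)
  refine ⟨∑ w ∈ T, DFinsupp.single w (clsOf D B w (res₁ D.loc B w u - m w)), x, hx, T, u, m,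
    rfl, hT, hu, hdu, fun w _ => ⟨hm1 w, hm3 w⟩, fun w _ hwS => hm2 w hwS, ?_, ?_⟩
  · intro w hw
    rw [sum_single_apply D T (fun w => clsOf D B w (res₁ D.loc B w u - m w)), if_pos hw]
  · intro w hw
    rw [sum_single_apply D T (fun w => clsOf D B w (res₁ D.loc B w u - m w)), if_neg hw]

/-- **EVAL'**: `P1 x α = [Ξ(α), forget x]`. -/
theorem Xi1_eval {α : H2 (D.𝒰 D.S) B} {ξ : Jt D B} (h : Xi1 D B α ξ)
    (x : Hc1 (D.𝒰 D.S) D.locS A) :
    Pc1 (D.𝒰 D.S) D.locS D.𝒰vS β D.hlocS hA hB hC D.lam x α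
      = brB D β hB hC ξ (forget D A x) := by
  classical
  obtain ⟨x2, hx2, T, u, m, rfl, hT, hu, hdu, hm, hmur, hξT, hξ0⟩ := h
  obtain ⟨⟨⟨χ, s⟩, hz⟩, rfl⟩ := Submodule.Quotient.mk_surjective _ x
  have hZ := Xi1_mem_Z1 D hu hdu hm
  have e1 := D.Pc1_eval β hA hB hC hz hx2 T hT u hu hdu m
    (fun w hw hwS => ⟨hmur w hw hwS, (hm w hw).2⟩)
  rw [e1, forget_mk, brB_eq_sum D β hB hC T ξ hξ0, ← Finset.sum_sdiff hT]
  have hS0 : ∑ w ∈ D.S, PLw D β hB hC w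
      (resH D A w D.S (Submodule.Quotient.mk ⟨χ, hz.1⟩)) (ξ w) = 0 := by
    refine Finset.sum_eq_zero fun w hw => ?_
    have hcob : res₁ D.loc A w χ ∈ coboundaries₁ (Rep.res (D.loc w) A) :=
      ⟨s ⟨w, hw⟩, (hz.2 ⟨w, hw⟩).symm⟩
    rw [resH_mk, (clsOf_eq_zero_iff D (D.res₁_mem_Z1 D.S w hz.1)).2 hcob, map_zero,
      LinearMap.zero_apply]
  rw [hS0, add_zero]
  refine Finset.sum_congr rfl fun w hw => ?_
  rw [hξT w (Finset.mem_sdiff.1 hw).1, resH_mk,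
    PLw_clsOf D β hB hC w (D.res₁_mem_Z1 D.S w hz.1) (hZ w (Finset.mem_sdiff.1 hw).1)]

/-- **ZERO'**: if `Ξ(α) ∈ Dg + JS` then `α = 0` in `H²(G_S, B)` ((FACT)). -/
theorem Xi1_zero (hF : HasFact D B) {α : H2 (D.𝒰 D.S) B} {ξ : Jt D B} (h : Xi1 D B α ξ)
    (hξ : ξ ∈ Dg D B ⊔ JS D B) : α = 0 := by
  classical
  obtain ⟨x, hx, T, u, m, rfl, hT, hu, hdu, hm, hmur, hξT, hξ0⟩ := h
  obtain ⟨d, ⟨T₁, κ, hT₁, hκ, h1, h2⟩, s, hs, rfl⟩ := Submodule.mem_sup.1 hξ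
  have hZ := Xi1_mem_Z1 D hu hdu hm
  have hu'' : u - κ ∈ C1 (D.𝒰 (T ∪ T₁)) B :=
    sub_mem (D.C1_mono Finset.subset_union_left B hu) (D.C1_mono Finset.subset_union_right B hκ.1)
  have hd'' : (d₁₂ B).hom (u - κ) = x := by
    rw [map_sub, hdu, (show (d₁₂ B).hom κ = 0 from hκ.2), sub_zero]
  have hlev : u - κ ∈ C1 (D.𝒰 D.S) B := by
    refine hF (T ∪ T₁) (hT.trans Finset.subset_union_left) (u - κ) hu''
      (by rw [hd'']; exact hx.1) ?_
    intro w hwS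
    obtain ⟨ũ, hũ, hũ', hue⟩ := (mem_Hur_iff D _).1 (h2 w hwS)
    have hκw := D.res₁_mem_Z1 T₁ w hκ
    have hdw : d w = (d + s) w := by rw [DFinsupp.add_apply, hs w hwS, add_zero]
    rw [hdw] at hue
    by_cases hwT : w ∈ T
    · rw [hξT w hwT, ← clsOf_sub D (hZ w hwT) hκw, ← sub_eq_zero,
        ← clsOf_sub D (sub_mem (hZ w hwT) hκw) hũ',
        clsOf_eq_zero_iff D (sub_mem (sub_mem (hZ w hwT) hκw) hũ')] at hue
      obtain ⟨n, hn⟩ := hue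
      refine ⟨m w + ũ, add_mem (hmur w hwT hwS) hũ.1, n, ?_⟩
      have hn' : (d₀₁ (Rep.res (D.loc w) B)).hom n
          = res₁ D.loc B w u - m w - res₁ D.loc B w κ - ũ := hn
      rw [map_sub, hn']
      abel
    · rw [hξ0 w hwT, zero_sub, neg_eq_iff_add_eq_zero, ← clsOf_add D hκw hũ',
        clsOf_eq_zero_iff D (add_mem hκw hũ')] at hue
      obtain ⟨n, hn⟩ := hue
      refine ⟨res₁ D.loc B w u + ũ, add_mem (D.res₁_mem_ur hwT hu) hũ.1, -n, ?_⟩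
      have hn' : (d₀₁ (Rep.res (D.loc w) B)).hom n = res₁ D.loc B w κ + ũ := hn
      rw [map_sub, map_neg, hn']
      abel
  rw [Submodule.Quotient.mk_eq_zero]
  show x ∈ B2 (D.𝒰 D.S) B
  exact ⟨u - κ, hlev, hd''⟩

end Xi1

/-! ### The assembly -/

section Main

variable {A B : Rep.{0} k G} (β : EqPairing A B C)
  (hA : IsDisc (D.𝒰 D.S) A) (hB : IsDisc (D.𝒰 D.S) B) (hC : IsDisc (D.𝒰 D.S) C)

/-- **All the inputs of the base case** for the pair `(A, B)` with pairing `β : A × B → C`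
(`notes/helper3/S55_base_Q.md`); `a`, `b`, `c` are the three numbers of the count
(`a = 2|S_K| + [K:ℚ]`, `b = |S_K| + r₂ + c`, `c = dim Cl_S(K)/p`). -/
structure Hyp (a b c : ℕ) : Prop where
  /-- formal -/
  urLe : UrLe D
  /-- (UR) -/
  urA : HasUR D A
  urB : HasUR D B
  /-- (HPQ) -/
  hpA : HasHP D A
  hpB : HasHP D B
  /-- (G4Q) -/
  g4A : HasG4 D A
  g4B : HasG4 D B
  /-- (FACT) -/
  factA : HasFact D A
  factB : HasFact D B
  /-- (LOC_l) -/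
  locLeft : LocLeft D β
  locRight : LocRight D β
  locH2 : LocH2 D β
  finA : FiniteDimensional k A
  /-- (CNT) -/
  finLocA : ∀ v, v ∈ D.S → FiniteDimensional k (Hloc D A v)
  finLocB : ∀ v, v ∈ D.S → FiniteDimensional k (Hloc D B v)
  c1A : ∑ v ∈ D.S, finrank k (Hloc D A v) ≤ a
  c1B : ∑ v ∈ D.S, finrank k (Hloc D B v) ≤ a
  c3A : b ≤ finrank k (H1 (D.𝒰 D.S) A)
  c3B : b ≤ finrank k (H1 (D.𝒰 D.S) B)
  finQA : FiniteDimensional k (Jt D A ⧸ (Dg D A ⊔ JS D A))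
  finQB : FiniteDimensional k (Jt D B ⧸ (Dg D B ⊔ JS D B))
  c4A : finrank k (Jt D A ⧸ (Dg D A ⊔ JS D A)) ≤ c
  c4B : finrank k (Jt D B ⧸ (Dg D B ⊔ JS D B)) ≤ c
  count : a + 2 * c ≤ 2 * b
  /-- (CAP) + (c4): every family is `Ξ` of a cone 2-cocycle modulo `Dg + JS`. -/
  cap : ∀ Ξ : Jt D A, ∃ x ξ, Xi2 D A x ξ ∧ ξ - Ξ ∈ Dg D A ⊔ JS D A

variable {a b c : ℕ} (H : Hyp D β a b c)

include hB hC H

/-- `H¹(G_S, A)` is finite-dimensional (free: no input (c0)). -/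
theorem finite_H1A : FiniteDimensional k (H1 (D.𝒰 D.S) A) :=
  haveI := JS_finite D A H.finLocA
  haveI := H.finQB
  AsmRel.finite_V (brB D β hB hC) (Dg D B) (JS D B) (JS D A) (locJ D A)
    (fun d hd y => brB_Dg D β hB hC d hd y)
    (fun y hy => brB_right D β hB hC H.locLeft H.g4A y hy)
    (fun y hy ξ hξ => brB_JS D β hB hC y hy ξ hξ) (fun v => locJ_mem_JS D A v)

/-- `H¹(G_S, B)` is finite-dimensional. -/
theorem finite_H1B : FiniteDimensional k (H1 (D.𝒰 D.S) B) :=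
  haveI := JS_finite D B H.finLocB
  haveI := H.finQA
  AsmRel.finite_V (brA D β hB hC) (Dg D A) (JS D A) (JS D B) (locJ D B)
    (fun d hd y => brA_Dg D β hB hC d hd y)
    (fun y hy => brA_right D β hB hC H.locRight H.g4B y hy)
    (fun y hy ξ hξ => brA_JS D β hB hC y hy ξ hξ) (fun v => locJ_mem_JS D B v)

/-- **The linear algebra (a)–(d)** (helper185's `LAQ.la_two_sides`): `Dg A = H¹(G_S,B)^⊥`,
every functional on `H¹(G_S, B)` is a bracket, and `Dg B + JS B = Ш¹(A)^⊥`. -/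
theorem la :
    (∀ Ξ : Jt D A, (∀ y, brA D β hB hC Ξ y = 0) → Ξ ∈ Dg D A) ∧
    (∀ φ : H1 (D.𝒰 D.S) B →ₗ[k] k, ∃ Ξ, ∀ y, φ y = brA D β hB hC Ξ y) ∧
    (∀ Ξ : Jt D B, (∀ χ, locJ D A χ = 0 → brB D β hB hC Ξ χ = 0) → Ξ ∈ Dg D B ⊔ JS D B) := by
  have := finite_H1A D β hB hC H
  have := finite_H1B D β hB hC H
  have := JS_finite D A H.finLocA
  have := JS_finite D B H.finLocB
  have := H.finQA
  have := H.finQB
  obtain ⟨⟨h1, h2, -⟩, ⟨-, -, h3, -⟩⟩ := LAQ.la_two_sides (brA D β hB hC) (brB D β hB hC)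
    (Dg D A) (JS D A) (Dg D B) (JS D B) (locJ D A) (locJ D B)
    (fun d hd y => brA_Dg D β hB hC d hd y) (fun d hd y => brB_Dg D β hB hC d hd y)
    (fun y hy => brA_right D β hB hC H.locRight H.g4B y hy)
    (fun y hy => brB_right D β hB hC H.locLeft H.g4A y hy)
    (by rintro _ ⟨y, rfl⟩; exact ⟨locJ_mem_Dg D A y, locJ_mem_JS D A y⟩)
    (by rintro _ ⟨y, rfl⟩; exact ⟨locJ_mem_Dg D B y, locJ_mem_JS D B y⟩)
    (fun y hy ξ hξ => brA_JS D β hB hC y hy ξ hξ) (fun y hy ξ hξ => brB_JS D β hB hC y hy ξ hξ)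
    a b c ((finrank_JS_le D A H.finLocA).trans H.c1A) ((finrank_JS_le D B H.finLocB).trans H.c1B)
    H.c3A H.c3B H.c4A H.c4B H.count
  refine ⟨fun Ξ h => (h1 Ξ).1 h, fun φ => ?_, fun Ξ h => (h3 Ξ).1 h⟩
  obtain ⟨Ξ, rfl⟩ := h2 φ
  exact ⟨Ξ, fun y => rfl⟩

include hA

/-- **A2mono**: the left kernel of `P2 : H²_c(A) × H¹(G_S, B) → k` is trivial. -/
theorem a2mono : PairMono (Pc2 (D.𝒰 D.S) D.locS D.𝒰vS β D.hlocS hA hB hC D.lam) :=
  AsmRel.pairMono_of_rel _ (brA D β hB hC) (Dg D A) (Xi2 D A) (la D β hB hC H).1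
    (Xi2_exists D H.urLe H.urA H.hpA) (fun _ _ h y => Xi2_eval D β hA hB hC H.urLe h y)
    (fun _ _ h hξ => Xi2_zero D H.urLe H.factA h hξ)

/-- **A2epi**: every functional on `H¹(G_S, B)` is `P2 x`. -/
theorem a2epi : PairEpi (Pc2 (D.𝒰 D.S) D.locS D.𝒰vS β D.hlocS hA hB hC D.lam) :=
  AsmRel.pairEpi_of_rel _ (brA D β hB hC) (Dg D A) (Xi2 D A)
    (fun d hd y => brA_Dg D β hB hC d hd y) (la D β hB hC H).2.1
    (fun _ _ h y => Xi2_eval D β hA hB hC H.urLe h y)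
    (AsmRel.rel_surj_of_cap (Dg D A) (JS D A) (Xi2 D A) H.cap
      (fun _ _ h η hη => Xi2_JS D H.urLe h η hη))

/-- The right kernel of `P1 : H¹_c(A) × H²(G_S, B) → k` is trivial. -/
theorem a1_right_kernel (α : H2 (D.𝒰 D.S) B)
    (hα : ∀ x, Pc1 (D.𝒰 D.S) D.locS D.𝒰vS β D.hlocS hA hB hC D.lam x α = 0) : α = 0 :=
  AsmRel.rightKer_of_rel (Pc1 (D.𝒰 D.S) D.locS D.𝒰vS β D.hlocS hA hB hC D.lam) (forget D A)
    (locJ D A) (brB D β hB hC) (Dg D B ⊔ JS D B) (Xi1 D B) (la D β hB hC H).2.2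
    (forget_surj_sha D A)
    (fun α hα => Xi1_exists D β hA hB hC H.urLe H.locH2 H.urB H.hpB α hα)
    (fun α ξ h x hx => by rw [← Xi1_eval D β hA hB hC h x, hx])
    (fun _ _ h hξ => Xi1_zero D H.factB h hξ) α hα

/-- **A1epi**: every functional on `H²(G_S, B)` is `P1 x`. -/
theorem a1epi : PairEpi (Pc1 (D.𝒰 D.S) D.locS D.𝒰vS β D.hlocS hA hB hC D.lam) := by
  have := H.finA
  have := finite_H1A D β hB hC H
  have := finite_Hc1 D A
  exact AsmRel.pairEpi_of_rightKer _ (a1_right_kernel D β hA hB hC H)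

end Main

end Fermat.Agent.S55.Base.AsmG
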