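/-
S55 / PROGRAM CFT, base case, Q-side form: the assembly for the concrete context
`ctxS p S hpS I.lamS` over `ℚ` (helper257; tasks row 316).

`I : EvalQ.ArithInput p S` is helper36's arithmetic input (local functionals at all primes with
reciprocity), `I.datum` its evaluation datum, `I.lamS : LamS p S` the functional.  For a module
`M` discrete at level `S`, with `M' = M.dualTwist (cycloChar p)`: if the inputs
`AsmG.Hyp I.datum (evPairing (cycloChar p) M) a b c` hold, then
`P1` is epi, `P2` is mono and epi, i.e. `PkgI M ∧ A2epi M` (the shape of `Abs.CFTBase`).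
-/
import Fermat.Agent.S55.Base.Assemble
import Fermat.Agent.S55.Base.EvalQ

set_option autoImplicit false

open CategoryTheory groupCohomology ExtCitation

namespace Fermat.Agent.S55.Base.AsmQ

open Fermat.Agent.S55.Abs Fermat.Agent.S55.Base.EvalQ

variable {p : ℕ} [Fact p.Prime] {S : Finset Nat.Primes} (I : ArithInput p S)
  (hpS : pPrime p ∈ S) {M : Rep.{0} (ZMod p) GQ} (hM : IsDisc (globalLevel S) M)
  {a b c : ℕ} (H : AsmG.Hyp I.datum (evPairing (cycloChar p) M) a b c)

include H

/-- **A1epi** for `M` in the context `ctxS p S hpS I.lamS`. -/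
theorem a1epi : PairEpi ((ctxS p S hpS I.lamS).P1 hM) :=
  AsmG.a1epi I.datum (evPairing (cycloChar p) M) hM ((ctxS p S hpS I.lamS).disc_dual hM)
    (isDisc_mu p S hpS) H

/-- **A2mono** for `M` in the context `ctxS p S hpS I.lamS`. -/
theorem a2mono : PairMono ((ctxS p S hpS I.lamS).P2 hM) :=
  AsmG.a2mono I.datum (evPairing (cycloChar p) M) hM ((ctxS p S hpS I.lamS).disc_dual hM)
    (isDisc_mu p S hpS) H

/-- **A2epi** for `M` in the context `ctxS p S hpS I.lamS`. -/
theorem a2epi : PairEpi ((ctxS p S hpS I.lamS).P2 hM) :=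
  AsmG.a2epi I.datum (evPairing (cycloChar p) M) hM ((ctxS p S hpS I.lamS).disc_dual hM)
    (isDisc_mu p S hpS) H

omit H in
/-- The unramified local levels are local levels (the formal field `urLe` of `AsmG.Hyp`). -/
theorem urLe : AsmG.UrLe I.datum := fun w => urSets_subset_localSets w

include hM in
/-- **The base interface for `M`**: `PkgI M ∧ A2epi M` (the shape of `Abs.CFTBase`). -/
theorem pkg : (ctxS p S hpS I.lamS).PkgI M ∧ (ctxS p S hpS I.lamS).A2epi M :=
  ⟨{ disc := hM
     a1epi := a1epi I hpS hM H
     a2mono := a2mono I hpS hM H },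
   { disc := hM
     a2epi := a2epi I hpS hM H }⟩

end Fermat.Agent.S55.Base.AsmQ
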