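/-
S55 / PROGRAM CFT, base case: the (c4) input is discharged (helper154).

* `exists_thetaFam_gen` : for every admissible field `K` there are a primitive `p`-th root of
  unity `ζ ∈ K`, a family of uniformisers `F` and a retraction `R` such that the concrete theta
  family `C4Principal.thetaFam I hpS hK hζ F R` satisfies `Gen` (`C4GenQ.thetaFam_gen`);
* `bricks3_of_capGen` : the layer-3 bricks of `Wire/Layer2` from a REC family and `CapGen` for
  every admissible field (`BaseCase.bricks3_of_gen` with its `hgen` discharged).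
-/
import Fermat.Agent.S55.Base.BaseC4
import Fermat.Agent.S55.Base.C4GenInst

set_option autoImplicit false

open scoped NumberField
open CategoryTheory groupCohomology ExtCitation

namespace Fermat.Agent.S55.Base.BaseCase

open Fermat.Agent.S55.Abs Fermat.Agent.S55.Base.EvalQ Fermat.Agent.S55.Shapiro

variable {p : ℕ} [Fact p.Prime] {S : Finset Nat.Primes}

/-- `Gen` of the concrete theta family, for every admissible field. -/
theorem exists_thetaFam_gen (I : ArithInput p S) (hpS : pPrime p ∈ S)
    (K : IntermediateField ℚ (AlgebraicClosure ℚ)) [NumberField K]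
    (hK : K.IsUnramifiedOutside S) (hc : Glue.cycloField p ≤ K) :
    ∃ (ζ : K) (hζ : IsPrimitiveRoot ζ p) (F : C4Principal.UFam p S K ζ)
      (R : Retr K.fixingSubgroup), (C4Principal.thetaFam I hpS hK hζ F R).Gen := by
  obtain ⟨ζ, hζ⟩ := Shapiro.AdapterG4.exists_primitiveRoot K hc
  obtain ⟨F⟩ := C4Principal.nonempty_ufam p S K ζ hζ
  obtain ⟨R⟩ := Retr.nonempty K.fixingSubgroup
  exact ⟨ζ, hζ, F, R, C4GenQ.thetaFam_gen I hpS hK hζ F R⟩

/-- **Layer-3 bricks** from a REC family and `CapGen` for every admissible field: the count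
(c4) needs no further input. -/
theorem bricks3_of_capGen (hp2 : p ≠ 2) (hpS : pPrime p ∈ S)
    (hrec : ∃ lamH : Wire.LamH p, Wire.IsRec p S lamH)
    (hcap : ∀ (I : ArithInput p S) (K : IntermediateField ℚ (AlgebraicClosure ℚ)),
      K.IsUnramifiedOutside S → Glue.cycloField p ≤ K →
        ConeKer.CapGen I.datum (M0 (ZMod p) K.fixingSubgroup)) :
    Wire.Bricks3 p S hpS :=
  bricks3_of_gen hp2 hpS hrec hcap fun I K _ hK hc => exists_thetaFam_gen I hpS K hK hc

end Fermat.Agent.S55.Base.BaseCase
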