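/-
S55 / PROGRAM CFT, base case, count (c4): `Gen` for the family of restricted Kummer cocycles of
uniformisers, `N = M0(K) = coind_{G_K}^{G_ℚ} 𝔽_p` (helper154).

* `GenStar S K ζ hζ` : the universal form of UNR3 generation over `ℚ`: for every prime `l ∉ S`
  there is a finite family of places `v j` of `K` above `l` such that, for EVERY retraction `R₀`
  and EVERY system of uniformisers `π j` at `v j` (units at the other places above `l`), every
  local level 1-cocycle at `l` with values in `M0(K)` is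
  `∑ j, e j • res_l (ind₁ R₀ (kum (π j))) + (unramified cochain) + (coboundary)`.
* `gen_of_genStar` : `Θ.Gen` for ANY `Θ : C4.ThetaFam I.datum (M0 K)` whose index type `Θ.O`
  maps to the places of `K` (`plO`), covering all places above the primes outside `S`, with
  `Θ.θ (Θ.pr o) o = res (ind₁ R₀ (kum (π o)))` for uniformisers `π o` at `plO o`.
-/
import Fermat.Agent.S55.Base.C4GenQ
import Fermat.Agent.S55.Base.EvalQ
import Fermat.Agent.S55.Shapiro.Core
import Fermat.Agent.CFT.Global.CountV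

set_option autoImplicit false

open CategoryTheory groupCohomology ExtCitation
open scoped NumberField
open IsDedekindDomain

namespace Fermat.Agent.S55.Base.C4GenQ

open Fermat.Agent.S55.Abs Fermat.Agent.S55.Base.C4 Fermat.Agent.S55.Shapiro
  Fermat.Agent.CFT.Global

variable {p : ℕ} [Fact p.Prime] (S : Finset Nat.Primes)
  (K : IntermediateField ℚ (AlgebraicClosure ℚ)) [NumberField K]
  (ζ : K) (hζ : IsPrimitiveRoot ζ p)

/-- The `ℚ`-side Kummer cocycle of `a ∈ Kˣ`: Shapiro induction of the Kummer character. -/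
noncomputable def kumQ (R₀ : Retr K.fixingSubgroup) (a : Kˣ) :
    GQ → M0 (ZMod p) K.fixingSubgroup :=
  ind₁ (Rep.trivial (ZMod p) K.fixingSubgroup (ZMod p)) R₀ (CountV.kum K ζ hζ a)

/-- **UNR3 generation over `ℚ`, universal in the retraction and in the uniformisers.** -/
def GenStar : Prop :=
  ∀ l : Nat.Primes, l ∉ S → ∃ (J : Type) (_ : Fintype J) (v : J → HeightOneSpectrum (𝓞 K)),
    (∀ j, ((l : ℕ) : 𝓞 K) ∈ (v j).asIdeal) ∧
    ∀ (R₀ : Retr K.fixingSubgroup) (π : J → Kˣ),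
      (∀ j, (v j).valuation K (π j : K) = WithZero.exp (-1 : ℤ)) →
      (∀ j (v' : HeightOneSpectrum (𝓞 K)), ((l : ℕ) : 𝓞 K) ∈ v'.asIdeal → v' ≠ v j →
        v'.valuation K (π j : K) = 1) →
      ∀ ξ ∈ Z1 (localLevel (primeLocalToGlobal l))
          (Rep.res (primeLocalToGlobal l) (M0 (ZMod p) K.fixingSubgroup)),
        ∃ (e : J → ZMod p) (u : primeLocalGaloisGroup l → M0 (ZMod p) K.fixingSubgroup)
          (m : M0 (ZMod p) K.fixingSubgroup),
          u ∈ C1 (EvalQ.urLevel l)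
            (Rep.res (primeLocalToGlobal l) (M0 (ZMod p) K.fixingSubgroup)) ∧
          ξ = ∑ j, e j • res₁ (fun w : Nat.Primes => primeLocalToGlobal w)
                (M0 (ZMod p) K.fixingSubgroup) l (kumQ K ζ hζ R₀ (π j))
              + u
              + (d₀₁ (Rep.res (primeLocalToGlobal l) (M0 (ZMod p) K.fixingSubgroup))).hom m

variable {S K ζ hζ}

/-- **`Gen` for a family of restricted Kummer cocycles of uniformisers.** -/
theorem gen_of_genStar (I : EvalQ.ArithInput p S)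
    (Θ : ThetaFam I.datum (M0 (ZMod p) K.fixingSubgroup))
    (R₀ : Retr K.fixingSubgroup) (plO : Θ.O → HeightOneSpectrum (𝓞 K)) (π : Θ.O → Kˣ)
    (hπ : ∀ o, (plO o).valuation K (π o : K) = WithZero.exp (-1 : ℤ))
    (hπ' : ∀ o (v' : HeightOneSpectrum (𝓞 K)),
      (((Θ.pr o).1 : ℕ) : 𝓞 K) ∈ v'.asIdeal → v' ≠ plO o →
        v'.valuation K (π o : K) = 1)
    (hθ : ∀ o, Θ.θ (Θ.pr o) o
      = res₁ (fun w : Nat.Primes => primeLocalToGlobal w) (M0 (ZMod p) K.fixingSubgroup)
          (Θ.pr o) (kumQ K ζ hζ R₀ (π o)))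
    (hsurj : ∀ l : Nat.Primes, l ∉ S → ∀ v : HeightOneSpectrum (𝓞 K),
      ((l : ℕ) : 𝓞 K) ∈ v.asIdeal → ∃ o, Θ.pr o = l ∧ plO o = v)
    (hG : GenStar S K ζ hζ) : Θ.Gen := by
  have hθ' : ∀ (o : Θ.O) (w : Nat.Primes), Θ.pr o = w → Θ.θ w o
      = res₁ (fun w : Nat.Primes => primeLocalToGlobal w) (M0 (ZMod p) K.fixingSubgroup)
          w (kumQ K ζ hζ R₀ (π o)) := by
    intro o w h
    subst h
    exact hθ o
  refine gen_of_cover Θ fun l hl => ?_
  obtain ⟨J, hJ, v, hv, hgen⟩ := hG l hl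
  have hex : ∀ j, ∃ o, Θ.pr o = l ∧ plO o = v j := fun j => hsurj l hl (v j) (hv j)
  choose o ho1 ho2 using hex
  refine ⟨J, hJ, fun j => Θ.θ l (o j), ?_, ?_⟩
  · intro z hz
    obtain ⟨e, u, m, hu, hzeq⟩ := hgen R₀ (fun j => π (o j))
      (fun j => by rw [← ho2 j]; exact hπ (o j))
      (fun j v' hv' hne => hπ' (o j) v' (by rw [ho1 j]; exact hv') (by rw [ho2 j]; exact hne))
      z hz
    refine ⟨e, u, m, hu, ?_⟩
    rw [hzeq]
    congr 2
    exact Finset.sum_congr rfl fun j _ =>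
      congrArg (fun x => e j • x) (hθ' (o j) l (ho1 j)).symm
  · intro j
    exact ⟨o j, ho1 j, 0, 0, zero_mem _, by rw [map_zero, add_zero, add_zero]⟩

end Fermat.Agent.S55.Base.C4GenQ
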