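/-
S55 / PROGRAM CFT, base case, count (c4): `GenStar` — UNR3 generation over `ℚ`, universal in the
retraction and in the uniformisers — is a theorem (helper196).

`genStar` : for `K` unramified outside `S ∋ p`, `C4GenQ.GenStar S K ζ hζ` holds.  The index type
is a Mackey system of representatives `D` of `G_K \ G_ℚ / G_l`, the places are
`CapGen.vOf K l D j`, and the generation statement is `Unr3Q.gen_res_ind` for the Kummer
characters `CountV.kum K ζ hζ (π j)` (with the roots `CountV.root p K (π j)`).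
-/
import Fermat.Agent.S55.Base.C4GenM0
import Fermat.Agent.S55.Base.CapGenPlaces
import Fermat.Agent.S55.Base.EvalUR
import Fermat.Agent.S55.Shapiro.Unr3QGen
import Fermat.Agent.CFT.LocalBr.UnramUnif

set_option autoImplicit false

open CategoryTheory groupCohomology ExtCitation
open scoped NumberField Pointwise
open IsDedekindDomain

namespace Fermat.Agent.S55.Base.C4GenQ

open Fermat.Agent.S55.Abs Fermat.Agent.S55.Base.C4 Fermat.Agent.S55.Shapiro
  Fermat.Agent.CFT.Global Fermat.Agent.S55.Shapiro.Unr3Q Fermat.Agent.CFT.LocalBr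

variable {p : ℕ} [Fact p.Prime] {S : Finset Nat.Primes}
  {K : IntermediateField ℚ (AlgebraicClosure ℚ)} [NumberField K]
  {ζ : K} {hζ : IsPrimitiveRoot ζ p}

/-- **UNR3 generation over `ℚ`, universal form** (`GenStar`), for `K` unramified outside
`S ∋ p`. -/
theorem genStar (hK : K.IsUnramifiedOutside S) (hpS : pPrime p ∈ S) : GenStar S K ζ hζ := by
  classical
  intro l hl
  obtain ⟨D⟩ := DRep.nonempty K.fixingSubgroup (primeLocalToGlobal l)
  have := CapGen.finite_of_drep K l D
  let _ := Fintype.ofFinite (DoubleCoset.Quotient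
    ((K.fixingSubgroup : Subgroup GQ) : Set GQ) ((primeLocalToGlobal l).range : Set GQ))
  refine ⟨_, inferInstance, CapGen.vOf K l D, CapGen.vOf_mem K l D, ?_⟩
  intro R₀ π hπ hπ' ξ hξ
  have h1 : ∀ j, Unram.IsUniformizerAt K (plc l (D.τ j)) ((π j : Kˣ) : K) := fun j =>
    (Unram.isUniformizerAt_iff (CapGen.vOf_asIdeal K l D j) _).mpr (hπ j)
  have h2 : ∀ i j, i ≠ j →
      (plc l (D.τ i)).valuation ((((π j : Kˣ) : K) : AlgebraicClosure ℚ)) = 1 :=
    fun i j hij => CapGen.valuation_unif_of_ne K l D hij (hπ' j)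
  obtain ⟨e, u, m, hu, hξeq⟩ := gen_res_ind p D S hK hpS hl ζ hζ (fun j => ((π j : Kˣ) : K))
    h1 h2 (fun j => CountV.root p K (π j)) (fun j => CountV.root_pow K (π j))
    (fun j => CountV.kum K ζ hζ (π j)) (fun j σ => CountV.kum_root K ζ hζ (π j) σ) R₀ ξ hξ.2
    ((isLevelConstant₁_iff (primeLocalToGlobal l) ξ).mpr hξ.1)
  exact ⟨e, u, m, (EvalQ.mem_C1_urLevel_iff l
    (Rep.res (primeLocalToGlobal l) (M0 (ZMod p) K.fixingSubgroup)) u).mpr hu, hξeq⟩

end Fermat.Agent.S55.Base.C4GenQ
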