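/-
S55 / PROGRAM CFT, base case: THE BASE CASE OVER `ℚ`, hypothesis-free (helper185).

* `exists_gen` : `Gen` of the concrete theta family `C4Principal.thetaFam` (helper257) for a
  family of uniformisers whose Kummer characters are the literal `CountV.kum`, from helper196's
  `C4GenQ.genStar` through helper154's `C4GenQ.gen_of_genStar`.
* `c4Input` : the (c4) input `BaseCase.C4Input I K` for every admissible `K`.
* `capGen` : `ConeKer.CapGen I.datum (M0 K)` (helper16's `CapGen.capGen_M0`).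
* `bricks3_final` : `Wire.Bricks3 p S hpS` for every odd `p` and every `S ∋ p`, with the REC family
  of `CFT/Rec/Final`.
-/
import Fermat.Agent.S55.Base.BaseC4
import Fermat.Agent.S55.Base.C4GenStar
import Fermat.Agent.S55.Base.CapGen
import Fermat.Agent.CFT.Rec.Final

set_option autoImplicit false

open scoped NumberField
open CategoryTheory groupCohomology ExtCitation IsDedekindDomain

namespace Fermat.Agent.S55.Base.BaseCase

open Fermat.Agent.S55.Abs Fermat.Agent.S55.Base.EvalQ Fermat.Agent.S55.Shapiro Module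
open Fermat.Agent.CFT.Global Fermat.Agent.CFT.Global.CountV Fermat.Agent.CFT.Count

variable {p : ℕ} [Fact p.Prime] {S : Finset Nat.Primes}

/-- A family of uniformisers whose Kummer characters are the literal `CountV.kum`. -/
noncomputable def kumFam (K : IntermediateField ℚ (AlgebraicClosure ℚ)) [NumberField K]
    (ζ : K) (hζ : IsPrimitiveRoot ζ p) (F₀ : C4Principal.UFam p S K ζ) :
    C4Principal.UFam p S K ζ where
  l := F₀.l
  hl := F₀.hl
  π := F₀.π
  hπ := F₀.hπ
  hπ' := F₀.hπ'
  ϖ := F₀.ϖ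
  hϖ := F₀.hϖ
  κ := fun w => CountV.kum K ζ hζ (Units.mk0 (F₀.π w) (F₀.π_ne_zero w))
  hκ := fun w s => CountV.kum_spec K ζ hζ (Units.mk0 (F₀.π w) (F₀.π_ne_zero w)) (F₀.ϖ w)
    (F₀.hϖ w) s

/-- **`Gen` for the concrete theta family** of `kumFam`. -/
theorem gen_kumFam (I : ArithInput p S) (hpS : pPrime p ∈ S)
    (K : IntermediateField ℚ (AlgebraicClosure ℚ)) [NumberField K]
    (hK : K.IsUnramifiedOutside S) (ζ : K) (hζ : IsPrimitiveRoot ζ p)
    (F₀ : C4Principal.UFam p S K ζ) (R : Retr K.fixingSubgroup) :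
    (C4Principal.thetaFam I hpS hK hζ (kumFam K ζ hζ F₀) R).Gen := by
  refine C4GenQ.gen_of_genStar (ζ := ζ) (hζ := hζ) I
    (C4Principal.thetaFam I hpS hK hζ (kumFam K ζ hζ F₀) R) R
    (fun o : Outside (SK S K) => o.1)
    (fun o : Outside (SK S K) => Units.mk0 (F₀.π o) (F₀.π_ne_zero o))
    (fun o => F₀.hπ o) (fun o v' hv' hne => F₀.hπ' o v' hv' hne) (fun o => ?_)
    (fun l hl v hv => ?_) (C4GenQ.genStar hK hpS)
  · exact C4Principal.thetaFam_θ_of_eq I hpS hK hζ (kumFam K ζ hζ F₀) R _ o rfl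
  · have hv' : v ∉ SK S K := (not_mem_SK_iff S K v).2 fun q hq hmem =>
      hl (C4Principal.prime_unique v q l hmem hv ▸ hq)
    exact ⟨⟨v, hv'⟩, (kumFam K ζ hζ F₀).l_eq ⟨v, hv'⟩ l hv, rfl⟩

/-- **The (c4) input** for every admissible field. -/
theorem c4Input (I : ArithInput p S) (hpS : pPrime p ∈ S)
    (K : IntermediateField ℚ (AlgebraicClosure ℚ)) [NumberField K]
    (hK : K.IsUnramifiedOutside S) (hc : Glue.cycloField p ≤ K) : C4Input I K := by
  obtain ⟨ζ, hζ⟩ := CountAbs.exists_primitiveRoot_of_cycloField_le (p := p) K hc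
  obtain ⟨F₀⟩ := C4Principal.nonempty_ufam p S K ζ hζ
  obtain ⟨R⟩ := Retr.nonempty K.fixingSubgroup
  exact c4Input_of_gen I hpS K hK hζ (kumFam K ζ hζ F₀) R (gen_kumFam I hpS K hK ζ hζ F₀ R)

/-- **[CapGen]** for every admissible field, in the shape of `ConeKer`. -/
theorem capGen (I : ArithInput p S) (hpS : pPrime p ∈ S)
    (K : IntermediateField ℚ (AlgebraicClosure ℚ)) (hK : K.IsUnramifiedOutside S)
    (hc : Glue.cycloField p ≤ K) : ConeKer.CapGen I.datum (M0 (ZMod p) K.fixingSubgroup) :=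
  CapGen.capGen_M0 hpS K hK hc

/-- **BASE over `ℚ`**: the base obligations for the functional of every arithmetic input
extending a REC family. -/
theorem baseGoal_final (hp2 : p ≠ 2) (hpS : pPrime p ∈ S) {lamH : Wire.LamH p}
    (hrec : Wire.IsRec p S lamH) {I : ArithInput p S} (hI : Wire.Extends I lamH) :
    Wire.BaseGoal p S hpS I.lamS :=
  baseGoal hp2 hpS hrec hI (fun K hK hc => capGen I hpS K hK hc)
    (fun K _ hK hc => c4Input I hpS K hK hc)

/-- **The layer-3 bricks of S55**, hypothesis-free. -/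
theorem bricks3_final (hp2 : p ≠ 2) (hpS : pPrime p ∈ S) : Wire.Bricks3 p S hpS :=
  Wire.bricks3_of_rec_base (CFT.Rec.Final.exists_isRec p hp2 S hpS)
    fun _ hrec _ hI => baseGoal_final hp2 hpS hrec hI

end Fermat.Agent.S55.Base.BaseCase
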