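import Fermat.Agent.S55.Base.FactAbs
import Fermat.Agent.S55.Base.EvalUR

/-!
# S55, base case, count `(c4-a)`: GENERATION of the locally trivial `H²` by capitulation classes

`N` an `𝔽_p`-representation of `G_ℚ`, discrete at level `S ∋ p`.  Cochain-level core of the
generation step of `(c4)` (ruling #7), for an ARBITRARY family of "capitulation cochains":

* `W` an index type (the places of `K` outside `S_K`), `pl : W → Nat.Primes` (the prime below);
* `cw w : G_ℚ → N` (the capitulation cochain of `w`), `kw w : G_ℚ → N` (the `ℚ`-side Kummer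
  cocycle of a uniformiser at `w`), with
  * (A) `cw w` of level `insert (pl w) S`;
  * (a) `d (cw w)` of level `S`;
  * (B) `cw w - kw w` of some level `T' ∌ pl w`;
* (H) the Hasse principle for `N`: a level-`S` `2`-cocycle which is a local level coboundary at
  every `v ∈ S` is `d` of a `1`-cochain of some finite level `T ⊇ S`;
* (UNR3) for `l ∉ S` every local level `1`-cocycle at `l` is a combination of the
  `res_l (kw w)`, `pl w = l`, modulo unramified cochains and coboundaries.

Conclusion (`generation`): every level-`S` `2`-cocycle `a`, locally a level coboundary at every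
`v ∈ S`, satisfies `a - ∑_w f w • d (cw w) ∈ B²(level S)` for a finitely supported `f`.

(UR) `EvalQ.exists_ur_primitive` and (FACT) `FactAbs.mem_C1_of_ur_mod_coboundary` are used
inside; they need no hypothesis.
-/

set_option autoImplicit false

open CategoryTheory groupCohomology ExtCitation

namespace Fermat.Agent.S55.Base.C4Gen

open Fermat.Agent.S55.Abs Fermat.Agent.S55.Base.EvalQ

/-! ### Two remarks on `Finsupp.linearCombination` -/

/-- A linear combination of vectors of a submodule (only the support matters). -/
theorem linearCombination_mem_of_support {k V W : Type*} [Semiring k] [AddCommMonoid V]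
    [Module k V] (P : Submodule k V) (v : W → V) (f : W →₀ k)
    (h : ∀ w ∈ f.support, v w ∈ P) : Finsupp.linearCombination k v f ∈ P := by
  rw [Finsupp.linearCombination_apply]
  exact Submodule.sum_mem _ fun w hw => Submodule.smul_mem _ _ (h w hw)

/-- The difference of two linear combinations with the same coefficients. -/
theorem linearCombination_sub_mem_of_support {k V W : Type*} [Ring k] [AddCommGroup V]
    [Module k V] (P : Submodule k V) (v v' : W → V) (f : W →₀ k)
    (h : ∀ w ∈ f.support, v w - v' w ∈ P) :
    Finsupp.linearCombination k v f - Finsupp.linearCombination k v' f ∈ P := by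
  rw [Finsupp.linearCombination_apply, Finsupp.linearCombination_apply]
  show ∑ w ∈ f.support, f w • v w - ∑ w ∈ f.support, f w • v' w ∈ P
  rw [← Finset.sum_sub_distrib]
  refine Submodule.sum_mem _ fun w hw => ?_
  rw [← smul_sub]
  exact Submodule.smul_mem _ _ (h w hw)

/-! ### Generation -/

variable {p : ℕ} [Fact p.Prime] {S : Finset Nat.Primes} {N : Rep.{0} (ZMod p) GQ}

/-- Restriction to the local group at `l` commutes with `d₁₂`. -/
theorem res₂_d₁₂_eq (l : Nat.Primes) (c : GQ → N) :
    res₂ (fun w : Nat.Primes => primeLocalToGlobal w) N l ((d₁₂ N).hom c)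
      = (d₁₂ (Rep.res (primeLocalToGlobal l) N)).hom
          (res₁ (fun w : Nat.Primes => primeLocalToGlobal w) N l c) := by
  funext ⟨g, h⟩
  simp [d₁₂_hom_apply]

/-- **(c4-a) GENERATION, cochain-level core.**  See the module docstring. -/
theorem generation (hpS : pPrime p ∈ S) (hN : IsDisc (globalLevel S) N)
    {W : Type*} (pl : W → Nat.Primes) (cw kw : W → (GQ → N))
    -- (H) the Hasse principle for `N`
    (hH : ∀ a ∈ Z2 (globalLevel S) N,
      (∀ v ∈ S, res₂ (fun w : Nat.Primes => primeLocalToGlobal w) N v a
        ∈ B2 (localLevel (primeLocalToGlobal v)) (Rep.res (primeLocalToGlobal v) N)) →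
      ∃ T : Finset Nat.Primes, S ⊆ T ∧ ∃ c ∈ C1 (globalLevel T) N, (d₁₂ N).hom c = a)
    -- (A), (a), (B): the capitulation cochains
    (hA : ∀ w, pl w ∉ S → cw w ∈ C1 (globalLevel (insert (pl w) S)) N)
    (ha : ∀ w, pl w ∉ S → (d₁₂ N).hom (cw w) ∈ C2 (globalLevel S) N)
    (hB : ∀ w, pl w ∉ S → ∃ T' : Finset Nat.Primes, pl w ∉ T' ∧
      cw w - kw w ∈ C1 (globalLevel T') N)
    -- (UNR3) local generation at `l ∉ S`
    (hU : ∀ l : Nat.Primes, l ∉ S →
      ∀ z ∈ Z1 (localLevel (primeLocalToGlobal l)) (Rep.res (primeLocalToGlobal l) N),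
      ∃ (f : W →₀ ZMod p) (m : N), (∀ w ∈ f.support, pl w = l) ∧
        z - Finsupp.linearCombination (ZMod p)
              (fun w => res₁ (fun w : Nat.Primes => primeLocalToGlobal w) N l (kw w)) f
          - (d₀₁ (Rep.res (primeLocalToGlobal l) N)).hom m
        ∈ C1 (urLevel l) (Rep.res (primeLocalToGlobal l) N))
    (a : GQ × GQ → N) (haZ : a ∈ Z2 (globalLevel S) N)
    (hloc : ∀ v ∈ S, res₂ (fun w : Nat.Primes => primeLocalToGlobal w) N v a
      ∈ B2 (localLevel (primeLocalToGlobal v)) (Rep.res (primeLocalToGlobal v) N)) :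
    ∃ f : W →₀ ZMod p, (∀ w ∈ f.support, pl w ∉ S) ∧
      a - Finsupp.linearCombination (ZMod p) (fun w => (d₁₂ N).hom (cw w)) f
        ∈ B2 (globalLevel S) N := by
  classical
  obtain ⟨T, hST, c', hc', rfl⟩ := hH a haZ hloc
  -- the local decomposition at every `l ∈ T`, `l ∉ S`
  have key : ∀ l : Nat.Primes, l ∈ T → l ∉ S →
      ∃ (f : W →₀ ZMod p) (m : N), (∀ w ∈ f.support, pl w = l) ∧
        res₁ (fun w : Nat.Primes => primeLocalToGlobal w) N l c'
          - Finsupp.linearCombination (ZMod p)
              (fun w => res₁ (fun w : Nat.Primes => primeLocalToGlobal w) N l (kw w)) f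
          - (d₀₁ (Rep.res (primeLocalToGlobal l) N)).hom m
        ∈ C1 (urLevel l) (Rep.res (primeLocalToGlobal l) N) := by
    intro l _ hlS
    have hz : res₂ (fun w : Nat.Primes => primeLocalToGlobal w) N l ((d₁₂ N).hom c')
        ∈ Z2 (urLevel l) (Rep.res (primeLocalToGlobal l) N) :=
      ⟨IsLev₂.precomp (isLevelMap_urLevel hlS) haZ.1, (res₂_mem_Z2 (T := S) l haZ).2⟩
    obtain ⟨t, ht, hdt⟩ := exists_ur_primitive hpS hlS hN _ hz
    have hzc : res₁ (fun w : Nat.Primes => primeLocalToGlobal w) N l c' - t
        ∈ Z1 (localLevel (primeLocalToGlobal l)) (Rep.res (primeLocalToGlobal l) N) := by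
      refine ⟨Submodule.sub_mem _
        (IsLev₁.precomp (isLevelMap_localLevel (primeLocalToGlobal l) T) hc')
        (C1_urLevel_le l _ ht), ?_⟩
      show (d₁₂ (Rep.res (primeLocalToGlobal l) N)).hom
        (res₁ (fun w : Nat.Primes => primeLocalToGlobal w) N l c' - t) = 0
      rw [map_sub, hdt, res₂_d₁₂_eq, sub_self]
    obtain ⟨f, m, hf, hfm⟩ := hU l hlS _ hzc
    refine ⟨f, m, hf, ?_⟩
    have e : res₁ (fun w : Nat.Primes => primeLocalToGlobal w) N l c'
          - Finsupp.linearCombination (ZMod p)
              (fun w => res₁ (fun w : Nat.Primes => primeLocalToGlobal w) N l (kw w)) f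
          - (d₀₁ (Rep.res (primeLocalToGlobal l) N)).hom m
        = (res₁ (fun w : Nat.Primes => primeLocalToGlobal w) N l c' - t
          - Finsupp.linearCombination (ZMod p)
              (fun w => res₁ (fun w : Nat.Primes => primeLocalToGlobal w) N l (kw w)) f
          - (d₀₁ (Rep.res (primeLocalToGlobal l) N)).hom m) + t := by
      abel
    rw [e]
    exact Submodule.add_mem _ hfm ht
  choose! f m hf hfm using key
  -- the total coefficient vector
  have hsuppF : ∀ w ∈ (∑ l ∈ T \ S, f l).support, ∃ l ∈ T \ S, w ∈ (f l).support := by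
    intro w hw
    by_contra hcon
    rw [Finsupp.mem_support_iff, Finsupp.finsetSum_apply] at hw
    exact hw (Finset.sum_eq_zero fun l hl =>
      Finsupp.notMem_support_iff.mp fun hwl => hcon ⟨l, hl, hwl⟩)
  refine ⟨∑ l ∈ T \ S, f l, ?_, ?_⟩
  · intro w hw
    obtain ⟨l, hl, hwl⟩ := hsuppF w hw
    rw [hf l (Finset.mem_sdiff.mp hl).1 (Finset.mem_sdiff.mp hl).2 w hwl]
    exact (Finset.mem_sdiff.mp hl).2
  · refine ⟨c' - Finsupp.linearCombination (ZMod p) cw (∑ l ∈ T \ S, f l), ?_, ?_⟩
    · refine FactAbs.mem_C1_of_ur_mod_coboundary hN (T := T) ?_ ?_ ?_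
      · -- level `T`
        refine Submodule.sub_mem _ hc' (linearCombination_mem_of_support _ _ _ fun w hw => ?_)
        obtain ⟨l, hl, hwl⟩ := hsuppF w hw
        have hlT := (Finset.mem_sdiff.mp hl).1
        have hlS := (Finset.mem_sdiff.mp hl).2
        have hpl : pl w = l := hf l hlT hlS w hwl
        have h1 := hA w (hpl ▸ hlS)
        rw [hpl] at h1
        obtain ⟨U, hU', h⟩ := h1
        exact ⟨U, globalSets_mono (Finset.insert_subset hlT hST) hU', h⟩
      · -- `d` of level `S`
        rw [map_sub, Finsupp.apply_linearCombination]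
        refine Submodule.sub_mem _ haZ.1 (linearCombination_mem_of_support _ _ _ fun w hw => ?_)
        obtain ⟨l, hl, hwl⟩ := hsuppF w hw
        have hlT := (Finset.mem_sdiff.mp hl).1
        have hlS := (Finset.mem_sdiff.mp hl).2
        have hpl : pl w = l := hf l hlT hlS w hwl
        exact ha w (hpl ▸ hlS)
      · -- unramified modulo a coboundary at every `l ∈ T`, `l ∉ S`
        intro l hlT hlS
        refine ⟨m l, ?_⟩
        have hlmem : l ∈ T \ S := Finset.mem_sdiff.mpr ⟨hlT, hlS⟩
        have e : res₁ (fun w : Nat.Primes => primeLocalToGlobal w) N l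
              (c' - Finsupp.linearCombination (ZMod p) cw (∑ l ∈ T \ S, f l))
              - (d₀₁ (Rep.res (primeLocalToGlobal l) N)).hom (m l)
            = (res₁ (fun w : Nat.Primes => primeLocalToGlobal w) N l c'
                - Finsupp.linearCombination (ZMod p)
                    (fun w => res₁ (fun w : Nat.Primes => primeLocalToGlobal w) N l (kw w)) (f l)
                - (d₀₁ (Rep.res (primeLocalToGlobal l) N)).hom (m l))
              - (Finsupp.linearCombination (ZMod p)
                    (fun w => res₁ (fun w : Nat.Primes => primeLocalToGlobal w) N l (cw w)) (f l)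
                - Finsupp.linearCombination (ZMod p)
                    (fun w => res₁ (fun w : Nat.Primes => primeLocalToGlobal w) N l (kw w)) (f l))
              - ∑ l₁ ∈ (T \ S).erase l, Finsupp.linearCombination (ZMod p)
                    (fun w => res₁ (fun w : Nat.Primes => primeLocalToGlobal w) N l (cw w))
                    (f l₁) := by
          have e1 : res₁ (fun w : Nat.Primes => primeLocalToGlobal w) N l
                (Finsupp.linearCombination (ZMod p) cw (∑ l ∈ T \ S, f l))
              = ∑ l₁ ∈ T \ S, Finsupp.linearCombination (ZMod p)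
                  (fun w => res₁ (fun w : Nat.Primes => primeLocalToGlobal w) N l (cw w))
                  (f l₁) := by
            rw [Finsupp.apply_linearCombination, map_sum]
            rfl
          rw [map_sub, e1, ← Finset.add_sum_erase _ _ hlmem]
          abel
        rw [e]
        refine Submodule.sub_mem _ (Submodule.sub_mem _ (hfm l hlT hlS) ?_) ?_
        · -- (B)
          refine linearCombination_sub_mem_of_support _ _ _ _ fun w hw => ?_
          have hpl : pl w = l := hf l hlT hlS w hw
          obtain ⟨T', hT', hcT'⟩ := hB w (hpl ▸ hlS)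
          rw [hpl] at hT'
          have h2 := IsLev₁.precomp (isLevelMap_urLevel hT') hcT'
          rw [← map_sub]
          exact h2
        · -- (A) at the other primes
          refine Submodule.sum_mem _ fun l₁ hl₁ => ?_
          have hl₁mem := Finset.mem_of_mem_erase hl₁
          have hl₁T := (Finset.mem_sdiff.mp hl₁mem).1
          have hl₁S := (Finset.mem_sdiff.mp hl₁mem).2
          have hne : l₁ ≠ l := Finset.ne_of_mem_erase hl₁
          refine linearCombination_mem_of_support _ _ _ fun w hw => ?_
          have hpl : pl w = l₁ := hf l₁ hl₁T hl₁S w hw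
          have h1 := hA w (hpl ▸ hl₁S)
          rw [hpl] at h1
          have hnot : l ∉ insert l₁ S := by
            rw [Finset.mem_insert, not_or]
            exact ⟨fun h => hne h.symm, hlS⟩
          exact IsLev₁.precomp (isLevelMap_urLevel hnot) h1
    · rw [map_sub, Finsupp.apply_linearCombination]
      rfl

end Fermat.Agent.S55.Base.C4Gen
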