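import Fermat.Agent.S55.Base.C4Principal
import Fermat.Agent.S55.Base.C4GenM0
import Fermat.Agent.S55.Base.CapGen
import Fermat.Agent.S55.Base.BaseFinal

/-!
# S55, BASE, count (c4): the input `C4Input` for `M0(K)`

The last arithmetic input of `BaseCase.baseAt`: for `K` unramified outside `S ∋ p` with
`μ_p ⊆ K` and `N = M0 (ZMod p) K.fixingSubgroup`,

* `genStar` : `C4GenQ.GenStar S K ζ hζ` (UNR3-Q generation, universal in the retraction and the
  uniformisers) — a repackaging of `CapGen.gen_res_kum`;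
* `UFam.κ_eq_kum` : the Kummer character `F.κ o` of a family of uniformisers is the canonical
  Kummer character `CountV.kum` of `F.π o`;
* `gen` : `(C4Principal.thetaFam I hpS hK hζ F R).Gen`;
* `c4Input` : `BaseCase.C4Input I K` (`Gen` + `C4Principal.kill` + `C4K.finrank_P0_quot`).
-/

set_option autoImplicit false

open scoped NumberField IntermediateField
open IsDedekindDomain groupCohomology ExtCitation

namespace Fermat.Agent.S55.Base.C4InputM0

local notation "Qb" => AlgebraicClosure ℚ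
local notation "Gq" => (AlgebraicClosure ℚ ≃ₐ[ℚ] AlgebraicClosure ℚ)

open Fermat.Agent.S55 Fermat.Agent.S55.Abs Fermat.Agent.S55.Shapiro Fermat.Agent.S55.Base.EvalQ
  Fermat.Agent.CFT.Global Fermat.Agent.CFT.Global.CountV Fermat.Agent.CFT.Count
  Fermat.Agent.S55.Base.C4Principal

variable {p : ℕ} [Fact p.Prime] {S : Finset Nat.Primes} {K : IntermediateField ℚ Qb}
  [NumberField K] {ζ : K}

/-- **UNR3-Q generation, universal form** (`C4GenQ.GenStar`), from `CapGen.gen_res_kum`. -/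
theorem genStar (hpS : pPrime p ∈ S) (hK : K.IsUnramifiedOutside S) (hζ : IsPrimitiveRoot ζ p) :
    C4GenQ.GenStar S K ζ hζ := by
  classical
  intro l hl
  obtain ⟨D⟩ := DRep.nonempty K.fixingSubgroup (primeLocalToGlobal l)
  have hfin := CapGen.finite_of_drep K l D
  let _ : Fintype (DoubleCoset.Quotient (K.fixingSubgroup : Set Gq)
      ((primeLocalToGlobal l).range : Set Gq)) := Fintype.ofFinite _
  refine ⟨_, inferInstance, CapGen.vOf K l D, CapGen.vOf_mem K l D,
    fun R₀ π hπ hπ' ξ hξ => ?_⟩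
  obtain ⟨e, u, hu, m, h⟩ := CapGen.gen_res_kum K ζ hζ l D π hpS hK hl hπ hπ' R₀ ξ hξ
  exact ⟨e, u, m, hu, h⟩

/-- The Kummer character of a family of uniformisers is the canonical Kummer character. -/
theorem κ_eq_kum (F : UFam p S K ζ) (hζ : IsPrimitiveRoot ζ p) (o : Outside (SK S K)) :
    F.κ o = CountV.kum K ζ hζ (Units.mk0 (F.π o) (F.π_ne_zero o)) := by
  have : NeZero p := ⟨(Fact.out : p.Prime).ne_zero⟩
  funext s
  have h := CountV.kum_eq_of_apply K ζ hζ (Units.mk0 (F.π o) (F.π_ne_zero o)) (F.ϖ o)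
    (F.hϖ o) s (ZMod.val (F.κ o s : ZMod p)) (F.hκ o s)
  rw [h, ZMod.natCast_zmod_val]

/-- **`Gen` for the theta family of the base case.** -/
theorem gen (I : ArithInput p S) (hpS : pPrime p ∈ S) (hK : K.IsUnramifiedOutside S)
    (hζ : IsPrimitiveRoot ζ p) (F : UFam p S K ζ) (R : Retr K.fixingSubgroup) :
    (thetaFam I hpS hK hζ F R).Gen := by
  refine C4GenQ.gen_of_genStar I (thetaFam I hpS hK hζ F R) R
    (fun o : Outside (SK S K) => o.1)
    (fun o : Outside (SK S K) => Units.mk0 (F.π o) (F.π_ne_zero o))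
    (fun o => F.hπ o) (fun o v' hv' hne => F.hπ' o v' hv' hne) (fun o => ?_)
    (fun l hl v hv => ?_) (genStar hpS hK hζ)
  · refine (thetaFam_θ_of_eq I hpS hK hζ F R (F.l o) o rfl).trans ?_
    have h2 : ind₁ (Rep.trivial (ZMod p) K.fixingSubgroup (ZMod p)) R (F.κ o)
        = C4GenQ.kumQ K ζ hζ R (Units.mk0 (F.π o) (F.π_ne_zero o)) := by
      unfold C4GenQ.kumQ
      rw [κ_eq_kum F hζ o]
    rw [h2]
    rfl
  · exact ⟨⟨v, (not_mem_SK_iff S K v).2
      (fun q hq hmem => hl (prime_unique v q l hmem hv ▸ hq))⟩, F.l_eq _ l hv, rfl⟩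

/-- **The (c4) input of `BaseCase.baseAt` for `M0(K)`.** -/
theorem c4Input (I : ArithInput p S) (hpS : pPrime p ∈ S) (K : IntermediateField ℚ Qb)
    [NumberField K] (hK : K.IsUnramifiedOutside S) (hc : Glue.cycloField p ≤ K) :
    BaseCase.C4Input I K := by
  obtain ⟨ζ, hζ⟩ := CountAbs.exists_primitiveRoot_of_cycloField_le (p := p) K hc
  obtain ⟨F⟩ := nonempty_ufam p S K ζ hζ
  obtain ⟨R⟩ := Retr.nonempty K.fixingSubgroup
  exact ⟨thetaFam I hpS hK hζ F R, LinearMap.range (C4K.ordP p S K), gen I hpS hK hζ F R,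
    kill I hpS hK hζ F R,
    fun _ hρ => ⟨(C4K.finrank_P0_quot hρ).1, (C4K.finrank_P0_quot hρ).2.le⟩⟩

end Fermat.Agent.S55.Base.C4InputM0
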