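import Fermat.Agent.S55.Base.CapitQ2
import Fermat.Agent.CFT.Count.C4K

/-!
# S55, BASE: the canonical capitulation family and the principal-divisor relation (c4-b)
-/

set_option autoImplicit false

open scoped NumberField IntermediateField
open IsDedekindDomain groupCohomology

namespace Fermat.Agent.S55.Base.CapFam

local notation "Qb" => AlgebraicClosure ℚ
local notation "Gq" => (AlgebraicClosure ℚ ≃ₐ[ℚ] AlgebraicClosure ℚ)

open Fermat.Agent.S14.Wiring.ValRing Fermat.Agent.CFT.Global.CountV Fermat.Agent.CFT.Count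

/-- `t` is unramified at `A`: constant modulo `Fix F_A`, `F_A` finite with `I_A ≤ Fix F_A`. -/
def UnramAt {X : Type*} (A : ValuationSubring Qb) (t : Gq → X) : Prop :=
  ∃ F_A : IntermediateField ℚ Qb, FiniteDimensional ℚ F_A ∧
    A.inertiaSubgroupIn ℚ ≤ F_A.fixingSubgroup ∧
    ∀ g s, s ∈ F_A.fixingSubgroup → t (g * s) = t g

theorem UnramAt.apply_inertia {X : Type*} {A : ValuationSubring Qb} {t : Gq → X}
    (h : UnramAt A t) {s : Gq} (hs : s ∈ A.inertiaSubgroupIn ℚ) : t s = t 1 := by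
  obtain ⟨F_A, -, h2, h3⟩ := h
  have h4 := h3 1 s (h2 hs)
  rwa [one_mul] at h4

/-- `c` is a capitulation cochain at the place `v₀` of `K`: the literal conclusion of
`CapitPlace.capit_place`. -/
structure IsCapAt {p : ℕ} (S : Finset Nat.Primes) (K : IntermediateField ℚ Qb) [NumberField K]
    (ζ : K) (v₀ : HeightOneSpectrum (𝓞 K)) (c : Gq → ZMod p) : Prop where
  one : c 1 = 0
  lev : ∃ F' : IntermediateField ℚ Qb, FiniteDimensional ℚ F' ∧
    ∀ g s, s ∈ F'.fixingSubgroup → c (g * s) = c g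
  dlev : ∃ F : IntermediateField ℚ Qb, F.IsUnramifiedOutside S ∧
    ∀ g₁ ∈ K.fixingSubgroup, ∀ g₂ ∈ K.fixingSubgroup,
    ∀ s₁ ∈ F.fixingSubgroup, ∀ s₂ ∈ F.fixingSubgroup,
      c (g₁ * s₁) + c (g₂ * s₂) - c (g₁ * s₁ * (g₂ * s₂)) = c g₁ + c g₂ - c (g₁ * g₂)
  loc : ∀ q : Nat.Primes, q ∉ S → ∀ A : ValuationSubring Qb, A.LiesOverPrime (q : ℕ) →
    (primeUnder K A = v₀.asIdeal →
      ∀ (π : K) (ϖ : Qb), v₀.valuation K π = WithZero.exp (-1 : ℤ) → ϖ ^ p = (π : Qb) →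
      ∀ κ : Gq → ZMod p, (∀ s ∈ K.fixingSubgroup, s ϖ = (ζ : Qb) ^ (κ s).val * ϖ) →
      ∃ t : Gq → ZMod p, UnramAt A t ∧ ∀ s ∈ K.fixingSubgroup, c s = t s + κ s) ∧
    (primeUnder K A ≠ v₀.asIdeal →
      ∃ t : Gq → ZMod p, UnramAt A t ∧ ∀ s ∈ K.fixingSubgroup, c s = t s)

/-- Capitulation cochains exist at every place. -/
theorem exists_isCapAt {p : ℕ} [Fact p.Prime] (S : Finset Nat.Primes)
    (hpS : ExtCitation.pPrime p ∈ S) (K : IntermediateField ℚ Qb) (hK : K.IsUnramifiedOutside S)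
    [NumberField K] (ζ : K) (hζ : IsPrimitiveRoot ζ p) (v₀ : HeightOneSpectrum (𝓞 K)) :
    ∃ c : Gq → ZMod p, IsCapAt S K ζ v₀ c := by
  obtain ⟨c, h1, h2, h3, h4⟩ := CapitPlace.capit_place S hpS K hK ζ hζ v₀
  exact ⟨c, ⟨h1, h2, h3, h4⟩⟩

section Level

variable {p : ℕ} [Fact p.Prime] {S : Finset Nat.Primes} {K : IntermediateField ℚ Qb}
  [NumberField K] {ζ : K} {v₀ : HeightOneSpectrum (𝓞 K)} {c : Gq → ZMod p}

/-- A valuation subring lies over at most one prime number. -/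
theorem eq_of_liesOverPrime {A : ValuationSubring Qb} {q q' : Nat.Primes}
    (hA : A.LiesOverPrime (q : ℕ)) (hA' : A.LiesOverPrime (q' : ℕ)) : q' = q := by
  by_contra hne
  have hcop : Nat.Coprime (q : ℕ) (q' : ℕ) :=
    (Nat.coprime_primes q.2 q'.2).mpr (fun h => hne (Subtype.ext h).symm)
  have h1 : A.valuation (((q' : ℕ) : ℤ) : Qb) = 1 :=
    CapitQ.valuation_intCast_eq_one A q hA ((q' : ℕ) : ℤ) (Nat.isCoprime_iff_coprime.mpr hcop)
  have h2 : A.valuation ((q' : ℕ) : Qb) < 1 := A.mem_nonunits_iff.mp hA'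
  rw [Int.cast_natCast] at h1
  rw [h1] at h2
  exact lt_irrefl _ h2

/-- (A), `K`-side: a capitulation cochain at `v₀` has level `T` on `G_K` for every finite
`T ⊇ S` containing the residue characteristic of `v₀`. -/
theorem IsCapAt.level (hc : IsCapAt S K ζ v₀ c) (hK : K.IsUnramifiedOutside S)
    (T : Finset Nat.Primes) (hST : S ⊆ T)
    (hT : ∀ q : Nat.Primes, ((q : ℕ) : 𝓞 K) ∈ v₀.asIdeal → q ∈ T) :
    ∃ F₁ : IntermediateField ℚ Qb, F₁.IsUnramifiedOutside T ∧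
      ∀ g ∈ K.fixingSubgroup, ∀ s ∈ F₁.fixingSubgroup, c (g * s) = c g := by
  obtain ⟨F', hF', hlev⟩ := hc.lev
  obtain ⟨F, hF, hdc⟩ := hc.dlev
  refine FactK.level_of_unramified T K (hK.mono hST) c
    ⟨F', hF', fun g _ s hs _ => hlev g s hs⟩
    ⟨F, hF.mono hST, fun g₁ hg₁ g₂ hg₂ s₁ hs₁ s₂ hs₂ _ _ => hdc g₁ hg₁ g₂ hg₂ s₁ hs₁ s₂ hs₂⟩ ?_
  intro q hq A hA s hs
  have hqS : q ∉ S := fun h => hq (hST h)
  have hAv : primeUnder K A ≠ v₀.asIdeal := by
    intro h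
    apply hq
    apply hT
    rw [← h]
    exact (natCast_mem_primeUnder_iff K A q).mpr hA
  obtain ⟨t, htu, ht⟩ := (hc.loc q hqS A hA).2 hAv
  have hsK : s ∈ K.fixingSubgroup := hK.2 q hqS A hA hs
  rw [ht s hsK, ht 1 (one_mem _)]
  exact htu.apply_inertia hs

/-- (B), `K`-side: `c - κ_π` has a level `T' ∌ l₀` on `G_K`, for `π` a uniformiser at `v₀` which is
a unit at the other places above `l₀`. -/
theorem IsCapAt.sub_kum_level (hc : IsCapAt S K ζ v₀ c) (hpS : ExtCitation.pPrime p ∈ S)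
    (hK : K.IsUnramifiedOutside S) (hζ : IsPrimitiveRoot ζ p) (l₀ : Nat.Primes)
    (hl₀ : ((l₀ : ℕ) : 𝓞 K) ∈ v₀.asIdeal) (hl₀S : l₀ ∉ S)
    (π : K) (hπ : v₀.valuation K π = WithZero.exp (-1 : ℤ))
    (hπ' : ∀ v : HeightOneSpectrum (𝓞 K), ((l₀ : ℕ) : 𝓞 K) ∈ v.asIdeal → v ≠ v₀ →
      v.valuation K π = 1)
    (ϖ : Qb) (hϖ : ϖ ^ p = (π : Qb)) (κ : Gq → ZMod p)
    (hκ : ∀ s ∈ K.fixingSubgroup, s ϖ = (ζ : Qb) ^ (κ s).val * ϖ) :
    ∃ T' : Finset Nat.Primes, S ⊆ T' ∧ l₀ ∉ T' ∧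
      ∃ F₂ : IntermediateField ℚ Qb, F₂.IsUnramifiedOutside T' ∧
        ∀ g ∈ K.fixingSubgroup, ∀ s ∈ F₂.fixingSubgroup,
          c (g * s) - κ (g * s) = c g - κ g := by
  classical
  have hp : p.Prime := Fact.out
  have : NeZero p := ⟨hp.ne_zero⟩
  set z : Qb := (ζ : Qb) with hz
  have hzprim : IsPrimitiveRoot z p := hζ.map_of_injective (f := K.val) K.val.injective
  have hfixz : ∀ τ ∈ K.fixingSubgroup, τ z = z := fun τ hτ =>
    (IntermediateField.mem_fixingSubgroup_iff K τ).mp hτ z ζ.2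
  have hπ0 : π ≠ 0 := by
    rintro rfl
    rw [map_zero] at hπ
    exact WithZero.exp_ne_zero hπ.symm
  have hπ0' : (π : Qb) ≠ 0 := fun h => hπ0 (Subtype.ext h)
  have hϖ0 : ϖ ≠ 0 := by
    rintro rfl
    rw [zero_pow hp.ne_zero] at hϖ
    exact hπ0' hϖ.symm
  obtain ⟨F', hF', hlev⟩ := hc.lev
  obtain ⟨F, hF, hdc⟩ := hc.dlev
  obtain ⟨B, hB⟩ := CapitQ.exists_finset_valuation_eq_one (π : Qb) hπ0'
  have hq_ne : ∀ q : Nat.Primes, q ∉ S → Nat.Coprime (q : ℕ) p := by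
    intro q hq
    rw [Nat.coprime_primes q.2 hp]
    intro hqp
    apply hq
    have : q = ExtCitation.pPrime p := Subtype.ext hqp
    rw [this]
    exact hpS
  have hκunit : ∀ q : Nat.Primes, q ∉ S → ∀ A : ValuationSubring Qb, A.LiesOverPrime (q : ℕ) →
      A.valuation (π : Qb) = 1 → ∀ s ∈ A.inertiaSubgroupIn ℚ, κ s = 0 := by
    intro q hq A hA hu s hs
    have hsK : s ∈ K.fixingSubgroup := hK.2 q hq A hA hs
    refine CapitQ.kum_eq_zero hzprim hϖ0 hκ hsK ?_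
    refine Capit.inertia_fixes_root K ϖ π p hp.ne_zero hϖ A q (hq_ne q hq) hA 1 ?_ s hs hsK
    have h1 : ((1 : K) : Qb) = 1 := rfl
    rw [h1, one_pow, mul_one]
    exact hu
  have hκ1 : κ 1 = 0 := CapitQ.kum_eq_zero hzprim hϖ0 hκ (one_mem _) (by simp)
  have hκmul : ∀ s ∈ K.fixingSubgroup, ∀ t ∈ K.fixingSubgroup, κ (s * t) = κ s + κ t :=
    fun s hs t ht => CapitQ.kum_mul hzprim hϖ0 hfixz hκ hs ht
  have hST' : S ⊆ (S ∪ B).erase l₀ := by
    intro q hq
    exact Finset.mem_erase.mpr ⟨fun h => hl₀S (h ▸ hq), Finset.mem_union_left _ hq⟩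
  refine ⟨(S ∪ B).erase l₀, hST', Finset.notMem_erase _ _, ?_⟩
  refine FactK.level_of_unramified ((S ∪ B).erase l₀) K (hK.mono hST') (fun s => c s - κ s)
    ?_ ?_ ?_
  · have hint : IsIntegral ℚ ϖ := ((AlgebraicClosure.isAlgebraic ℚ).isAlgebraic ϖ).isIntegral
    haveI := hF'
    haveI : FiniteDimensional ℚ ℚ⟮ϖ⟯ := IntermediateField.adjoin.finiteDimensional hint
    refine ⟨F' ⊔ ℚ⟮ϖ⟯, IntermediateField.finiteDimensional_sup _ _, fun g hg s hs hsK => ?_⟩
    rw [IntermediateField.fixingSubgroup_sup] at hs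
    have hsϖ : s ϖ = ϖ := (IntermediateField.mem_fixingSubgroup_iff _ s).mp hs.2 ϖ
      (IntermediateField.mem_adjoin_simple_self ℚ ϖ)
    show c (g * s) - κ (g * s) = c g - κ g
    rw [hlev g s hs.1, hκmul g hg s hsK, CapitQ.kum_eq_zero hzprim hϖ0 hκ hsK hsϖ, add_zero]
  · refine ⟨F, hF.mono hST', fun g₁ hg₁ g₂ hg₂ s₁ hs₁ s₂ hs₂ hs₁K hs₂K => ?_⟩
    show c (g₁ * s₁) - κ (g₁ * s₁) + (c (g₂ * s₂) - κ (g₂ * s₂))
        - (c (g₁ * s₁ * (g₂ * s₂)) - κ (g₁ * s₁ * (g₂ * s₂)))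
      = c g₁ - κ g₁ + (c g₂ - κ g₂) - (c (g₁ * g₂) - κ (g₁ * g₂))
    have e1 := hdc g₁ hg₁ g₂ hg₂ s₁ hs₁ s₂ hs₂
    have e2 : κ (g₁ * s₁ * (g₂ * s₂)) = κ (g₁ * s₁) + κ (g₂ * s₂) :=
      hκmul _ (mul_mem hg₁ hs₁K) _ (mul_mem hg₂ hs₂K)
    have e3 : κ (g₁ * g₂) = κ g₁ + κ g₂ := hκmul _ hg₁ _ hg₂
    rw [e2, e3]
    linear_combination e1
  · intro q hq A hA s hs
    rw [Finset.mem_erase, not_and_or, not_not] at hq
    show c s - κ s = c 1 - κ 1
    have hqS : q ∉ S := by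
      rcases hq with h | h
      · rw [h]; exact hl₀S
      · exact fun hS => h (Finset.mem_union_left _ hS)
    have hsK : s ∈ K.fixingSubgroup := hK.2 q hqS A hA hs
    by_cases hAv : primeUnder K A = v₀.asIdeal
    · obtain ⟨t, htu, ht⟩ := (hc.loc q hqS A hA).1 hAv π ϖ hπ hϖ κ hκ
      rw [ht s hsK, ht 1 (one_mem _), htu.apply_inertia hs]
      ring
    · obtain ⟨t, htu, ht⟩ := (hc.loc q hqS A hA).2 hAv
      have hu : A.valuation (π : Qb) = 1 := by
        rcases hq with h | h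
        · have hA' : A.LiesOverPrime (l₀ : ℕ) := h ▸ hA
          have hv := hπ' (placeUnder K A l₀.2 hA')
            ((natCast_mem_primeUnder_iff K A l₀).mpr hA')
            (fun h' => hAv (by rw [← h']; rfl))
          exact (valuation_eq_one_iff (F := K) (A := A) (v := placeUnder K A l₀.2 hA') rfl π).mp hv
        · exact hB q (fun hB' => h (Finset.mem_union_right _ hB')) A hA
      rw [ht s hsK, ht 1 (one_mem _), hκunit q hqS A hA hu s hs, hκ1, htu.apply_inertia hs]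

end Level

section Principal

variable {p : ℕ} [Fact p.Prime] {S : Finset Nat.Primes} {K : IntermediateField ℚ Qb}
  [NumberField K] {ζ : K}

/-- **(c4-b), `K`-side: principal divisors.**  For a family `c w` of capitulation cochains at the
places `w ∉ S_K` and `a ∈ Kˣ` with Kummer character `χ`, the cochain
`∑_w ord_w(a) • c w - χ` has level `S` on `G_K`. -/
theorem principalK (hpS : ExtCitation.pPrime p ∈ S) (hK : K.IsUnramifiedOutside S)
    (hζ : IsPrimitiveRoot ζ p)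
    (c : Outside (SK S K) → Gq → ZMod p) (hc : ∀ w, IsCapAt S K ζ w.1 (c w))
    (a : Kˣ) (ϑ : Qb) (hϑ : ϑ ^ p = ((a : K) : Qb)) (χ : Gq → ZMod p)
    (hχ : ∀ s ∈ K.fixingSubgroup, s ϑ = (ζ : Qb) ^ (χ s).val * ϑ) :
    ∃ F₁ : IntermediateField ℚ Qb, F₁.IsUnramifiedOutside S ∧
      ∀ g ∈ K.fixingSubgroup, ∀ s ∈ F₁.fixingSubgroup,
        (C4K.dv p S K a).sum (fun w e => e * c w (g * s)) - χ (g * s)
          = (C4K.dv p S K a).sum (fun w e => e * c w g) - χ g := by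
  classical
  have hp : p.Prime := Fact.out
  have : NeZero p := ⟨hp.ne_zero⟩
  set d := C4K.dv p S K a with hd
  set z : Qb := (ζ : Qb) with hz
  have hzprim : IsPrimitiveRoot z p := hζ.map_of_injective (f := K.val) K.val.injective
  have hfixz : ∀ τ ∈ K.fixingSubgroup, τ z = z := fun τ hτ =>
    (IntermediateField.mem_fixingSubgroup_iff K τ).mp hτ z ζ.2
  have ha0 : ((a : K) : Qb) ≠ 0 := fun h => a.ne_zero (Subtype.ext h)
  have hϑ0 : ϑ ≠ 0 := by
    rintro rfl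
    rw [zero_pow hp.ne_zero] at hϑ
    exact ha0 hϑ.symm
  have hχmul : ∀ s ∈ K.fixingSubgroup, ∀ t ∈ K.fixingSubgroup, χ (s * t) = χ s + χ t :=
    fun s hs t ht => CapitQ.kum_mul hzprim hϑ0 hfixz hχ hs ht
  let f : Gq → ZMod p := fun s => d.sum (fun w e => e * c w s) - χ s
  have hf3 : ∀ x y z' : Gq, f x + f y - f z'
      = (∑ w ∈ d.support, d w * (c w x + c w y - c w z')) - (χ x + χ y - χ z') := by
    intro x y z'
    simp only [f, Finsupp.sum, mul_add, mul_sub, Finset.sum_add_distrib, Finset.sum_sub_distrib]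
    ring
  refine FactK.level_of_unramified S K hK f ?_ ?_ ?_
  · -- finite level
    choose F' hF' hlev using fun w => (hc w).lev
    have hfd : FiniteDimensional ℚ ↥(d.support.sup F') := by
      refine Finset.sup_induction
        (p := fun F : IntermediateField ℚ Qb => FiniteDimensional ℚ F) ?_ ?_ ?_
      · infer_instance
      · intro F₁ h₁ F₂ h₂
        haveI := h₁
        haveI := h₂
        exact IntermediateField.finiteDimensional_sup F₁ F₂
      · intro w _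
        exact hF' w
    have hint : IsIntegral ℚ ϑ := ((AlgebraicClosure.isAlgebraic ℚ).isAlgebraic ϑ).isIntegral
    haveI : FiniteDimensional ℚ ℚ⟮ϑ⟯ := IntermediateField.adjoin.finiteDimensional hint
    haveI := hfd
    refine ⟨d.support.sup F' ⊔ ℚ⟮ϑ⟯, IntermediateField.finiteDimensional_sup _ _,
      fun g hg s hs hsK => ?_⟩
    rw [IntermediateField.fixingSubgroup_sup] at hs
    have hsϑ : s ϑ = ϑ := (IntermediateField.mem_fixingSubgroup_iff _ s).mp hs.2 ϑ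
      (IntermediateField.mem_adjoin_simple_self ℚ ϑ)
    show d.sum (fun w e => e * c w (g * s)) - χ (g * s) = d.sum (fun w e => e * c w g) - χ g
    rw [hχmul g hg s hsK, CapitQ.kum_eq_zero hzprim hϑ0 hχ hsK hsϑ, add_zero]
    congr 1
    refine Finset.sum_congr rfl fun w hw => ?_
    have hsw : s ∈ (F' w).fixingSubgroup :=
      IntermediateField.fixingSubgroup_antitone (Finset.le_sup (f := F') hw) hs.1
    show d w * c w (g * s) = d w * c w g
    rw [hlev w g s hsw]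
  · -- the coboundary has level `S`
    choose F hF hdc using fun w => (hc w).dlev
    have hFu : (d.support.sup F).IsUnramifiedOutside S := by
      refine Finset.sup_induction
        (p := fun F : IntermediateField ℚ Qb => F.IsUnramifiedOutside S) ?_ ?_ ?_
      · exact IntermediateField.isUnramifiedOutside_bot S
      · intro F₁ h₁ F₂ h₂
        exact h₁.sup h₂
      · intro w _
        exact hF w
    refine ⟨d.support.sup F, hFu, fun g₁ hg₁ g₂ hg₂ s₁ hs₁ s₂ hs₂ hs₁K hs₂K => ?_⟩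
    rw [hf3, hf3]
    have e2 : χ (g₁ * s₁ * (g₂ * s₂)) = χ (g₁ * s₁) + χ (g₂ * s₂) :=
      hχmul _ (mul_mem hg₁ hs₁K) _ (mul_mem hg₂ hs₂K)
    have e3 : χ (g₁ * g₂) = χ g₁ + χ g₂ := hχmul _ hg₁ _ hg₂
    rw [e2, e3]
    congr 1
    · refine Finset.sum_congr rfl fun w hw => ?_
      have h1 := IntermediateField.fixingSubgroup_antitone (Finset.le_sup (f := F) hw)
      rw [hdc w g₁ hg₁ g₂ hg₂ s₁ (h1 hs₁) s₂ (h1 hs₂)]
    · ring
  · -- unramified outside `S`
    intro q hq A hA s hs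
    have hsK : s ∈ K.fixingSubgroup := hK.2 q hq A hA hs
    have hvS : placeUnder K A q.2 hA ∉ SK S K := by
      rw [not_mem_SK_iff]
      intro q' hq' hmem
      have hA' : A.LiesOverPrime (q' : ℕ) := (natCast_mem_primeUnder_iff K A q').mp hmem
      have h1 := eq_of_liesOverPrime hA hA'
      exact hq (h1 ▸ hq')
    let w₀ : Outside (SK S K) := ⟨placeUnder K A q.2 hA, hvS⟩
    obtain ⟨π₀, hπ₀⟩ := (placeUnder K A q.2 hA).valuation_exists_uniformizer K
    obtain ⟨ϖ, hϖ⟩ := IsAlgClosed.exists_pow_nat_eq ((π₀ : K) : Qb) hp.pos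
    have hπ₀0 : ((π₀ : K) : Qb) ≠ 0 := by
      intro h
      have h1 : π₀ = 0 := Subtype.ext h
      rw [h1, map_zero] at hπ₀
      exact WithZero.exp_ne_zero hπ₀.symm
    have hϖ0 : ϖ ≠ 0 := by
      rintro rfl
      rw [zero_pow hp.ne_zero] at hϖ
      exact hπ₀0 hϖ.symm
    let κ : Gq → ZMod p := fun s => Capit.dlog p z (s ϖ / ϖ)
    have hκ : ∀ s ∈ K.fixingSubgroup, s ϖ = z ^ (κ s).val * ϖ := by
      intro s hs
      have h1 : (s ϖ / ϖ) ^ p = 1 := by
        rw [div_pow, ← map_pow, hϖ, (IntermediateField.mem_fixingSubgroup_iff K s).mp hs _ π₀.2,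
          div_self hπ₀0]
      have h2 := Capit.dlog_spec hzprim h1
      show s ϖ = z ^ (Capit.dlog p z (s ϖ / ϖ)).val * ϖ
      rw [← h2, div_mul_cancel₀ _ hϖ0]
    have hloc : ∀ w : Outside (SK S K), ∃ t : Gq → ZMod p, UnramAt A t ∧
        ∀ x ∈ K.fixingSubgroup, c w x = t x + (if w = w₀ then κ x else 0) := by
      intro w
      by_cases hw : w = w₀
      · have hAv : primeUnder K A = w.1.asIdeal := by rw [hw]; rfl
        have hπw : w.1.valuation K π₀ = WithZero.exp (-1 : ℤ) := by rw [hw]; exact hπ₀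
        obtain ⟨t, htu, ht⟩ := ((hc w).loc q hq A hA).1 hAv π₀ ϖ hπw hϖ κ hκ
        exact ⟨t, htu, fun x hx => by rw [ht x hx, if_pos hw]⟩
      · have hAv : primeUnder K A ≠ w.1.asIdeal := by
          intro h
          apply hw
          apply Subtype.ext
          exact HeightOneSpectrum.ext h.symm
        obtain ⟨t, htu, ht⟩ := ((hc w).loc q hq A hA).2 hAv
        exact ⟨t, htu, fun x hx => by rw [ht x hx, if_neg hw, add_zero]⟩
    choose t htu ht using hloc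
    obtain ⟨tχ, htχu, htχ⟩ := C4K.kummer_divisor_dv S hpS K hK ζ hζ a ϑ hϑ χ hχ q hq A hA w₀ rfl
      π₀ ϖ hπ₀ hϖ κ hκ
    have htχu' : UnramAt A tχ := htχu
    have hfx : ∀ x ∈ K.fixingSubgroup, f x = (∑ w ∈ d.support, d w * t w x) - tχ x := by
      intro x hx
      show d.sum (fun w e => e * c w x) - χ x = _
      rw [htχ x hx, Finsupp.sum]
      have h1 : ∑ w ∈ d.support, d w * c w x
          = ∑ w ∈ d.support, d w * t w x + d w₀ * κ x := by
        have h2 : ∀ w ∈ d.support,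
            d w * c w x = d w * t w x + (if w = w₀ then d w₀ * κ x else 0) := by
          intro w _
          rw [ht w x hx]
          by_cases hw : w = w₀
          · rw [if_pos hw, if_pos hw, hw]
            ring
          · rw [if_neg hw, if_neg hw]
            ring
        rw [Finset.sum_congr rfl h2, Finset.sum_add_distrib, Finset.sum_ite_eq' d.support w₀]
        by_cases hmem : w₀ ∈ d.support
        · rw [if_pos hmem]
        · rw [if_neg hmem, Finsupp.notMem_support_iff.mp hmem, zero_mul]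
      rw [h1]
      ring
    rw [hfx s hsK, hfx 1 (one_mem _), htχu'.apply_inertia hs]
    congr 1
    refine Finset.sum_congr rfl fun w _ => ?_
    rw [(htu w).apply_inertia hs]

end Principal

/-! ### The canonical family -/

section Family

open Fermat.Agent.S55.Abs Fermat.Agent.S55.Shapiro

variable {p : ℕ} [Fact p.Prime] (S : Finset Nat.Primes) (hpS : ExtCitation.pPrime p ∈ S)
  (K : IntermediateField ℚ Qb) (hK : K.IsUnramifiedOutside S) [NumberField K] (ζ : K)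
  (hζ : IsPrimitiveRoot ζ p)

/-- THE capitulation cochain at the place `w` (`K`-side; a cochain of `Gq`, only its restriction
to `G_K` matters). -/
noncomputable def capK (w : HeightOneSpectrum (𝓞 K)) : Gq → ZMod p :=
  (exists_isCapAt S hpS K hK ζ hζ w).choose

theorem isCapAt_capK (w : HeightOneSpectrum (𝓞 K)) :
    IsCapAt S K ζ w (capK S hpS K hK ζ hζ w) :=
  (exists_isCapAt S hpS K hK ζ hζ w).choose_spec

/-- The restriction of `capK w` to `G_K`, as a cochain with values in the trivial module. -/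
noncomputable def capU (w : HeightOneSpectrum (𝓞 K)) :
    K.fixingSubgroup → Rep.trivial (ZMod p) K.fixingSubgroup (ZMod p) :=
  fun u => capK S hpS K hK ζ hζ w (u : Gq)

/-- THE `ℚ`-side capitulation cochain at the place `w`: `c_w = ind₁ (capK w)`, a `1`-cochain of
`Gq` with values in `M0 (ZMod p) G_K`. -/
noncomputable def capQc (R : Retr K.fixingSubgroup) (w : HeightOneSpectrum (𝓞 K)) :
    Gq → M0 (ZMod p) K.fixingSubgroup :=
  ind₁ (Rep.trivial (ZMod p) K.fixingSubgroup (ZMod p)) R (capU S hpS K hK ζ hζ w)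

omit [Fact p.Prime] in
/-- The prime number below a place is unique. -/
theorem eq_of_natCast_mem {w : HeightOneSpectrum (𝓞 K)} {l₀ q : Nat.Primes}
    (hl₀ : ((l₀ : ℕ) : 𝓞 K) ∈ w.asIdeal) (hq : ((q : ℕ) : 𝓞 K) ∈ w.asIdeal) : q = l₀ := by
  by_contra hne
  have hcop : Nat.Coprime (q : ℕ) (l₀ : ℕ) :=
    (Nat.coprime_primes q.2 l₀.2).mpr (fun h => hne (Subtype.ext h))
  have h1 : (1 : 𝓞 K) ∈ w.asIdeal := by
    obtain ⟨a, b, hab⟩ := Nat.isCoprime_iff_coprime.mpr hcop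
    have h2 : (1 : 𝓞 K) = (a : 𝓞 K) * ((q : ℕ) : 𝓞 K) + (b : 𝓞 K) * ((l₀ : ℕ) : 𝓞 K) := by
      have := congrArg (fun z : ℤ => (z : 𝓞 K)) hab
      simp only [Int.cast_add, Int.cast_mul, Int.cast_natCast, Int.cast_one] at this
      exact this.symm
    rw [h2]
    exact w.asIdeal.add_mem (w.asIdeal.mul_mem_left _ hq) (w.asIdeal.mul_mem_left _ hl₀)
  exact w.isPrime.ne_top ((Ideal.eq_top_iff_one _).mpr h1)

/-- **(A)** `c_w` is a global cochain of level `S ∪ {l₀}`, `l₀` the prime below `w`. -/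
theorem capQc_mem_C1 (R : Retr K.fixingSubgroup) (w : HeightOneSpectrum (𝓞 K))
    (l₀ : Nat.Primes) (hl₀ : ((l₀ : ℕ) : 𝓞 K) ∈ w.asIdeal) :
    capQc S hpS K hK ζ hζ R w ∈ C1 (globalLevel (insert l₀ S)) (M0 (ZMod p) K.fixingSubgroup) := by
  classical
  obtain ⟨F₁, hF₁, hlev⟩ := (isCapAt_capK S hpS K hK ζ hζ w).level hK (insert l₀ S)
    (Finset.subset_insert _ _)
    (fun q hq => by rw [eq_of_natCast_mem K hl₀ hq]; exact Finset.mem_insert_self _ _)
  have hU : ∃ W ∈ (globalLevel (insert l₀ S)).sets, W ≤ K.fixingSubgroup :=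
    ⟨K.fixingSubgroup, ⟨K, hK.mono (Finset.subset_insert _ _), rfl⟩, le_rfl⟩
  refine isLev₁_ind₁ R hU ?_
  rw [isLev₁_subLevel_iff]
  exact ⟨F₁.fixingSubgroup, ⟨F₁, hF₁, rfl⟩, fun g s hs => hlev g g.2 s hs⟩

/-- **(a)** `d c_w` is a global cochain of level `S`. -/
theorem d_capQc_mem_C2 (R : Retr K.fixingSubgroup) (w : HeightOneSpectrum (𝓞 K)) :
    (d₁₂ (M0 (ZMod p) K.fixingSubgroup)).hom (capQc S hpS K hK ζ hζ R w)
      ∈ C2 (globalLevel S) (M0 (ZMod p) K.fixingSubgroup) := by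
  obtain ⟨F, hF, hdc⟩ := (isCapAt_capK S hpS K hK ζ hζ w).dlev
  have hU : ∃ W ∈ (globalLevel S).sets, W ≤ K.fixingSubgroup :=
    ⟨K.fixingSubgroup, ⟨K, hK, rfl⟩, le_rfl⟩
  unfold capQc
  rw [← ind₂_d₁₂]
  refine isLev₂_ind₂ R hU ?_
  rw [isLev₂_subLevel_iff]
  refine ⟨F.fixingSubgroup, ⟨F, hF, rfl⟩, fun g g' s s' hs hs' => ?_⟩
  have h := hdc g g.2 g' g'.2 s hs s' hs'
  show capK S hpS K hK ζ hζ w ((g' * s' : K.fixingSubgroup) : Gq)
      - capK S hpS K hK ζ hζ w (((g * s) * (g' * s') : K.fixingSubgroup) : Gq)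
      + capK S hpS K hK ζ hζ w ((g * s : K.fixingSubgroup) : Gq)
    = capK S hpS K hK ζ hζ w (g' : Gq) - capK S hpS K hK ζ hζ w ((g * g' : K.fixingSubgroup) : Gq)
      + capK S hpS K hK ζ hζ w (g : Gq)
  push_cast
  linear_combination h

/-- **(B)** `c_w - ind₁ κ_π` is a global cochain of a level `T' ∌ l₀`, for `π` a uniformiser at `w`
which is a unit at the other places above `l₀` and `κ_π` any Kummer character of `π`. -/
theorem capQc_sub_kum_mem_C1 (R : Retr K.fixingSubgroup) (w : HeightOneSpectrum (𝓞 K))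
    (l₀ : Nat.Primes) (hl₀ : ((l₀ : ℕ) : 𝓞 K) ∈ w.asIdeal) (hl₀S : l₀ ∉ S)
    (π : K) (hπ : w.valuation K π = WithZero.exp (-1 : ℤ))
    (hπ' : ∀ v : HeightOneSpectrum (𝓞 K), ((l₀ : ℕ) : 𝓞 K) ∈ v.asIdeal → v ≠ w →
      v.valuation K π = 1)
    (ϖ : Qb) (hϖ : ϖ ^ p = (π : Qb))
    (κ : K.fixingSubgroup → Rep.trivial (ZMod p) K.fixingSubgroup (ZMod p))
    (hκ : ∀ s : K.fixingSubgroup, (s : Gq) ϖ = (ζ : Qb) ^ (ZMod.val (κ s : ZMod p)) * ϖ) :
    ∃ T' : Finset Nat.Primes, S ⊆ T' ∧ l₀ ∉ T' ∧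
      capQc S hpS K hK ζ hζ R w - ind₁ (Rep.trivial (ZMod p) K.fixingSubgroup (ZMod p)) R κ
        ∈ C1 (globalLevel T') (M0 (ZMod p) K.fixingSubgroup) := by
  classical
  let κ' : Gq → ZMod p := fun g => if h : g ∈ K.fixingSubgroup then (κ ⟨g, h⟩ : ZMod p) else 0
  have hκ'eq : ∀ s : K.fixingSubgroup, κ' (s : Gq) = (κ s : ZMod p) := by
    intro s
    simp only [κ', dif_pos s.2]
  have hκ' : ∀ s ∈ K.fixingSubgroup, s ϖ = (ζ : Qb) ^ (κ' s).val * ϖ := by
    intro s hs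
    have := hκ ⟨s, hs⟩
    rw [← hκ'eq ⟨s, hs⟩] at this
    exact this
  obtain ⟨T', hST', hl₀T', F₂, hF₂, hlev₂⟩ := (isCapAt_capK S hpS K hK ζ hζ w).sub_kum_level hpS hK
    hζ l₀ hl₀ hl₀S π hπ hπ' ϖ hϖ κ' hκ'
  refine ⟨T', hST', hl₀T', ?_⟩
  have hU : ∃ W ∈ (globalLevel T').sets, W ≤ K.fixingSubgroup :=
    ⟨K.fixingSubgroup, ⟨K, hK.mono hST', rfl⟩, le_rfl⟩
  unfold capQc
  rw [← map_sub]
  refine isLev₁_ind₁ R hU ?_
  rw [isLev₁_subLevel_iff]
  refine ⟨F₂.fixingSubgroup, ⟨F₂, hF₂, rfl⟩, fun g s hs => ?_⟩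
  have h := hlev₂ g g.2 s hs
  show capK S hpS K hK ζ hζ w ((g * s : K.fixingSubgroup) : Gq) - (κ (g * s) : ZMod p)
    = capK S hpS K hK ζ hζ w (g : Gq) - (κ g : ZMod p)
  rw [← hκ'eq (g * s), ← hκ'eq g]
  exact h

end Family

end Fermat.Agent.S55.Base.CapFam
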