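import Fermat.Agent.S55.Base.CapFamily
import Fermat.Agent.CFT.Count.C4Bound

/-!
# S55, BASE: (c4-b) PRINCIPAL for the canonical capitulation family `capQc`

`U = G_K`, `A = 𝔽_p` (trivial), `N = M0 (ZMod p) U`, `c_w = capQc … R w` (`Base/CapFamily`).

* `principalQ`: for `a ∈ Kˣ` with Kummer character `χ`, the global cochain
  `∑_w ord_w(a) • c_w - ind₁ χ` has level `S`.
* `principal_B2`: `∑_w ord_w(a) • d c_w` is a level-`S` coboundary.
* `principal`: `C4Bound.Principal S K (fun w => capQc … R w.1)` (the literal hypothesis `hprin`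
  of `C4Bound.c4_of_family` / `C4Dual.c4_M0`), together with `capQc_hA`, `capQc_ha` (the
  hypotheses `hA`, `ha` there, for any function `pl` giving the prime below a place).
-/

set_option autoImplicit false

open scoped NumberField IntermediateField
open IsDedekindDomain groupCohomology

namespace Fermat.Agent.S55.Base.CapFam

local notation "Qb" => AlgebraicClosure ℚ
local notation "Gq" => (AlgebraicClosure ℚ ≃ₐ[ℚ] AlgebraicClosure ℚ)

open Fermat.Agent.S14.Wiring.ValRing Fermat.Agent.CFT.Global.CountV Fermat.Agent.CFT.Count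
open Fermat.Agent.S55.Abs Fermat.Agent.S55.Shapiro

section PrincipalQ

variable {p : ℕ} [Fact p.Prime] (S : Finset Nat.Primes) (hpS : ExtCitation.pPrime p ∈ S)
  (K : IntermediateField ℚ Qb) (hK : K.IsUnramifiedOutside S) [NumberField K] (ζ : K)
  (hζ : IsPrimitiveRoot ζ p)

/-- **(c4-b), `ℚ`-side.**  For `a ∈ Kˣ` with Kummer character `χ`, the global cochain
`∑_w ord_w(a) • c_w - ind₁ χ` has level `S`. -/
theorem principalQ (R : Retr K.fixingSubgroup) (a : Kˣ) (ϑ : Qb) (hϑ : ϑ ^ p = ((a : K) : Qb))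
    (χ : K.fixingSubgroup → Rep.trivial (ZMod p) K.fixingSubgroup (ZMod p))
    (hχ : ∀ s : K.fixingSubgroup, (s : Gq) ϑ = (ζ : Qb) ^ (ZMod.val (χ s : ZMod p)) * ϑ) :
    (C4K.dv p S K a).sum (fun w e => e • capQc S hpS K hK ζ hζ R w.1)
        - ind₁ (Rep.trivial (ZMod p) K.fixingSubgroup (ZMod p)) R χ
      ∈ C1 (globalLevel S) (M0 (ZMod p) K.fixingSubgroup) := by
  classical
  let ext : (K.fixingSubgroup → Rep.trivial (ZMod p) K.fixingSubgroup (ZMod p)) → Gq → ZMod p :=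
    fun β g => if h : g ∈ K.fixingSubgroup then (β ⟨g, h⟩ : ZMod p) else 0
  have hext : ∀ β (s : K.fixingSubgroup), ext β (s : Gq) = (β s : ZMod p) := by
    intro β s
    simp only [ext, dif_pos s.2]
  have hχ' : ∀ s ∈ K.fixingSubgroup, s ϑ = (ζ : Qb) ^ (ext χ s).val * ϑ := by
    intro s hs
    have := hχ ⟨s, hs⟩
    rw [← hext χ ⟨s, hs⟩] at this
    exact this
  obtain ⟨F₁, hF₁, hlev⟩ := principalK hpS hK hζ (fun w => capK S hpS K hK ζ hζ w.1)
    (fun w => isCapAt_capK S hpS K hK ζ hζ w.1) a ϑ hϑ (ext χ) hχ'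
  have hU : ∃ W ∈ (globalLevel S).sets, W ≤ K.fixingSubgroup :=
    ⟨K.fixingSubgroup, ⟨K, hK, rfl⟩, le_rfl⟩
  have hrw : (C4K.dv p S K a).sum (fun w e => e • capQc S hpS K hK ζ hζ R w.1)
        - ind₁ (Rep.trivial (ZMod p) K.fixingSubgroup (ZMod p)) R χ
      = ind₁ (Rep.trivial (ZMod p) K.fixingSubgroup (ZMod p)) R
          ((C4K.dv p S K a).sum (fun w e => e • capU S hpS K hK ζ hζ w.1) - χ) := by
    unfold capQc
    simp only [Finsupp.sum, map_sub, map_sum, map_smul]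
  rw [hrw]
  refine isLev₁_ind₁ R hU ?_
  rw [isLev₁_subLevel_iff]
  refine ⟨F₁.fixingSubgroup, ⟨F₁, hF₁, rfl⟩, fun g s hs => ?_⟩
  have hev : ∀ x : K.fixingSubgroup,
      ((((C4K.dv p S K a).sum (fun w e => e • capU S hpS K hK ζ hζ w.1) - χ) x :
          Rep.trivial (ZMod p) K.fixingSubgroup (ZMod p)) : ZMod p)
        = (C4K.dv p S K a).sum (fun w e => e * capK S hpS K hK ζ hζ w.1 (x : Gq))
            - ext χ (x : Gq) := by
    intro x
    rw [hext χ x, Pi.sub_apply]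
    congr 1
    rw [Finsupp.sum, Finset.sum_apply]
    rfl
  have h := hlev g g.2 s hs
  show ((((C4K.dv p S K a).sum (fun w e => e • capU S hpS K hK ζ hζ w.1) - χ) (g * s) :
      Rep.trivial (ZMod p) K.fixingSubgroup (ZMod p)) : ZMod p)
    = (((C4K.dv p S K a).sum (fun w e => e • capU S hpS K hK ζ hζ w.1) - χ) g :
      Rep.trivial (ZMod p) K.fixingSubgroup (ZMod p))
  rw [hev (g * s), hev g]
  exact h

/-- The `ℚ`-side Kummer cochain `ind₁ (kum a)` is a cocycle. -/
theorem d_ind₁_kum (R : Retr K.fixingSubgroup) (a : Kˣ) :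
    (d₁₂ (M0 (ZMod p) K.fixingSubgroup)).hom
      (ind₁ (Rep.trivial (ZMod p) K.fixingSubgroup (ZMod p)) R (kum K ζ hζ a)) = 0 := by
  rw [← ind₂_d₁₂]
  have h0 : (d₁₂ (Rep.trivial (ZMod p) K.fixingSubgroup (ZMod p))).hom (kum K ζ hζ a) = 0 := by
    funext g
    show (kum K ζ hζ a g.2 : ZMod p) - kum K ζ hζ a (g.1 * g.2) + kum K ζ hζ a g.1 = 0
    rw [kum_map_mul]
    ring
  rw [h0, map_zero]

/-- **(c4-b) PRINCIPAL.**  `∑_w ord_w(a) • d c_w` is a level-`S` coboundary. -/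
theorem principal_B2 (R : Retr K.fixingSubgroup) (a : Kˣ) :
    (C4K.dv p S K a).sum
        (fun w e => e • (d₁₂ (M0 (ZMod p) K.fixingSubgroup)).hom (capQc S hpS K hK ζ hζ R w.1))
      ∈ B2 (globalLevel S) (M0 (ZMod p) K.fixingSubgroup) := by
  have h := principalQ S hpS K hK ζ hζ R a (root p K a) (root_pow K a) (kum K ζ hζ a)
    (fun s => kum_spec K ζ hζ a (root p K a) (root_pow K a) s)
  refine ⟨_, h, ?_⟩
  rw [map_sub, d_ind₁_kum, sub_zero]
  simp only [Finsupp.sum, map_sum, map_smul]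

/-- The hypothesis `hprin` of `C4Bound.c4_of_family` / `C4Dual.c4_M0` for the family `capQc`. -/
theorem principal (R : Retr K.fixingSubgroup) :
    C4Bound.Principal S K (fun w : Outside (SK S K) => capQc S hpS K hK ζ hζ R w.1) :=
  fun a => principal_B2 S hpS K hK ζ hζ R a

/-- The hypothesis `hA` of `C4Bound.c4_of_family` for the family `capQc` (`pl` any function giving
the prime below a place). -/
theorem capQc_hA (R : Retr K.fixingSubgroup) (pl : Outside (SK S K) → Nat.Primes)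
    (hpl : ∀ w : Outside (SK S K), ((pl w : ℕ) : 𝓞 K) ∈ w.1.asIdeal) (w : Outside (SK S K)) :
    capQc S hpS K hK ζ hζ R w.1
      ∈ C1 (globalLevel (insert (pl w) S)) (M0 (ZMod p) K.fixingSubgroup) :=
  capQc_mem_C1 S hpS K hK ζ hζ R w.1 (pl w) (hpl w)

/-- The hypothesis `ha` of `C4Bound.c4_of_family` for the family `capQc`. -/
theorem capQc_ha (R : Retr K.fixingSubgroup) (w : Outside (SK S K)) :
    (d₁₂ (M0 (ZMod p) K.fixingSubgroup)).hom (capQc S hpS K hK ζ hζ R w.1)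
      ∈ C2 (globalLevel S) (M0 (ZMod p) K.fixingSubgroup) :=
  d_capQc_mem_C2 S hpS K hK ζ hζ R w.1

end PrincipalQ

end Fermat.Agent.S55.Base.CapFam
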