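import Mathlib
import Fermat.Prelude.Def_GroupCohomology_ContinuousUnramified
import Fermat.Agent.Lib.InertiaBridge
import Fermat.Agent.S14.Base
import Fermat.Agent.S55.Glue.LevelGalois

/-!
# S55, BASE: the core of FACT (a trivialising cochain with no ramification has level `S`)

`Qb = AlgebraicClosure ℚ`, `Gq = Gal(Qb/ℚ)`, `K ≤ Qb` finite and unramified outside `S`,
`G_K = K.fixingSubgroup`, coefficients in any additive commutative group `M` with trivial action.

`level_of_unramified`: let `c : Gq → M` be a `1`-cochain on `G_K` such that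

* `c` is level-constant on `G_K` (some finite level `F'`, arbitrary ramification);
* its coboundary `(σ, τ) ↦ c σ + c τ - c (σ τ)` on `G_K` has level `S` (is constant modulo
  `Fix F₀`, `F₀` unramified outside `S`);
* `c` is unramified at every prime `q ∉ S`: `c s = c 1` for `s` in every inertia group `I_A`,
  `A` over `q` (this is what "ramification divisor `d(c) = 0`" means: `res_A c = t_A + η_A` with
  `t_A` an unramified cochain and `η_A` an unramified character).

Then `c` itself has level `S` on `G_K`: there is a finite `F₁`, unramified outside `S`, with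
`c (g s) = c g` for `g ∈ G_K`, `s ∈ Fix F₁`.

Proof: on the normal subgroup `N = Fix F` (`F ⊇ F₀ K` Galois over `ℚ`, unramified outside `S`)
the function `c - c 1` is a homomorphism, invariant under conjugation by `G_K`, and
`c (g s) = c g + (c s - c 1)` for `g ∈ G_K`, `s ∈ N`.  Its kernel `H` is an open subgroup
containing all inertia groups outside `S`; take `F₁` = the fixed field of `H`.
-/

set_option autoImplicit false

namespace Fermat.Agent.S55.Base.FactK

local notation "Qb" => AlgebraicClosure ℚ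
local notation "Gq" => (AlgebraicClosure ℚ ≃ₐ[ℚ] AlgebraicClosure ℚ)

open Fermat.Agent.S55.Glue

/-- **FACT, core.**  See the module docstring. -/
theorem level_of_unramified {M : Type*} [AddCommGroup M] (S : Finset Nat.Primes)
    (K : IntermediateField ℚ Qb) (hK : K.IsUnramifiedOutside S) (c : Gq → M)
    (hlev : ∃ F' : IntermediateField ℚ Qb, FiniteDimensional ℚ F' ∧
      ∀ g ∈ K.fixingSubgroup, ∀ s ∈ F'.fixingSubgroup, s ∈ K.fixingSubgroup → c (g * s) = c g)
    (hdc : ∃ F₀ : IntermediateField ℚ Qb, F₀.IsUnramifiedOutside S ∧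
      ∀ g₁ ∈ K.fixingSubgroup, ∀ g₂ ∈ K.fixingSubgroup,
      ∀ s₁ ∈ F₀.fixingSubgroup, ∀ s₂ ∈ F₀.fixingSubgroup,
        s₁ ∈ K.fixingSubgroup → s₂ ∈ K.fixingSubgroup →
        c (g₁ * s₁) + c (g₂ * s₂) - c (g₁ * s₁ * (g₂ * s₂)) = c g₁ + c g₂ - c (g₁ * g₂))
    (hunr : ∀ q : Nat.Primes, q ∉ S → ∀ A : ValuationSubring Qb, A.LiesOverPrime (q : ℕ) →
      ∀ s ∈ A.inertiaSubgroupIn ℚ, c s = c 1) :
    ∃ F₁ : IntermediateField ℚ Qb, F₁.IsUnramifiedOutside S ∧
      ∀ g ∈ K.fixingSubgroup, ∀ s ∈ F₁.fixingSubgroup, c (g * s) = c g := by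
  classical
  have hgal := Fermat.Agent.S14.Base.isGalois
  obtain ⟨F', hF'fd, hF'⟩ := hlev
  obtain ⟨F₀, hF₀, hdc⟩ := hdc
  obtain ⟨F, hF₀F, hKF, hF, hFn⟩ := exists_normal_isUnramifiedOutside hF₀ hK
  haveI := hF.1
  have hNK : F.fixingSubgroup ≤ K.fixingSubgroup := IntermediateField.fixingSubgroup_antitone hKF
  have hN0 : F.fixingSubgroup ≤ F₀.fixingSubgroup := IntermediateField.fixingSubgroup_antitone hF₀F
  -- (i) right translation by `N`
  have hR : ∀ g ∈ K.fixingSubgroup, ∀ s ∈ F.fixingSubgroup, c (g * s) = c g + (c s - c 1) := by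
    intro g hg s hs
    have h := hdc g hg 1 (one_mem _) 1 (one_mem _) s (hN0 hs) (one_mem _) (hNK hs)
    simp only [mul_one, one_mul] at h
    -- h : c g + c s - c (g * s) = c g + c 1 - c g
    have h2 : c (g * s) = c g + c s - (c g + c 1 - c g) := by
      rw [← h]; abel
    rw [h2]; abel
  -- (ii) left translation by `N`
  have hL : ∀ g ∈ K.fixingSubgroup, ∀ s ∈ F.fixingSubgroup, c (s * g) = c g + (c s - c 1) := by
    intro g hg s hs
    have h := hdc 1 (one_mem _) g hg s (hN0 hs) 1 (one_mem _) (hNK hs) (one_mem _)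
    simp only [mul_one, one_mul] at h
    -- h : c s + c g - c (s * g) = c 1 + c g - c g
    have h2 : c (s * g) = c s + c g - (c 1 + c g - c g) := by
      rw [← h]; abel
    rw [h2]; abel
  -- the kernel
  let H : Subgroup Gq :=
    { carrier := {s | s ∈ F.fixingSubgroup ∧ c s = c 1}
      one_mem' := ⟨one_mem _, rfl⟩
      mul_mem' := fun {a b} ha hb => by
        refine ⟨mul_mem ha.1 hb.1, ?_⟩
        rw [hR a (hNK ha.1) b hb.1, ha.2, hb.2]; abel
      inv_mem' := fun {a} ha => by
        refine ⟨inv_mem ha.1, ?_⟩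
        have h := hR a (hNK ha.1) a⁻¹ (inv_mem ha.1)
        rw [mul_inv_cancel, ha.2] at h
        -- h : c 1 = c 1 + (c a⁻¹ - c 1)
        have h2 : c a⁻¹ - c 1 = 0 := by
          have h3 : c 1 + (c a⁻¹ - c 1) = c 1 + 0 := by rw [add_zero]; exact h.symm
          exact add_left_cancel h3
        exact sub_eq_zero.mp h2 }
  have hHmem : ∀ s, s ∈ H ↔ s ∈ F.fixingSubgroup ∧ c s = c 1 := fun s => Iff.rfl
  -- `H` is open, hence closed
  have hle : (F ⊔ F').fixingSubgroup ≤ H := by
    intro s hs
    rw [IntermediateField.fixingSubgroup_sup] at hs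
    refine ⟨hs.1, ?_⟩
    have h := hF' 1 (one_mem _) s hs.2 (hNK hs.1)
    rwa [one_mul] at h
  have hfd : FiniteDimensional ℚ ↥(F ⊔ F') := IntermediateField.finiteDimensional_sup F F'
  have hopen : IsOpen ((F ⊔ F').fixingSubgroup : Set Gq) :=
    IntermediateField.fixingSubgroup_isOpen (F ⊔ F')
  have hHcl : IsClosed (H : Set Gq) :=
    Subgroup.isClosed_of_isOpen H (Subgroup.isOpen_mono hle hopen)
  -- the fixed field
  set F₁ : IntermediateField ℚ Qb := IntermediateField.fixedField H with hF₁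
  have hfix : F₁.fixingSubgroup = H :=
    InfiniteGalois.fixingSubgroup_fixedField ⟨H, hHcl⟩
  have hF₁le : F₁ ≤ F ⊔ F' := by
    have h1 : IntermediateField.fixedField (F ⊔ F').fixingSubgroup = F ⊔ F' :=
      InfiniteGalois.fixedField_fixingSubgroup (F ⊔ F')
    rw [← h1, hF₁]
    exact IntermediateField.fixedField_antitone hle
  have hF₁fd : FiniteDimensional ℚ F₁ :=
    FiniteDimensional.of_injective (IntermediateField.inclusion hF₁le).toLinearMap
      (IntermediateField.inclusion_injective hF₁le)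
  refine ⟨F₁, ⟨hF₁fd, fun q hq A hA s hs => ?_⟩, fun g hg s hs => ?_⟩
  · rw [hfix]
    exact ⟨hF.2 q hq A hA hs, hunr q hq A hA s hs⟩
  · rw [hfix] at hs
    rw [hR g hg s hs.1, hs.2, sub_self, add_zero]

end Fermat.Agent.S55.Base.FactK
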