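import Mathlib
import Fermat.Agent.S55.Base.Capit
import Fermat.Agent.S55.Base.FactK
import Fermat.Agent.S14.Wiring.ValRing

/-!
# S55, BASE: the capitulation class of a place (CAPIT, place form)

`Qb = AlgebraicClosure ℚ`, `Gq = Gal(Qb/ℚ)`, `K ≤ Qb` a number field unramified outside `S ∋ p`
containing a primitive `p`-th root of unity `ζ`, `G_K = K.fixingSubgroup`, and `v₀` a finite place
of `K` (a height one prime of `𝓞 K`).  Valuation subrings `A` of `Qb` over a prime `q` play the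
role of the places of `Qb`; `A` lies over `v₀` when `primeUnder K A = v₀.asIdeal`
(`Fermat.Agent.S14.Wiring.ValRing`).

`capit_place`: there is a `1`-cochain `c : Gq → ZMod p`, `c 1 = 0`, such that
1. `c` is level-constant (some finite level);
2. its coboundary `(σ, τ) ↦ c σ + c τ - c (σ τ)` on `G_K` has level `S`;
3. at every `A` over `q ∉ S`:
   * if `A` lies over `v₀`: for every uniformiser `π ∈ K` at `v₀` and every Kummer character `κ`
     of `π` (`s ϖ = ζ ^ (κ s) ϖ` on `G_K`, `ϖ ^ p = π`): `c = t + κ` on `G_K`, `t` unramified at `A`;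
   * otherwise `c = t` on `G_K`, `t` unramified at `A`.
   (`t` unramified at `A`: constant modulo `Fix F_A`, `F_A` finite, `I_A ≤ Fix F_A`.)
So the ramification divisor of `c` is exactly `1 · v₀`: this is the field `capit` of the abstract
`K`-side contract (`Base/Abstract.lean`), and the input `CAP` of the `Q`-side base case.

`capit_place_level`: moreover `c` has level `T` on `G_K` for every finite `T ⊇ S` containing the
residue characteristic of `v₀`.

Proof: the class of `v₀` has finite order `n = p ^ k m`, `p ∤ m`, in the class group: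
`v₀ ^ n = (γ)`.  Apply `Capit.capit` to `γ` and `k` (local `p ^ k`-th roots `x = π ^ (-m)` at
`v₀`, `x = 1` elsewhere) and rescale by `(-m)⁻¹`.
-/

set_option autoImplicit false

open scoped NumberField nonZeroDivisors
open IsDedekindDomain

namespace Fermat.Agent.S55.Base.CapitPlace

local notation "Qb" => AlgebraicClosure ℚ
local notation "Gq" => (AlgebraicClosure ℚ ≃ₐ[ℚ] AlgebraicClosure ℚ)

open Fermat.Agent.S14.Wiring.ValRing

/-- The valuation at `v` of a generator of `v ^ n`. -/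
theorem intValuation_of_span_eq_pow {R : Type*} [CommRing R] [IsDedekindDomain R]
    (v : HeightOneSpectrum R) (n : ℕ) (r : R) (hr : Ideal.span {r} = v.asIdeal ^ n) :
    v.intValuation r = WithZero.exp (-(n : ℤ)) := by
  have hr0 : r ≠ 0 := by
    rintro rfl
    have h1 : v.asIdeal ^ n = ⊥ := by rw [← hr]; simp
    exact pow_ne_zero n v.ne_bot h1
  rw [v.intValuation_if_neg hr0, hr, Associates.mk_pow,
    Associates.count_pow (Associates.mk_ne_zero.mpr v.ne_bot)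
      v.associates_irreducible, Associates.count_self v.associates_irreducible, mul_one]

/-- Exponent bookkeeping in the value group. -/
theorem exp_cancel (n m j : ℕ) (h : n = j * m) :
    (WithZero.exp (-(n : ℤ)) : WithZero (Multiplicative ℤ))
      * ((WithZero.exp (-1 : ℤ) ^ m)⁻¹) ^ j = 1 := by
  rw [← WithZero.exp_nsmul, ← WithZero.exp_neg, ← WithZero.exp_nsmul, ← WithZero.exp_add,
    ← WithZero.exp_zero]
  congr 1
  subst h
  simp only [nsmul_eq_mul, Nat.cast_mul]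
  ring

/-- Exponent arithmetic for Kummer characters: `z ^ (-m a) = ((z ^ a) ^ m)⁻¹`. -/
theorem pow_val_neg_mul {p : ℕ} [NeZero p] {z : Qb} (hz : z ^ p = 1) (a : ZMod p) (m : ℕ) :
    z ^ (-(m : ZMod p) * a).val = ((z ^ a.val) ^ m)⁻¹ := by
  have h : z ^ (-(m : ZMod p) * a).val * (z ^ a.val) ^ m = 1 := by
    rw [← pow_mul, ← pow_add]
    have hdvd : p ∣ (-(m : ZMod p) * a).val + a.val * m := by
      rw [← ZMod.natCast_eq_zero_iff]
      push_cast
      rw [ZMod.natCast_zmod_val, ZMod.natCast_zmod_val]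
      ring
    obtain ⟨j, hj⟩ := hdvd
    rw [hj, pow_mul, hz, one_pow]
  exact eq_inv_of_mul_eq_one_left h

/-- **CAPIT, place form.**  See the module docstring. -/
theorem capit_place {p : ℕ} [Fact p.Prime] (S : Finset Nat.Primes)
    (hpS : ExtCitation.pPrime p ∈ S)
    (K : IntermediateField ℚ Qb) (hK : K.IsUnramifiedOutside S) [NumberField K] (ζ : K)
    (hζ : IsPrimitiveRoot ζ p) (v₀ : HeightOneSpectrum (𝓞 K)) :
    ∃ c : Gq → ZMod p,
      c 1 = 0 ∧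
      (∃ F' : IntermediateField ℚ Qb, FiniteDimensional ℚ F' ∧
        ∀ g s, s ∈ F'.fixingSubgroup → c (g * s) = c g) ∧
      (∃ F : IntermediateField ℚ Qb, F.IsUnramifiedOutside S ∧
        ∀ g₁ ∈ K.fixingSubgroup, ∀ g₂ ∈ K.fixingSubgroup,
        ∀ s₁ ∈ F.fixingSubgroup, ∀ s₂ ∈ F.fixingSubgroup,
          c (g₁ * s₁) + c (g₂ * s₂) - c (g₁ * s₁ * (g₂ * s₂))
            = c g₁ + c g₂ - c (g₁ * g₂)) ∧
      (∀ q : Nat.Primes, q ∉ S → ∀ A : ValuationSubring Qb, A.LiesOverPrime (q : ℕ) →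
        (primeUnder K A = v₀.asIdeal →
          ∀ (π : K) (ϖ : Qb), v₀.valuation K π = WithZero.exp (-1 : ℤ) → ϖ ^ p = (π : Qb) →
          ∀ κ : Gq → ZMod p, (∀ s ∈ K.fixingSubgroup, s ϖ = (ζ : Qb) ^ (κ s).val * ϖ) →
          ∃ t : Gq → ZMod p,
            (∃ F_A : IntermediateField ℚ Qb, FiniteDimensional ℚ F_A ∧
              A.inertiaSubgroupIn ℚ ≤ F_A.fixingSubgroup ∧
              ∀ g s, s ∈ F_A.fixingSubgroup → t (g * s) = t g) ∧
            ∀ s ∈ K.fixingSubgroup, c s = t s + κ s) ∧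
        (primeUnder K A ≠ v₀.asIdeal →
          ∃ t : Gq → ZMod p,
            (∃ F_A : IntermediateField ℚ Qb, FiniteDimensional ℚ F_A ∧
              A.inertiaSubgroupIn ℚ ≤ F_A.fixingSubgroup ∧
              ∀ g s, s ∈ F_A.fixingSubgroup → t (g * s) = t g) ∧
            ∀ s ∈ K.fixingSubgroup, c s = t s)) := by
  classical
  have hp : p.Prime := Fact.out
  have : NeZero p := ⟨hp.ne_zero⟩
  -- the class of `v₀` has finite order `n`
  have hI0 : v₀.asIdeal ≠ ⊥ := v₀.ne_bot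
  obtain ⟨n, hn0, γ₀, hγ₀⟩ : ∃ n : ℕ, n ≠ 0 ∧ ∃ γ₀ : 𝓞 K, Ideal.span {γ₀} = v₀.asIdeal ^ n := by
    let I' : (Ideal (𝓞 K))⁰ := ⟨v₀.asIdeal, mem_nonZeroDivisors_of_ne_zero hI0⟩
    have h1 : ClassGroup.mk0 I' ^ Fintype.card (ClassGroup (𝓞 K)) = 1 := pow_card_eq_one
    rw [← map_pow, ClassGroup.mk0_eq_one_iff] at h1
    obtain ⟨γ₀, hγ₀⟩ := h1.principal
    refine ⟨Fintype.card (ClassGroup (𝓞 K)), Fintype.card_ne_zero, γ₀, ?_⟩
    rw [Ideal.span, ← hγ₀]
    simp [I']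
  obtain ⟨k, m, hm, hnkm⟩ := Nat.exists_eq_pow_mul_and_not_dvd hn0 p hp.ne_one
  have hγ₀0 : γ₀ ≠ 0 := by
    rintro rfl
    have h1 : v₀.asIdeal ^ n = ⊥ := by rw [← hγ₀]; simp
    exact pow_ne_zero n hI0 h1
  set γ : K := algebraMap (𝓞 K) K γ₀ with hγdef
  have hγ0 : γ ≠ 0 := by
    rw [hγdef, Ne, FaithfulSMul.algebraMap_eq_zero_iff]
    exact hγ₀0
  have hvγ : v₀.valuation K γ = WithZero.exp (-(n : ℤ)) := by
    rw [hγdef, HeightOneSpectrum.valuation_of_algebraMap]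
    exact intValuation_of_span_eq_pow v₀ n γ₀ hγ₀
  -- units at the places over `v₀`
  have hunit : ∀ π : K, v₀.valuation K π = WithZero.exp (-1 : ℤ) → ∀ A : ValuationSubring Qb,
      primeUnder K A = v₀.asIdeal →
      A.valuation ((γ : Qb) * (((π ^ m)⁻¹ : K) : Qb) ^ (p ^ k)) = 1 := by
    intro π hπ A hAv
    have h1 : v₀.valuation K (γ * ((π ^ m)⁻¹) ^ (p ^ k)) = 1 := by
      rw [map_mul, map_pow, map_inv₀, map_pow, hvγ, hπ]
      exact exp_cancel n m (p ^ k) hnkm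
    exact (valuation_eq_one_iff (F := K) (A := A) (v := v₀) hAv.symm _).mp h1
  -- units at the other places
  have hunit' : ∀ A : ValuationSubring Qb, ∀ q : Nat.Primes, A.LiesOverPrime (q : ℕ) →
      primeUnder K A ≠ v₀.asIdeal →
      A.valuation ((γ : Qb) * (((1 : K)) : Qb) ^ (p ^ k)) = 1 := by
    intro A q hA hAv
    have h1 : A.valuation (γ : Qb) = 1 := by
      refine (notMem_primeUnder K A γ₀).mp (fun hmem => hAv ?_)
      have h2 : v₀.asIdeal ^ n ≤ primeUnder K A := by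
        rw [← hγ₀, Ideal.span_singleton_le_iff_mem]
        exact hmem
      have h3 : v₀.asIdeal ≤ primeUnder K A := Ideal.IsPrime.le_of_pow_le h2
      exact (v₀.isMaximal.eq_of_le (primeUnder_isPrime K A).ne_top h3).symm
    have h2 : (((1 : K)) : Qb) = 1 := rfl
    rw [h2, one_pow, mul_one]
    exact h1
  obtain ⟨π₀, hπ₀⟩ := v₀.valuation_exists_uniformizer K
  have hval : ∀ q : Nat.Primes, q ∉ S → ∀ A : ValuationSubring Qb, A.LiesOverPrime (q : ℕ) →
      ∃ x : K, A.valuation ((γ : Qb) * (x : Qb) ^ (p ^ k)) = 1 := by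
    intro q hq A hA
    by_cases hAv : primeUnder K A = v₀.asIdeal
    · exact ⟨(π₀ ^ m)⁻¹, hunit π₀ hπ₀ A hAv⟩
    · exact ⟨1, hunit' A q hA hAv⟩
  obtain ⟨c', hc1, ⟨F', hF', hlev⟩, ⟨F, hF, hdc⟩, hloc⟩ :=
    Capit.capit S hpS K hK ζ hζ γ hγ0 k hval
  have hm0 : (m : ZMod p) ≠ 0 := by
    rw [Ne, ZMod.natCast_eq_zero_iff]
    exact hm
  set u : ZMod p := (-(m : ZMod p))⁻¹ with hu
  have hum : u * (-(m : ZMod p)) = 1 := inv_mul_cancel₀ (neg_ne_zero.mpr hm0)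
  have hzp : ((ζ : K) : Qb) ^ p = 1 := by
    have := hζ.pow_eq_one
    have h2 : (((ζ ^ p : K)) : Qb) = ((ζ : K) : Qb) ^ p := rfl
    rw [← h2, this]
    rfl
  refine ⟨fun s => u * c' s, by simp [hc1], ⟨F', hF', fun g s hs => ?_⟩,
    ⟨F, hF, fun g₁ hg₁ g₂ hg₂ s₁ hs₁ s₂ hs₂ => ?_⟩,
    fun q hq A hA => ⟨fun hAv π ϖ hπ hϖ κ hκ => ?_, fun hAv => ?_⟩⟩
  · show u * c' (g * s) = u * c' g
    rw [hlev g s hs]
  · show u * c' (g₁ * s₁) + u * c' (g₂ * s₂) - u * c' (g₁ * s₁ * (g₂ * s₂))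
      = u * c' g₁ + u * c' g₂ - u * c' (g₁ * g₂)
    rw [← mul_add, ← mul_sub, hdc g₁ hg₁ g₂ hg₂ s₁ hs₁ s₂ hs₂, mul_sub, mul_add]
  · -- over `v₀`
    have hϖ' : ((ϖ ^ m)⁻¹) ^ p = (((π ^ m)⁻¹ : K) : Qb) := by
      have h2 : (((π ^ m)⁻¹ : K) : Qb) = (((π : K) : Qb) ^ m)⁻¹ := rfl
      rw [h2, ← hϖ, inv_pow, ← pow_mul, ← pow_mul, mul_comm]
    obtain ⟨t, ⟨F_A, h1, h2, h3⟩, ht⟩ := hloc q hq A hA ((π ^ m)⁻¹) ((ϖ ^ m)⁻¹)
      (hunit π hπ A hAv) hϖ' (fun s => -(m : ZMod p) * κ s) (fun s hs => by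
        show s ((ϖ ^ m)⁻¹) = ((ζ : K) : Qb) ^ (-(m : ZMod p) * κ s).val * (ϖ ^ m)⁻¹
        rw [map_inv₀, map_pow, hκ s hs, mul_pow, mul_inv, pow_val_neg_mul hzp])
    refine ⟨fun s => u * t s, ⟨F_A, h1, h2, fun g s hs => ?_⟩, fun s hs => ?_⟩
    · show u * t (g * s) = u * t g
      rw [h3 g s hs]
    · show u * c' s = u * t s + κ s
      rw [ht s hs, mul_add, ← mul_assoc, hum, one_mul]
  · -- not over `v₀`
    obtain ⟨t, ⟨F_A, h1, h2, h3⟩, ht⟩ := hloc q hq A hA 1 1 (hunit' A q hA hAv)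
      (by rw [one_pow]; rfl) (fun _ => 0) (fun s hs => by simp)
    refine ⟨fun s => u * t s, ⟨F_A, h1, h2, fun g s hs => ?_⟩, fun s hs => ?_⟩
    · show u * t (g * s) = u * t g
      rw [h3 g s hs]
    · show u * c' s = u * t s
      rw [ht s hs, add_zero]

/-- **CAPIT, place form, with its level.**  The cochain of `capit_place` has level `T` on `G_K`
for every finite set `T ⊇ S` of primes containing the residue characteristic of `v₀`. -/
theorem capit_place_level {p : ℕ} [Fact p.Prime] (S T : Finset Nat.Primes)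
    (hpS : ExtCitation.pPrime p ∈ S) (hST : S ⊆ T)
    (K : IntermediateField ℚ Qb) (hK : K.IsUnramifiedOutside S) [NumberField K] (ζ : K)
    (hζ : IsPrimitiveRoot ζ p) (v₀ : HeightOneSpectrum (𝓞 K))
    (hT : ∀ q : Nat.Primes, ((q : ℕ) : 𝓞 K) ∈ v₀.asIdeal → q ∈ T) :
    ∃ c : Gq → ZMod p,
      c 1 = 0 ∧
      (∃ F₁ : IntermediateField ℚ Qb, F₁.IsUnramifiedOutside T ∧
        ∀ g ∈ K.fixingSubgroup, ∀ s ∈ F₁.fixingSubgroup, c (g * s) = c g) ∧
      (∃ F : IntermediateField ℚ Qb, F.IsUnramifiedOutside S ∧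
        ∀ g₁ ∈ K.fixingSubgroup, ∀ g₂ ∈ K.fixingSubgroup,
        ∀ s₁ ∈ F.fixingSubgroup, ∀ s₂ ∈ F.fixingSubgroup,
          c (g₁ * s₁) + c (g₂ * s₂) - c (g₁ * s₁ * (g₂ * s₂))
            = c g₁ + c g₂ - c (g₁ * g₂)) ∧
      (∀ q : Nat.Primes, q ∉ S → ∀ A : ValuationSubring Qb, A.LiesOverPrime (q : ℕ) →
        (primeUnder K A = v₀.asIdeal →
          ∀ (π : K) (ϖ : Qb), v₀.valuation K π = WithZero.exp (-1 : ℤ) → ϖ ^ p = (π : Qb) →
          ∀ κ : Gq → ZMod p, (∀ s ∈ K.fixingSubgroup, s ϖ = (ζ : Qb) ^ (κ s).val * ϖ) →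
          ∃ t : Gq → ZMod p,
            (∃ F_A : IntermediateField ℚ Qb, FiniteDimensional ℚ F_A ∧
              A.inertiaSubgroupIn ℚ ≤ F_A.fixingSubgroup ∧
              ∀ g s, s ∈ F_A.fixingSubgroup → t (g * s) = t g) ∧
            ∀ s ∈ K.fixingSubgroup, c s = t s + κ s) ∧
        (primeUnder K A ≠ v₀.asIdeal →
          ∃ t : Gq → ZMod p,
            (∃ F_A : IntermediateField ℚ Qb, FiniteDimensional ℚ F_A ∧
              A.inertiaSubgroupIn ℚ ≤ F_A.fixingSubgroup ∧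
              ∀ g s, s ∈ F_A.fixingSubgroup → t (g * s) = t g) ∧
            ∀ s ∈ K.fixingSubgroup, c s = t s)) := by
  obtain ⟨c, hc1, ⟨F', hF', hlev⟩, ⟨F, hF, hdc⟩, hloc⟩ := capit_place S hpS K hK ζ hζ v₀
  refine ⟨c, hc1, ?_, ⟨F, hF, hdc⟩, hloc⟩
  refine FactK.level_of_unramified T K (hK.mono hST) c
    ⟨F', hF', fun g _ s hs _ => hlev g s hs⟩
    ⟨F, hF.mono hST, fun g₁ hg₁ g₂ hg₂ s₁ hs₁ s₂ hs₂ _ _ => hdc g₁ hg₁ g₂ hg₂ s₁ hs₁ s₂ hs₂⟩ ?_
  intro q hq A hA s hs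
  have hqS : q ∉ S := fun h => hq (hST h)
  have hAv : primeUnder K A ≠ v₀.asIdeal := by
    intro h
    apply hq
    apply hT
    rw [← h]
    exact (natCast_mem_primeUnder_iff K A q).mpr hA
  obtain ⟨t, ⟨F_A, h1, h2, h3⟩, ht⟩ := (hloc q hqS A hA).2 hAv
  have hsK : s ∈ K.fixingSubgroup := hK.2 q hqS A hA hs
  rw [ht s hsK, ht 1 (one_mem _)]
  have h4 := h3 1 s (h2 hs)
  rwa [one_mul] at h4

end Fermat.Agent.S55.Base.CapitPlace
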