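import Fermat.Agent.S55.Base.CapitPlace
import Fermat.Agent.S55.Base.EvalQ
import Fermat.Agent.S55.Shapiro.AbsLevel

/-!
# S55, BASE: CAP-Q (the capitulation cone cocycle of a place, `ℚ`-side form)

`K ≤ Qb` a number field unramified outside `S ∋ p`, `ζ ∈ K` a primitive `p`-th root of unity,
`U = K.fixingSubgroup`, `A = Rep.trivial (ZMod p) U (ZMod p)`, `N = M0 (ZMod p) U = coind_U A`
(the permutation module of the base case), `R : Shapiro.Retr U` any retraction.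

Data: a place `v₀` of `K` over a prime `l₀ ∉ S`; `π ∈ K` a uniformiser at `v₀` which is a unit at
the other places of `K` above `l₀`; `κ : U → ZMod p` a Kummer character of `π`
(`s ϖ = ζ ^ (κ s) ϖ`, `ϖ ^ p = π`), so `k = ind₁ A R κ` is the `ℚ`-side Kummer cocycle of `π`.

`capQ`: there are `c' : U → ZMod p` and a finite set of primes `T' ⊇ S`, `l₀ ∉ T'`, such that
`c = ind₁ A R c'` satisfies
* (A) `c ∈ C1 (globalLevel (insert l₀ S)) N`;
* (a) `d c ∈ C2 (globalLevel S) N`  (so `(d c, (res_q c)_{q ∈ S})` is a cone `2`-cocycle of `N`);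
* (B) `c - k ∈ C1 (globalLevel T') N`  (so `res_{l₀} (c - k)` is an UNRAMIFIED primitive of
  `res_{l₀} (d c)`, by `EvalQ.isLevelMap_urLevel`);
* `d k = 0`.
Hence (`EvalQ.P2_eval` with `T = insert l₀ S`): the pairing of this cone cocycle with a level-`S`
class `y` of `N'` is `- inv_{l₀} (res_{l₀} k ∪ res_{l₀} y)`, i.e. its ramification vector is
`- θ(v₀)`.

`capK` is the same statement on `G_K` (before Shapiro induction); it comes from
`CapitPlace.capit_place_level` (class group finiteness + the Kummer construction of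
`Capit.capit`) and `FactK.level_of_unramified`.
-/

set_option autoImplicit false

open scoped NumberField IntermediateField
open IsDedekindDomain groupCohomology

namespace Fermat.Agent.S55.Base.CapitQ

local notation "Qb" => AlgebraicClosure ℚ
local notation "Gq" => (AlgebraicClosure ℚ ≃ₐ[ℚ] AlgebraicClosure ℚ)

open Fermat.Agent.S14.Wiring.ValRing

/-! ### Units outside a finite set of primes -/

/-- An integer prime to `q` is a unit of every valuation subring over `q`. -/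
theorem valuation_intCast_eq_one (A : ValuationSubring Qb) (q : ℕ) (hA : A.LiesOverPrime q)
    (y : ℤ) (hy : IsCoprime (q : ℤ) y) : A.valuation (y : Qb) = 1 := by
  have hint : ∀ z : ℤ, A.valuation (z : Qb) ≤ 1 := fun z =>
    (A.valuation_le_one_iff _).mpr (intCast_mem A z)
  refine le_antisymm (hint y) (not_lt.mp fun hlt => ?_)
  have hvq : A.valuation (q : Qb) < 1 := A.mem_nonunits_iff.mp hA
  obtain ⟨a, b, hab⟩ := hy
  have hone : (1 : Qb) = (a : Qb) * (q : Qb) + (b : Qb) * (y : Qb) := by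
    have := congrArg (fun z : ℤ => (z : Qb)) hab
    simp only [Int.cast_add, Int.cast_mul, Int.cast_natCast, Int.cast_one] at this
    exact this.symm
  have h1 : A.valuation ((a : Qb) * (q : Qb)) < 1 := by
    rw [map_mul]
    calc A.valuation (a : Qb) * A.valuation (q : Qb) ≤ 1 * A.valuation (q : Qb) :=
          mul_le_mul_left (hint a) _
      _ < 1 := by rw [one_mul]; exact hvq
  have h2 : A.valuation ((b : Qb) * (y : Qb)) < 1 := by
    rw [map_mul]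
    calc A.valuation (b : Qb) * A.valuation (y : Qb) ≤ 1 * A.valuation (y : Qb) :=
          mul_le_mul_left (hint b) _
      _ < 1 := by rw [one_mul]; exact hlt
  have h3 : A.valuation (1 : Qb) < 1 := by
    rw [hone]
    exact lt_of_le_of_lt (A.valuation.map_add _ _) (max_lt h1 h2)
  rw [map_one] at h3
  exact lt_irrefl _ h3

/-- A nonzero algebraic number is integral at every valuation subring over `q`, for all primes
`q` outside a finite set. -/
theorem exists_finset_valuation_le_one (x : Qb) :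
    ∃ B : Finset Nat.Primes, ∀ q : Nat.Primes, q ∉ B → ∀ A : ValuationSubring Qb,
      A.LiesOverPrime (q : ℕ) → A.valuation x ≤ 1 := by
  classical
  have halg : IsAlgebraic ℤ x :=
    (IsFractionRing.isAlgebraic_iff ℤ ℚ Qb).mpr ((AlgebraicClosure.isAlgebraic ℚ).isAlgebraic x)
  obtain ⟨y, hy0, hint⟩ := halg.exists_integral_multiple
  refine ⟨Finset.subtype (fun q : ℕ => q.Prime) y.natAbs.primeFactors, fun q hq A hA => ?_⟩
  have hqy : ¬ ((q : ℕ) ∣ y.natAbs) := by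
    intro hdvd
    apply hq
    exact Finset.mem_subtype.mpr
      (Nat.mem_primeFactors.mpr ⟨q.2, hdvd, Int.natAbs_ne_zero.mpr hy0⟩)
  have hcop : IsCoprime ((q : ℕ) : ℤ) y := by
    rw [Int.isCoprime_iff_gcd_eq_one, Int.gcd, Int.natAbs_natCast]
    exact (Nat.Prime.coprime_iff_not_dvd q.2).mpr hqy
  have h1 : A.valuation (y : Qb) = 1 := valuation_intCast_eq_one A q hA y hcop
  have h2 : A.valuation (y • x) ≤ 1 := valuation_le_one_of_isIntegral A hint
  rw [zsmul_eq_mul, map_mul, h1, one_mul] at h2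
  exact h2

/-- A nonzero algebraic number is a unit at every valuation subring over `q`, for all primes
`q` outside a finite set. -/
theorem exists_finset_valuation_eq_one (x : Qb) (hx : x ≠ 0) :
    ∃ B : Finset Nat.Primes, ∀ q : Nat.Primes, q ∉ B → ∀ A : ValuationSubring Qb,
      A.LiesOverPrime (q : ℕ) → A.valuation x = 1 := by
  classical
  obtain ⟨B₁, hB₁⟩ := exists_finset_valuation_le_one x
  obtain ⟨B₂, hB₂⟩ := exists_finset_valuation_le_one x⁻¹
  refine ⟨B₁ ∪ B₂, fun q hq A hA => ?_⟩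
  rw [Finset.mem_union, not_or] at hq
  have h1 := hB₁ q hq.1 A hA
  have h2 := hB₂ q hq.2 A hA
  have hv0 : A.valuation x ≠ 0 := by
    rw [Ne, map_eq_zero]
    exact hx
  rw [map_inv₀, inv_le_one₀ (zero_lt_iff.mpr hv0)] at h2
  exact le_antisymm h1 h2

/-! ### Kummer characters -/

section Kummer

variable {p : ℕ} [Fact p.Prime] {K : IntermediateField ℚ Qb} {z ϖ : Qb} {κ : Gq → ZMod p}

/-- A Kummer character vanishes on the elements fixing the root. -/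
theorem kum_eq_zero (hz : IsPrimitiveRoot z p) (hϖ0 : ϖ ≠ 0)
    (hκ : ∀ s ∈ K.fixingSubgroup, s ϖ = z ^ (κ s).val * ϖ) {s : Gq} (hs : s ∈ K.fixingSubgroup)
    (hfix : s ϖ = ϖ) : κ s = 0 := by
  have : NeZero p := ⟨(Fact.out : p.Prime).ne_zero⟩
  have h1 := hκ s hs
  rw [hfix] at h1
  have h2 : z ^ (κ s).val = 1 := by
    have h3 : (z ^ (κ s).val - 1) * ϖ = 0 := by rw [sub_mul, one_mul, ← h1, sub_self]
    rcases mul_eq_zero.mp h3 with h | h
    · exact sub_eq_zero.mp h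
    · exact absurd h hϖ0
  have h4 := Capit.dlog_eq hz (κ s) rfl
  rw [h2, Capit.dlog_one hz] at h4
  exact h4.symm

/-- A Kummer character is additive on `G_K`. -/
theorem kum_mul (hz : IsPrimitiveRoot z p) (hϖ0 : ϖ ≠ 0)
    (hfixz : ∀ s ∈ K.fixingSubgroup, s z = z)
    (hκ : ∀ s ∈ K.fixingSubgroup, s ϖ = z ^ (κ s).val * ϖ) {s t : Gq}
    (hs : s ∈ K.fixingSubgroup) (ht : t ∈ K.fixingSubgroup) : κ (s * t) = κ s + κ t := by
  have : NeZero p := ⟨(Fact.out : p.Prime).ne_zero⟩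
  have h1 := hκ (s * t) (mul_mem hs ht)
  rw [AlgEquiv.mul_apply, hκ t ht, map_mul, map_pow, hfixz s hs, hκ s hs, ← mul_assoc] at h1
  have h2 : z ^ (κ t).val * z ^ (κ s).val = z ^ (κ (s * t)).val := mul_right_cancel₀ hϖ0 h1
  have hp1 : ∀ a : ZMod p, (z ^ a.val) ^ p = 1 := fun a => by
    rw [← pow_mul, mul_comm, pow_mul, hz.pow_eq_one, one_pow]
  have h3 := Capit.dlog_mul hz (hp1 (κ t)) (hp1 (κ s))
  rw [h2, Capit.dlog_eq hz _ rfl, Capit.dlog_eq hz _ rfl, Capit.dlog_eq hz _ rfl] at h3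
  rw [h3, add_comm]

end Kummer

/-! ### The `K`-side statement -/

/-- **CAP, `K`-side, relative to a Kummer character.**  `v₀` a place of `K` over `l₀ ∉ S`, `π ∈ K`
a uniformiser at `v₀` which is a unit at the other places above `l₀`, `κ` a Kummer character of
`π`.  There is a cochain `c` with: `c` of level `S ∪ {l₀}` on `G_K`; `d c` of level `S` on `G_K`;
`c - κ` of level `T'` on `G_K` for a finite set `T' ⊇ S` of primes NOT containing `l₀`. -/
theorem capK {p : ℕ} [Fact p.Prime] (S : Finset Nat.Primes) (hpS : ExtCitation.pPrime p ∈ S)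
    (K : IntermediateField ℚ Qb) (hK : K.IsUnramifiedOutside S) [NumberField K] (ζ : K)
    (hζ : IsPrimitiveRoot ζ p) (v₀ : HeightOneSpectrum (𝓞 K)) (l₀ : Nat.Primes)
    (hl₀ : ((l₀ : ℕ) : 𝓞 K) ∈ v₀.asIdeal) (hl₀S : l₀ ∉ S)
    (π : K) (hπ : v₀.valuation K π = WithZero.exp (-1 : ℤ))
    (hπ' : ∀ v : HeightOneSpectrum (𝓞 K), ((l₀ : ℕ) : 𝓞 K) ∈ v.asIdeal → v ≠ v₀ →
      v.valuation K π = 1)
    (ϖ : Qb) (hϖ : ϖ ^ p = (π : Qb)) (κ : Gq → ZMod p)
    (hκ : ∀ s ∈ K.fixingSubgroup, s ϖ = (ζ : Qb) ^ (κ s).val * ϖ) :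
    ∃ (c : Gq → ZMod p) (T' : Finset Nat.Primes), c 1 = 0 ∧ S ⊆ T' ∧ l₀ ∉ T' ∧
      (∃ F₁ : IntermediateField ℚ Qb, F₁.IsUnramifiedOutside (insert l₀ S) ∧
        ∀ g ∈ K.fixingSubgroup, ∀ s ∈ F₁.fixingSubgroup, c (g * s) = c g) ∧
      (∃ F : IntermediateField ℚ Qb, F.IsUnramifiedOutside S ∧
        ∀ g₁ ∈ K.fixingSubgroup, ∀ g₂ ∈ K.fixingSubgroup,
        ∀ s₁ ∈ F.fixingSubgroup, ∀ s₂ ∈ F.fixingSubgroup,
          c (g₁ * s₁) + c (g₂ * s₂) - c (g₁ * s₁ * (g₂ * s₂)) = c g₁ + c g₂ - c (g₁ * g₂)) ∧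
      (∃ F₂ : IntermediateField ℚ Qb, F₂.IsUnramifiedOutside T' ∧
        ∀ g ∈ K.fixingSubgroup, ∀ s ∈ F₂.fixingSubgroup,
          c (g * s) - κ (g * s) = c g - κ g) := by
  classical
  have hp : p.Prime := Fact.out
  have : NeZero p := ⟨hp.ne_zero⟩
  set z : Qb := (ζ : Qb) with hz
  have hzprim : IsPrimitiveRoot z p := hζ.map_of_injective (f := K.val) K.val.injective
  have hfixz : ∀ τ ∈ K.fixingSubgroup, τ z = z := fun τ hτ =>
    (IntermediateField.mem_fixingSubgroup_iff K τ).mp hτ z ζ.2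
  have hπ0 : π ≠ 0 := by
    rintro rfl
    rw [map_zero] at hπ
    exact WithZero.exp_ne_zero hπ.symm
  have hπ0' : (π : Qb) ≠ 0 := fun h => hπ0 (Subtype.ext h)
  have hϖ0 : ϖ ≠ 0 := by
    rintro rfl
    rw [zero_pow hp.ne_zero] at hϖ
    exact hπ0' hϖ.symm
  -- the prime below `v₀` is `l₀`
  have huniq : ∀ q : Nat.Primes, ((q : ℕ) : 𝓞 K) ∈ v₀.asIdeal → q = l₀ := by
    intro q hq
    by_contra hne
    have hcop : Nat.Coprime (q : ℕ) (l₀ : ℕ) :=
      (Nat.coprime_primes q.2 l₀.2).mpr (fun h => hne (Subtype.ext h))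
    have h1 : (1 : 𝓞 K) ∈ v₀.asIdeal := by
      obtain ⟨a, b, hab⟩ := Nat.isCoprime_iff_coprime.mpr hcop
      have h2 : (1 : 𝓞 K) = (a : 𝓞 K) * ((q : ℕ) : 𝓞 K) + (b : 𝓞 K) * ((l₀ : ℕ) : 𝓞 K) := by
        have := congrArg (fun z : ℤ => (z : 𝓞 K)) hab
        simp only [Int.cast_add, Int.cast_mul, Int.cast_natCast, Int.cast_one] at this
        exact this.symm
      rw [h2]
      exact v₀.asIdeal.add_mem (v₀.asIdeal.mul_mem_left _ hq) (v₀.asIdeal.mul_mem_left _ hl₀)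
    exact v₀.isPrime.ne_top ((Ideal.eq_top_iff_one _).mpr h1)
  obtain ⟨c, hc1, ⟨F₁, hF₁, hlev₁⟩, ⟨F, hF, hdc⟩, hloc⟩ :=
    CapitPlace.capit_place_level S (insert l₀ S) hpS (Finset.subset_insert _ _) K hK ζ hζ v₀
      (fun q hq => by rw [huniq q hq]; exact Finset.mem_insert_self _ _)
  obtain ⟨B, hB⟩ := exists_finset_valuation_eq_one (π : Qb) hπ0'
  have hq_ne : ∀ q : Nat.Primes, q ∉ S → Nat.Coprime (q : ℕ) p := by
    intro q hq
    rw [Nat.coprime_primes q.2 hp]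
    intro hqp
    apply hq
    have : q = ExtCitation.pPrime p := Subtype.ext hqp
    rw [this]
    exact hpS
  -- inertia kills `κ` where `π` is a unit
  have hκunit : ∀ q : Nat.Primes, q ∉ S → ∀ A : ValuationSubring Qb, A.LiesOverPrime (q : ℕ) →
      A.valuation (π : Qb) = 1 → ∀ s ∈ A.inertiaSubgroupIn ℚ, κ s = 0 := by
    intro q hq A hA hu s hs
    have hsK : s ∈ K.fixingSubgroup := hK.2 q hq A hA hs
    refine kum_eq_zero hzprim hϖ0 hκ hsK ?_
    refine Capit.inertia_fixes_root K ϖ π p hp.ne_zero hϖ A q (hq_ne q hq) hA 1 ?_ s hs hsK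
    have h1 : ((1 : K) : Qb) = 1 := rfl
    rw [h1, one_pow, mul_one]
    exact hu
  have hκ1 : κ 1 = 0 := kum_eq_zero hzprim hϖ0 hκ (one_mem _) (by simp)
  have hκmul : ∀ s ∈ K.fixingSubgroup, ∀ t ∈ K.fixingSubgroup, κ (s * t) = κ s + κ t :=
    fun s hs t ht => kum_mul hzprim hϖ0 hfixz hκ hs ht
  have hST' : S ⊆ (S ∪ B).erase l₀ := by
    intro q hq
    exact Finset.mem_erase.mpr ⟨fun h => hl₀S (h ▸ hq), Finset.mem_union_left _ hq⟩
  refine ⟨c, (S ∪ B).erase l₀, hc1, hST', Finset.notMem_erase _ _, ⟨F₁, hF₁, hlev₁⟩,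
    ⟨F, hF, hdc⟩, ?_⟩
  refine FactK.level_of_unramified ((S ∪ B).erase l₀) K (hK.mono hST') (fun s => c s - κ s)
    ?_ ?_ ?_
  · -- finite level
    have hint : IsIntegral ℚ ϖ := ((AlgebraicClosure.isAlgebraic ℚ).isAlgebraic ϖ).isIntegral
    haveI := hF₁.1
    haveI : FiniteDimensional ℚ ℚ⟮ϖ⟯ := IntermediateField.adjoin.finiteDimensional hint
    refine ⟨F₁ ⊔ ℚ⟮ϖ⟯, IntermediateField.finiteDimensional_sup _ _, fun g hg s hs hsK => ?_⟩
    rw [IntermediateField.fixingSubgroup_sup] at hs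
    have hsϖ : s ϖ = ϖ := (IntermediateField.mem_fixingSubgroup_iff _ s).mp hs.2 ϖ
      (IntermediateField.mem_adjoin_simple_self ℚ ϖ)
    show c (g * s) - κ (g * s) = c g - κ g
    rw [hlev₁ g hg s hs.1, hκmul g hg s hsK, kum_eq_zero hzprim hϖ0 hκ hsK hsϖ, add_zero]
  · -- the coboundary
    refine ⟨F, hF.mono hST', fun g₁ hg₁ g₂ hg₂ s₁ hs₁ s₂ hs₂ hs₁K hs₂K => ?_⟩
    show c (g₁ * s₁) - κ (g₁ * s₁) + (c (g₂ * s₂) - κ (g₂ * s₂))
        - (c (g₁ * s₁ * (g₂ * s₂)) - κ (g₁ * s₁ * (g₂ * s₂)))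
      = c g₁ - κ g₁ + (c g₂ - κ g₂) - (c (g₁ * g₂) - κ (g₁ * g₂))
    have e1 := hdc g₁ hg₁ g₂ hg₂ s₁ hs₁ s₂ hs₂
    have e2 : κ (g₁ * s₁ * (g₂ * s₂)) = κ (g₁ * s₁) + κ (g₂ * s₂) :=
      hκmul _ (mul_mem hg₁ hs₁K) _ (mul_mem hg₂ hs₂K)
    have e3 : κ (g₁ * g₂) = κ g₁ + κ g₂ := hκmul _ hg₁ _ hg₂
    rw [e2, e3]
    linear_combination e1
  · -- unramified outside `T'`
    intro q hq A hA s hs
    rw [Finset.mem_erase, not_and_or, not_not] at hq
    show c s - κ s = c 1 - κ 1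
    have hqS : q ∉ S := by
      rcases hq with h | h
      · rw [h]; exact hl₀S
      · exact fun hS => h (Finset.mem_union_left _ hS)
    have hsK : s ∈ K.fixingSubgroup := hK.2 q hqS A hA hs
    by_cases hAv : primeUnder K A = v₀.asIdeal
    · obtain ⟨t, ⟨F_A, h1, h2, h3⟩, ht⟩ := (hloc q hqS A hA).1 hAv π ϖ hπ hϖ κ hκ
      rw [ht s hsK, ht 1 (one_mem _)]
      have h4 := h3 1 s (h2 hs)
      rw [one_mul] at h4
      rw [h4]
      ring
    · obtain ⟨t, ⟨F_A, h1, h2, h3⟩, ht⟩ := (hloc q hqS A hA).2 hAv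
      have hu : A.valuation (π : Qb) = 1 := by
        rcases hq with h | h
        · have hA' : A.LiesOverPrime (l₀ : ℕ) := h ▸ hA
          have hv := hπ' (placeUnder K A l₀.2 hA')
            ((natCast_mem_primeUnder_iff K A l₀).mpr hA')
            (fun h' => hAv (by rw [← h']; rfl))
          exact (valuation_eq_one_iff (F := K) (A := A) (v := placeUnder K A l₀.2 hA') rfl π).mp hv
        · exact hB q (fun hB' => h (Finset.mem_union_right _ hB')) A hA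
      rw [ht s hsK, ht 1 (one_mem _), hκunit q hqS A hA hu s hs, hκ1]
      have h4 := h3 1 s (h2 hs)
      rw [one_mul] at h4
      rw [h4]

/-! ### The `ℚ`-side statement -/

open Fermat.Agent.S55.Abs Fermat.Agent.S55.Shapiro

/-- **CAP-Q.**  See the module docstring. -/
theorem capQ {p : ℕ} [Fact p.Prime] (S : Finset Nat.Primes) (hpS : ExtCitation.pPrime p ∈ S)
    (K : IntermediateField ℚ Qb) (hK : K.IsUnramifiedOutside S) [NumberField K] (ζ : K)
    (hζ : IsPrimitiveRoot ζ p) (v₀ : HeightOneSpectrum (𝓞 K)) (l₀ : Nat.Primes)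
    (hl₀ : ((l₀ : ℕ) : 𝓞 K) ∈ v₀.asIdeal) (hl₀S : l₀ ∉ S)
    (π : K) (hπ : v₀.valuation K π = WithZero.exp (-1 : ℤ))
    (hπ' : ∀ v : HeightOneSpectrum (𝓞 K), ((l₀ : ℕ) : 𝓞 K) ∈ v.asIdeal → v ≠ v₀ →
      v.valuation K π = 1)
    (ϖ : Qb) (hϖ : ϖ ^ p = (π : Qb))
    (κ : K.fixingSubgroup → Rep.trivial (ZMod p) K.fixingSubgroup (ZMod p))
    (hκ : ∀ s : K.fixingSubgroup, (s : Gq) ϖ = (ζ : Qb) ^ (ZMod.val (κ s : ZMod p)) * ϖ)
    (R : Retr K.fixingSubgroup) :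
    ∃ (c' : K.fixingSubgroup → Rep.trivial (ZMod p) K.fixingSubgroup (ZMod p))
      (T' : Finset Nat.Primes), S ⊆ T' ∧ l₀ ∉ T' ∧
      ind₁ (Rep.trivial (ZMod p) K.fixingSubgroup (ZMod p)) R c'
        ∈ C1 (globalLevel (insert l₀ S)) (M0 (ZMod p) K.fixingSubgroup) ∧
      (d₁₂ (M0 (ZMod p) K.fixingSubgroup)).hom
          (ind₁ (Rep.trivial (ZMod p) K.fixingSubgroup (ZMod p)) R c')
        ∈ C2 (globalLevel S) (M0 (ZMod p) K.fixingSubgroup) ∧
      ind₁ (Rep.trivial (ZMod p) K.fixingSubgroup (ZMod p)) R c'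
          - ind₁ (Rep.trivial (ZMod p) K.fixingSubgroup (ZMod p)) R κ
        ∈ C1 (globalLevel T') (M0 (ZMod p) K.fixingSubgroup) ∧
      (d₁₂ (M0 (ZMod p) K.fixingSubgroup)).hom
          (ind₁ (Rep.trivial (ZMod p) K.fixingSubgroup (ZMod p)) R κ) = 0 := by
  classical
  have hp : p.Prime := Fact.out
  have : NeZero p := ⟨hp.ne_zero⟩
  -- extend `κ` to `Gq`
  let κ' : Gq → ZMod p := fun g => if h : g ∈ K.fixingSubgroup then (κ ⟨g, h⟩ : ZMod p) else 0
  have hκ'eq : ∀ s : K.fixingSubgroup, κ' (s : Gq) = (κ s : ZMod p) := by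
    intro s
    simp only [κ', dif_pos s.2]
  have hκ' : ∀ s ∈ K.fixingSubgroup, s ϖ = (ζ : Qb) ^ (κ' s).val * ϖ := by
    intro s hs
    have := hκ ⟨s, hs⟩
    rw [← hκ'eq ⟨s, hs⟩] at this
    exact this
  obtain ⟨c, T', hc1, hST', hl₀T', ⟨F₁, hF₁, hlev₁⟩, ⟨F, hF, hdc⟩, ⟨F₂, hF₂, hlev₂⟩⟩ :=
    capK S hpS K hK ζ hζ v₀ l₀ hl₀ hl₀S π hπ hπ' ϖ hϖ κ' hκ'
  -- `κ` is additive
  have hzprim : IsPrimitiveRoot ((ζ : K) : Qb) p :=
    hζ.map_of_injective (f := K.val) K.val.injective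
  have hfixz : ∀ τ ∈ K.fixingSubgroup, τ ((ζ : K) : Qb) = ζ := fun τ hτ =>
    (IntermediateField.mem_fixingSubgroup_iff K τ).mp hτ _ ζ.2
  have hπ0 : π ≠ 0 := by
    rintro rfl
    rw [map_zero] at hπ
    exact WithZero.exp_ne_zero hπ.symm
  have hϖ0 : ϖ ≠ 0 := by
    rintro rfl
    rw [zero_pow hp.ne_zero] at hϖ
    exact hπ0 (Subtype.ext hϖ.symm)
  have hκmul : ∀ s t : K.fixingSubgroup, (κ (s * t) : ZMod p) = κ s + κ t := by
    intro s t
    have h := kum_mul hzprim hϖ0 hfixz hκ' s.2 t.2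
    rw [← hκ'eq s, ← hκ'eq t, ← h]
    exact (hκ'eq (s * t)).symm
  refine ⟨fun u => c (u : Gq), T', hST', hl₀T', ?_, ?_, ?_, ?_⟩
  · -- (A)
    have hU : ∃ W ∈ (globalLevel (insert l₀ S)).sets, W ≤ K.fixingSubgroup :=
      ⟨K.fixingSubgroup, ⟨K, hK.mono (Finset.subset_insert _ _), rfl⟩, le_rfl⟩
    refine isLev₁_ind₁ R hU ?_
    rw [isLev₁_subLevel_iff]
    exact ⟨F₁.fixingSubgroup, ⟨F₁, hF₁, rfl⟩, fun g s hs => hlev₁ g g.2 s hs⟩
  · -- (a)
    rw [← ind₂_d₁₂]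
    have hU : ∃ W ∈ (globalLevel S).sets, W ≤ K.fixingSubgroup :=
      ⟨K.fixingSubgroup, ⟨K, hK, rfl⟩, le_rfl⟩
    refine isLev₂_ind₂ R hU ?_
    rw [isLev₂_subLevel_iff]
    refine ⟨F.fixingSubgroup, ⟨F, hF, rfl⟩, fun g g' s s' hs hs' => ?_⟩
    have h := hdc g g.2 g' g'.2 s hs s' hs'
    show c ((g' * s' : K.fixingSubgroup) : Gq) - c (((g * s) * (g' * s') : K.fixingSubgroup) : Gq)
        + c ((g * s : K.fixingSubgroup) : Gq)
      = c (g' : Gq) - c ((g * g' : K.fixingSubgroup) : Gq) + c (g : Gq)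
    push_cast
    linear_combination h
  · -- (B)
    rw [← map_sub]
    have hU : ∃ W ∈ (globalLevel T').sets, W ≤ K.fixingSubgroup :=
      ⟨K.fixingSubgroup, ⟨K, hK.mono hST', rfl⟩, le_rfl⟩
    refine isLev₁_ind₁ R hU ?_
    rw [isLev₁_subLevel_iff]
    refine ⟨F₂.fixingSubgroup, ⟨F₂, hF₂, rfl⟩, fun g s hs => ?_⟩
    have h := hlev₂ g g.2 s hs
    show c ((g * s : K.fixingSubgroup) : Gq) - (κ (g * s) : ZMod p) = c (g : Gq) - (κ g : ZMod p)
    rw [← hκ'eq (g * s), ← hκ'eq g]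
    exact h
  · -- `κ` is a cocycle
    rw [← ind₂_d₁₂]
    have h0 : (d₁₂ (Rep.trivial (ZMod p) K.fixingSubgroup (ZMod p))).hom κ = 0 := by
      funext g
      show (κ g.2 : ZMod p) - κ (g.1 * g.2) + κ g.1 = 0
      rw [hκmul]
      ring
    rw [h0, map_zero]

end Fermat.Agent.S55.Base.CapitQ
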