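import Fermat.Agent.S55.Base.CapitQ
import Fermat.Agent.Lib.WeakApprox

/-!
# S55, BASE: complements to CAP-Q

* `exists_uniformizer` : for a place `v₀` of `K` and a prime number `l₀`, there is `π ∈ Kˣ` which
  is a uniformiser at `v₀` and a unit at the other places of `K` above `l₀` (weak approximation);
  this is the `π` of `CapitQ.capQ`.
* `kumK_level`, `kdQ` : the Kummer character of `γ ∈ Kˣ` has level `T'` for every finite set
  `T' ⊇ S` of primes outside of which `γ` is a unit; in particular (`exists_finset_unit_outside`)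
  if `γ` is a unit at the places above `l ∉ S`, then `ind₁ A R κ_γ` has a level `T' ∌ l`, so its
  restriction at `l` is an unramified cochain.
-/

set_option autoImplicit false

open scoped NumberField IntermediateField
open IsDedekindDomain groupCohomology

namespace Fermat.Agent.S55.Base.CapitQ

local notation "Qb" => AlgebraicClosure ℚ
local notation "Gq" => (AlgebraicClosure ℚ ≃ₐ[ℚ] AlgebraicClosure ℚ)

open Fermat.Agent.S14.Wiring.ValRing

/-- **Uniformiser at `v₀`, unit at the other places above `l₀`.** -/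
theorem exists_uniformizer (K : IntermediateField ℚ Qb) [NumberField K]
    (v₀ : HeightOneSpectrum (𝓞 K)) (l₀ : ℕ) (hl₀ : l₀ ≠ 0) :
    ∃ π : K, π ≠ 0 ∧ v₀.valuation K π = WithZero.exp (-1 : ℤ) ∧
      ∀ v : HeightOneSpectrum (𝓞 K), ((l₀ : ℕ) : 𝓞 K) ∈ v.asIdeal → v ≠ v₀ →
        v.valuation K π = 1 := by
  classical
  have hI : Ideal.span {((l₀ : ℕ) : 𝓞 K)} ≠ 0 := by
    rw [Ne, Ideal.zero_eq_bot, Ideal.span_singleton_eq_bot]
    exact_mod_cast hl₀
  have hfin := Ideal.finite_factors hI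
  obtain ⟨π₀, hπ₀⟩ := v₀.valuation_exists_uniformizer K
  have hπ₀0 : π₀ ≠ 0 := by
    rintro rfl
    rw [map_zero] at hπ₀
    exact WithZero.exp_ne_zero hπ₀.symm
  obtain ⟨y, hy0, hy⟩ := Fermat.Agent.Lib.WeakApprox.exists_forall_valuation_div_sub_one_le
    (K := K) (insert v₀ hfin.toFinset) (fun v => if v = v₀ then π₀ else 1) (fun v _ => by
      by_cases h : v = v₀
      · rw [if_pos h]; exact hπ₀0
      · rw [if_neg h]; exact one_ne_zero) (fun _ => 1)
  refine ⟨y, hy0, ?_, fun v hv hne => ?_⟩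
  · have h := (hy v₀ (Finset.mem_insert_self _ _)).2
    rw [h, if_pos rfl, hπ₀]
  · have hmem : v ∈ insert v₀ hfin.toFinset := Finset.mem_insert_of_mem (by
      rw [Set.Finite.mem_toFinset, Set.mem_setOf_eq, Ideal.dvd_span_singleton]
      exact hv)
    have h := (hy v hmem).2
    rw [h, if_neg hne, map_one]

/-- If `γ` is a unit at the places of `K` above `l ∉ S`, there is a finite set `T' ⊇ S` of primes,
`l ∉ T'`, outside of which `γ` is a unit. -/
theorem exists_finset_unit_outside (S : Finset Nat.Primes) (K : IntermediateField ℚ Qb)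
    [NumberField K] (γ : K) (hγ : γ ≠ 0) (l : Nat.Primes) (hlS : l ∉ S)
    (hunit : ∀ v : HeightOneSpectrum (𝓞 K), ((l : ℕ) : 𝓞 K) ∈ v.asIdeal → v.valuation K γ = 1) :
    ∃ T' : Finset Nat.Primes, S ⊆ T' ∧ l ∉ T' ∧
      ∀ q : Nat.Primes, q ∉ T' → ∀ A : ValuationSubring Qb, A.LiesOverPrime (q : ℕ) →
        A.valuation (γ : Qb) = 1 := by
  classical
  obtain ⟨B, hB⟩ := exists_finset_valuation_eq_one (γ : Qb) (fun h => hγ (Subtype.ext h))
  refine ⟨(S ∪ B).erase l, fun q hq => Finset.mem_erase.mpr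
    ⟨fun h => hlS (h ▸ hq), Finset.mem_union_left _ hq⟩, Finset.notMem_erase _ _,
    fun q hq A hA => ?_⟩
  rw [Finset.mem_erase, not_and_or, not_not] at hq
  rcases hq with h | h
  · have hA' : A.LiesOverPrime (l : ℕ) := h ▸ hA
    have hv := hunit (placeUnder K A l.2 hA') ((natCast_mem_primeUnder_iff K A l).mpr hA')
    exact (valuation_eq_one_iff (F := K) (A := A) (v := placeUnder K A l.2 hA') rfl γ).mp hv
  · exact hB q (fun hB' => h (Finset.mem_union_right _ hB')) A hA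

/-- **KD, `K`-side.**  The Kummer character of `γ ∈ Kˣ` has level `T'` on `G_K`, for every finite
set `T' ⊇ S` of primes outside of which `γ` is a unit. -/
theorem kumK_level {p : ℕ} [Fact p.Prime] (S : Finset Nat.Primes)
    (hpS : ExtCitation.pPrime p ∈ S)
    (K : IntermediateField ℚ Qb) (hK : K.IsUnramifiedOutside S) (ζ : K)
    (hζ : IsPrimitiveRoot ζ p) (γ : K) (hγ : γ ≠ 0) (ϖ : Qb) (hϖ : ϖ ^ p = (γ : Qb))
    (κ : Gq → ZMod p) (hκ : ∀ s ∈ K.fixingSubgroup, s ϖ = (ζ : Qb) ^ (κ s).val * ϖ)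
    (T' : Finset Nat.Primes) (hST' : S ⊆ T')
    (hT' : ∀ q : Nat.Primes, q ∉ T' → ∀ A : ValuationSubring Qb, A.LiesOverPrime (q : ℕ) →
      A.valuation (γ : Qb) = 1) :
    ∃ F₂ : IntermediateField ℚ Qb, F₂.IsUnramifiedOutside T' ∧
      ∀ g ∈ K.fixingSubgroup, ∀ s ∈ F₂.fixingSubgroup, κ (g * s) = κ g := by
  classical
  have hp : p.Prime := Fact.out
  have : NeZero p := ⟨hp.ne_zero⟩
  have hzprim : IsPrimitiveRoot ((ζ : K) : Qb) p :=
    hζ.map_of_injective (f := K.val) K.val.injective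
  have hfixz : ∀ τ ∈ K.fixingSubgroup, τ ((ζ : K) : Qb) = ζ := fun τ hτ =>
    (IntermediateField.mem_fixingSubgroup_iff K τ).mp hτ _ ζ.2
  have hϖ0 : ϖ ≠ 0 := by
    rintro rfl
    rw [zero_pow hp.ne_zero] at hϖ
    exact hγ (Subtype.ext hϖ.symm)
  have hκ1 : κ 1 = 0 := kum_eq_zero hzprim hϖ0 hκ (one_mem _) (by simp)
  have hκmul : ∀ s ∈ K.fixingSubgroup, ∀ t ∈ K.fixingSubgroup, κ (s * t) = κ s + κ t :=
    fun s hs t ht => kum_mul hzprim hϖ0 hfixz hκ hs ht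
  haveI := hK.1
  refine FactK.level_of_unramified T' K (hK.mono hST') κ ?_ ?_ ?_
  · have hint : IsIntegral ℚ ϖ := ((AlgebraicClosure.isAlgebraic ℚ).isAlgebraic ϖ).isIntegral
    haveI : FiniteDimensional ℚ ℚ⟮ϖ⟯ := IntermediateField.adjoin.finiteDimensional hint
    refine ⟨ℚ⟮ϖ⟯, inferInstance, fun g hg s hs hsK => ?_⟩
    have hsϖ : s ϖ = ϖ := (IntermediateField.mem_fixingSubgroup_iff _ s).mp hs ϖ
      (IntermediateField.mem_adjoin_simple_self ℚ ϖ)
    rw [hκmul g hg s hsK, kum_eq_zero hzprim hϖ0 hκ hsK hsϖ, add_zero]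
  · refine ⟨K, hK.mono hST', fun g₁ hg₁ g₂ hg₂ s₁ hs₁ s₂ hs₂ hs₁K hs₂K => ?_⟩
    rw [hκmul _ (mul_mem hg₁ hs₁K) _ (mul_mem hg₂ hs₂K), hκmul _ hg₁ _ hg₂]
    ring
  · intro q hq A hA s hs
    have hqS : q ∉ S := fun h => hq (hST' h)
    have hsK : s ∈ K.fixingSubgroup := hK.2 q hqS A hA hs
    have hcop : Nat.Coprime (q : ℕ) p := by
      rw [Nat.coprime_primes q.2 hp]
      intro hqp
      apply hqS
      have : q = ExtCitation.pPrime p := Subtype.ext hqp
      rw [this]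
      exact hpS
    rw [hκ1]
    refine kum_eq_zero hzprim hϖ0 hκ hsK ?_
    refine Capit.inertia_fixes_root K ϖ γ p hp.ne_zero hϖ A q hcop hA 1 ?_ s hs hsK
    have h1 : ((1 : K) : Qb) = 1 := rfl
    rw [h1, one_pow, mul_one]
    exact hT' q hq A hA

open Fermat.Agent.S55.Abs Fermat.Agent.S55.Shapiro

/-- **KD-Q.**  The `ℚ`-side Kummer cocycle `ind₁ A R κ_γ` of `γ ∈ Kˣ` is a level-`T'` cocycle of
`N = M0 (ZMod p) G_K`, for every finite set `T' ⊇ S` of primes outside of which `γ` is a unit. -/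
theorem kdQ {p : ℕ} [Fact p.Prime] (S : Finset Nat.Primes) (hpS : ExtCitation.pPrime p ∈ S)
    (K : IntermediateField ℚ Qb) (hK : K.IsUnramifiedOutside S) (ζ : K)
    (hζ : IsPrimitiveRoot ζ p) (γ : K) (hγ : γ ≠ 0) (ϖ : Qb) (hϖ : ϖ ^ p = (γ : Qb))
    (κ : K.fixingSubgroup → Rep.trivial (ZMod p) K.fixingSubgroup (ZMod p))
    (hκ : ∀ s : K.fixingSubgroup, (s : Gq) ϖ = (ζ : Qb) ^ (ZMod.val (κ s : ZMod p)) * ϖ)
    (R : Retr K.fixingSubgroup) (T' : Finset Nat.Primes) (hST' : S ⊆ T')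
    (hT' : ∀ q : Nat.Primes, q ∉ T' → ∀ A : ValuationSubring Qb, A.LiesOverPrime (q : ℕ) →
      A.valuation (γ : Qb) = 1) :
    ind₁ (Rep.trivial (ZMod p) K.fixingSubgroup (ZMod p)) R κ
      ∈ Z1 (globalLevel T') (M0 (ZMod p) K.fixingSubgroup) := by
  classical
  have hp : p.Prime := Fact.out
  have : NeZero p := ⟨hp.ne_zero⟩
  let κ' : Gq → ZMod p := fun g => if h : g ∈ K.fixingSubgroup then (κ ⟨g, h⟩ : ZMod p) else 0
  have hκ'eq : ∀ s : K.fixingSubgroup, κ' (s : Gq) = (κ s : ZMod p) := by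
    intro s
    simp only [κ', dif_pos s.2]
  have hκ' : ∀ s ∈ K.fixingSubgroup, s ϖ = (ζ : Qb) ^ (κ' s).val * ϖ := by
    intro s hs
    have := hκ ⟨s, hs⟩
    rw [← hκ'eq ⟨s, hs⟩] at this
    exact this
  obtain ⟨F₂, hF₂, hlev⟩ := kumK_level S hpS K hK ζ hζ γ hγ ϖ hϖ κ' hκ' T' hST' hT'
  have hzprim : IsPrimitiveRoot ((ζ : K) : Qb) p :=
    hζ.map_of_injective (f := K.val) K.val.injective
  have hfixz : ∀ τ ∈ K.fixingSubgroup, τ ((ζ : K) : Qb) = ζ := fun τ hτ =>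
    (IntermediateField.mem_fixingSubgroup_iff K τ).mp hτ _ ζ.2
  have hϖ0 : ϖ ≠ 0 := by
    rintro rfl
    rw [zero_pow hp.ne_zero] at hϖ
    exact hγ (Subtype.ext hϖ.symm)
  have hκmul : ∀ s t : K.fixingSubgroup, (κ (s * t) : ZMod p) = κ s + κ t := by
    intro s t
    have h := kum_mul hzprim hϖ0 hfixz hκ' s.2 t.2
    rw [← hκ'eq s, ← hκ'eq t, ← h]
    exact (hκ'eq (s * t)).symm
  have hU : ∃ W ∈ (globalLevel T').sets, W ≤ K.fixingSubgroup :=
    ⟨K.fixingSubgroup, ⟨K, hK.mono hST', rfl⟩, le_rfl⟩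
  refine ind₁_mem_Z1 R hU ⟨?_, ?_⟩
  · show IsLev₁ (subLevel (globalLevel T') K.fixingSubgroup) κ
    rw [isLev₁_subLevel_iff]
    refine ⟨F₂.fixingSubgroup, ⟨F₂, hF₂, rfl⟩, fun g s hs => ?_⟩
    have h := hlev g g.2 s hs
    show (κ (g * s) : ZMod p) = κ g
    rw [← hκ'eq (g * s), ← hκ'eq g]
    exact h
  · show (d₁₂ (Rep.trivial (ZMod p) K.fixingSubgroup (ZMod p))).hom κ = 0
    funext g
    show (κ g.2 : ZMod p) - κ (g.1 * g.2) + κ g.1 = 0
    rw [hκmul]
    ring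

end Fermat.Agent.S55.Base.CapitQ
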