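/-
S55 / PROGRAM CFT, base case, cone route (helper186): the producers of the cochain-level inputs
of `Base/ConeKer.lean`, and the three kernel statements `h4`, `hA'`, `hI6` of
`AsmCone.base_of_arith` / `ConeCnt.base_of_counts` for `M0(K)`.

Generic (`D : Eval.Datum k G C`):
* `capGen_of_equiv` : `ConeKer.CapGen D N` transports along an equivariant linear equivalence
  `N ≃ N'` (used for `M0(K) ≃ M0(K)^∨(1)`).

Concrete (`I : EvalQ.ArithInput p S`, `M` finite-dimensional and discrete of level `S`):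
* `locRight`, `locLeft`, `loc2` : the three local inputs of `ConeKer` from the base case of the
  local devissage `LDQ.BaseAt I w` at every prime `w` (`Base/LDQ.lean`);
* `g4_M0`, `g4_M0_dual` : the local-global principle in the `ConeKer.G4` shape (`G4Asm`);
* `capGen_of_asm` : `Asm.CapGen S N` is `ConeKer.CapGen I.datum N`;
* `capGen_M0_dual` : `CapGen` for `M0(K)^∨(1)` from `CapGen` for `M0(K)`;
* `h4_M0`, `hA'_M0`, `hI6_M0` : the three kernel hypotheses of `ConeCnt.base_of_counts`, from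
  `∀ w, LDQ.BaseAt I w` and `Asm.CapGen S (M0 K)`;
* `base_M0` : the three base-case statements for `M0(K)` from these and the counts `(c4)`,
  `(c4')`;
* `baseGoal` : `Wire.BaseGoal p S hpS I.lamS` for an input `I` extending a reciprocity family.
-/
import Fermat.Agent.S55.Base.ConeKer
import Fermat.Agent.S55.Base.ConeCnt
import Fermat.Agent.S55.Base.LDQInst
import Fermat.Agent.CFT.Global.G4Asm
import Fermat.Agent.S55.Wire.Layer2

set_option autoImplicit false

open CategoryTheory groupCohomology ExtCitation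
open scoped NumberField

namespace Fermat.Agent.S55.Base.ConeInputs

open Fermat.Agent.S55.Abs Fermat.Agent.S55.Base.ConeKer

/-! ## Transport of `CapGen` along an equivariant equivalence -/

section Transport

variable {k G : Type} [Field k] [Group G] {C : Rep.{0} k G} (D : Eval.Datum k G C)
  {N N' : Rep.{0} k G} (E : N ≃ₗ[k] N') (hE : ∀ (g : G) (x : N), E (N.ρ g x) = N'.ρ g (E x))

include hE

theorem symm_equivariant (g : G) (y : N') : E.symm (N'.ρ g y) = N.ρ g (E.symm y) := by
  apply E.injective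
  rw [hE, E.apply_symm_apply, E.apply_symm_apply]

/-- `d₁₂` commutes with an equivariant linear map. -/
theorem d₁₂_comp_equiv {H : Type} [Group H] (r : H →* G) (c : H → N) :
    (d₁₂ (Rep.res r N')).hom (fun h => E (c h))
      = fun q => E ((d₁₂ (Rep.res r N)).hom c q) := by
  funext ⟨g, h⟩
  simp only [d₁₂_hom_apply, map_add, map_sub]
  have := hE (r g) (c h)
  exact congrArg (fun t => t - E (c (g * h)) + E (c g)) this.symm

/-- `d₀₁` commutes with an equivariant linear map. -/
theorem d₀₁_comp_equiv {H : Type} [Group H] (r : H →* G) (m : N) :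
    (d₀₁ (Rep.res r N')).hom (E m) = fun h => E ((d₀₁ (Rep.res r N)).hom m h) := by
  funext h
  simp only [d₀₁_hom_apply, map_sub]
  have := hE (r h) m
  exact congrArg (fun t => t - E m) this.symm

/-- **Transport of `CapGen`** along an equivariant linear equivalence. -/
theorem capGen_of_equiv (h : CapGen D N) : CapGen D N' := by
  intro l hl ξ' hξ'
  have hEs := symm_equivariant E hE
  -- the cocycle `E⁻¹ ∘ ξ'`
  have hξ : (fun g => E.symm (ξ' g)) ∈ Z1 (D.𝒰v l) (Rep.res (D.loc l) N) := by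
    refine ⟨hξ'.1.comp E.symm, ?_⟩
    have h2 : (d₁₂ (Rep.res (D.loc l) N')).hom ξ' = 0 := hξ'.2
    show (d₁₂ (Rep.res (D.loc l) N)).hom (fun g => E.symm (ξ' g)) = 0
    rw [d₁₂_comp_equiv (N := N') (N' := N) E.symm hEs (D.loc l) ξ', h2]
    funext q
    exact map_zero E.symm
  obtain ⟨T, c, hST, hc, hdc, ⟨u, hu, m, hres⟩, hoth⟩ := h l hl _ hξ
  refine ⟨T, fun g => E (c g), hST, hc.comp E, ?_, ⟨fun g => E (u g), hu.comp E, E m, ?_⟩, ?_⟩
  · have e := d₁₂_comp_equiv E hE (MonoidHom.id G) c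
    have e' : (d₁₂ N').hom (fun g => E (c g)) = fun q => E ((d₁₂ N).hom c q) := e
    rw [e']
    exact hdc.comp E
  · rw [d₀₁_comp_equiv E hE (D.loc l) m]
    funext g
    have h1 := congrFun hres g
    simp only [res₁_apply, Pi.add_apply] at h1 ⊢
    rw [h1, map_add, map_add, E.apply_symm_apply]
  · intro w hwT hwS hwl
    obtain ⟨u', hu', m', hres'⟩ := hoth w hwT hwS hwl
    refine ⟨fun g => E (u' g), hu'.comp E, E m', ?_⟩
    rw [d₀₁_comp_equiv E hE (D.loc w) m']
    funext g
    have h1 := congrFun hres' g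
    simp only [res₁_apply, Pi.add_apply] at h1 ⊢
    rw [h1, map_add]

end Transport

/-! ## The concrete inputs -/

section Concrete

open Fermat.Agent.S55.Abs.TopGlue Fermat.Agent.S55.Base.EvalQ

variable {p : ℕ} [Fact p.Prime] {S : Finset Nat.Primes} (I : ArithInput p S)

/-! ### Local duality (LD-Q) -/

section LD

variable (hb : ∀ w : Nat.Primes, LDQ.BaseAt I w) (M : Rep.{0} (ZMod p) GQ)
  [FiniteDimensional (ZMod p) M] (hM : IsDisc (globalLevel S) M)

include hb hM

/-- **[LocRight]** at every prime, from the base case of the local devissage. -/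
theorem locRight : LocRight I.datum (evPairing (cycloChar p) M) :=
  fun w _ hη h => LDQ.locRight (hb w) M (LDQ.disc_res hM w) hη h

/-- **[LocLeft]** at every prime, from the base case of the local devissage. -/
theorem locLeft : LocLeft I.datum (evPairing (cycloChar p) M) :=
  fun w _ _ hξ h => LDQ.locLeft (hb w) M (LDQ.disc_res hM w) hξ h

omit hb hM [FiniteDimensional (ZMod p) M] in
/-- For an invariant `m`, `z ∪ m` (flipped pairing) is `m ∪ z`. -/
theorem cup20_flip_eq_cup02 (w : Nat.Primes)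
    (z : primeLocalGaloisGroup w × primeLocalGaloisGroup w → M.dualTwist (cycloChar p)) (m : M)
    (hm : ∀ g : primeLocalGaloisGroup w, M.ρ (primeLocalToGlobal w g) m = m) :
    cup20 ((evPairing (cycloChar p) M).res (primeLocalToGlobal w)).flip z m
      = cup02 ((evPairing (cycloChar p) M).res (primeLocalToGlobal w)) m z := by
  funext q
  rw [cup20_apply, cup02_apply]
  have h1 : (Rep.res (primeLocalToGlobal w) M).ρ (q.1 * q.2) m = m := hm (q.1 * q.2)
  rw [h1]
  rfl

/-- (L-b) for `M'` at the prime `w`, in the `cup02` form. -/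
theorem mem_B2_of_cup02 (w : Nat.Primes)
    {z : primeLocalGaloisGroup w × primeLocalGaloisGroup w → M.dualTwist (cycloChar p)}
    (hz : z ∈ Z2 (localLevel (primeLocalToGlobal w))
      (Rep.res (primeLocalToGlobal w) (M.dualTwist (cycloChar p))))
    (h : ∀ s : M, (d₀₁ (Rep.res (primeLocalToGlobal w) M)).hom s = 0 →
      I.inv w (cup02 ((evPairing (cycloChar p) M).res (primeLocalToGlobal w)) s z) = 0) :
    z ∈ B2 (localLevel (primeLocalToGlobal w))
      (Rep.res (primeLocalToGlobal w) (M.dualTwist (cycloChar p))) := by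
  refine LDQ.mem_B2_dual (hb w) M (LDQ.disc_res hM w) hz (fun m hm => ?_)
  have hm' : ∀ g : primeLocalGaloisGroup w, M.ρ (primeLocalToGlobal w g) m = m := fun g => hm g
  have h0 : (d₀₁ (Rep.res (primeLocalToGlobal w) M)).hom m = 0 := by
    funext g
    rw [d₀₁_hom_apply]
    have h1 : (Rep.res (primeLocalToGlobal w) M).ρ g m = m := hm' g
    rw [h1, sub_self]
    rfl
  rw [cup20_flip_eq_cup02 M w z m hm']
  exact h m h0

/-- **[Loc2]** at the primes of `S`, from the base case of the local devissage. -/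
theorem loc2 : Loc2 I.datum (evPairing (cycloChar p) M) :=
  fun v _ hz h => mem_B2_of_cup02 I hb M hM v.1 hz h

end LD

/-! ### The local-global principle and `CapGen` -/

/-- `Asm.G4 S N` is `ConeKer.G4 I.datum N`. -/
theorem g4_of_asm {N : Rep.{0} (ZMod p) GQ} (h : Asm.G4 S N) : G4 I.datum N := h

/-- `Asm.CapGen S N` is `ConeKer.CapGen I.datum N`. -/
theorem capGen_of_asm {N : Rep.{0} (ZMod p) GQ} (h : Asm.CapGen S N) : CapGen I.datum N := h

/-- `ConeKer.CapGen I.datum N` is `Asm.CapGen S N`. -/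
theorem asm_of_capGen {N : Rep.{0} (ZMod p) GQ} (h : CapGen I.datum N) : Asm.CapGen S N := h

variable (K : IntermediateField ℚ (AlgebraicClosure ℚ))

/-- **[G4]** for `M0(K)`. -/
theorem g4_M0 [FiniteDimensional ℚ K] (hc : Glue.cycloField p ≤ K) :
    G4 I.datum (M0 (ZMod p) K.fixingSubgroup) :=
  CFT.Global.G4Asm.g4_M0 S K hc

/-- **[G4]** for `M0(K)^∨(1)`. -/
theorem g4_M0_dual [FiniteDimensional ℚ K] (hc : Glue.cycloField p ≤ K) :
    G4 I.datum ((M0 (ZMod p) K.fixingSubgroup).dualTwist (cycloChar p)) :=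
  CFT.Global.G4Asm.g4_M0_dualTwist S K hc

/-- **[CapGen]** for `M0(K)^∨(1)` from `[CapGen]` for `M0(K)`, by transport along the
self-duality `M0(K) ≃ M0(K)^∨(1)` (`μ_p ⊆ K`). -/
theorem capGen_M0_dual [FiniteDimensional ℚ K] (hc : Glue.cycloField p ≤ K)
    (h : CapGen I.datum (M0 (ZMod p) K.fixingSubgroup)) :
    CapGen I.datum ((M0 (ZMod p) K.fixingSubgroup).dualTwist (cycloChar p)) := by
  obtain ⟨ζ, hζ⟩ := CFT.Global.G4Asm.exists_primitiveRoot (p := p) K hc
  have := CFT.Global.G4Q.finiteIndex_fixingSubgroup K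
  have hχ := CFT.Global.G4Q.cycloChar_eq_one_of_mem (p := p) K ζ hζ
  exact capGen_of_equiv I.datum
    (LinearEquiv.ofBijective (Glue.CoindDual.toDualLin (U := K.fixingSubgroup) (cycloChar p) hχ)
      (Glue.CoindDual.toDualLin_bijective _ hχ))
    (fun g x => Glue.CoindDual.toDualLin_ρ (U := K.fixingSubgroup) (cycloChar p) hχ g x) h

/-! ### The three kernel statements for `M0(K)` -/

section Kernels

variable (hpS : pPrime p ∈ S) (hb : ∀ w : Nat.Primes, LDQ.BaseAt I w)
  (hK : K.IsUnramifiedOutside S) (hc : Glue.cycloField p ≤ K)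
  (hCap : Asm.CapGen S (M0 (ZMod p) K.fixingSubgroup))
  (hM : IsDisc (globalLevel S) (M0 (ZMod p) K.fixingSubgroup))

include hb hK hc hCap

/-- **(h4)** for `M0(K)`, in the literal shape of `ConeCnt.base_of_counts`. -/
theorem h4_M0 (y : H1 (ctxS p S hpS I.lamS).𝒰
      ((ctxS p S hpS I.lamS).dual (M0 (ZMod p) K.fixingSubgroup)))
    (h : ∀ x, (ctxS p S hpS I.lamS).P2 hM x y = 0) : y = 0 := by
  have := hK.1
  have := ConeCnt.finiteDimensional_M0 (p := p) K
  exact ConeKer.h4 I hpS hM (locRight I hb _ hM) hCap (g4_M0_dual I K hc) y h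

/-- **(hA')** for `M0(K)`, in the literal shape of `ConeCnt.base_of_counts`. -/
theorem hA'_M0 (x : Hc1 (ctxS p S hpS I.lamS).𝒰 (ctxS p S hpS I.lamS).loc
      (M0 (ZMod p) K.fixingSubgroup))
    (h : ∀ α : H2 (ctxS p S hpS I.lamS).𝒰
        ((ctxS p S hpS I.lamS).dual (M0 (ZMod p) K.fixingSubgroup)),
      TopGlue.loc2 (ctxS p S hpS I.lamS)
          ((ctxS p S hpS I.lamS).dual (M0 (ZMod p) K.fixingSubgroup)) α = 0 →
        (ctxS p S hpS I.lamS).P1 hM x α = 0) :
    fgt1 (ctxS p S hpS I.lamS).𝒰 (ctxS p S hpS I.lamS).loc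
      (M0 (ZMod p) K.fixingSubgroup) x = 0 := by
  have := hK.1
  have := ConeCnt.finiteDimensional_M0 (p := p) K
  exact ConeKer.hA' I hpS hM (locLeft I hb _ hM) (capGen_M0_dual I K hc hCap)
    (g4_M0 I K hc) x h

omit hK hc hCap in
/-- **(hI6)** for `M0(K)`, in the literal shape of `ConeCnt.base_of_counts`. -/
theorem hI6_M0 [FiniteDimensional ℚ K] (α : H2 (ctxS p S hpS I.lamS).𝒰
      ((ctxS p S hpS I.lamS).dual (M0 (ZMod p) K.fixingSubgroup)))
    (h : ∀ x, (ctxS p S hpS I.lamS).P1 hM x α = 0) :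
    TopGlue.loc2 (ctxS p S hpS I.lamS)
      ((ctxS p S hpS I.lamS).dual (M0 (ZMod p) K.fixingSubgroup)) α = 0 := by
  have := ConeCnt.finiteDimensional_M0 (p := p) K
  exact ConeKer.hI6 I hpS hM (loc2 I hb _ hM) α h

/-- **The base case for `M0(K)`** from local duality, `[CapGen]` and the two counts `(c4)`,
`(c4')` (`ConeCnt.base_of_counts` with `h4`, `hA'`, `hI6` discharged). -/
theorem base_M0 [NumberField K] (hp2 : p ≠ 2)
    (hc4 : ∀ ρ : ℕ, (CFT.Global.SelmerCount.clS (𝓞 K) p (CFT.Global.CountV.SK S K)).index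
        = p ^ ρ →
      FiniteDimensional (ZMod p)
          (LinearMap.ker (TopGlue.loc2 (ctxS p S hpS I.lamS) (M0 (ZMod p) K.fixingSubgroup))) ∧
        Module.finrank (ZMod p)
          (LinearMap.ker (TopGlue.loc2 (ctxS p S hpS I.lamS) (M0 (ZMod p) K.fixingSubgroup)))
          ≤ ρ)
    (hc4' : ∀ ρ : ℕ, (CFT.Global.SelmerCount.clS (𝓞 K) p (CFT.Global.CountV.SK S K)).index
        = p ^ ρ →
      FiniteDimensional (ZMod p)
          (LinearMap.ker (TopGlue.loc2 (ctxS p S hpS I.lamS)
            ((ctxS p S hpS I.lamS).dual (M0 (ZMod p) K.fixingSubgroup)))) ∧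
        Module.finrank (ZMod p)
          (LinearMap.ker (TopGlue.loc2 (ctxS p S hpS I.lamS)
            ((ctxS p S hpS I.lamS).dual (M0 (ZMod p) K.fixingSubgroup)))) ≤ ρ) :
    PairMono ((ctxS p S hpS I.lamS).P2 hM) ∧ PairEpi ((ctxS p S hpS I.lamS).P2 hM) ∧
      PairEpi ((ctxS p S hpS I.lamS).P1 hM) := by
  exact ConeCnt.base_of_counts S hpS I.lamS K hp2 hK hc hM
    (h4_M0 I K hpS hb hK hc hCap hM) (hA'_M0 I K hpS hb hK hc hCap hM)
    (hI6_M0 I K hpS hb hM) hc4 hc4'

end Kernels

/-! ### The BASE obligations -/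

/-- **BASE from `[CapGen]` and `(c4)`, `(c4')`**: for an arithmetic input `I` extending class
functionals `lamH` which are all nonzero (`Wire.IsRec.ne_zero`), the BASE obligations
`Wire.BaseGoal p S hpS I.lamS` follow from `[CapGen]` for `M0(K)` and the two counts
`dim Ш²_S(M0(K)) ≤ ρ`, `dim Ш²_S(M0(K)^∨(1)) ≤ ρ`, for every admissible `K`. -/
theorem baseGoal (hpS : pPrime p ∈ S) (hp2 : p ≠ 2) {lamH : Wire.LamH p}
    (hne : ∀ w : Nat.Primes, lamH w ≠ 0) (hI : Wire.Extends I lamH)
    (hCap : ∀ K : IntermediateField ℚ (AlgebraicClosure ℚ), K.IsUnramifiedOutside S →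
      Glue.cycloField p ≤ K → Asm.CapGen S (M0 (ZMod p) K.fixingSubgroup))
    (hc4 : ∀ (K : IntermediateField ℚ (AlgebraicClosure ℚ)) [NumberField K],
      K.IsUnramifiedOutside S → Glue.cycloField p ≤ K → ∀ ρ : ℕ,
      (CFT.Global.SelmerCount.clS (𝓞 K) p (CFT.Global.CountV.SK S K)).index = p ^ ρ →
      FiniteDimensional (ZMod p)
          (LinearMap.ker (TopGlue.loc2 (ctxS p S hpS I.lamS) (M0 (ZMod p) K.fixingSubgroup))) ∧
        Module.finrank (ZMod p)
          (LinearMap.ker (TopGlue.loc2 (ctxS p S hpS I.lamS) (M0 (ZMod p) K.fixingSubgroup)))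
          ≤ ρ)
    (hc4' : ∀ (K : IntermediateField ℚ (AlgebraicClosure ℚ)) [NumberField K],
      K.IsUnramifiedOutside S → Glue.cycloField p ≤ K → ∀ ρ : ℕ,
      (CFT.Global.SelmerCount.clS (𝓞 K) p (CFT.Global.CountV.SK S K)).index = p ^ ρ →
      FiniteDimensional (ZMod p)
          (LinearMap.ker (TopGlue.loc2 (ctxS p S hpS I.lamS)
            ((ctxS p S hpS I.lamS).dual (M0 (ZMod p) K.fixingSubgroup)))) ∧
        Module.finrank (ZMod p)
          (LinearMap.ker (TopGlue.loc2 (ctxS p S hpS I.lamS)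
            ((ctxS p S hpS I.lamS).dual (M0 (ZMod p) K.fixingSubgroup)))) ≤ ρ) :
    Wire.BaseGoal p S hpS I.lamS := by
  intro K hK hc
  have := hK.1
  have : NumberField K := { to_charZero := inferInstance, to_finiteDimensional := inferInstance }
  obtain ⟨r1, r2, r3⟩ := base_M0 I K hpS (fun w => LDQ.baseAt_of_extends hI (hne w)) hK hc
    (hCap K hK hc) (Wire.disc_M0 p hK) hp2 (hc4 K hK hc) (hc4' K hK hc)
  exact ⟨r3, r1, r2⟩

end Concrete

end Fermat.Agent.S55.Base.ConeInputs
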