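/-
S55 / PROGRAM CFT, base case, cone route (helper186): the statement of S55 from the TWO remaining
arithmetic seams, each in a literal shape that is on `main`:

* `CapSeam p S`  : `Asm.CapGen S (M0 (ZMod p) K.fixingSubgroup)` for every admissible `K`
                   (UNR3-Q generation + CAP-Q);
* `C4Seam p S hpS` : `dim ker loc²(M0(K)) ≤ ρ` for every admissible `K`, in the shape of
                   `ConeCnt.base_of_counts` (for every functional `lam`; `loc2` does not depend
                   on it).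

Everything else is consumed from `main`: reciprocity `Rec.Final.exists_isRec`, local duality at
every prime (`LDQInst`), (G4Q), the counts (`ConeCnt`), the self-duality transport of `(c4)`
(`ConeSymmQ.hc4'_M0`), the kernel statements (`ConeInputs`), and the chain `Wire`.

This file is a wiring twin of `Base/BaseCase.lean` + the `Wire` end (insurance): a second,
independent path from the seams to the frozen statement.
-/
import Fermat.Agent.S55.Base.ConeInputs
import Fermat.Agent.S55.Base.ConeSymmQ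
import Fermat.Agent.CFT.Rec.Final

set_option autoImplicit false

open CategoryTheory groupCohomology ExtCitation
open scoped NumberField

namespace Fermat.Agent.S55.Base.ConeFinal

open Fermat.Agent.S55.Abs

variable (p : ℕ) [Fact p.Prime] (S : Finset Nat.Primes)

/-- **The `[CapGen]` seam**: `Asm.CapGen` for `M0(K)`, every `K` unramified outside `S` and
containing `μ_p`. -/
def CapSeam : Prop :=
  ∀ K : IntermediateField ℚ (AlgebraicClosure ℚ), K.IsUnramifiedOutside S →
    Glue.cycloField p ≤ K → Asm.CapGen S (M0 (ZMod p) K.fixingSubgroup)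

/-- **The `(c4)` seam**: `dim Ш²_S(M0(K)) ≤ ρ`, `p ^ ρ = [Cl_K : Cl_K^p ⊔ ⟨S_K⟩]`, for every `K`
unramified outside `S` and containing `μ_p`. -/
def C4Seam (hpS : pPrime p ∈ S) : Prop :=
  ∀ (lam : LamS p S) (K : IntermediateField ℚ (AlgebraicClosure ℚ)) [NumberField K],
    K.IsUnramifiedOutside S → Glue.cycloField p ≤ K → ∀ ρ : ℕ,
    (CFT.Global.SelmerCount.clS (𝓞 K) p (CFT.Global.CountV.SK S K)).index = p ^ ρ →
    FiniteDimensional (ZMod p)
        (LinearMap.ker (TopGlue.loc2 (ctxS p S hpS lam) (M0 (ZMod p) K.fixingSubgroup))) ∧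
      Module.finrank (ZMod p)
        (LinearMap.ker (TopGlue.loc2 (ctxS p S hpS lam) (M0 (ZMod p) K.fixingSubgroup))) ≤ ρ

variable {p S}

/-- **The layer-3 bricks of the chain from the two seams.** -/
theorem bricks3 (hp2 : p ≠ 2) (hpS : pPrime p ∈ S) (hCap : CapSeam p S)
    (hc4 : C4Seam p S hpS) : Wire.Bricks3 p S hpS :=
  Wire.bricks3_of_rec_base (CFT.Rec.Final.exists_isRec p hp2 S hpS)
    (fun _ hrec I hI => ConeInputs.baseGoal I hpS hp2 hrec.ne_zero hI hCap
      (fun K _ hK hc ρ hρ => hc4 I.lamS K hK hc ρ hρ)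
      (fun K _ hK hc ρ hρ =>
        haveI : FiniteDimensional ℚ K := hK.1
        ConeSymmQ.hc4'_M0 S hpS I.lamS K hc (hc4 I.lamS K hK hc ρ hρ)))

/-- **S55 from the two seams** — binders and conclusion of the frozen statement. -/
theorem result_of_seams (hp2 : p ≠ 2) (S : Finset Nat.Primes) (hpS : pPrime p ∈ S)
    (hCap : CapSeam p S) (hc4 : C4Seam p S hpS)
    (M : Rep (ZMod p) (AlgebraicClosure ℚ ≃ₐ[ℚ] AlgebraicClosure ℚ))
    [FiniteDimensional (ZMod p) M]
    (hsm : ∀ m : M, ∃ F : IntermediateField ℚ (AlgebraicClosure ℚ), FiniteDimensional ℚ F ∧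
      ∀ s ∈ F.fixingSubgroup, M.ρ s m = m)
    (hMur : ∀ q : Nat.Primes, q ∉ S → ∀ A : ValuationSubring (AlgebraicClosure ℚ),
      A.LiesOverPrime (q : ℕ) → ∀ g ∈ A.inertiaSubgroupIn ℚ, M.ρ g = 1) :
    ∃ B : sha₁ S (M.dualTwist (cycloChar p)) →ₗ[ZMod p] sha₂ S M →ₗ[ZMod p] ZMod p,
      (∀ y, (∀ x, B y x = 0) → y = 0) ∧ (∀ x, (∀ y, B y x = 0) → x = 0) :=
  Wire.result_of_bricks3 hp2 S hpS (bricks3 hp2 hpS hCap hc4) M hsm hMur

end Fermat.Agent.S55.Base.ConeFinal
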