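import Fermat.Agent.S55.Base.ConeSymm
import Fermat.Agent.S55.Base.ConeCnt
import Fermat.Agent.S55.Base.ConeKer
import Fermat.Agent.S55.Glue.CoindDual
import Fermat.Agent.S55.Wire.Chain

/-!
# S55 base case for `M0(K)`: the cone route with the self-duality `M0(K) ≅ M0(K)'`

`D = ctxS p S hpS lam`, `M = M0 (ZMod p) K.fixingSubgroup`, `K` a number field unramified outside
`S ∋ p`, `μ_p ⊆ K`, `p` odd.  By `ConeSymm` the hypotheses `hA'`, `(c4')` of
`ConeCnt.base_of_counts` follow from `h4`, `(c4)` along the self-duality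
`Glue.CoindDual.dualTwistIso`.  Hence:

* `base_of_counts_selfdual` : the three conclusions from `h4`, `hI6`, `(c4)` for `M0(K)`;
* `base_of_inputs_selfdual` : the same from the cochain-level inputs of `ConeKer` for `M0(K)`
  alone — `LocRight` (all primes), `Loc2` (primes of `S`), `CapGen M0(K)`, `G4 M0(K)'` — and `(c4)`;
* `baseAt_of_inputs` : the literal `Wire.BaseAt p S hpS I.lamS K`.

No input about `CapGen M0(K)'`, `LocLeft`, `G4 M0(K)`, `(c4')` is needed.
-/

set_option autoImplicit false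

open scoped NumberField
open CategoryTheory IsDedekindDomain groupCohomology ExtCitation

namespace Fermat.Agent.S55.Base.ConeSymmQ

open Fermat.Agent.S55.Abs Fermat.Agent.S55.Abs.TopGlue Module
open Fermat.Agent.CFT.Global.CountV

variable {p : ℕ} [Fact p.Prime] (S : Finset Nat.Primes) (hpS : pPrime p ∈ S) (lam : LamS p S)
  (K : IntermediateField ℚ (AlgebraicClosure ℚ))

/-- `cycloChar p` is trivial on `Fix K` when `μ_p ⊆ K`. -/
theorem cycloChar_eq_one (hcyc : Glue.cycloField p ≤ K) :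
    ∀ u ∈ K.fixingSubgroup, cycloChar p u = 1 := fun _ hu =>
  Glue.cycloChar_eq_one_of_mem_fixingSubgroup p
    (IntermediateField.fixingSubgroup_antitone hcyc hu)

/-- **(A') for `M0(K)` from (h4) for `M0(K)`**, in the literal shape of
`AsmCone.base_of_arith` / `ConeCnt.base_of_counts`. -/
theorem hA'_M0 [FiniteDimensional ℚ K] (hcyc : Glue.cycloField p ≤ K)
    (hM : IsDisc (ctxS p S hpS lam).𝒰 (M0 (ZMod p) K.fixingSubgroup))
    (h4 : ∀ y : H1 (ctxS p S hpS lam).𝒰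
        ((ctxS p S hpS lam).dual (M0 (ZMod p) K.fixingSubgroup)),
      (∀ x, (ctxS p S hpS lam).P2 hM x y = 0) → y = 0) :
    ∀ x : Hc1 (ctxS p S hpS lam).𝒰 (ctxS p S hpS lam).loc (M0 (ZMod p) K.fixingSubgroup),
      (∀ α : H2 (ctxS p S hpS lam).𝒰 ((ctxS p S hpS lam).dual (M0 (ZMod p) K.fixingSubgroup)),
        loc2 (ctxS p S hpS lam) ((ctxS p S hpS lam).dual (M0 (ZMod p) K.fixingSubgroup)) α = 0 →
          (ctxS p S hpS lam).P1 hM x α = 0) →
        fgt1 (ctxS p S hpS lam).𝒰 (ctxS p S hpS lam).loc (M0 (ZMod p) K.fixingSubgroup) x = 0 := by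
  have hfd : FiniteDimensional (ZMod p) (M0 (ZMod p) K.fixingSubgroup) :=
    ConeCnt.finiteDimensional_M0 K
  have hfi : K.fixingSubgroup.FiniteIndex := inferInstance
  let e := Glue.CoindDual.dualTwistIso (k := ZMod p) (U := K.fixingSubgroup) (cycloChar p)
    (cycloChar_eq_one K hcyc)
  refine ConeSymm.hA'_of_right_kernel (ctxS p S hpS lam) hM e.hom e.inv (fun f => ?_) h4
  exact congrArg (fun φ => φ.hom f) e.inv_hom_id

/-- **(c4') for `M0(K)'` from (c4) for `M0(K)`.** -/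
theorem hc4'_M0 [FiniteDimensional ℚ K] (hcyc : Glue.cycloField p ≤ K) {c : ℕ}
    (hc4 : FiniteDimensional (ZMod p)
        (LinearMap.ker (loc2 (ctxS p S hpS lam) (M0 (ZMod p) K.fixingSubgroup))) ∧
      finrank (ZMod p)
        (LinearMap.ker (loc2 (ctxS p S hpS lam) (M0 (ZMod p) K.fixingSubgroup))) ≤ c) :
    FiniteDimensional (ZMod p)
        (LinearMap.ker (loc2 (ctxS p S hpS lam)
          ((ctxS p S hpS lam).dual (M0 (ZMod p) K.fixingSubgroup)))) ∧
      finrank (ZMod p)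
        (LinearMap.ker (loc2 (ctxS p S hpS lam)
          ((ctxS p S hpS lam).dual (M0 (ZMod p) K.fixingSubgroup)))) ≤ c := by
  have hfi : K.fixingSubgroup.FiniteIndex := inferInstance
  let e := Glue.CoindDual.dualTwistIso (k := ZMod p) (U := K.fixingSubgroup) (cycloChar p)
    (cycloChar_eq_one K hcyc)
  obtain ⟨hk, hk4⟩ := hc4
  obtain ⟨a, b⟩ := ConeSymm.finrank_ker_loc2_le_of_retract (ctxS p S hpS lam) e.inv e.hom
    (fun f => congrArg (fun φ => φ.hom f) e.inv_hom_id)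
  exact ⟨a, b.trans hk4⟩

/-- **The base case for `M0(K)` from `h4`, `hI6` and `(c4)` for `M0(K)` alone**
(`ConeCnt.base_of_counts` without `hA'` and `(c4')`). -/
theorem base_of_counts_selfdual [NumberField K] (hp2 : p ≠ 2) (hK : K.IsUnramifiedOutside S)
    (hcyc : Glue.cycloField p ≤ K)
    (hM : IsDisc (ctxS p S hpS lam).𝒰 (M0 (ZMod p) K.fixingSubgroup))
    (h4 : ∀ y : H1 (ctxS p S hpS lam).𝒰
        ((ctxS p S hpS lam).dual (M0 (ZMod p) K.fixingSubgroup)),
      (∀ x, (ctxS p S hpS lam).P2 hM x y = 0) → y = 0)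
    (hI6 : ∀ α : H2 (ctxS p S hpS lam).𝒰
        ((ctxS p S hpS lam).dual (M0 (ZMod p) K.fixingSubgroup)),
      (∀ x, (ctxS p S hpS lam).P1 hM x α = 0) →
        loc2 (ctxS p S hpS lam) ((ctxS p S hpS lam).dual (M0 (ZMod p) K.fixingSubgroup)) α = 0)
    (hc4 : ∀ ρ : ℕ, (Fermat.Agent.CFT.Global.SelmerCount.clS (𝓞 K) p (SK S K)).index = p ^ ρ →
      FiniteDimensional (ZMod p)
          (LinearMap.ker (loc2 (ctxS p S hpS lam) (M0 (ZMod p) K.fixingSubgroup))) ∧
        finrank (ZMod p)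
          (LinearMap.ker (loc2 (ctxS p S hpS lam) (M0 (ZMod p) K.fixingSubgroup))) ≤ ρ) :
    PairMono ((ctxS p S hpS lam).P2 hM) ∧ PairEpi ((ctxS p S hpS lam).P2 hM) ∧
      PairEpi ((ctxS p S hpS lam).P1 hM) :=
  ConeCnt.base_of_counts S hpS lam K hp2 hK hcyc hM h4 (hA'_M0 S hpS lam K hcyc hM h4) hI6 hc4
    (fun ρ hρ => hc4'_M0 S hpS lam K hcyc (hc4 ρ hρ))

/-- **The base case for `M0(K)` from the cochain-level inputs for `M0(K)` alone** and `(c4)`. -/
theorem base_of_inputs_selfdual (I : EvalQ.ArithInput p S) [NumberField K] (hp2 : p ≠ 2)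
    (hK : K.IsUnramifiedOutside S) (hcyc : Glue.cycloField p ≤ K)
    (hM : IsDisc (globalLevel S) (M0 (ZMod p) K.fixingSubgroup))
    (hLocR : ConeKer.LocRight I.datum
      (evPairing (cycloChar p) (M0 (ZMod p) K.fixingSubgroup)))
    (hLoc2 : ConeKer.Loc2 I.datum (evPairing (cycloChar p) (M0 (ZMod p) K.fixingSubgroup)))
    (hCap : ConeKer.CapGen I.datum (M0 (ZMod p) K.fixingSubgroup))
    (hG4' : ConeKer.G4 I.datum ((M0 (ZMod p) K.fixingSubgroup).dualTwist (cycloChar p)))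
    (hc4 : ∀ ρ : ℕ, (Fermat.Agent.CFT.Global.SelmerCount.clS (𝓞 K) p (SK S K)).index = p ^ ρ →
      FiniteDimensional (ZMod p)
          (LinearMap.ker (loc2 (ctxS p S hpS I.lamS) (M0 (ZMod p) K.fixingSubgroup))) ∧
        finrank (ZMod p)
          (LinearMap.ker (loc2 (ctxS p S hpS I.lamS) (M0 (ZMod p) K.fixingSubgroup))) ≤ ρ) :
    PairMono ((ctxS p S hpS I.lamS).P2 hM) ∧ PairEpi ((ctxS p S hpS I.lamS).P2 hM) ∧
      PairEpi ((ctxS p S hpS I.lamS).P1 hM) :=
  base_of_counts_selfdual S hpS I.lamS K hp2 hK hcyc hM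
    (ConeKer.h4 I hpS hM hLocR hCap hG4') (ConeKer.hI6 I hpS hM hLoc2) hc4

/-- **`Wire.BaseAt` for `M0(K)` from the cochain-level inputs for `M0(K)` alone** and `(c4)`. -/
theorem baseAt_of_inputs (I : EvalQ.ArithInput p S) [NumberField K] (hp2 : p ≠ 2)
    (hK : K.IsUnramifiedOutside S) (hcyc : Glue.cycloField p ≤ K)
    (hLocR : ConeKer.LocRight I.datum
      (evPairing (cycloChar p) (M0 (ZMod p) K.fixingSubgroup)))
    (hLoc2 : ConeKer.Loc2 I.datum (evPairing (cycloChar p) (M0 (ZMod p) K.fixingSubgroup)))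
    (hCap : ConeKer.CapGen I.datum (M0 (ZMod p) K.fixingSubgroup))
    (hG4' : ConeKer.G4 I.datum ((M0 (ZMod p) K.fixingSubgroup).dualTwist (cycloChar p)))
    (hc4 : ∀ ρ : ℕ, (Fermat.Agent.CFT.Global.SelmerCount.clS (𝓞 K) p (SK S K)).index = p ^ ρ →
      FiniteDimensional (ZMod p)
          (LinearMap.ker (loc2 (ctxS p S hpS I.lamS) (M0 (ZMod p) K.fixingSubgroup))) ∧
        finrank (ZMod p)
          (LinearMap.ker (loc2 (ctxS p S hpS I.lamS) (M0 (ZMod p) K.fixingSubgroup))) ≤ ρ) :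
    Wire.BaseAt p S hpS I.lamS K := by
  obtain ⟨r1, r2, r3⟩ := base_of_inputs_selfdual S hpS K I hp2 hK hcyc (Wire.disc_M0 p hK)
    hLocR hLoc2 hCap hG4' hc4
  exact ⟨Wire.disc_M0 p hK, r3, r1, r2⟩

end Fermat.Agent.S55.Base.ConeSymmQ
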