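/-
S55 / PROGRAM CFT, base case (helper235): transport of the counts along retracts and along the
self-duality `Ψ : M0(K) ≅ M0(K)^*(χ)`.

GENERIC (`D : PTContext k G`, `N` a retract of `M`: `i : N ⟶ M`, `r : M ⟶ N`, `r ∘ i = id`):
* `loc2_H2map`                      : `H²(φ)` maps `ker loc²(N)` into `ker loc²(M)`;
* `finrank_ker_loc2_le_of_retract`  : `dim ker loc²(N) ≤ dim ker loc²(M)` (and finiteness);
* `finrank_H1_le_of_retract`, `finrank_H2_le_of_retract` : the same for `H¹`, `H²`.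

CONCRETE (`D = ctxS p S hpS lam`, ANY `lam`; `K` unramified outside `S`, `μ_p ⊆ K`,
`M = M0(K) = coind_{Fix K}^{G_ℚ} 𝔽_p`, `M' = D.dual M`):
* `psi K hK hc : M ⟶ M'`, `psiInv K hK hc : M' ⟶ M`, mutually inverse
  (helper297's `TDBase.psiHom` / `psiInvHom`);
* `ker_loc2_dual`, `ker_loc2_of_dual` : `ker loc²(M')` and `ker loc²(M)` have the same dimension
  (the inputs `hc4` ⇒ `hc4'` of `AsmCone.base_of_arith`, with the `FiniteDimensional` instance);
* `H1_dual`, `H1_of_dual` : the same for `H¹(G_S, ·)`.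
-/
import Fermat.Agent.S55.Abs.TopGlue
import Fermat.Agent.S55.Abs.Functor
import Fermat.Agent.S55.Abs.Bridge
import Fermat.Agent.S55.Abs.Reduce
import Fermat.Agent.CFT.LocalBr.TDBaseAbs

set_option autoImplicit false

open CategoryTheory groupCohomology ExtCitation

namespace Fermat.Agent.S55.Base.DualCount

open Fermat.Agent.S55.Abs Fermat.Agent.S55.Abs.TopGlue

/-! ### Generic: retracts -/

section Generic

variable {k G : Type} [Field k] [Group G]

section Global

variable (𝒰 : LevelFamily G) {M N : Rep.{0} k G} (i : N ⟶ M) (r : M ⟶ N)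
  (hri : ∀ n, r.hom (i.hom n) = n)

include hri in
/-- `H¹` of a retract is a subspace of `H¹`. -/
theorem finrank_H1_le_of_retract [FiniteDimensional k (H1 𝒰 M)] :
    FiniteDimensional k (H1 𝒰 N) ∧ Module.finrank k (H1 𝒰 N) ≤ Module.finrank k (H1 𝒰 M) := by
  have hinj : Function.Injective (H1map 𝒰 i) := by
    intro x y hxy
    have h := congrArg (H1map 𝒰 r) hxy
    rwa [H1map_retract 𝒰 i r hri, H1map_retract 𝒰 i r hri] at h
  exact ⟨Module.Finite.of_injective _ hinj, LinearMap.finrank_le_finrank_of_injective hinj⟩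

include hri in
/-- `H²` of a retract is a subspace of `H²`. -/
theorem finrank_H2_le_of_retract [FiniteDimensional k (H2 𝒰 M)] :
    FiniteDimensional k (H2 𝒰 N) ∧ Module.finrank k (H2 𝒰 N) ≤ Module.finrank k (H2 𝒰 M) := by
  have hinj : Function.Injective (H2map 𝒰 i) := by
    intro x y hxy
    have h := congrArg (H2map 𝒰 r) hxy
    rwa [H2map_retract 𝒰 i r hri, H2map_retract 𝒰 i r hri] at h
  exact ⟨Module.Finite.of_injective _ hinj, LinearMap.finrank_le_finrank_of_injective hinj⟩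

end Global

variable (D : PTContext k G) {M N : Rep.{0} k G}

/-- `H²(φ)` maps locally trivial classes to locally trivial classes. -/
theorem loc2_H2map (φ : N ⟶ M) (α : H2 D.𝒰 N) (h : loc2 D N α = 0) :
    loc2 D M (H2map D.𝒰 φ α) = 0 := by
  obtain ⟨⟨a, ha⟩, rfl⟩ := Submodule.mkQ_surjective _ α
  funext v
  have hv := congrFun h v
  have hv' : (Submodule.Quotient.mk (⟨res₂ D.loc N v a,
      res₂_mem_Z2 D.𝒰 D.loc D.𝒰v D.hloc N v ha⟩ : ↥(Z2 (D.𝒰v v) (Rep.res (D.loc v) N))) :
      Abs.H2 (D.𝒰v v) (Rep.res (D.loc v) N)) = 0 := hv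
  rw [Submodule.Quotient.mk_eq_zero] at hv'
  have hB : res₂ D.loc N v a ∈ B2 (D.𝒰v v) (Rep.res (D.loc v) N) := hv'
  have hB' : cmap₂ (Rep.resMap (D.loc v) φ) (res₂ D.loc N v a)
      ∈ B2 (D.𝒰v v) (Rep.res (D.loc v) M) := cmap₂_mem_B2 (Rep.resMap (D.loc v) φ) hB
  show (Submodule.Quotient.mk (⟨res₂ D.loc M v (cmap₂ φ a),
      res₂_mem_Z2 D.𝒰 D.loc D.𝒰v D.hloc M v (cmap₂_mem_Z2 φ ha)⟩ :
        ↥(Z2 (D.𝒰v v) (Rep.res (D.loc v) M))) :
      Abs.H2 (D.𝒰v v) (Rep.res (D.loc v) M)) = 0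
  rw [Submodule.Quotient.mk_eq_zero]
  exact hB'

variable (i : N ⟶ M) (r : M ⟶ N) (hri : ∀ n, r.hom (i.hom n) = n)

include hri in
/-- The locally trivial classes of a retract form a subspace of the locally trivial classes. -/
theorem finrank_ker_loc2_le_of_retract [FiniteDimensional k (LinearMap.ker (loc2 D M))] :
    FiniteDimensional k (LinearMap.ker (loc2 D N)) ∧
      Module.finrank k (LinearMap.ker (loc2 D N))
        ≤ Module.finrank k (LinearMap.ker (loc2 D M)) := by
  let f : ↥(LinearMap.ker (loc2 D N)) →ₗ[k] ↥(LinearMap.ker (loc2 D M)) :=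
    LinearMap.codRestrict (LinearMap.ker (loc2 D M))
      ((H2map D.𝒰 i).comp (LinearMap.ker (loc2 D N)).subtype)
      (fun x => LinearMap.mem_ker.2 (loc2_H2map D i x.1 (LinearMap.mem_ker.1 x.2)))
  have hf : Function.Injective f := by
    intro x y hxy
    have h1 : H2map D.𝒰 i x.1 = H2map D.𝒰 i y.1 :=
      congrArg (fun z : ↥(LinearMap.ker (loc2 D M)) => (z : H2 D.𝒰 M)) hxy
    have h2 := congrArg (H2map D.𝒰 r) h1
    rw [H2map_retract D.𝒰 i r hri, H2map_retract D.𝒰 i r hri] at h2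
    exact Subtype.ext h2
  exact ⟨Module.Finite.of_injective f hf, LinearMap.finrank_le_finrank_of_injective hf⟩

end Generic

/-! ### Concrete: the self-duality of `M0(K)` -/

section Concrete

open Fermat.Agent.CFT.LocalBr

variable {p : ℕ} [Fact p.Prime] {S : Finset Nat.Primes}

/-- `μ_p ⊆ K`: the cyclotomic character is trivial on `Gal(ℚ̄/K)`. -/
theorem cycloChar_eq_one {K : IntermediateField ℚ (AlgebraicClosure ℚ)}
    (hc : Glue.cycloField p ≤ K) : ∀ u ∈ K.fixingSubgroup, cycloChar p u = 1 :=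
  fun _ hu => Glue.cycloChar_eq_one_of_mem_fixingSubgroup p
    (IntermediateField.fixingSubgroup_antitone hc hu)

theorem finiteIndex_fixingSubgroup {K : IntermediateField ℚ (AlgebraicClosure ℚ)}
    (hK : K.IsUnramifiedOutside S) : K.fixingSubgroup.FiniteIndex :=
  (globalLevel S).finiteIndex _ ⟨K, hK, rfl⟩

/-- The self-duality `Ψ : M0(K) ⟶ M0(K)^*(χ_cyc)`. -/
noncomputable def psi (K : IntermediateField ℚ (AlgebraicClosure ℚ))
    (hK : K.IsUnramifiedOutside S) (hc : Glue.cycloField p ≤ K) :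
    M0 (ZMod p) K.fixingSubgroup ⟶ (M0 (ZMod p) K.fixingSubgroup).dualTwist (cycloChar p) :=
  haveI := finiteIndex_fixingSubgroup hK
  TDBase.psiHom K.fixingSubgroup (cycloChar p) (cycloChar_eq_one hc)

/-- Its inverse. -/
noncomputable def psiInv (K : IntermediateField ℚ (AlgebraicClosure ℚ))
    (hK : K.IsUnramifiedOutside S) (hc : Glue.cycloField p ≤ K) :
    (M0 (ZMod p) K.fixingSubgroup).dualTwist (cycloChar p) ⟶ M0 (ZMod p) K.fixingSubgroup :=
  haveI := finiteIndex_fixingSubgroup hK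
  TDBase.psiInvHom K.fixingSubgroup (cycloChar p) (cycloChar_eq_one hc)

theorem psi_psiInv (K : IntermediateField ℚ (AlgebraicClosure ℚ))
    (hK : K.IsUnramifiedOutside S) (hc : Glue.cycloField p ≤ K)
    (φ : (M0 (ZMod p) K.fixingSubgroup).dualTwist (cycloChar p)) :
    (psi K hK hc).hom ((psiInv K hK hc).hom φ) = φ :=
  haveI := finiteIndex_fixingSubgroup hK
  TDBase.psi_psiInv K.fixingSubgroup (cycloChar p) (cycloChar_eq_one hc) φ

theorem psiInv_psi (K : IntermediateField ℚ (AlgebraicClosure ℚ))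
    (hK : K.IsUnramifiedOutside S) (hc : Glue.cycloField p ≤ K)
    (f : M0 (ZMod p) K.fixingSubgroup) :
    (psiInv K hK hc).hom ((psi K hK hc).hom f) = f :=
  haveI := finiteIndex_fixingSubgroup hK
  TDBase.psiInv_psi K.fixingSubgroup (cycloChar p) (cycloChar_eq_one hc) f

variable (hpS : pPrime p ∈ S) (lam : LamS p S)
  (K : IntermediateField ℚ (AlgebraicClosure ℚ)) (hK : K.IsUnramifiedOutside S)
  (hc : Glue.cycloField p ≤ K)

include hK hc in
/-- **`hc4 ⇒ hc4'`**: `ker loc²(M0(K)')` is finite-dimensional of the same dimension as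
`ker loc²(M0(K))`. -/
theorem ker_loc2_dual
    [FiniteDimensional (ZMod p)
      (LinearMap.ker (loc2 (ctxS p S hpS lam) (M0 (ZMod p) K.fixingSubgroup)))] :
    FiniteDimensional (ZMod p) (LinearMap.ker (loc2 (ctxS p S hpS lam)
        ((ctxS p S hpS lam).dual (M0 (ZMod p) K.fixingSubgroup)))) ∧
      Module.finrank (ZMod p) (LinearMap.ker (loc2 (ctxS p S hpS lam)
        ((ctxS p S hpS lam).dual (M0 (ZMod p) K.fixingSubgroup))))
        = Module.finrank (ZMod p)
          (LinearMap.ker (loc2 (ctxS p S hpS lam) (M0 (ZMod p) K.fixingSubgroup))) := by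
  obtain ⟨h1, h2⟩ := finrank_ker_loc2_le_of_retract (ctxS p S hpS lam) (psiInv K hK hc)
    (psi K hK hc) (psi_psiInv K hK hc)
  have := h1
  obtain ⟨-, h3⟩ := finrank_ker_loc2_le_of_retract (ctxS p S hpS lam) (psi K hK hc)
    (psiInv K hK hc) (psiInv_psi K hK hc)
  exact ⟨h1, le_antisymm h2 h3⟩

include hK hc in
/-- The converse transport: from `M0(K)'` to `M0(K)`. -/
theorem ker_loc2_of_dual
    [FiniteDimensional (ZMod p) (LinearMap.ker (loc2 (ctxS p S hpS lam)
      ((ctxS p S hpS lam).dual (M0 (ZMod p) K.fixingSubgroup))))] :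
    FiniteDimensional (ZMod p)
        (LinearMap.ker (loc2 (ctxS p S hpS lam) (M0 (ZMod p) K.fixingSubgroup))) ∧
      Module.finrank (ZMod p)
          (LinearMap.ker (loc2 (ctxS p S hpS lam) (M0 (ZMod p) K.fixingSubgroup)))
        = Module.finrank (ZMod p) (LinearMap.ker (loc2 (ctxS p S hpS lam)
          ((ctxS p S hpS lam).dual (M0 (ZMod p) K.fixingSubgroup)))) := by
  obtain ⟨h1, h2⟩ := finrank_ker_loc2_le_of_retract (ctxS p S hpS lam) (psi K hK hc)
    (psiInv K hK hc) (psiInv_psi K hK hc)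
  have := h1
  obtain ⟨-, h3⟩ := finrank_ker_loc2_le_of_retract (ctxS p S hpS lam) (psiInv K hK hc)
    (psi K hK hc) (psi_psiInv K hK hc)
  exact ⟨h1, le_antisymm h2 h3⟩

include hK hc in
/-- `H¹(G_S, M0(K)')` is finite-dimensional of the same dimension as `H¹(G_S, M0(K))`. -/
theorem H1_dual [FiniteDimensional (ZMod p) (H1 (globalLevel S) (M0 (ZMod p) K.fixingSubgroup))] :
    FiniteDimensional (ZMod p)
        (H1 (globalLevel S) ((M0 (ZMod p) K.fixingSubgroup).dualTwist (cycloChar p))) ∧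
      Module.finrank (ZMod p)
          (H1 (globalLevel S) ((M0 (ZMod p) K.fixingSubgroup).dualTwist (cycloChar p)))
        = Module.finrank (ZMod p) (H1 (globalLevel S) (M0 (ZMod p) K.fixingSubgroup)) := by
  obtain ⟨h1, h2⟩ := finrank_H1_le_of_retract (globalLevel S) (psiInv K hK hc)
    (psi K hK hc) (psi_psiInv K hK hc)
  have := h1
  obtain ⟨-, h3⟩ := finrank_H1_le_of_retract (globalLevel S) (psi K hK hc)
    (psiInv K hK hc) (psiInv_psi K hK hc)
  exact ⟨h1, le_antisymm h2 h3⟩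

include hK hc in
/-- `H²(G_S, M0(K)')` is finite-dimensional of the same dimension as `H²(G_S, M0(K))`. -/
theorem H2_dual [FiniteDimensional (ZMod p) (H2 (globalLevel S) (M0 (ZMod p) K.fixingSubgroup))] :
    FiniteDimensional (ZMod p)
        (H2 (globalLevel S) ((M0 (ZMod p) K.fixingSubgroup).dualTwist (cycloChar p))) ∧
      Module.finrank (ZMod p)
          (H2 (globalLevel S) ((M0 (ZMod p) K.fixingSubgroup).dualTwist (cycloChar p)))
        = Module.finrank (ZMod p) (H2 (globalLevel S) (M0 (ZMod p) K.fixingSubgroup)) := by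
  obtain ⟨h1, h2⟩ := finrank_H2_le_of_retract (globalLevel S) (psiInv K hK hc)
    (psi K hK hc) (psi_psiInv K hK hc)
  have := h1
  obtain ⟨-, h3⟩ := finrank_H2_le_of_retract (globalLevel S) (psi K hK hc)
    (psiInv K hK hc) (psiInv_psi K hK hc)
  exact ⟨h1, le_antisymm h2 h3⟩

end Concrete

end Fermat.Agent.S55.Base.DualCount
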