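/-
S55 / PROGRAM CFT, base case (helper227): the dual-side counts of the base module are FREE.

`M := M0(K) = coind_{G_K}^{G_ℚ} 𝔽_p` with `μ_p ⊆ K` is self-dual
(`Glue.CoindDual.dualTwistIso : M ≅ M^*(χ)`), so in the concrete context `D = ctxS p S hpS lam`
(any `lam`) every count for `M' = D.dual M` is the count for `M`:

* `selfDualIso` : `M ≅ D.dual M`;
* `finrank_ker_loc2_dual`, `finite_ker_loc2_dual`  (the `(c4')` side of `AsmCone.base_of_arith`);
* `finrank_H1_dual`, `finite_H1_dual`              (the `(c3')` side);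
* `finrank_ker_loc2_dual_le`, `le_finrank_H1_dual` : the two inequalities in the literal shape
  of the hypotheses `hc4'`, `hc3'` of `AsmCone.base_of_arith`.
-/
import Fermat.Agent.S55.Abs.FunctorIso
import Fermat.Agent.S55.Abs.Bridge
import Fermat.Agent.S55.Glue.CoindDual

set_option autoImplicit false

open CategoryTheory groupCohomology ExtCitation

namespace Fermat.Agent.S55.Base.DualCountM0

open Fermat.Agent.S55.Abs Fermat.Agent.S55.Abs.TopGlue Module

variable {p : ℕ} [Fact p.Prime] {S : Finset Nat.Primes}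

/-- The self-duality of the base module, as an isomorphism `M0(K) ≅ D.dual (M0(K))` in the
concrete Poitou–Tate context. -/
noncomputable def selfDualIso (hpS : pPrime p ∈ S) (lam : LamS p S)
    (K : IntermediateField ℚ (AlgebraicClosure ℚ)) (hK : K.IsUnramifiedOutside S)
    (hc : Glue.cycloField p ≤ K) :
    M0 (ZMod p) K.fixingSubgroup ≅ (ctxS p S hpS lam).dual (M0 (ZMod p) K.fixingSubgroup) :=
  haveI : K.fixingSubgroup.FiniteIndex := (globalLevel S).finiteIndex _ ⟨K, hK, rfl⟩
  Glue.CoindDual.dualTwistIso (k := ZMod p) (U := K.fixingSubgroup) (cycloChar p)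
    (fun _ hu => Glue.cycloChar_eq_one_of_mem_fixingSubgroup p
      (IntermediateField.fixingSubgroup_antitone hc hu))

variable (hpS : pPrime p ∈ S) (lam : LamS p S)
  (K : IntermediateField ℚ (AlgebraicClosure ℚ)) (hK : K.IsUnramifiedOutside S)
  (hc : Glue.cycloField p ≤ K)

include hK hc

theorem finrank_ker_loc2_dual :
    finrank (ZMod p) ↥(LinearMap.ker (loc2 (ctxS p S hpS lam)
        ((ctxS p S hpS lam).dual (M0 (ZMod p) K.fixingSubgroup)))) =
      finrank (ZMod p) ↥(LinearMap.ker (loc2 (ctxS p S hpS lam)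
        (M0 (ZMod p) K.fixingSubgroup))) :=
  FunctorIso.finrank_ker_loc2_dual (ctxS p S hpS lam) (selfDualIso hpS lam K hK hc)

theorem finite_ker_loc2_dual
    [Module.Finite (ZMod p) ↥(LinearMap.ker (loc2 (ctxS p S hpS lam)
      (M0 (ZMod p) K.fixingSubgroup)))] :
    Module.Finite (ZMod p) ↥(LinearMap.ker (loc2 (ctxS p S hpS lam)
      ((ctxS p S hpS lam).dual (M0 (ZMod p) K.fixingSubgroup)))) :=
  FunctorIso.finite_ker_loc2_dual (ctxS p S hpS lam) (selfDualIso hpS lam K hK hc)

theorem finrank_H1_dual :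
    finrank (ZMod p) (H1 (globalLevel S)
        ((ctxS p S hpS lam).dual (M0 (ZMod p) K.fixingSubgroup))) =
      finrank (ZMod p) (H1 (globalLevel S) (M0 (ZMod p) K.fixingSubgroup)) :=
  FunctorIso.finrank_H1_dual (ctxS p S hpS lam) (selfDualIso hpS lam K hK hc)

theorem finite_H1_dual
    [Module.Finite (ZMod p) (H1 (globalLevel S) (M0 (ZMod p) K.fixingSubgroup))] :
    Module.Finite (ZMod p) (H1 (globalLevel S)
      ((ctxS p S hpS lam).dual (M0 (ZMod p) K.fixingSubgroup))) :=
  FunctorIso.finite_H1_dual (ctxS p S hpS lam) (selfDualIso hpS lam K hK hc)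

/-- `(c4) ⟹ (c4')`. -/
theorem finrank_ker_loc2_dual_le {c : ℕ}
    (h : finrank (ZMod p) ↥(LinearMap.ker (loc2 (ctxS p S hpS lam)
      (M0 (ZMod p) K.fixingSubgroup))) ≤ c) :
    finrank (ZMod p) ↥(LinearMap.ker (loc2 (ctxS p S hpS lam)
      ((ctxS p S hpS lam).dual (M0 (ZMod p) K.fixingSubgroup)))) ≤ c :=
  (finrank_ker_loc2_dual hpS lam K hK hc).le.trans h

/-- `(c3) ⟹ (c3')`. -/
theorem le_finrank_H1_dual {Bd : ℕ}
    (h : Bd ≤ finrank (ZMod p) (H1 (globalLevel S) (M0 (ZMod p) K.fixingSubgroup))) :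
    Bd ≤ finrank (ZMod p) (H1 (globalLevel S)
      ((ctxS p S hpS lam).dual (M0 (ZMod p) K.fixingSubgroup))) :=
  h.trans (finrank_H1_dual hpS lam K hK hc).ge

end Fermat.Agent.S55.Base.DualCountM0
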