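import Mathlib
import Fermat.Prelude.Def_GroupCohomology_ContinuousUnramified
import Fermat.Agent.S55.Glue.LevelGalois
import Fermat.Agent.S55.Glue.PlacesAbove
import Fermat.Agent.S55.Glue.LocalRange

/-!
# S55 / base case: the level-`S` criterion (FACT), `ℚ`-side

`N` a representation of `Gq = Gal(ℚ̄/ℚ)` which is trivial on `Fix(F₀)` for some `F₀` unramified
outside `S`.  Let `c : Gq → N` be a level-constant `1`-cochain whose coboundary `d c` is of
level `S`.  If `c` is constant (`= c 1`) on the inertia groups at the primes outside `S`, then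
`c` itself is a level-`S` cochain.

Proof: with `F = F₀ ⊔ F_a` (`F_a` an `S`-level of `d c`), the relation
`c (g * s) = c g + g • (c s - c 1)` holds for `s ∈ Fix(F)`; hence
`H' = {s ∈ Fix(F) | c s = c 1}` is a subgroup, `c` is right `H'`-invariant, `H'` is open
(it contains `Fix(F ⊔ F')`, `F'` a level of `c`), so `H' = Fix(F₁)` with `F₁` finite, and `F₁` is
unramified outside `S` because the inertia groups outside `S` lie in `H'`.

Forms:
* `isLevelConstantS₁_of_inertia`        : hypothesis at every valuation subring over `q ∉ S`;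
* `isLevelConstantS₁_of_inertia_exists` : hypothesis at one valuation subring over each `q ∉ S`;
* `isLevelConstantS₁_of_local`          : hypothesis on the Prelude's local groups
  (`c ∘ primeLocalToGlobal q` is `c 1` on the preimage of `Fix(F_q)`, `F_q` unramified at `q`);
* `isLevelConstantS₁_of_local_decomp`   : `res_q c = t + u + d n` with `t`, `u` unramified
  local cochains (the literal shape of the base-case note).

The two halves, as separate statements (captain's clean form):
* **FACT-1** `exists_level_of_right_invariant` / `isLevelConstantS₁_of_right_invariant`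
  (pure Galois theory, values in any type): right-invariance under `Fix(F')` and under all
  inertia groups outside `S` gives level `S`;
* **FACT-2** `right_invariant_inertia_of_local_decomp` (cochain algebra, one prime `q ∉ S`):
  `res_q c = t + u + d n` with `t`, `u` unramified gives right-invariance of `c` under the
  inertia group of EVERY valuation subring over `q`
  (`eq_one_on_inertia_of_local_decomp`, `eq_one_on_inertia_of_exists`,
  `right_invariant_of_eq_one` are the three steps).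
-/

set_option autoImplicit false

open CategoryTheory groupCohomology ExtCitation

namespace Fermat.Agent.S55.Base.Fact

local notation "Qb" => AlgebraicClosure ℚ
local notation "Gq" => (AlgebraicClosure ℚ ≃ₐ[ℚ] AlgebraicClosure ℚ)

theorem isGalois_Qb_fact : IsGalois ℚ Qb :=
  haveI : IsAlgClosure ℚ Qb := AlgebraicClosure.instIsAlgClosure ℚ
  IsAlgClosure.isGalois ℚ Qb

attribute [local instance] isGalois_Qb_fact

/-- A subgroup containing the fixing subgroup of a finite extension is the fixing subgroup of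
its fixed field, and the latter is contained in that extension. -/
theorem fixedField_spec_of_le {F : IntermediateField ℚ Qb} [FiniteDimensional ℚ F]
    {U : Subgroup Gq} (hFU : F.fixingSubgroup ≤ U) :
    (IntermediateField.fixedField U).fixingSubgroup = U ∧ IntermediateField.fixedField U ≤ F := by
  constructor
  · have hopen : IsOpen (U : Set Gq) :=
      Subgroup.isOpen_mono hFU (IntermediateField.fixingSubgroup_isOpen F)
    have hclosed : IsClosed (U : Set Gq) := Subgroup.isClosed_of_isOpen U hopen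
    exact InfiniteGalois.fixingSubgroup_fixedField ⟨U, hclosed⟩
  · have h1 : IntermediateField.fixedField U ≤ IntermediateField.fixedField F.fixingSubgroup :=
      IntermediateField.fixedField_antitone hFU
    rwa [InfiniteGalois.fixedField_fixingSubgroup] at h1

/-- **FACT-1** (pure Galois theory).  A function on `Gq` which is right-invariant under
`Fix(F')`, `F'` finite, and under all inertia groups at the primes outside `S`, is right-invariant
under `Fix(F₁)` for some `F₁` unramified outside `S`. -/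
theorem exists_level_of_right_invariant {S : Finset Nat.Primes} {X : Type*} (c : Gq → X)
    (F' : IntermediateField ℚ Qb) [FiniteDimensional ℚ F']
    (hc : ∀ g, ∀ s ∈ F'.fixingSubgroup, c (g * s) = c g)
    (hI : ∀ q : Nat.Primes, q ∉ S → ∀ A : ValuationSubring Qb, A.LiesOverPrime (q : ℕ) →
      ∀ g, ∀ i ∈ A.inertiaSubgroupIn ℚ, c (g * i) = c g) :
    ∃ F₁ : IntermediateField ℚ Qb, FiniteDimensional ℚ F₁ ∧ F₁.IsUnramifiedOutside S ∧
      ∀ g, ∀ s ∈ F₁.fixingSubgroup, c (g * s) = c g := by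
  let H₁ : Subgroup Gq :=
    { carrier := {s | ∀ g, c (g * s) = c g}
      mul_mem' := by
        intro s t hs ht g
        have h1 : c (g * (s * t)) = c (g * s * t) := by rw [mul_assoc]
        rw [h1, ht (g * s), hs g]
      one_mem' := fun g => by rw [mul_one]
      inv_mem' := by
        intro s hs g
        have h1 := hs (g * s⁻¹)
        rw [inv_mul_cancel_right] at h1
        exact h1.symm }
  have hmem : ∀ s, s ∈ H₁ ↔ ∀ g, c (g * s) = c g := fun s => Iff.rfl
  have hsub : F'.fixingSubgroup ≤ H₁ := fun s hs => (hmem s).2 fun g => hc g s hs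
  obtain ⟨hfix, hle⟩ := fixedField_spec_of_le hsub
  have hfd : FiniteDimensional ℚ (IntermediateField.fixedField H₁) :=
    FiniteDimensional.of_injective (IntermediateField.inclusion hle).toLinearMap
      (IntermediateField.inclusion_injective hle)
  refine ⟨IntermediateField.fixedField H₁, hfd, ⟨hfd, fun q hq A hA i hi => ?_⟩,
    fun g s hs => ?_⟩
  · rw [hfix, hmem]
    exact fun g => hI q hq A hA g i hi
  · rw [hfix, hmem] at hs
    exact hs g

/-- **FACT-1**, Prelude vocabulary: a level-constant function which is right-invariant under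
all inertia groups at the primes outside `S` is of level `S`. -/
theorem isLevelConstantS₁_of_right_invariant {S : Finset Nat.Primes} {X : Type*} {c : Gq → X}
    (hc : IsLevelConstant₁ (MonoidHom.id Gq) c)
    (hI : ∀ q : Nat.Primes, q ∉ S → ∀ A : ValuationSubring Qb, A.LiesOverPrime (q : ℕ) →
      ∀ g, ∀ i ∈ A.inertiaSubgroupIn ℚ, c (g * i) = c g) :
    IsLevelConstantS₁ S c := by
  obtain ⟨F', hF', hc'⟩ := hc
  obtain ⟨F₁, -, hF₁, h⟩ := exists_level_of_right_invariant c F' (fun g s hs => hc' g s hs) hI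
  exact ⟨F₁, hF₁, fun g s hs => h g s hs⟩

variable {k : Type} [CommRing k] {S : Finset Nat.Primes} (N : Rep k Gq)

/-- Right translation by an element of a level of `d c`. -/
theorem apply_mul_right {Fa : IntermediateField ℚ Qb} {c : Gq → N}
    (ha : ∀ g g' s s' : Gq, s ∈ Fa.fixingSubgroup → s' ∈ Fa.fixingSubgroup →
      (d₁₂ N).hom c (g * s, g' * s') = (d₁₂ N).hom c (g, g'))
    (g s : Gq) (hs : s ∈ Fa.fixingSubgroup) :
    c (g * s) = c g + (N.ρ g (c s) - N.ρ g (c 1)) := by
  have h1 := ha g 1 1 s (one_mem _) hs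
  rw [mul_one, one_mul, d₁₂_hom_apply, d₁₂_hom_apply] at h1
  simp only [mul_one] at h1
  have h2 : c (g * s) = N.ρ g (c s) + c g - (N.ρ g (c 1) - c g + c g) := by
    rw [← h1]; abel
  rw [h2]; abel

/-- Left translation by an element of a level of `d c` acting trivially on `N`. -/
theorem apply_mul_left {Fa : IntermediateField ℚ Qb} {c : Gq → N}
    (ha : ∀ g g' s s' : Gq, s ∈ Fa.fixingSubgroup → s' ∈ Fa.fixingSubgroup →
      (d₁₂ N).hom c (g * s, g' * s') = (d₁₂ N).hom c (g, g'))
    (g s : Gq) (hs : s ∈ Fa.fixingSubgroup) (hρ : N.ρ s = 1) :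
    c (s * g) = c g + (c s - c 1) := by
  have h1 := ha 1 g s 1 hs (one_mem _)
  rw [mul_one, one_mul, d₁₂_hom_apply, d₁₂_hom_apply] at h1
  simp only [one_mul, hρ, map_one, Module.End.one_apply] at h1
  have h2 : c (s * g) = c g + c s - (c g - c g + c 1) := by
    rw [← h1]; abel
  rw [h2]; abel

/-- **FACT**, core form: a level-constant `1`-cochain whose coboundary is of level `S` and
which is constant on all inertia groups outside `S` is a level-`S` cochain. -/
theorem isLevelConstantS₁_of_inertia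
    (hN : ∃ F₀ : IntermediateField ℚ Qb, F₀.IsUnramifiedOutside S ∧
      ∀ s ∈ F₀.fixingSubgroup, N.ρ s = 1)
    (c : Gq → N) (hc : IsLevelConstant₁ (MonoidHom.id Gq) c)
    (hd : IsLevelConstantS₂ S ((d₁₂ N).hom c))
    (hI : ∀ q : Nat.Primes, q ∉ S → ∀ A : ValuationSubring Qb, A.LiesOverPrime (q : ℕ) →
      ∀ g ∈ A.inertiaSubgroupIn ℚ, c g = c 1) :
    IsLevelConstantS₁ S c := by
  obtain ⟨F₀, hF₀, hN⟩ := hN
  obtain ⟨Fa, hFa, ha⟩ := hd
  obtain ⟨F', hF', hc'⟩ := hc
  have hF : (F₀ ⊔ Fa).IsUnramifiedOutside S := hF₀.sup hFa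
  have h0 : ∀ s, s ∈ (F₀ ⊔ Fa).fixingSubgroup → s ∈ F₀.fixingSubgroup := fun s hs =>
    IntermediateField.fixingSubgroup_antitone le_sup_left hs
  have ha' : ∀ s, s ∈ (F₀ ⊔ Fa).fixingSubgroup → s ∈ Fa.fixingSubgroup := fun s hs =>
    IntermediateField.fixingSubgroup_antitone le_sup_right hs
  let H' : Subgroup Gq :=
    { carrier := {s | s ∈ (F₀ ⊔ Fa).fixingSubgroup ∧ c s = c 1}
      mul_mem' := by
        rintro s t ⟨hs, hcs⟩ ⟨ht, hct⟩
        refine ⟨mul_mem hs ht, ?_⟩
        rw [apply_mul_right N ha s t (ha' t ht), hcs, hct, sub_self, add_zero]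
      one_mem' := ⟨one_mem _, rfl⟩
      inv_mem' := by
        rintro s ⟨hs, hcs⟩
        refine ⟨inv_mem hs, ?_⟩
        have h1 := apply_mul_right N ha s s⁻¹ (ha' _ (inv_mem hs))
        rw [mul_inv_cancel, hcs, hN s (h0 s hs)] at h1
        simp only [Module.End.one_apply] at h1
        exact sub_eq_zero.1 (add_left_cancel (a := c 1) (by rw [add_zero]; exact h1.symm)) }
  have hmem : ∀ s, s ∈ H' ↔ s ∈ (F₀ ⊔ Fa).fixingSubgroup ∧ c s = c 1 := fun s => Iff.rfl
  have hsub : (F₀ ⊔ Fa ⊔ F').fixingSubgroup ≤ H' := by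
    intro s hs
    refine ⟨IntermediateField.fixingSubgroup_antitone le_sup_left hs, ?_⟩
    have := hc' 1 s (IntermediateField.fixingSubgroup_antitone le_sup_right hs)
    rwa [one_mul] at this
  have := hF.1
  have := hF'
  have : FiniteDimensional ℚ (F₀ ⊔ Fa ⊔ F' : IntermediateField ℚ Qb) :=
    IntermediateField.finiteDimensional_sup _ _
  obtain ⟨hfix, hle⟩ := fixedField_spec_of_le hsub
  refine ⟨IntermediateField.fixedField H', ⟨?_, ?_⟩, ?_⟩
  · exact FiniteDimensional.of_injective (IntermediateField.inclusion hle).toLinearMap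
      (IntermediateField.inclusion_injective hle)
  · intro q hq A hA g hg
    rw [hfix, hmem]
    exact ⟨hF.2 q hq A hA hg, hI q hq A hA g hg⟩
  · intro g s hs
    rw [hfix, hmem] at hs
    obtain ⟨hs1, hs2⟩ := hs
    rw [apply_mul_right N ha g s (ha' s hs1), hs2, sub_self, add_zero]

open scoped Pointwise in
/-- **FACT**, one place per prime: it suffices to know that `c` is constant on the inertia
group of ONE valuation subring above each prime outside `S`. -/
theorem isLevelConstantS₁_of_inertia_exists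
    (hN : ∃ F₀ : IntermediateField ℚ Qb, F₀.IsUnramifiedOutside S ∧
      ∀ s ∈ F₀.fixingSubgroup, N.ρ s = 1)
    (c : Gq → N) (hc : IsLevelConstant₁ (MonoidHom.id Gq) c)
    (hd : IsLevelConstantS₂ S ((d₁₂ N).hom c))
    (hI : ∀ q : Nat.Primes, q ∉ S → ∃ A : ValuationSubring Qb, A.LiesOverPrime (q : ℕ) ∧
      ∀ g ∈ A.inertiaSubgroupIn ℚ, c g = c 1) :
    IsLevelConstantS₁ S c := by
  refine isLevelConstantS₁_of_inertia N hN c hc hd fun q hq A' hA' g' hg' => ?_
  obtain ⟨F₀, hF₀, hN'⟩ := hN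
  obtain ⟨Fa, hFa, ha⟩ := hd
  obtain ⟨A, hA, hIA⟩ := hI q hq
  obtain ⟨σ, rfl⟩ := Fermat.Agent.S55.Glue.PlacesAbove.exists_smul_eq q.2 hA hA'
  have hg : σ⁻¹ * g' * σ⁻¹⁻¹ ∈ (σ⁻¹ • σ • A).inertiaSubgroupIn ℚ :=
    Fermat.Agent.S55.Glue.conj_mem_inertiaSubgroupIn hg' σ⁻¹
  rw [inv_smul_smul, inv_inv] at hg
  have hcg : c (σ⁻¹ * g' * σ) = c 1 := hIA _ hg
  have hgF : σ⁻¹ * g' * σ ∈ (F₀ ⊔ Fa).fixingSubgroup := (hF₀.sup hFa).2 q hq A hA hg
  have hg'F : g' ∈ (F₀ ⊔ Fa).fixingSubgroup := (hF₀.sup hFa).2 q hq (σ • A) hA' hg'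
  have h1 : c (σ * (σ⁻¹ * g' * σ)) = c σ := by
    rw [apply_mul_right N ha σ _ (IntermediateField.fixingSubgroup_antitone le_sup_right hgF),
      hcg, sub_self, add_zero]
  have h2 : c (g' * σ) = c σ + (c g' - c 1) :=
    apply_mul_left N ha σ g' (IntermediateField.fixingSubgroup_antitone le_sup_right hg'F)
      (hN' g' (IntermediateField.fixingSubgroup_antitone le_sup_left hg'F))
  have h3 : σ * (σ⁻¹ * g' * σ) = g' * σ := by group
  rw [h3] at h1
  rw [h1] at h2
  exact sub_eq_zero.1 (add_left_cancel (a := c σ) (by rw [add_zero]; exact h2.symm))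

/-- The Prelude's distinguished place above `q` lies over `q`. -/
theorem liesOverPrime_primeLocalPlace (q : Nat.Primes) :
    (primeLocalPlace q).LiesOverPrime (q : ℕ) := by
  have : Fact (q : ℕ).Prime := ⟨q.2⟩
  unfold ValuationSubring.LiesOverPrime
  rw [ValuationSubring.mem_nonunits_iff_or]
  right
  show ¬ (((q : ℕ) : Qb)⁻¹ ∈ padicPlace (q : ℕ))
  rw [mem_padicPlace_iff, ← NNReal.coe_le_coe, coe_nnnorm, map_inv₀, norm_inv,
    Fermat.Agent.S55.Glue.LocalRange.norm_padicEmbedding_natCast_self, inv_inv, NNReal.coe_one,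
    not_le]
  exact_mod_cast q.2.one_lt

/-- The inertia subgroup is contained in the decomposition subgroup. -/
theorem inertiaSubgroupIn_le_decompositionSubgroup (A : ValuationSubring Qb) :
    A.inertiaSubgroupIn ℚ ≤ A.decompositionSubgroup ℚ := by
  rintro g ⟨x, -, rfl⟩
  exact x.2

/-- **FACT**, local form: for every `q ∉ S`, the restriction of `c` to the Prelude's local group
at `q` takes the value `c 1` on the preimage of `Fix(F_q)`, where the inertia group of the
distinguished place above `q` fixes `F_q`. -/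
theorem isLevelConstantS₁_of_local
    (hN : ∃ F₀ : IntermediateField ℚ Qb, F₀.IsUnramifiedOutside S ∧
      ∀ s ∈ F₀.fixingSubgroup, N.ρ s = 1)
    (c : Gq → N) (hc : IsLevelConstant₁ (MonoidHom.id Gq) c)
    (hd : IsLevelConstantS₂ S ((d₁₂ N).hom c))
    (hloc : ∀ q : Nat.Primes, q ∉ S → ∃ Fq : IntermediateField ℚ Qb,
      (primeLocalPlace q).inertiaSubgroupIn ℚ ≤ Fq.fixingSubgroup ∧
      ∀ τ : primeLocalGaloisGroup q, primeLocalToGlobal q τ ∈ Fq.fixingSubgroup →
        c (primeLocalToGlobal q τ) = c 1) :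
    IsLevelConstantS₁ S c := by
  refine isLevelConstantS₁_of_inertia_exists N hN c hc hd fun q hq => ?_
  obtain ⟨Fq, hFq, h⟩ := hloc q hq
  refine ⟨primeLocalPlace q, liesOverPrime_primeLocalPlace q, fun g hg => ?_⟩
  have hgD : g ∈ (primeLocalPlace q).decompositionSubgroup ℚ :=
    inertiaSubgroupIn_le_decompositionSubgroup _ hg
  rw [← Fermat.Agent.S55.Glue.LocalRange.range_primeLocalToGlobal] at hgD
  obtain ⟨τ, rfl⟩ := hgD
  exact h τ (hFq hg)

/-- **FACT**, in the literal shape of the base-case note: for every `q ∉ S`,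
`res_q c = t + u + d n` on the local group at `q`, with `t`, `u` unramified local cochains
(constant modulo the preimage of `Fix(F_t)`, resp. `Fix(F_u)`, fields fixed by the inertia
group of the distinguished place above `q`) and `n : N`. -/
theorem isLevelConstantS₁_of_local_decomp
    (hN : ∃ F₀ : IntermediateField ℚ Qb, F₀.IsUnramifiedOutside S ∧
      ∀ s ∈ F₀.fixingSubgroup, N.ρ s = 1)
    (c : Gq → N) (hc : IsLevelConstant₁ (MonoidHom.id Gq) c)
    (hd : IsLevelConstantS₂ S ((d₁₂ N).hom c))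
    (hloc : ∀ q : Nat.Primes, q ∉ S → ∃ (t u : primeLocalGaloisGroup q → N) (n : N)
      (Ft Fu : IntermediateField ℚ Qb),
      (primeLocalPlace q).inertiaSubgroupIn ℚ ≤ Ft.fixingSubgroup ∧
      (primeLocalPlace q).inertiaSubgroupIn ℚ ≤ Fu.fixingSubgroup ∧
      (∀ τ σ : primeLocalGaloisGroup q, primeLocalToGlobal q σ ∈ Ft.fixingSubgroup →
        t (τ * σ) = t τ) ∧
      (∀ τ σ : primeLocalGaloisGroup q, primeLocalToGlobal q σ ∈ Fu.fixingSubgroup →
        u (τ * σ) = u τ) ∧
      ∀ τ : primeLocalGaloisGroup q,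
        c (primeLocalToGlobal q τ) = t τ + u τ + (N.ρ (primeLocalToGlobal q τ) n - n)) :
    IsLevelConstantS₁ S c := by
  obtain ⟨F₀, hF₀, hN'⟩ := hN
  refine isLevelConstantS₁_of_local N ⟨F₀, hF₀, hN'⟩ c hc hd fun q hq => ?_
  obtain ⟨t, u, n, Ft, Fu, hIt, hIu, ht, hu, hdec⟩ := hloc q hq
  refine ⟨Ft ⊔ Fu ⊔ F₀, ?_, fun τ hτ => ?_⟩
  · rw [IntermediateField.fixingSubgroup_sup, IntermediateField.fixingSubgroup_sup]
    exact le_inf (le_inf hIt hIu) (hF₀.2 q hq _ (liesOverPrime_primeLocalPlace q))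
  · rw [IntermediateField.fixingSubgroup_sup, IntermediateField.fixingSubgroup_sup] at hτ
    obtain ⟨⟨hτt, hτu⟩, hτ0⟩ := hτ
    have h1 := hdec τ
    have h2 := hdec 1
    rw [map_one] at h2
    rw [hN' _ hτ0] at h1
    have e1 : t τ = t 1 := by simpa using ht 1 τ hτt
    have e2 : u τ = u 1 := by simpa using hu 1 τ hτu
    rw [h1, h2, e1, e2]
    simp

/-! ### FACT-2: the cochain algebra at one prime `q ∉ S` -/

/-- If `c` is `c 1` on the inertia group of a valuation subring over `q ∉ S`, then `c` is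
right-invariant under that inertia group. -/
theorem right_invariant_of_eq_one
    (hN : ∃ F₀ : IntermediateField ℚ Qb, F₀.IsUnramifiedOutside S ∧
      ∀ s ∈ F₀.fixingSubgroup, N.ρ s = 1)
    (c : Gq → N) (hd : IsLevelConstantS₂ S ((d₁₂ N).hom c))
    (q : Nat.Primes) (hq : q ∉ S) (A : ValuationSubring Qb) (hA : A.LiesOverPrime (q : ℕ))
    (hIA : ∀ i ∈ A.inertiaSubgroupIn ℚ, c i = c 1) :
    ∀ g, ∀ i ∈ A.inertiaSubgroupIn ℚ, c (g * i) = c g := by
  obtain ⟨F₀, hF₀, -⟩ := hN
  obtain ⟨Fa, hFa, ha⟩ := hd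
  intro g i hi
  rw [apply_mul_right N ha g i (hFa.2 q hq A hA hi), hIA i hi, sub_self, add_zero]

open scoped Pointwise in
/-- If `c` is `c 1` on the inertia group of ONE valuation subring over `q ∉ S`, it is `c 1` on
the inertia group of EVERY valuation subring over `q`. -/
theorem eq_one_on_inertia_of_exists
    (hN : ∃ F₀ : IntermediateField ℚ Qb, F₀.IsUnramifiedOutside S ∧
      ∀ s ∈ F₀.fixingSubgroup, N.ρ s = 1)
    (c : Gq → N) (hd : IsLevelConstantS₂ S ((d₁₂ N).hom c))
    (q : Nat.Primes) (hq : q ∉ S) (A : ValuationSubring Qb) (hA : A.LiesOverPrime (q : ℕ))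
    (hIA : ∀ i ∈ A.inertiaSubgroupIn ℚ, c i = c 1) :
    ∀ A' : ValuationSubring Qb, A'.LiesOverPrime (q : ℕ) →
      ∀ i ∈ A'.inertiaSubgroupIn ℚ, c i = c 1 := by
  intro A' hA' g' hg'
  obtain ⟨F₀, hF₀, hN'⟩ := hN
  obtain ⟨Fa, hFa, ha⟩ := hd
  obtain ⟨σ, rfl⟩ := Fermat.Agent.S55.Glue.PlacesAbove.exists_smul_eq q.2 hA hA'
  have hg : σ⁻¹ * g' * σ⁻¹⁻¹ ∈ (σ⁻¹ • σ • A).inertiaSubgroupIn ℚ :=
    Fermat.Agent.S55.Glue.conj_mem_inertiaSubgroupIn hg' σ⁻¹
  rw [inv_smul_smul, inv_inv] at hg
  have hcg : c (σ⁻¹ * g' * σ) = c 1 := hIA _ hg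
  have h1 : c (σ * (σ⁻¹ * g' * σ)) = c σ := by
    rw [apply_mul_right N ha σ _ (hFa.2 q hq A hA hg), hcg, sub_self, add_zero]
  have h2 : c (g' * σ) = c σ + (c g' - c 1) :=
    apply_mul_left N ha σ g' (hFa.2 q hq (σ • A) hA' hg') (hN' g' (hF₀.2 q hq (σ • A) hA' hg'))
  have h3 : σ * (σ⁻¹ * g' * σ) = g' * σ := by group
  rw [h3] at h1
  rw [h1] at h2
  exact sub_eq_zero.1 (add_left_cancel (a := c σ) (by rw [add_zero]; exact h2.symm))

/-- If `res_q c = t + u + d n` on the Prelude's local group at `q ∉ S`, with `t`, `u` unramified,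
then `c` is `c 1` on the inertia group of the distinguished place above `q`. -/
theorem eq_one_on_inertia_of_local_decomp
    (hN : ∃ F₀ : IntermediateField ℚ Qb, F₀.IsUnramifiedOutside S ∧
      ∀ s ∈ F₀.fixingSubgroup, N.ρ s = 1)
    (c : Gq → N) (q : Nat.Primes) (hq : q ∉ S)
    (t u : primeLocalGaloisGroup q → N) (n : N) (Ft Fu : IntermediateField ℚ Qb)
    (hIt : (primeLocalPlace q).inertiaSubgroupIn ℚ ≤ Ft.fixingSubgroup)
    (hIu : (primeLocalPlace q).inertiaSubgroupIn ℚ ≤ Fu.fixingSubgroup)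
    (ht : ∀ τ σ : primeLocalGaloisGroup q, primeLocalToGlobal q σ ∈ Ft.fixingSubgroup →
      t (τ * σ) = t τ)
    (hu : ∀ τ σ : primeLocalGaloisGroup q, primeLocalToGlobal q σ ∈ Fu.fixingSubgroup →
      u (τ * σ) = u τ)
    (hdec : ∀ τ : primeLocalGaloisGroup q,
      c (primeLocalToGlobal q τ) = t τ + u τ + (N.ρ (primeLocalToGlobal q τ) n - n)) :
    ∀ i ∈ (primeLocalPlace q).inertiaSubgroupIn ℚ, c i = c 1 := by
  obtain ⟨F₀, hF₀, hN'⟩ := hN
  intro g hg
  have hgD : g ∈ (primeLocalPlace q).decompositionSubgroup ℚ :=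
    inertiaSubgroupIn_le_decompositionSubgroup _ hg
  rw [← Fermat.Agent.S55.Glue.LocalRange.range_primeLocalToGlobal] at hgD
  obtain ⟨τ, rfl⟩ := hgD
  have h1 := hdec τ
  have h2 := hdec 1
  rw [map_one] at h2
  rw [hN' _ (hF₀.2 q hq _ (liesOverPrime_primeLocalPlace q) hg)] at h1
  have e1 : t τ = t 1 := by simpa using ht 1 τ (hIt hg)
  have e2 : u τ = u 1 := by simpa using hu 1 τ (hIu hg)
  rw [h1, h2, e1, e2]
  simp

/-- **FACT-2** (cochain algebra at one prime `q ∉ S`).  `N` trivial on `Fix(F₀)`, `F₀` unramified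
outside `S`; `d c` of level `S`; `res_q c = t + u + d n` on the Prelude's local group at `q`,
with `t`, `u` unramified local cochains.  Then `c` is right-invariant under the inertia group of
every valuation subring over `q`. -/
theorem right_invariant_inertia_of_local_decomp
    (hN : ∃ F₀ : IntermediateField ℚ Qb, F₀.IsUnramifiedOutside S ∧
      ∀ s ∈ F₀.fixingSubgroup, N.ρ s = 1)
    (c : Gq → N) (hd : IsLevelConstantS₂ S ((d₁₂ N).hom c)) (q : Nat.Primes) (hq : q ∉ S)
    (t u : primeLocalGaloisGroup q → N) (n : N) (Ft Fu : IntermediateField ℚ Qb)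
    (hIt : (primeLocalPlace q).inertiaSubgroupIn ℚ ≤ Ft.fixingSubgroup)
    (hIu : (primeLocalPlace q).inertiaSubgroupIn ℚ ≤ Fu.fixingSubgroup)
    (ht : ∀ τ σ : primeLocalGaloisGroup q, primeLocalToGlobal q σ ∈ Ft.fixingSubgroup →
      t (τ * σ) = t τ)
    (hu : ∀ τ σ : primeLocalGaloisGroup q, primeLocalToGlobal q σ ∈ Fu.fixingSubgroup →
      u (τ * σ) = u τ)
    (hdec : ∀ τ : primeLocalGaloisGroup q,
      c (primeLocalToGlobal q τ) = t τ + u τ + (N.ρ (primeLocalToGlobal q τ) n - n)) :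
    ∀ A : ValuationSubring Qb, A.LiesOverPrime (q : ℕ) →
      ∀ g, ∀ i ∈ A.inertiaSubgroupIn ℚ, c (g * i) = c g := by
  intro A hA
  exact right_invariant_of_eq_one N hN c hd q hq A hA
    (eq_one_on_inertia_of_exists N hN c hd q hq _ (liesOverPrime_primeLocalPlace q)
      (eq_one_on_inertia_of_local_decomp N hN c q hq t u n Ft Fu hIt hIu ht hu hdec) A hA)

end Fermat.Agent.S55.Base.Fact
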