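import Fermat.Agent.S55.Base.Fact
import Fermat.Agent.S55.Arith.UnramLocal

/-!
# S55 / base case: FACT in the `IsUnram₁` vocabulary

The statements of `Base/Fact.lean` with the unramified local cochains of
`Arith/UnramLocal.lean` (`IsUnram₁ q t`: constant modulo the preimage of `Fix(F)`, `F`
unramified outside a finite set of primes not containing `q`).

* `right_invariant_inertia_of_isUnram` (**FACT-2**): `res_q c = t + u + d n` with `t`, `u`
  unramified gives right-invariance of `c` under all inertia groups over `q ∉ S`;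
* `isLevelConstantS₁_of_isUnram_decomp` (**FACT**): if this holds at every `q ∉ S`, the
  level-constant cochain `c` (with `d c` of level `S`) is of level `S`.
-/

set_option autoImplicit false

open CategoryTheory groupCohomology ExtCitation

namespace Fermat.Agent.S55.Base.Fact

local notation "Qb" => AlgebraicClosure ℚ
local notation "Gq" => (AlgebraicClosure ℚ ≃ₐ[ℚ] AlgebraicClosure ℚ)

open Fermat.Agent.S55.Arith.Unram

variable {k : Type} [CommRing k] {S : Finset Nat.Primes} (N : Rep k Gq)

/-- An unramified local cochain is right-invariant modulo the preimage of `Fix(F)` for a field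
`F` fixed by the inertia group of the distinguished place. -/
theorem exists_field_of_isUnram₁ {q : Nat.Primes} {X : Type*} {t : primeLocalGaloisGroup q → X}
    (ht : IsUnram₁ q t) :
    ∃ F : IntermediateField ℚ Qb, (primeLocalPlace q).inertiaSubgroupIn ℚ ≤ F.fixingSubgroup ∧
      ∀ τ σ : primeLocalGaloisGroup q, primeLocalToGlobal q σ ∈ F.fixingSubgroup →
        t (τ * σ) = t τ := by
  obtain ⟨S', hq, F, hF, h⟩ := ht
  exact ⟨F, hF.2 q hq _ (liesOverPrime_primeLocalPlace q), h⟩

/-- **FACT-2**, `IsUnram₁` vocabulary. -/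
theorem right_invariant_inertia_of_isUnram
    (hN : ∃ F₀ : IntermediateField ℚ Qb, F₀.IsUnramifiedOutside S ∧
      ∀ s ∈ F₀.fixingSubgroup, N.ρ s = 1)
    (c : Gq → N) (hd : IsLevelConstantS₂ S ((d₁₂ N).hom c)) (q : Nat.Primes) (hq : q ∉ S)
    (t u : primeLocalGaloisGroup q → N) (n : N) (ht : IsUnram₁ q t) (hu : IsUnram₁ q u)
    (hdec : ∀ τ : primeLocalGaloisGroup q,
      c (primeLocalToGlobal q τ) = t τ + u τ + (N.ρ (primeLocalToGlobal q τ) n - n)) :
    ∀ A : ValuationSubring Qb, A.LiesOverPrime (q : ℕ) →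
      ∀ g, ∀ i ∈ A.inertiaSubgroupIn ℚ, c (g * i) = c g := by
  obtain ⟨Ft, hIt, ht'⟩ := exists_field_of_isUnram₁ ht
  obtain ⟨Fu, hIu, hu'⟩ := exists_field_of_isUnram₁ hu
  exact right_invariant_inertia_of_local_decomp N hN c hd q hq t u n Ft Fu hIt hIu ht' hu' hdec

/-- **FACT**, `IsUnram₁` vocabulary: a level-constant `1`-cochain `c` with `d c` of level `S`
such that at every `q ∉ S` the restriction `res_q c` is an unramified cochain plus an unramified
cochain plus a coboundary, is a level-`S` cochain. -/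
theorem isLevelConstantS₁_of_isUnram_decomp
    (hN : ∃ F₀ : IntermediateField ℚ Qb, F₀.IsUnramifiedOutside S ∧
      ∀ s ∈ F₀.fixingSubgroup, N.ρ s = 1)
    (c : Gq → N) (hc : IsLevelConstant₁ (MonoidHom.id Gq) c)
    (hd : IsLevelConstantS₂ S ((d₁₂ N).hom c))
    (hloc : ∀ q : Nat.Primes, q ∉ S → ∃ (t u : primeLocalGaloisGroup q → N) (n : N),
      IsUnram₁ q t ∧ IsUnram₁ q u ∧ ∀ τ : primeLocalGaloisGroup q,
        c (primeLocalToGlobal q τ) = t τ + u τ + (N.ρ (primeLocalToGlobal q τ) n - n)) :
    IsLevelConstantS₁ S c := by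
  refine isLevelConstantS₁_of_right_invariant hc fun q hq => ?_
  obtain ⟨t, u, n, ht, hu, hdec⟩ := hloc q hq
  exact right_invariant_inertia_of_isUnram N hN c hd q hq t u n ht hu hdec

end Fermat.Agent.S55.Base.Fact
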