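import Fermat.Agent.S55.Base.IdeleLA

/-!
# S55 base case: the abstract assembly of `𝕁 = ⊕_{w ∈ S} H¹(K_w, 𝔽_p) ⊕ I_S/p`

Deputy file of `Base/IdeleLA.lean` (section 2, items (a)–(d) of
`notes/helper145/S55_base_case.md`).  From abstract data

* `L w`, `L' w` : the local spaces `H¹(K_w, 𝔽_p)`, `H¹(K_w, μ_p)` at the places `w` over `S`,
  `hs w : L w × L' w → k` the local symbol (`inv_w ∘ ∪`);
* `V` : `H¹(G_{K,S}, μ_p)`, `locV w : V → L' w` the localisations, `frob v : V → k` the value at the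
  Frobenius of a place `v` outside `S`;
* `Γ` : `K^×/p`, `kap w : Γ → L w` the local Kummer characters, `ord : Γ → (P →₀ k)` the
  valuations outside `S`, `inc : V → Γ` the Kummer generators,

we build `J`, the pairing `B : J × V → k`, the global map `Dmap : Γ → J` and prove from
* local nondegeneracy at `w ∈ S`, the Kummer ramification dictionary, the product formula,
  "non-`p`-th powers are detected by a Frobenius outside `S`" and the dimension count
that `range Dmap` is exactly the left kernel of `B`, that `dim Ш¹ = dim Cl_S/p` and that the class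
pairing is perfect.
-/

set_option autoImplicit false

namespace Fermat.Agent.S55.Base

open Module

section LE

variable {k : Type*} [Field k] {J V : Type*} [AddCommGroup J] [Module k J]
  [AddCommGroup V] [Module k V]

/-- The count `finrank JS + 2 * finrank (J ⧸ (D ⊔ JS)) ≤ 2 * finrank V` is automatically an
equality under the other hypotheses of `idele_la`. -/
theorem idele_count_eq_of_le [FiniteDimensional k V] (B : J →ₗ[k] V →ₗ[k] k) (D JS : Submodule k J)
    [FiniteDimensional k JS]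
    (ι : V →ₗ[k] J)
    (h1 : ∀ d ∈ D, ∀ y, B d y = 0)
    (h2 : ∀ y, (∀ Ξ, B Ξ y = 0) → y = 0)
    (h3 : LinearMap.range ι = D ⊓ JS)
    (h4 : ∀ y, ι y = 0 ↔ ∀ ξ ∈ JS, B ξ y = 0)
    [FiniteDimensional k (J ⧸ (D ⊔ JS))]
    (h5 : finrank k JS + 2 * finrank k (J ⧸ (D ⊔ JS)) ≤ 2 * finrank k V) :
    finrank k JS + 2 * finrank k (J ⧸ (D ⊔ JS)) = 2 * finrank k V := by
  classical
  have hDK : ∀ d ∈ D, B d = 0 := fun d hd => LinearMap.ext fun y => by simpa using h1 d hd y
  -- `b ≤ c`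
  have hψ := classPairing_injective B D JS ι h1 h2 (fun y hy => (h4 y).1 hy)
  have hbc : finrank k (LinearMap.ker ι) ≤ finrank k (J ⧸ (D ⊔ JS)) := by
    have := LinearMap.finrank_le_finrank_of_injective hψ
    rwa [Subspace.dual_finrank_eq] at this
  -- the restriction of `B` to `JS`
  set BS : JS →ₗ[k] V →ₗ[k] k := B.domRestrict JS with hBS
  have hco : (LinearMap.range BS).dualCoannihilator = LinearMap.ker ι := by
    ext y
    rw [Submodule.mem_dualCoannihilator, LinearMap.mem_ker, h4]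
    constructor
    · intro h ξ hξ
      exact h (BS ⟨ξ, hξ⟩) ⟨⟨ξ, hξ⟩, rfl⟩
    · rintro h f ⟨ξ, rfl⟩
      exact h ξ.1 ξ.2
  have hrange : finrank k (LinearMap.range BS) + finrank k (LinearMap.ker ι) = finrank k V := by
    rw [← hco]
    exact Subspace.finrank_add_finrank_dualCoannihilator_eq (LinearMap.range BS)
  have hrn := LinearMap.finrank_range_add_finrank_ker BS
  have hι := LinearMap.finrank_range_add_finrank_ker ι
  have hle : Submodule.comap JS.subtype D ≤ LinearMap.ker BS := by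
    intro ξ hξ
    rw [LinearMap.mem_ker]
    have := hDK _ (Submodule.mem_comap.1 hξ)
    simpa [hBS] using this
  have hcomap : finrank k (Submodule.comap JS.subtype D) = finrank k (LinearMap.range ι) := by
    have e1 : Submodule.comap JS.subtype D = Submodule.comap JS.subtype (D ⊓ JS) := by
      ext ξ
      simp
    rw [e1, h3]
    exact (Submodule.comapSubtypeEquivOfLe (inf_le_right : D ⊓ JS ≤ JS)).finrank_eq
  have hle2 := Submodule.finrank_mono hle
  omega

/-- `idele_la` with the dimension count as an inequality. -/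
theorem idele_la_le [FiniteDimensional k V] (B : J →ₗ[k] V →ₗ[k] k) (D JS : Submodule k J)
    [FiniteDimensional k JS]
    (ι : V →ₗ[k] J)
    (h1 : ∀ d ∈ D, ∀ y, B d y = 0)
    (h2 : ∀ y, (∀ Ξ, B Ξ y = 0) → y = 0)
    (h3 : LinearMap.range ι = D ⊓ JS)
    (h4 : ∀ y, ι y = 0 ↔ ∀ ξ ∈ JS, B ξ y = 0)
    [FiniteDimensional k (J ⧸ (D ⊔ JS))]
    (h5 : finrank k JS + 2 * finrank k (J ⧸ (D ⊔ JS)) ≤ 2 * finrank k V) :
    D = LinearMap.ker B ∧
    finrank k (LinearMap.ker ι) = finrank k (J ⧸ (D ⊔ JS)) ∧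
    (∀ Ξ, (∀ y, ι y = 0 → B Ξ y = 0) → Ξ ∈ D ⊔ JS) :=
  idele_la B D JS ι h1 h2 h3 h4 (idele_count_eq_of_le B D JS ι h1 h2 h3 h4 h5)

end LE

namespace JJ

variable {k : Type*} [Field k] {W : Type*} {P : Type*}
  {L L' : W → Type*}
  [∀ w, AddCommGroup (L w)] [∀ w, Module k (L w)]
  [∀ w, AddCommGroup (L' w)] [∀ w, Module k (L' w)]
  {V Γ : Type*} [AddCommGroup V] [Module k V] [AddCommGroup Γ] [Module k Γ]

/-- The `S`-part of the pairing: `(ξ, y) ↦ ∑_w hs w (ξ w) (locV w y)`. -/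
noncomputable def pairS [Fintype W] (hs : ∀ w, L w →ₗ[k] L' w →ₗ[k] k)
    (locV : ∀ w, V →ₗ[k] L' w) :
    (∀ w, L w) →ₗ[k] V →ₗ[k] k :=
  ∑ w, ((hs w).compl₂ (locV w)).comp (LinearMap.proj w)

@[simp] theorem pairS_apply [Fintype W] (hs : ∀ w, L w →ₗ[k] L' w →ₗ[k] k)
    (locV : ∀ w, V →ₗ[k] L' w) (ξ : ∀ w, L w) (y : V) : pairS hs locV ξ y = ∑ w, hs w (ξ w) (locV w y) := by
  simp [pairS, LinearMap.sum_apply]

/-- The part of the pairing outside `S`: `(d, y) ↦ ∑_v d_v * frob v y`. -/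
noncomputable def pairP (frob : P → V →ₗ[k] k) : (P →₀ k) →ₗ[k] V →ₗ[k] k :=
  Finsupp.linearCombination k frob

theorem pairP_apply (frob : P → V →ₗ[k] k) (d : P →₀ k) (y : V) :
    pairP frob d y = d.sum fun v c => c * frob v y := by
  simp [pairP, Finsupp.linearCombination_apply, Finsupp.sum, LinearMap.sum_apply]

@[simp] theorem pairP_single (frob : P → V →ₗ[k] k) (v : P) (c : k) (y : V) :
    pairP frob (Finsupp.single v c) y = c * frob v y := by
  simp [pairP]

/-- The pairing `B : J × V → k`, `J = (∏_{w} L w) × (P →₀ k)`. -/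
noncomputable def pairing [Fintype W] (hs : ∀ w, L w →ₗ[k] L' w →ₗ[k] k)
    (locV : ∀ w, V →ₗ[k] L' w) (frob : P → V →ₗ[k] k) : ((∀ w, L w) × (P →₀ k)) →ₗ[k] V →ₗ[k] k :=
  (pairS hs locV).coprod (pairP frob)

@[simp] theorem pairing_apply [Fintype W] (hs : ∀ w, L w →ₗ[k] L' w →ₗ[k] k)
    (locV : ∀ w, V →ₗ[k] L' w) (frob : P → V →ₗ[k] k) (Ξ : (∀ w, L w) × (P →₀ k)) (y : V) :
    pairing hs locV frob Ξ y = ∑ w, hs w (Ξ.1 w) (locV w y) + pairP frob Ξ.2 y := by
  simp [pairing, LinearMap.coprod_apply]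

/-- The global map `Γ → J`, `γ ↦ ((kap w γ)_w, ord γ)`. -/
noncomputable def Dmap (kap : ∀ w, Γ →ₗ[k] L w) (ord : Γ →ₗ[k] (P →₀ k)) : Γ →ₗ[k] ((∀ w, L w) × (P →₀ k)) :=
  (LinearMap.pi kap).prod ord

@[simp] theorem Dmap_apply (kap : ∀ w, Γ →ₗ[k] L w) (ord : Γ →ₗ[k] (P →₀ k)) (γ : Γ) :
    Dmap kap ord γ = (fun w => kap w γ, ord γ) := rfl

/-- The local part `JS = (∏_w L w) × 0` of `J`. -/
noncomputable def JS (k : Type*) [Field k] {W : Type*} (L : W → Type*) (P : Type*)
    [∀ w, AddCommGroup (L w)] [∀ w, Module k (L w)] : Submodule k ((∀ w, L w) × (P →₀ k)) :=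
  LinearMap.range (LinearMap.inl k (∀ w, L w) (P →₀ k))

theorem mem_JS_iff (Ξ : (∀ w, L w) × (P →₀ k)) : Ξ ∈ JS k L P ↔ Ξ.2 = 0 := by
  constructor
  · rintro ⟨ξ, rfl⟩; rfl
  · intro h
    exact ⟨Ξ.1, Prod.ext rfl h.symm⟩

/-- `J ⧸ (D ⊔ JS) ≃ (P →₀ k) ⧸ range ord` (the class group mod `p`). -/
noncomputable def quotEquiv (kap : ∀ w, Γ →ₗ[k] L w) (ord : Γ →ₗ[k] (P →₀ k)) :
    (((∀ w, L w) × (P →₀ k)) ⧸ (LinearMap.range (Dmap kap ord) ⊔ JS k L P)) ≃ₗ[k]
      ((P →₀ k) ⧸ LinearMap.range ord) :=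
  (Submodule.quotEquivOfEq _ _ (by
    ext Ξ
    simp only [LinearMap.mem_ker, LinearMap.comp_apply, Submodule.mkQ_apply,
      Submodule.Quotient.mk_eq_zero, LinearMap.snd_apply]
    constructor
    · intro hΞ
      obtain ⟨d, ⟨γ, rfl⟩, ξ, hξ, rfl⟩ := Submodule.mem_sup.1 hΞ
      rw [mem_JS_iff] at hξ
      exact ⟨γ, by simp [hξ]⟩
    · rintro ⟨γ, hγ⟩
      refine Submodule.mem_sup.2 ⟨Dmap kap ord γ, ⟨γ, rfl⟩, Ξ - Dmap kap ord γ, ?_, by abel⟩
      rw [mem_JS_iff]
      simp [hγ])).trans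
    (LinearMap.quotKerEquivOfSurjective
      ((LinearMap.range ord).mkQ.comp (LinearMap.snd k (∀ w, L w) (P →₀ k)))
      (fun q => by
        obtain ⟨d, rfl⟩ := Submodule.mkQ_surjective _ q
        exact ⟨(0, d), rfl⟩))

variable [Fintype W] [∀ w, FiniteDimensional k (L w)] [FiniteDimensional k V]

instance : FiniteDimensional k (JS k L P) := by
  unfold JS
  infer_instance

theorem finrank_JS : finrank k (JS k L P) = ∑ w, finrank k (L w) := by
  unfold JS
  rw [LinearMap.finrank_range_of_inj LinearMap.inl_injective, Module.finrank_pi_fintype]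

/-- **The assembly.**  See the file header for the meaning of the data. -/
theorem assembly [DecidableEq W]
    (hs : ∀ w, L w →ₗ[k] L' w →ₗ[k] k) (locV : ∀ w, V →ₗ[k] L' w) (frob : P → V →ₗ[k] k)
    (kap : ∀ w, Γ →ₗ[k] L w) (ord : Γ →ₗ[k] (P →₀ k)) (inc : V →ₗ[k] Γ)
    -- local nondegeneracy at the places of `S` (right kernel of the local symbol is `0`)
    (hloc : ∀ w (y' : L' w), (∀ ξ, hs w ξ y' = 0) → y' = 0)
    -- Kummer dictionary: `V = {γ : ord γ = 0}`
    (hinc : ∀ y, ord (inc y) = 0) (hord : ∀ γ, ord γ = 0 → ∃ y, inc y = γ)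
    -- the two local avatars of `y ∈ V` at `w ∈ S` vanish together
    (hcomp : ∀ w y, kap w (inc y) = 0 ↔ locV w y = 0)
    -- product formula (reciprocity over `K` + unramified symbol outside `S`)
    (hrec : ∀ γ y, ∑ w, hs w (kap w γ) (locV w y) + (ord γ).sum (fun v c => c * frob v y) = 0)
    -- a class killed by all Frobenius elements outside `S` is trivial
    (hfrob : ∀ y, (∀ v, frob v y = 0) → y = 0)
    -- the count (an inequality suffices)
    [FiniteDimensional k ((P →₀ k) ⧸ LinearMap.range ord)]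
    (hcount : ∑ w, finrank k (L w) + 2 * finrank k ((P →₀ k) ⧸ LinearMap.range ord)
      ≤ 2 * finrank k V) :
    -- (d): the image of `Γ` is exactly the left kernel
    (∀ Ξ, (∀ y, pairing hs locV frob Ξ y = 0) ↔ ∃ γ, Dmap kap ord γ = Ξ) ∧
    -- (b'): every functional on `V` is represented
    (∀ φ : V →ₗ[k] k, ∃ Ξ, pairing hs locV frob Ξ = φ) ∧
    -- `dim Ш¹ = dim Cl_S/p`
    finrank k (⨅ w, LinearMap.ker (locV w) : Submodule k V)
      = finrank k ((P →₀ k) ⧸ LinearMap.range ord) ∧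
    -- the class pairing is perfect on the class-group side
    (∀ Ξ, (∀ y, (∀ w, locV w y = 0) → pairing hs locV frob Ξ y = 0) →
      ∃ γ ξ, Ξ = Dmap kap ord γ + (ξ, 0)) ∧
    -- the count is an equality
    ∑ w, finrank k (L w) + 2 * finrank k ((P →₀ k) ⧸ LinearMap.range ord) = 2 * finrank k V := by
  classical
  set B := pairing hs locV frob with hB
  set D := LinearMap.range (Dmap kap ord) with hD
  set ι : V →ₗ[k] ((∀ w, L w) × (P →₀ k)) := (Dmap kap ord).comp inc with hι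
  have hιapp : ∀ y, ι y = (fun w => kap w (inc y), 0) := fun y => by
    simp [hι, hinc]
  have hι0 : ∀ y, ι y = 0 ↔ ∀ w, locV w y = 0 := by
    intro y
    rw [hιapp, Prod.mk_eq_zero]
    constructor
    · intro h w
      exact (hcomp w y).1 (congrFun h.1 w)
    · intro h
      exact ⟨funext fun w => (hcomp w y).2 (h w), rfl⟩
  have h1 : ∀ d ∈ D, ∀ y, B d y = 0 := by
    rintro _ ⟨γ, rfl⟩ y
    rw [hB, pairing_apply, pairP_apply]
    exact hrec γ y
  have h2 : ∀ y, (∀ Ξ, B Ξ y = 0) → y = 0 := by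
    intro y hy
    apply hfrob
    intro v
    have := hy (0, Finsupp.single v 1)
    simpa [hB] using this
  have h3 : LinearMap.range ι = D ⊓ JS k L P := by
    ext Ξ
    constructor
    · rintro ⟨y, rfl⟩
      refine ⟨⟨inc y, rfl⟩, ?_⟩
      rw [SetLike.mem_coe, mem_JS_iff, hιapp]
    · rintro ⟨⟨γ, rfl⟩, hγ⟩
      rw [SetLike.mem_coe, mem_JS_iff] at hγ
      obtain ⟨y, rfl⟩ := hord γ hγ
      exact ⟨y, rfl⟩
  have h4 : ∀ y, ι y = 0 ↔ ∀ ξ ∈ JS k L P, B ξ y = 0 := by
    intro y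
    rw [hι0]
    constructor
    · intro h ξ hξ
      rw [mem_JS_iff] at hξ
      rw [hB, pairing_apply, hξ]
      simp [h]
    · intro h w
      apply hloc
      intro ξ
      have := h (Pi.single w ξ, 0) ((mem_JS_iff _).2 rfl)
      rw [hB, pairing_apply] at this
      simp only [map_zero, LinearMap.zero_apply, add_zero] at this
      rw [Finset.sum_eq_single w] at this
      · simpa using this
      · intro w' _ hw'
        simp [Pi.single_eq_of_ne hw']
      · intro hw
        exact absurd (Finset.mem_univ w) hw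
  let e := quotEquiv (P := P) kap ord
  have : FiniteDimensional k (((∀ w, L w) × (P →₀ k)) ⧸ (D ⊔ JS k L P)) :=
    LinearEquiv.finiteDimensional e.symm
  have hfr : finrank k (((∀ w, L w) × (P →₀ k)) ⧸ (D ⊔ JS k L P))
      = finrank k ((P →₀ k) ⧸ LinearMap.range ord) := e.finrank_eq
  have h5 : finrank k (JS k L P) + 2 * finrank k (((∀ w, L w) × (P →₀ k)) ⧸ (D ⊔ JS k L P))
      ≤ 2 * finrank k V := by
    rw [finrank_JS, hfr]
    exact hcount
  have heq := idele_count_eq_of_le B D (JS k L P) ι h1 h2 h3 h4 h5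
  obtain ⟨hker, hdim, hperf⟩ := idele_la B D (JS k L P) ι h1 h2 h3 h4 heq
  refine ⟨fun Ξ => ?_, fun φ => ?_, ?_, fun Ξ hΞ => ?_, ?_⟩
  · constructor
    · intro h
      have : Ξ ∈ LinearMap.ker B := LinearMap.mem_ker.2 (LinearMap.ext fun y => by simpa using h y)
      rw [← hker] at this
      exact this
    · rintro ⟨γ, rfl⟩ y
      exact h1 _ ⟨γ, rfl⟩ y
  · have := range_eq_top_of_right_nondegenerate B h2
    have hφ : φ ∈ LinearMap.range B := by rw [this]; trivial
    exact hφ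
  · have hkι : LinearMap.ker ι = ⨅ w, LinearMap.ker (locV w) := by
      ext y
      rw [LinearMap.mem_ker, hι0, Submodule.mem_iInf]
      simp only [LinearMap.mem_ker]
    rw [← hkι, hdim, hfr]
  · have := hperf Ξ (fun y hy => hΞ y ((hι0 y).1 hy))
    obtain ⟨d, ⟨γ, rfl⟩, ξ, hξ, rfl⟩ := Submodule.mem_sup.1 this
    rw [mem_JS_iff] at hξ
    exact ⟨γ, ξ.1, by rw [← hξ]⟩
  · rw [← heq, finrank_JS, hfr]

end JJ

end Fermat.Agent.S55.Base
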