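import Fermat.Agent.S55.Base.CapFamily

/-!
# S55, BASE: (KD) at all the places over one prime `q ∉ S` — the arithmetic behind `ThetaFam.Kill`

* `kumDivK` (`K`-side): for `a ∈ Kˣ` with Kummer character `χ`, and Kummer characters `κ w` of
  uniformisers `π w` at the places `w ∈ Ω` over `q` (each a unit at the other places over `q`;
  `Ω` contains every place over `q` in the support of the divisor `dv a`), the character
  `χ - ∑ w ∈ Ω, dv a w * κ w` of `G_K` has a level `T' ⊇ S` with `q ∉ T'`.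
* `kdQ1` (`ℚ`-side): `ind₁ χ - ∑ w ∈ Ω, dv a w • ind₁ (κ w) ∈ C1 (globalLevel T') (M0 G_K)`,
  `q ∉ T'`.
* `kdQ1_ur`: its restriction to the decomposition group at `q` is an unramified cochain.
-/

set_option autoImplicit false

open scoped NumberField IntermediateField
open IsDedekindDomain groupCohomology

namespace Fermat.Agent.S55.Base.CapFam

local notation "Qb" => AlgebraicClosure ℚ
local notation "Gq" => (AlgebraicClosure ℚ ≃ₐ[ℚ] AlgebraicClosure ℚ)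

open Fermat.Agent.S14.Wiring.ValRing Fermat.Agent.CFT.Global.CountV Fermat.Agent.CFT.Count

section KumDivK

variable {p : ℕ} [Fact p.Prime] {S : Finset Nat.Primes} {K : IntermediateField ℚ Qb}
  [NumberField K] {ζ : K}

/-- **(KD), `K`-side, at all the places over one prime `q ∉ S`.** -/
theorem kumDivK (hpS : ExtCitation.pPrime p ∈ S) (hK : K.IsUnramifiedOutside S)
    (hζ : IsPrimitiveRoot ζ p) (q : Nat.Primes) (hq : q ∉ S)
    (Ω : Finset (Outside (SK S K)))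
    (π : Outside (SK S K) → K) (ϖ : Outside (SK S K) → Qb) (κ : Outside (SK S K) → Gq → ZMod p)
    (hπ : ∀ w ∈ Ω, w.1.valuation K (π w) = WithZero.exp (-1 : ℤ))
    (hπ' : ∀ w ∈ Ω, ∀ v : HeightOneSpectrum (𝓞 K), ((q : ℕ) : 𝓞 K) ∈ v.asIdeal → v ≠ w.1 →
      v.valuation K (π w) = 1)
    (hϖ : ∀ w ∈ Ω, ϖ w ^ p = (π w : Qb))
    (hκ : ∀ w ∈ Ω, ∀ s ∈ K.fixingSubgroup, s (ϖ w) = (ζ : Qb) ^ (κ w s).val * ϖ w)
    (a : Kˣ)
    (hΩ' : ∀ w : Outside (SK S K), ((q : ℕ) : 𝓞 K) ∈ w.1.asIdeal → C4K.dv p S K a w ≠ 0 → w ∈ Ω)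
    (ϑ : Qb) (hϑ : ϑ ^ p = ((a : K) : Qb)) (χ : Gq → ZMod p)
    (hχ : ∀ s ∈ K.fixingSubgroup, s ϑ = (ζ : Qb) ^ (χ s).val * ϑ) :
    ∃ T' : Finset Nat.Primes, S ⊆ T' ∧ q ∉ T' ∧
      ∃ F₂ : IntermediateField ℚ Qb, F₂.IsUnramifiedOutside T' ∧
        ∀ g ∈ K.fixingSubgroup, ∀ s ∈ F₂.fixingSubgroup,
          χ (g * s) - ∑ w ∈ Ω, C4K.dv p S K a w * κ w (g * s)
            = χ g - ∑ w ∈ Ω, C4K.dv p S K a w * κ w g := by
  classical
  have hp : p.Prime := Fact.out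
  have : NeZero p := ⟨hp.ne_zero⟩
  set d := C4K.dv p S K a with hd
  set z : Qb := (ζ : Qb) with hz
  have hzprim : IsPrimitiveRoot z p := hζ.map_of_injective (f := K.val) K.val.injective
  have hfixz : ∀ τ ∈ K.fixingSubgroup, τ z = z := fun τ hτ =>
    (IntermediateField.mem_fixingSubgroup_iff K τ).mp hτ z ζ.2
  have ha0 : ((a : K) : Qb) ≠ 0 := fun h => a.ne_zero (Subtype.ext h)
  have hϑ0 : ϑ ≠ 0 := by
    rintro rfl
    rw [zero_pow hp.ne_zero] at hϑ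
    exact ha0 hϑ.symm
  have hπ0 : ∀ w ∈ Ω, (π w : Qb) ≠ 0 := by
    intro w hw h
    have h1 : π w = 0 := Subtype.ext h
    have h2 := hπ w hw
    rw [h1, map_zero] at h2
    exact WithZero.exp_ne_zero h2.symm
  have hϖ0 : ∀ w ∈ Ω, ϖ w ≠ 0 := by
    intro w hw h
    have h2 := hϖ w hw
    rw [h, zero_pow hp.ne_zero] at h2
    exact hπ0 w hw h2.symm
  have hχmul : ∀ s ∈ K.fixingSubgroup, ∀ t ∈ K.fixingSubgroup, χ (s * t) = χ s + χ t :=
    fun s hs t ht => CapitQ.kum_mul hzprim hϑ0 hfixz hχ hs ht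
  have hκmul : ∀ w ∈ Ω, ∀ s ∈ K.fixingSubgroup, ∀ t ∈ K.fixingSubgroup,
      κ w (s * t) = κ w s + κ w t :=
    fun w hw s hs t ht => CapitQ.kum_mul hzprim (hϖ0 w hw) hfixz (hκ w hw) hs ht
  have hχ1 : χ 1 = 0 := CapitQ.kum_eq_zero hzprim hϑ0 hχ (one_mem _) (by simp)
  have hκ1 : ∀ w ∈ Ω, κ w 1 = 0 := fun w hw =>
    CapitQ.kum_eq_zero hzprim (hϖ0 w hw) (hκ w hw) (one_mem _) (by simp)
  let f : Gq → ZMod p := fun s => χ s - ∑ w ∈ Ω, d w * κ w s
  have hfmul : ∀ s ∈ K.fixingSubgroup, ∀ t ∈ K.fixingSubgroup, f (s * t) = f s + f t := by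
    intro s hs t ht
    show χ (s * t) - ∑ w ∈ Ω, d w * κ w (s * t)
      = (χ s - ∑ w ∈ Ω, d w * κ w s) + (χ t - ∑ w ∈ Ω, d w * κ w t)
    have h1 : ∑ w ∈ Ω, d w * κ w (s * t) = ∑ w ∈ Ω, d w * κ w s + ∑ w ∈ Ω, d w * κ w t := by
      rw [← Finset.sum_add_distrib]
      refine Finset.sum_congr rfl fun w hw => ?_
      rw [hκmul w hw s hs t ht, mul_add]
    rw [hχmul s hs t ht, h1]
    ring
  have hf1 : f 1 = 0 := by
    show χ 1 - ∑ w ∈ Ω, d w * κ w 1 = 0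
    rw [hχ1, zero_sub, neg_eq_zero]
    exact Finset.sum_eq_zero fun w hw => by rw [hκ1 w hw, mul_zero]
  have hq_ne : ∀ r : Nat.Primes, r ∉ S → Nat.Coprime (r : ℕ) p := by
    intro r hr
    rw [Nat.coprime_primes r.2 hp]
    intro hrp
    apply hr
    have : r = ExtCitation.pPrime p := Subtype.ext hrp
    rw [this]
    exact hpS
  -- the finite set of primes where `a` or some `π w` is not a unit
  obtain ⟨B₀, hB₀⟩ := CapitQ.exists_finset_valuation_eq_one ((a : K) : Qb) ha0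
  have hBw : ∀ w : Outside (SK S K), ∃ B : Finset Nat.Primes, w ∈ Ω →
      ∀ r : Nat.Primes, r ∉ B → ∀ A : ValuationSubring Qb, A.LiesOverPrime (r : ℕ) →
        A.valuation (π w : Qb) = 1 := by
    intro w
    by_cases hw : w ∈ Ω
    · obtain ⟨B, hB⟩ := CapitQ.exists_finset_valuation_eq_one (π w : Qb) (hπ0 w hw)
      exact ⟨B, fun _ => hB⟩
    · exact ⟨∅, fun h => absurd h hw⟩
  choose Bw hBw using hBw
  set B : Finset Nat.Primes := B₀ ∪ Ω.biUnion Bw with hB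
  -- Kummer characters of units vanish on inertia
  have hunitχ : ∀ r : Nat.Primes, r ∉ S → ∀ A : ValuationSubring Qb, A.LiesOverPrime (r : ℕ) →
      A.valuation ((a : K) : Qb) = 1 → ∀ s ∈ A.inertiaSubgroupIn ℚ, χ s = 0 := by
    intro r hr A hA hu s hs
    have hsK : s ∈ K.fixingSubgroup := hK.2 r hr A hA hs
    refine CapitQ.kum_eq_zero hzprim hϑ0 hχ hsK ?_
    refine Capit.inertia_fixes_root K ϑ (a : K) p hp.ne_zero hϑ A r (hq_ne r hr) hA 1 ?_ s hs hsK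
    have h1 : ((1 : K) : Qb) = 1 := rfl
    rw [h1, one_pow, mul_one]
    exact hu
  have hunitκ : ∀ w ∈ Ω, ∀ r : Nat.Primes, r ∉ S → ∀ A : ValuationSubring Qb,
      A.LiesOverPrime (r : ℕ) → A.valuation (π w : Qb) = 1 →
      ∀ s ∈ A.inertiaSubgroupIn ℚ, κ w s = 0 := by
    intro w hw r hr A hA hu s hs
    have hsK : s ∈ K.fixingSubgroup := hK.2 r hr A hA hs
    refine CapitQ.kum_eq_zero hzprim (hϖ0 w hw) (hκ w hw) hsK ?_
    refine Capit.inertia_fixes_root K (ϖ w) (π w) p hp.ne_zero (hϖ w hw) A r (hq_ne r hr) hA 1 ?_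
      s hs hsK
    have h1 : ((1 : K) : Qb) = 1 := rfl
    rw [h1, one_pow, mul_one]
    exact hu
  have hST' : S ⊆ (S ∪ B).erase q := by
    intro r hr
    exact Finset.mem_erase.mpr ⟨fun h => hq (h ▸ hr), Finset.mem_union_left _ hr⟩
  refine ⟨(S ∪ B).erase q, hST', Finset.notMem_erase _ _, ?_⟩
  refine FactK.level_of_unramified ((S ∪ B).erase q) K (hK.mono hST') f ?_ ?_ ?_
  · -- finite level
    have hint : ∀ x : Qb, IsIntegral ℚ x := fun x =>
      ((AlgebraicClosure.isAlgebraic ℚ).isAlgebraic x).isIntegral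
    have hfd : FiniteDimensional ℚ ↥(Ω.sup (fun w => ℚ⟮ϖ w⟯)) := by
      refine Finset.sup_induction
        (p := fun F : IntermediateField ℚ Qb => FiniteDimensional ℚ F) ?_ ?_ ?_
      · infer_instance
      · intro F₁ h₁ F₂ h₂
        haveI := h₁
        haveI := h₂
        exact IntermediateField.finiteDimensional_sup F₁ F₂
      · intro w _
        exact IntermediateField.adjoin.finiteDimensional (hint (ϖ w))
    haveI : FiniteDimensional ℚ ℚ⟮ϑ⟯ := IntermediateField.adjoin.finiteDimensional (hint ϑ)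
    haveI := hfd
    refine ⟨Ω.sup (fun w => ℚ⟮ϖ w⟯) ⊔ ℚ⟮ϑ⟯, IntermediateField.finiteDimensional_sup _ _,
      fun g hg s hs hsK => ?_⟩
    rw [IntermediateField.fixingSubgroup_sup] at hs
    have hsϑ : s ϑ = ϑ := (IntermediateField.mem_fixingSubgroup_iff _ s).mp hs.2 ϑ
      (IntermediateField.mem_adjoin_simple_self ℚ ϑ)
    have hfs : f s = 0 := by
      show χ s - ∑ w ∈ Ω, d w * κ w s = 0
      rw [CapitQ.kum_eq_zero hzprim hϑ0 hχ hsK hsϑ, zero_sub, neg_eq_zero]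
      refine Finset.sum_eq_zero fun w hw => ?_
      have hsw : s ∈ (ℚ⟮ϖ w⟯).fixingSubgroup :=
        IntermediateField.fixingSubgroup_antitone
          (Finset.le_sup (f := fun w => ℚ⟮ϖ w⟯) hw) hs.1
      have hsϖ : s (ϖ w) = ϖ w := (IntermediateField.mem_fixingSubgroup_iff _ s).mp hsw (ϖ w)
        (IntermediateField.mem_adjoin_simple_self ℚ (ϖ w))
      rw [CapitQ.kum_eq_zero hzprim (hϖ0 w hw) (hκ w hw) hsK hsϖ, mul_zero]
    rw [hfmul g hg s hsK, hfs, add_zero]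
  · -- `f` is additive on `G_K`
    refine ⟨⊥, IntermediateField.isUnramifiedOutside_bot _,
      fun g₁ hg₁ g₂ hg₂ s₁ _ s₂ _ hs₁K hs₂K => ?_⟩
    rw [hfmul _ (mul_mem hg₁ hs₁K) _ (mul_mem hg₂ hs₂K), hfmul g₁ hg₁ g₂ hg₂]
    ring
  · -- unramified outside `T'`
    intro r hr A hA s hs
    rw [Finset.mem_erase, not_and_or, not_not] at hr
    rw [hf1]
    show χ s - ∑ w ∈ Ω, d w * κ w s = 0
    rcases hr with h | h
    · -- `r = q`
      have hAq : A.LiesOverPrime (q : ℕ) := h ▸ hA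
      have hsK : s ∈ K.fixingSubgroup := hK.2 q hq A hAq hs
      have hvS : placeUnder K A q.2 hAq ∉ SK S K := by
        rw [not_mem_SK_iff]
        intro q' hq' hmem
        have hA' : A.LiesOverPrime (q' : ℕ) := (natCast_mem_primeUnder_iff K A q').mp hmem
        have h1 := eq_of_liesOverPrime hAq hA'
        exact hq (h1 ▸ hq')
      let w₀ : Outside (SK S K) := ⟨placeUnder K A q.2 hAq, hvS⟩
      have hw₀q : ((q : ℕ) : 𝓞 K) ∈ w₀.1.asIdeal := (natCast_mem_primeUnder_iff K A q).mpr hAq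
      have hκ0 : ∀ w ∈ Ω, w ≠ w₀ → κ w s = 0 := by
        intro w hw hne
        have hv : w₀.1.valuation K (π w) = 1 :=
          hπ' w hw w₀.1 hw₀q (fun h' => hne (Subtype.ext h').symm)
        have hu : A.valuation (π w : Qb) = 1 :=
          (valuation_eq_one_iff (F := K) (A := A) (v := placeUnder K A q.2 hAq) rfl (π w)).mp hv
        exact hunitκ w hw q hq A hAq hu s hs
      obtain ⟨tχ, htχu, htχ⟩ : ∃ tχ : Gq → ZMod p, UnramAt A tχ ∧
          ∀ x ∈ K.fixingSubgroup, χ x = tχ x + (if w₀ ∈ Ω then d w₀ * κ w₀ x else 0) := by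
        by_cases hw₀ : w₀ ∈ Ω
        · obtain ⟨t, htu, ht⟩ := C4K.kummer_divisor_dv S hpS K hK ζ hζ a ϑ hϑ χ hχ q hq A hAq w₀
            rfl (π w₀) (ϖ w₀) (hπ w₀ hw₀) (hϖ w₀ hw₀) (κ w₀) (hκ w₀ hw₀)
          exact ⟨t, htu, fun x hx => by rw [ht x hx, if_pos hw₀]⟩
        · have hd0 : d w₀ = 0 := by
            by_contra h0
            exact hw₀ (hΩ' w₀ hw₀q h0)
          obtain ⟨π₀, hπ₀⟩ := (placeUnder K A q.2 hAq).valuation_exists_uniformizer K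
          obtain ⟨ϖ₀, hϖ₀⟩ := IsAlgClosed.exists_pow_nat_eq ((π₀ : K) : Qb) hp.pos
          have hπ₀0 : ((π₀ : K) : Qb) ≠ 0 := by
            intro h
            have h1 : π₀ = 0 := Subtype.ext h
            rw [h1, map_zero] at hπ₀
            exact WithZero.exp_ne_zero hπ₀.symm
          have hϖ₀0 : ϖ₀ ≠ 0 := by
            rintro rfl
            rw [zero_pow hp.ne_zero] at hϖ₀
            exact hπ₀0 hϖ₀.symm
          let κ₀ : Gq → ZMod p := fun s => Capit.dlog p z (s ϖ₀ / ϖ₀)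
          have hκ₀ : ∀ s ∈ K.fixingSubgroup, s ϖ₀ = z ^ (κ₀ s).val * ϖ₀ := by
            intro s hs
            have h1 : (s ϖ₀ / ϖ₀) ^ p = 1 := by
              rw [div_pow, ← map_pow, hϖ₀,
                (IntermediateField.mem_fixingSubgroup_iff K s).mp hs _ π₀.2, div_self hπ₀0]
            have h2 := Capit.dlog_spec hzprim h1
            show s ϖ₀ = z ^ (Capit.dlog p z (s ϖ₀ / ϖ₀)).val * ϖ₀
            rw [← h2, div_mul_cancel₀ _ hϖ₀0]
          obtain ⟨t, htu, ht⟩ := C4K.kummer_divisor_dv S hpS K hK ζ hζ a ϑ hϑ χ hχ q hq A hAq w₀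
            rfl π₀ ϖ₀ hπ₀ hϖ₀ κ₀ hκ₀
          refine ⟨t, htu, fun x hx => ?_⟩
          have h3 := ht x hx
          rw [← hd, hd0, zero_mul, add_zero] at h3
          rw [h3, if_neg hw₀, add_zero]
      have hsum : ∑ w ∈ Ω, d w * κ w s = if w₀ ∈ Ω then d w₀ * κ w₀ s else 0 := by
        rw [← Finset.sum_ite_eq' Ω w₀ (fun w => d w * κ w s)]
        refine Finset.sum_congr rfl fun w hw => ?_
        by_cases hne : w = w₀
        · rw [if_pos hne]
        · rw [if_neg hne, hκ0 w hw hne, mul_zero]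
      have h1 := htχ 1 (one_mem _)
      have h2 : (if w₀ ∈ Ω then d w₀ * κ w₀ 1 else 0) = 0 := by
        by_cases hw₀ : w₀ ∈ Ω
        · rw [if_pos hw₀, hκ1 w₀ hw₀, mul_zero]
        · rw [if_neg hw₀]
      rw [hχ1, h2, add_zero] at h1
      rw [htχ s hsK, hsum, htχu.apply_inertia hs, ← h1]
      ring
    · -- `r ∉ S ∪ B`
      have hrS : r ∉ S := fun hS => h (Finset.mem_union_left _ hS)
      have hrB : r ∉ B := fun hB' => h (Finset.mem_union_right _ hB')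
      have hrB₀ : r ∉ B₀ := fun h' => hrB (Finset.mem_union_left _ h')
      rw [hunitχ r hrS A hA (hB₀ r hrB₀ A hA) s hs, zero_sub, neg_eq_zero]
      refine Finset.sum_eq_zero fun w hw => ?_
      have hrw : r ∉ Bw w := fun h' =>
        hrB (Finset.mem_union_right _ (Finset.mem_biUnion.mpr ⟨w, hw, h'⟩))
      rw [hunitκ w hw r hrS A hA (hBw w hw r hrw A hA) s hs, mul_zero]

end KumDivK

section KdQ1

open Fermat.Agent.S55.Abs Fermat.Agent.S55.Shapiro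

variable {p : ℕ} [Fact p.Prime] (S : Finset Nat.Primes)
  (K : IntermediateField ℚ Qb) [NumberField K] (ζ : K)

/-- **(KD), `ℚ`-side, at all the places over one prime `q ∉ S`.**  The global cochain
`ind₁ χ_a - ∑ w ∈ Ω, dv a w • ind₁ κ_w` of `N = M0 G_K` has a level `T' ⊇ S` not containing `q`. -/
theorem kdQ1 (hpS : ExtCitation.pPrime p ∈ S) (hK : K.IsUnramifiedOutside S)
    (hζ : IsPrimitiveRoot ζ p) (R : Retr K.fixingSubgroup) (q : Nat.Primes) (hq : q ∉ S)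
    (Ω : Finset (Outside (SK S K)))
    (π : Outside (SK S K) → K) (ϖ : Outside (SK S K) → Qb)
    (κ : Outside (SK S K) → K.fixingSubgroup → Rep.trivial (ZMod p) K.fixingSubgroup (ZMod p))
    (hπ : ∀ w ∈ Ω, w.1.valuation K (π w) = WithZero.exp (-1 : ℤ))
    (hπ' : ∀ w ∈ Ω, ∀ v : HeightOneSpectrum (𝓞 K), ((q : ℕ) : 𝓞 K) ∈ v.asIdeal → v ≠ w.1 →
      v.valuation K (π w) = 1)
    (hϖ : ∀ w ∈ Ω, ϖ w ^ p = (π w : Qb))
    (hκ : ∀ w ∈ Ω, ∀ s : K.fixingSubgroup,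
      (s : Gq) (ϖ w) = (ζ : Qb) ^ (ZMod.val (κ w s : ZMod p)) * ϖ w)
    (a : Kˣ)
    (hΩ' : ∀ w : Outside (SK S K), ((q : ℕ) : 𝓞 K) ∈ w.1.asIdeal → C4K.dv p S K a w ≠ 0 → w ∈ Ω)
    (ϑ : Qb) (hϑ : ϑ ^ p = ((a : K) : Qb))
    (χ : K.fixingSubgroup → Rep.trivial (ZMod p) K.fixingSubgroup (ZMod p))
    (hχ : ∀ s : K.fixingSubgroup, (s : Gq) ϑ = (ζ : Qb) ^ (ZMod.val (χ s : ZMod p)) * ϑ) :
    ∃ T' : Finset Nat.Primes, S ⊆ T' ∧ q ∉ T' ∧
      ind₁ (Rep.trivial (ZMod p) K.fixingSubgroup (ZMod p)) R χ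
          - ∑ w ∈ Ω, C4K.dv p S K a w •
              ind₁ (Rep.trivial (ZMod p) K.fixingSubgroup (ZMod p)) R (κ w)
        ∈ C1 (globalLevel T') (M0 (ZMod p) K.fixingSubgroup) := by
  classical
  let ext : (K.fixingSubgroup → Rep.trivial (ZMod p) K.fixingSubgroup (ZMod p)) → Gq → ZMod p :=
    fun β g => if h : g ∈ K.fixingSubgroup then (β ⟨g, h⟩ : ZMod p) else 0
  have hext : ∀ β (s : K.fixingSubgroup), ext β (s : Gq) = (β s : ZMod p) := by
    intro β s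
    simp only [ext, dif_pos s.2]
  have hκ' : ∀ w ∈ Ω, ∀ s ∈ K.fixingSubgroup,
      s (ϖ w) = (ζ : Qb) ^ (ext (κ w) s).val * ϖ w := by
    intro w hw s hs
    have := hκ w hw ⟨s, hs⟩
    rw [← hext (κ w) ⟨s, hs⟩] at this
    exact this
  have hχ' : ∀ s ∈ K.fixingSubgroup, s ϑ = (ζ : Qb) ^ (ext χ s).val * ϑ := by
    intro s hs
    have := hχ ⟨s, hs⟩
    rw [← hext χ ⟨s, hs⟩] at this
    exact this
  obtain ⟨T', hST', hqT', F₂, hF₂, hlev⟩ := kumDivK hpS hK hζ q hq Ω π ϖ (fun w => ext (κ w))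
    hπ hπ' hϖ hκ' a hΩ' ϑ hϑ (ext χ) hχ'
  refine ⟨T', hST', hqT', ?_⟩
  have hU : ∃ W ∈ (globalLevel T').sets, W ≤ K.fixingSubgroup :=
    ⟨K.fixingSubgroup, ⟨K, hK.mono hST', rfl⟩, le_rfl⟩
  have hrw : ind₁ (Rep.trivial (ZMod p) K.fixingSubgroup (ZMod p)) R χ
      - ∑ w ∈ Ω, C4K.dv p S K a w •
          ind₁ (Rep.trivial (ZMod p) K.fixingSubgroup (ZMod p)) R (κ w)
      = ind₁ (Rep.trivial (ZMod p) K.fixingSubgroup (ZMod p)) R
          (χ - ∑ w ∈ Ω, C4K.dv p S K a w • κ w) := by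
    simp only [map_sub, map_sum, map_smul]
  rw [hrw]
  refine isLev₁_ind₁ R hU ?_
  rw [isLev₁_subLevel_iff]
  refine ⟨F₂.fixingSubgroup, ⟨F₂, hF₂, rfl⟩, fun g s hs => ?_⟩
  have hev : ∀ x : K.fixingSubgroup,
      ((χ - ∑ w ∈ Ω, C4K.dv p S K a w • κ w) x : ZMod p)
        = ext χ (x : Gq) - ∑ w ∈ Ω, C4K.dv p S K a w * ext (κ w) (x : Gq) := by
    intro x
    rw [hext χ x, Pi.sub_apply, Finset.sum_apply]
    congr 1
    refine Finset.sum_congr rfl fun w _ => ?_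
    rw [hext (κ w) x]
    rfl
  have h := hlev g g.2 s hs
  show ((χ - ∑ w ∈ Ω, C4K.dv p S K a w • κ w) (g * s) : ZMod p)
    = ((χ - ∑ w ∈ Ω, C4K.dv p S K a w • κ w) g : ZMod p)
  rw [hev (g * s), hev g]
  exact h

/-- The restriction of the cochain of `kdQ1` to the decomposition group at `q` is unramified. -/
theorem kdQ1_ur (hpS : ExtCitation.pPrime p ∈ S) (hK : K.IsUnramifiedOutside S)
    (hζ : IsPrimitiveRoot ζ p) (R : Retr K.fixingSubgroup) (q : Nat.Primes) (hq : q ∉ S)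
    (Ω : Finset (Outside (SK S K)))
    (π : Outside (SK S K) → K) (ϖ : Outside (SK S K) → Qb)
    (κ : Outside (SK S K) → K.fixingSubgroup → Rep.trivial (ZMod p) K.fixingSubgroup (ZMod p))
    (hπ : ∀ w ∈ Ω, w.1.valuation K (π w) = WithZero.exp (-1 : ℤ))
    (hπ' : ∀ w ∈ Ω, ∀ v : HeightOneSpectrum (𝓞 K), ((q : ℕ) : 𝓞 K) ∈ v.asIdeal → v ≠ w.1 →
      v.valuation K (π w) = 1)
    (hϖ : ∀ w ∈ Ω, ϖ w ^ p = (π w : Qb))
    (hκ : ∀ w ∈ Ω, ∀ s : K.fixingSubgroup,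
      (s : Gq) (ϖ w) = (ζ : Qb) ^ (ZMod.val (κ w s : ZMod p)) * ϖ w)
    (a : Kˣ)
    (hΩ' : ∀ w : Outside (SK S K), ((q : ℕ) : 𝓞 K) ∈ w.1.asIdeal → C4K.dv p S K a w ≠ 0 → w ∈ Ω)
    (ϑ : Qb) (hϑ : ϑ ^ p = ((a : K) : Qb))
    (χ : K.fixingSubgroup → Rep.trivial (ZMod p) K.fixingSubgroup (ZMod p))
    (hχ : ∀ s : K.fixingSubgroup, (s : Gq) ϑ = (ζ : Qb) ^ (ZMod.val (χ s : ZMod p)) * ϑ) :
    res₁ (fun w : Nat.Primes => ExtCitation.primeLocalToGlobal w)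
        (M0 (ZMod p) K.fixingSubgroup) q
        (ind₁ (Rep.trivial (ZMod p) K.fixingSubgroup (ZMod p)) R χ
          - ∑ w ∈ Ω, C4K.dv p S K a w •
              ind₁ (Rep.trivial (ZMod p) K.fixingSubgroup (ZMod p)) R (κ w))
      ∈ C1 (EvalQ.urLevel q)
          (Rep.res (ExtCitation.primeLocalToGlobal q) (M0 (ZMod p) K.fixingSubgroup)) := by
  obtain ⟨T', -, hqT', h⟩ := kdQ1 S K ζ hpS hK hζ R q hq Ω π ϖ κ hπ hπ' hϖ hκ a hΩ' ϑ hϑ χ hχ
  exact IsLev₁.precomp (EvalQ.isLevelMap_urLevel hqT') h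

end KdQ1

end Fermat.Agent.S55.Base.CapFam
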