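import Mathlib

/-!
# Directed families of subgroups and invariant cochains (helper file of the S55 base case)

`DirFam G` is a nonempty family of subgroups of `G`, directed downwards.  `𝔉.c1 k X`, `𝔉.c2 k X`,
`𝔉.c3 k X` are the submodules of functions `G → X`, `G × G → X`, `G × G × G → X` which are
right-invariant (in each variable) under some member of the family.
-/

set_option autoImplicit false

namespace Fermat.Agent.S55.Base

/-- A nonempty, downwards directed family of subgroups. -/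
structure DirFam (G : Type) [Group G] where
  sets : Set (Subgroup G)
  nonempty : sets.Nonempty
  inter : ∀ U ∈ sets, ∀ V ∈ sets, ∃ W ∈ sets, W ≤ U ⊓ V

namespace DirFam

variable {G : Type} [Group G] (𝔉 : DirFam G) (k : Type) [Field k] (X : Type) [AddCommGroup X]
  [Module k X]

/-- Functions `G → X` right-invariant under some member of the family. -/
def c1 : Submodule k (G → X) where
  carrier := {f | ∃ U ∈ 𝔉.sets, ∀ g s, s ∈ U → f (g * s) = f g}
  add_mem' := by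
    rintro f f' ⟨U, hU, h⟩ ⟨U', hU', h'⟩
    obtain ⟨W, hW, hle⟩ := 𝔉.inter U hU U' hU'
    exact ⟨W, hW, fun g s hs => by
      simp only [Pi.add_apply]; rw [h g s (hle hs).1, h' g s (hle hs).2]⟩
  zero_mem' := by
    obtain ⟨U, hU⟩ := 𝔉.nonempty
    exact ⟨U, hU, fun _ _ _ => rfl⟩
  smul_mem' := by
    rintro c f ⟨U, hU, h⟩
    exact ⟨U, hU, fun g s hs => by simp only [Pi.smul_apply]; rw [h g s hs]⟩

/-- Functions `G × G → X` right-invariant in both variables under some member of the family. -/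
def c2 : Submodule k (G × G → X) where
  carrier := {f | ∃ U ∈ 𝔉.sets, ∀ g g' s s', s ∈ U → s' ∈ U → f (g * s, g' * s') = f (g, g')}
  add_mem' := by
    rintro f f' ⟨U, hU, h⟩ ⟨U', hU', h'⟩
    obtain ⟨W, hW, hle⟩ := 𝔉.inter U hU U' hU'
    exact ⟨W, hW, fun g g' s s' hs hs' => by
      simp only [Pi.add_apply]
      rw [h g g' s s' (hle hs).1 (hle hs').1, h' g g' s s' (hle hs).2 (hle hs').2]⟩
  zero_mem' := by
    obtain ⟨U, hU⟩ := 𝔉.nonempty
    exact ⟨U, hU, fun _ _ _ _ _ _ => rfl⟩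
  smul_mem' := by
    rintro c f ⟨U, hU, h⟩
    exact ⟨U, hU, fun g g' s s' hs hs' => by simp only [Pi.smul_apply]; rw [h g g' s s' hs hs']⟩

/-- Functions `G × G × G → X` right-invariant in all variables under some member of the family. -/
def c3 : Submodule k (G × G × G → X) where
  carrier := {f | ∃ U ∈ 𝔉.sets, ∀ g g' g'' s s' s'', s ∈ U → s' ∈ U → s'' ∈ U →
    f (g * s, g' * s', g'' * s'') = f (g, g', g'')}
  add_mem' := by
    rintro f f' ⟨U, hU, h⟩ ⟨U', hU', h'⟩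
    obtain ⟨W, hW, hle⟩ := 𝔉.inter U hU U' hU'
    exact ⟨W, hW, fun g g' g'' s s' s'' hs hs' hs'' => by
      simp only [Pi.add_apply]
      rw [h g g' g'' s s' s'' (hle hs).1 (hle hs').1 (hle hs'').1,
        h' g g' g'' s s' s'' (hle hs).2 (hle hs').2 (hle hs'').2]⟩
  zero_mem' := by
    obtain ⟨U, hU⟩ := 𝔉.nonempty
    exact ⟨U, hU, fun _ _ _ _ _ _ _ _ _ => rfl⟩
  smul_mem' := by
    rintro c f ⟨U, hU, h⟩
    exact ⟨U, hU, fun g g' g'' s s' s'' hs hs' hs'' => by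
      simp only [Pi.smul_apply]; rw [h g g' g'' s s' s'' hs hs' hs'']⟩

variable {𝔉 k X}

theorem mem_c1_iff (f : G → X) :
    f ∈ 𝔉.c1 k X ↔ ∃ U ∈ 𝔉.sets, ∀ g s, s ∈ U → f (g * s) = f g := Iff.rfl

theorem mem_c2_iff (f : G × G → X) :
    f ∈ 𝔉.c2 k X ↔ ∃ U ∈ 𝔉.sets, ∀ g g' s s', s ∈ U → s' ∈ U → f (g * s, g' * s') = f (g, g') :=
  Iff.rfl

theorem mem_c3_iff (f : G × G × G → X) :
    f ∈ 𝔉.c3 k X ↔ ∃ U ∈ 𝔉.sets, ∀ g g' g'' s s' s'', s ∈ U → s' ∈ U → s'' ∈ U →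
      f (g * s, g' * s', g'' * s'') = f (g, g', g'') := Iff.rfl

/-- A family with more members has more invariant cochains. -/
theorem c1_mono {𝔉 𝔉' : DirFam G} (h : 𝔉.sets ⊆ 𝔉'.sets) : 𝔉.c1 k X ≤ 𝔉'.c1 k X := by
  rintro f ⟨U, hU, hf⟩
  exact ⟨U, h hU, hf⟩

theorem c2_mono {𝔉 𝔉' : DirFam G} (h : 𝔉.sets ⊆ 𝔉'.sets) : 𝔉.c2 k X ≤ 𝔉'.c2 k X := by
  rintro f ⟨U, hU, hf⟩
  exact ⟨U, h hU, hf⟩

end DirFam

end Fermat.Agent.S55.Base
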