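/-
S55 / PROGRAM CFT, rows LOC-TOP / LD-Q (helper290): the BASE CASE of the local dévissage in the
abstract vocabulary, on top of `LocalTopCore` (no arithmetic).

One leveled group `(G, 𝒰)`, `r : G →* Γ`, `χ : Γ →* kˣ`, `V ≤ G` open with `χ ∘ r = 1` on `V`,
`lam` a functional on `H²(G, μ)`.

* `mem_B2_of_sh₂`  : Shapiro injectivity in degree 2 on level cochains (helper97's primitive);
* `inj_of_line`    : `H²(V, k)` at most a line and `lam ∘ N_* ≠ 0` ⟹ `lam ∘ N_*` injective;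
* `etaHom`, `normLin_etaLin` : the unit `μ → coind_V^G k` and `N ∘ η = [G : V]`;
* `inj_of_index`   : (W1) `[G : V] ≠ 0` in `k`, `H²(V, k)` at most a line, `lam ≠ 0`
                     ⟹ `lam ∘ N_*` injective.  (No hypothesis on `H²(G, μ)`.)
* `locPkg_base`    : (W2) `LocPkg 𝒰 χ hμ inv (coind_V^G k)` (helper165's structure, the `h_base`
                     of helper195's `locPkg_of_base`) from: `[G : V] ≠ 0` in `k`, `inv ≠ 0`,
                     the level characters of `V` finite-dimensional, their cup product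
                     right-nondegenerate, `H²(V, k)` at most a line.
-/
import Fermat.Agent.S55.Base.LocalTopCore
import Fermat.Agent.S55.Abs.LocPkg

set_option autoImplicit false

open CategoryTheory groupCohomology

namespace Fermat.Agent.S55.Base.LocalTop

open Fermat.Agent.S55.Abs Fermat.Agent.S55.Shapiro Fermat.Agent.S55.Glue

/-! ### Generic: injectivity of `lam ∘ N_*` from "`H²(V, k)` is a line" -/

section InjOfLine

variable {k G : Type} [Field k] [Group G] {Γ : Type} [Group Γ] (𝒰 : LevelFamily G)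
  (r : G →* Γ) (χ : Γ →* kˣ) (V : Subgroup G)

lemma isLev₂_subLevel_iff {X : Type*} (f : ↥V × ↥V → X) :
    IsLev₂ (subLevel 𝒰 V) f ↔ ∃ N ∈ 𝒰.sets, RInv₂ (N.subgroupOf V) f := by
  constructor
  · rintro ⟨_, ⟨N, hN, rfl⟩, h⟩
    exact ⟨N, hN, h⟩
  · rintro ⟨N, hN, h⟩
    exact ⟨_, ⟨N, hN, rfl⟩, h⟩

lemma sh₂_mem_Z2 {z : G × G → (Mc k V : Rep.{0} k G)} (hz : z ∈ Z2 𝒰 (Mc k V)) :
    sh₂ V (Rep.trivial k ↥V k) z ∈ Z2 (subLevel 𝒰 V) (Rep.trivial k ↥V k) := by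
  obtain ⟨N, hN, h⟩ := hz.1
  exact ⟨(isLev₂_subLevel_iff 𝒰 V _).2 ⟨N, hN, rinv₂_sh₂ h⟩, sh₂_mem_cocycles₂ hz.2⟩

/-- Shapiro injectivity in degree 2 on level cochains. -/
lemma mem_B2_of_sh₂ (hV : ∃ W ∈ 𝒰.sets, W ≤ V) {z : G × G → (Mc k V : Rep.{0} k G)}
    (hz : z ∈ Z2 𝒰 (Mc k V))
    (h : sh₂ V (Rep.trivial k ↥V k) z ∈ B2 (subLevel 𝒰 V) (Rep.trivial k ↥V k)) :
    z ∈ B2 𝒰 (Mc k V) := by
  obtain ⟨N₁, hN₁, h1⟩ := hz.1
  obtain ⟨γ, hγ, hdγ⟩ := h
  obtain ⟨N₂, hN₂, h2⟩ := (isLev₁_subLevel_iff γ).1 hγ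
  obtain ⟨N₃, hN₃, hle⟩ := 𝒰.inter N₁ hN₁ N₂ hN₂
  obtain ⟨N, hN, hn, hNV, hNN₃⟩ := exists_normal_le hV hN₃
  have hz' : RInv₂ N z := fun g g' s s' hs hs' =>
    h1 g g' s s' (hle (hNN₃ hs)).1 (hle (hNN₃ hs')).1
  have hγ' : RInv₁ (N.subgroupOf V) γ := fun g s hs =>
    h2 g s (Subgroup.mem_subgroupOf.2 (hle (hNN₃ (Subgroup.mem_subgroupOf.1 hs))).2)
  obtain ⟨φ, hφ, hdφ⟩ := exists_rinv_primitive₂ hNV hz.2 hz' hγ' hdγ
  exact ⟨φ, ⟨N, hN, hφ⟩, hdφ⟩

/-- If `H²(V, k)` (level cochains) is at most a line and `lam ∘ N_*` does not vanish on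
`H²(G, coind_V^G k)`, then `lam ∘ N_*` is injective: the field `inj` of `GoodSub`. -/
theorem inj_of_line (hV : ∃ W ∈ 𝒰.sets, W ≤ V) (hfi : V.FiniteIndex)
    (hψ : ∀ v ∈ V, (χ.comp r) v = 1) (lam : H2 𝒰 (Rep.res r (muRep χ)) →ₗ[k] k)
    (hline : ∀ z ∈ Z2 (subLevel 𝒰 V) (Rep.trivial k ↥V k),
      ∀ z' ∈ Z2 (subLevel 𝒰 V) (Rep.trivial k ↥V k),
        ∃ a b : k, (a ≠ 0 ∨ b ≠ 0) ∧ a • z + b • z' ∈ B2 (subLevel 𝒰 V) (Rep.trivial k ↥V k))
    (hne : ∃ x₀ : H2 𝒰 (Mc k V), lam (H2map 𝒰 (normHom r χ V hfi hψ) x₀) ≠ 0) :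
    Function.Injective (lam ∘ₗ H2map 𝒰 (normHom r χ V hfi hψ)) := by
  rw [← LinearMap.ker_eq_bot, LinearMap.ker_eq_bot']
  intro x hx
  obtain ⟨x₀, hx₀⟩ := hne
  induction x using Submodule.Quotient.induction_on with
  | H z =>
    induction x₀ using Submodule.Quotient.induction_on with
    | H z₀ =>
      obtain ⟨a, b, hab, h⟩ := hline _ (sh₂_mem_Z2 𝒰 V z.2) _ (sh₂_mem_Z2 𝒰 V z₀.2)
      have h' : a • z.1 + b • z₀.1 ∈ B2 𝒰 (Mc k V) := by
        apply mem_B2_of_sh₂ 𝒰 V hV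
          ((Z2 𝒰 _).add_mem ((Z2 𝒰 _).smul_mem a z.2) ((Z2 𝒰 _).smul_mem b z₀.2))
        rw [map_add, map_smul, map_smul]
        exact h
      have h'' : a • (Submodule.Quotient.mk z : H2 𝒰 (Mc k V)) + b • Submodule.Quotient.mk z₀ = 0 := by
        rw [← Submodule.Quotient.mk_smul, ← Submodule.Quotient.mk_smul,
          ← Submodule.Quotient.mk_add, Submodule.Quotient.mk_eq_zero]
        exact h'
      have h3 := congrArg (lam ∘ₗ H2map 𝒰 (normHom r χ V hfi hψ)) h''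
      rw [map_add, map_smul, map_smul, hx, smul_zero, zero_add, map_zero, smul_eq_mul] at h3
      have hb : b = 0 := by
        rcases mul_eq_zero.1 h3 with h4 | h4
        · exact h4
        · exact absurd h4 hx₀
      have ha : a ≠ 0 := by
        rcases hab with h5 | h5
        · exact h5
        · exact absurd hb h5
      rw [hb, zero_smul, add_zero] at h''
      exact (smul_eq_zero.1 h'').resolve_left ha

end InjOfLine

/-! ### (W1) injectivity of `lam ∘ N_*` when the index is invertible -/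

section Index

variable {k G : Type} [Field k] [Group G] {Γ : Type} [Group Γ] (𝒰 : LevelFamily G)
  (r : G →* Γ) (χ : Γ →* kˣ) (V : Subgroup G)
  (hfi : V.FiniteIndex) (hψ : ∀ v ∈ V, (χ.comp r) v = 1)

include hψ in
/-- The unit `μ → coind_V^G k`, `m ↦ (x ↦ χ(r x) m)`, as a linear map. -/
noncomputable def etaLin : k →ₗ[k] (Mc k V : Rep.{0} k G) where
  toFun m := ⟨fun x => (χ (r x) : k) * m, fun v x => by
    show (χ (r ((v : G) * x)) : k) * m = (χ (r x) : k) * m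
    have h1 : χ (r (v : G)) = 1 := hψ v v.2
    rw [map_mul, map_mul, h1, one_mul]⟩
  map_add' m m' := by
    apply CoindDual.M0_ext; intro x
    show (χ (r x) : k) * (m + m') = (χ (r x) : k) * m + (χ (r x) : k) * m'
    ring
  map_smul' c m := by
    apply CoindDual.M0_ext; intro x
    show (χ (r x) : k) * (c * m) = c * ((χ (r x) : k) * m)
    ring

lemma etaLin_apply (m : k) (x : G) : (etaLin r χ V hψ m).1 x = (χ (r x) : k) * m := rfl

/-- The unit as a morphism of representations. -/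
noncomputable def etaHom : Rep.res r (muRep χ) ⟶ (Mc k V : Rep.{0} k G) :=
  Rep.ofHom (LinearMap.intertwiningMap_of_isIntertwiningMap (Rep.res r (muRep χ)).ρ
    (Mc k V : Rep.{0} k G).ρ (etaLin r χ V hψ) (fun g m => by
      apply CoindDual.M0_ext; intro x
      show (χ (r x) : k) * ((χ (r g) : k) * m) = (χ (r (x * g)) : k) * m
      rw [map_mul, map_mul, Units.val_mul, mul_assoc]))

/-- `N ∘ η = [G : V]`. -/
lemma normLin_etaLin (m : k) :
    normLin r χ V hfi hψ (etaLin r χ V hψ m) = (V.index : k) * m := by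
  haveI := hfi
  show CoindDual.pair (χ.comp r) hψ (etaLin r χ V hψ m) (oneC V) = _
  rw [CoindDual.pair_apply]
  have h1 : ∀ x : G ⧸ V, CoindDual.pairTerm (χ.comp r) hψ (etaLin r χ V hψ m) (oneC V) x = m := by
    intro x
    induction x using QuotientGroup.induction_on with
    | H g =>
      rw [CoindDual.pairTerm_mk, etaLin_apply, oneC_apply, mul_one, ← mul_assoc]
      have h2 : ((χ.comp r) g : k) * (χ (r g⁻¹) : k) = 1 := by
        rw [← Units.val_mul]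
        show ((χ (r g) * χ (r g⁻¹) : kˣ) : k) = 1
        rw [← map_mul, ← map_mul, mul_inv_cancel, map_one, map_one, Units.val_one]
      rw [h2, one_mul]
  letI : Fintype (G ⧸ V) := CoindDual.fintypeQuot'
  rw [Finset.sum_congr rfl (fun x _ => h1 x), Finset.sum_const, Finset.card_univ, nsmul_eq_mul,
    Subgroup.index, Nat.card_eq_fintype_card]

/-- **(W1)** If `[G : V]` is invertible in `k`, `H²(V, k)` is at most a line and `lam ≠ 0`,
then `lam ∘ N_*` is injective on `H²(G, coind_V^G k)`. -/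
theorem inj_of_index (hV : ∃ W ∈ 𝒰.sets, W ≤ V) (lam : H2 𝒰 (Rep.res r (muRep χ)) →ₗ[k] k)
    (hidx : (V.index : k) ≠ 0)
    (hline : ∀ z ∈ Z2 (subLevel 𝒰 V) (Rep.trivial k ↥V k),
      ∀ z' ∈ Z2 (subLevel 𝒰 V) (Rep.trivial k ↥V k),
        ∃ a b : k, (a ≠ 0 ∨ b ≠ 0) ∧ a • z + b • z' ∈ B2 (subLevel 𝒰 V) (Rep.trivial k ↥V k))
    (hlam : lam ≠ 0) :
    Function.Injective (lam ∘ₗ H2map 𝒰 (normHom r χ V hfi hψ)) := by
  refine inj_of_line 𝒰 r χ V hV hfi hψ lam hline ?_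
  obtain ⟨y, hy⟩ : ∃ y, lam y ≠ 0 := by
    by_contra h
    exact hlam (LinearMap.ext fun y => not_not.1 fun hy => h ⟨y, hy⟩)
  refine ⟨H2map 𝒰 (etaHom r χ V hψ) y, ?_⟩
  have h1 : H2map 𝒰 (normHom r χ V hfi hψ) (H2map 𝒰 (etaHom r χ V hψ) y) = (V.index : k) • y := by
    induction y using Submodule.Quotient.induction_on with
    | H c =>
      rw [H2map_mk, H2map_mk, ← Submodule.Quotient.mk_smul]
      congr 1
      apply Subtype.ext
      funext x
      exact normLin_etaLin r χ V hfi hψ (c.1 x)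
  rw [h1, map_smul, smul_eq_mul]
  exact mul_ne_zero hidx hy

end Index

/-! ### (W2) the local package for `coind_V^G k`, `[G : V]` invertible in `k` -/

section LocPkgBase

variable {k H : Type} [Field k] [Group H] (𝒱 : LevelFamily H)

lemma H1map_id_apply {M : Rep.{0} k H} (t : H1 𝒱 M) : H1map 𝒱 (𝟙 M) t = t := by
  induction t using Submodule.Quotient.induction_on with
  | H c => rfl

lemma H2map_id_apply {M : Rep.{0} k H} (t : H2 𝒱 M) : H2map 𝒱 (𝟙 M) t = t := by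
  induction t using Submodule.Quotient.induction_on with
  | H c => rfl

lemma H1map_H1map_of_inv {M N : Rep.{0} k H} (φ : N ⟶ M) (ψ : M ⟶ N)
    (h : ∀ m, φ.hom (ψ.hom m) = m) (t : H1 𝒱 M) : H1map 𝒱 φ (H1map 𝒱 ψ t) = t := by
  induction t using Submodule.Quotient.induction_on with
  | H c =>
    rw [H1map_mk, H1map_mk]
    congr 1
    apply Subtype.ext
    funext g
    exact h (c.1 g)

variable (χ : H →* kˣ) (hμ : IsDisc 𝒱 (muRep χ)) (inv : H2 𝒱 (muRep χ) →ₗ[k] k)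
  (V : Subgroup H)

/-- **(W2) The base case of the local dévissage**: the local package for `coind_V^H k`, `V` open,
`χ = 1` on `V`, `[H : V]` invertible in `k`, from
* `inv ≠ 0`,
* the level characters of `V` are finite-dimensional,
* the cup product of level characters of `V` is right-nondegenerate,
* `H²(V, k)` (level cochains) is at most a line. -/
theorem locPkg_base (hV : ∃ W ∈ 𝒱.sets, W ≤ V) (hχ : ∀ v ∈ V, χ v = 1)
    (hidx : (V.index : k) ≠ 0) (hinv : inv ≠ 0)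
    (hfin : Module.Finite k ↥(Z1 (subLevel 𝒱 V) (Rep.trivial k ↥V k)))
    (hhil : ∀ η ∈ Z1 (subLevel 𝒱 V) (Rep.trivial k ↥V k),
      (∀ ξ ∈ Z1 (subLevel 𝒱 V) (Rep.trivial k ↥V k),
        (fun x : ↥V × ↥V => ξ x.1 * η x.2) ∈ B2 (subLevel 𝒱 V) (Rep.trivial k ↥V k)) → η = 0)
    (hline : ∀ z ∈ Z2 (subLevel 𝒱 V) (Rep.trivial k ↥V k),
      ∀ z' ∈ Z2 (subLevel 𝒱 V) (Rep.trivial k ↥V k),
        ∃ a b : k, (a ≠ 0 ∨ b ≠ 0) ∧ a • z + b • z' ∈ B2 (subLevel 𝒱 V) (Rep.trivial k ↥V k)) :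
    LocPkg 𝒱 χ hμ inv (Mc k V) := by
  have hfi : V.FiniteIndex := finiteIndex_of_isOpen hV
  haveI := hfi
  have hψ : ∀ v ∈ V, (χ.comp (MonoidHom.id H)) v = 1 := hχ
  have hI : IsDisc 𝒱 (Mc k V) := isDisc_Mc 𝒱 V hV
  have hinj := inj_of_index 𝒱 (MonoidHom.id H) χ V hfi hψ hV inv hidx hline hinv
  have e1 := single_pairEpi 𝒱 (MonoidHom.id H) χ V hV hfi hψ hI hμ inv hfin hhil hinj
  have m1 := single_pairMono 𝒱 (MonoidHom.id H) χ V hfi hψ hI hμ inv hinj
  have hθ : ∀ b : ((Mc k V : Rep.{0} k H).dualTwist χ),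
      (CoindDual.dualTwistIso χ hχ).hom.hom ((CoindDual.dualTwistIso χ hχ).inv.hom b) = b := by
    intro b
    have h := congrArg (fun φ : ((Mc k V : Rep.{0} k H).dualTwist χ) ⟶ _ => φ.hom b)
      (CoindDual.dualTwistIso (U := V) χ hχ).inv_hom_id
    exact h
  have hadj : ∀ (a : (Mc k V : Rep.{0} k H)) (b : (Mc k V : Rep.{0} k H)),
      (pairC (MonoidHom.id H) χ V hfi hψ).toFun a b =
        (evPairing χ (Mc k V)).toFun a ((CoindDual.dualTwistIso χ hχ).hom.hom b) := fun a b => rfl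
  refine ⟨hI, ?_, ?_⟩
  · intro φ
    obtain ⟨x, hx⟩ := e1 (φ ∘ₗ H1map 𝒱 (CoindDual.dualTwistIso χ hχ).hom)
    refine ⟨x, fun t => ?_⟩
    have h1 := hx (H1map 𝒱 (CoindDual.dualTwistIso χ hχ).inv t)
    rw [LinearMap.comp_apply, H1map_H1map_of_inv 𝒱 _ _ hθ] at h1
    rw [h1, LPL1_apply, LinearMap.compr₂_apply]
    congr 1
    have h2 := cupH11_natural 𝒱 (evPairing χ (Mc k V)) (pairC (MonoidHom.id H) χ V hfi hψ)
      (𝟙 (Mc k V)) (CoindDual.dualTwistIso χ hχ).hom (fun a b => hadj a b)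
      (isDisc_dualTwist 𝒱 χ hμ hI) hI hμ x (H1map 𝒱 (CoindDual.dualTwistIso χ hχ).inv t)
    rw [H1map_id_apply, H1map_H1map_of_inv 𝒱 _ _ hθ] at h2
    exact h2
  · intro x hx
    apply m1
    intro t₀
    have h2 := cupH20_natural 𝒱 (evPairing χ (Mc k V)) (pairC (MonoidHom.id H) χ V hfi hψ)
      (𝟙 (Mc k V)) (CoindDual.dualTwistIso χ hχ).hom (fun a b => hadj a b)
      (isDisc_dualTwist 𝒱 χ hμ hI) hI hμ x t₀
    rw [H2map_id_apply] at h2
    rw [LinearMap.compr₂_apply, h2]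
    exact hx _

end LocPkgBase

end Fermat.Agent.S55.Base.LocalTop
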