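/-
S55 / PROGRAM CFT, row LOC-TOP (helper290): the local package for the base module
`M0(K) = coind_{Gal(ℚ̄/K)}^{G_ℚ} 𝔽_p` in the Poitou–Tate context `ctxS p S hpS lam`
(fields `locEpi`, `locMono` of `PTContext.PkgI`), from the generic core `LocalTopCore`.

Input: for every `q ∈ S` and every `σ ∈ G_ℚ`, the open subgroup
`V = loc_q⁻¹(σ⁻¹ Gal(ℚ̄/K) σ)` of the local Galois group at `q` (the absolute Galois group of
the completion of `σ⁻¹K` at the place induced by `ℚ̄ ⊂ ℚ̄_q`) is `GoodSub`:
finitely many level characters, Hilbert symbol right-nondegenerate, `inv_q ∘ cores` injective.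
-/
import Fermat.Agent.S55.Base.LocalTopCore
import Fermat.Agent.S55.Abs.Bridge

set_option autoImplicit false

open CategoryTheory groupCohomology ExtCitation

namespace Fermat.Agent.S55.Base.LocalTop

open Fermat.Agent.S55.Abs Fermat.Agent.S55.Glue

variable (p : ℕ) [Fact p.Prime] (S : Finset Nat.Primes) (hpS : pPrime p ∈ S) (lam : LamS p S)

/-- The arithmetic input of LOC-TOP for the field `K`: every conjugate local subgroup at every
`q ∈ S` is `GoodSub` for the local invariant `inv_q` induced by `lam`. -/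
def LocalInputs (K : IntermediateField ℚ (AlgebraicClosure ℚ)) : Prop :=
  ∀ (q : ↥S) (σ : GQ),
    GoodSub (localLevel (primeLocalToGlobal q.1)) (primeLocalToGlobal q.1) (cycloChar p)
      ((ctxS p S hpS lam).inv q) (stab (primeLocalToGlobal q.1) K.fixingSubgroup σ)

variable {p S}

lemma finiteIndex_fixingSubgroup {K : IntermediateField ℚ (AlgebraicClosure ℚ)}
    (hK : K.IsUnramifiedOutside S) : K.fixingSubgroup.FiniteIndex :=
  (globalLevel S).finiteIndex _ ⟨K, hK, rfl⟩

lemma cycloChar_eq_one_of_le {K : IntermediateField ℚ (AlgebraicClosure ℚ)}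
    (hc : Glue.cycloField p ≤ K) : ∀ u ∈ K.fixingSubgroup, cycloChar p u = 1 :=
  fun _ hu => Glue.cycloChar_eq_one_of_mem_fixingSubgroup p
    (IntermediateField.fixingSubgroup_antitone hc hu)

/-- **LOC-TOP, field `locEpi` of `PkgI (M0 K)`.** -/
theorem locEpi {K : IntermediateField ℚ (AlgebraicClosure ℚ)}
    (hK : K.IsUnramifiedOutside S) (hc : Glue.cycloField p ≤ K)
    (hM : IsDisc (globalLevel S) (M0 (ZMod p) K.fixingSubgroup))
    (h : LocalInputs p S hpS lam K) (q : ↥S) :
    PairEpi ((ctxS p S hpS lam).PL1 hM q) :=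
  res_coind_pairEpi (localLevel (primeLocalToGlobal q.1)) (primeLocalToGlobal q.1) (cycloChar p)
    K.fixingSubgroup (finiteIndex_fixingSubgroup hK) (cycloChar_eq_one_of_le hc) _ _
    ((ctxS p S hpS lam).inv q) (h q)

/-- **LOC-TOP, field `locMono` of `PkgI (M0 K)`.** -/
theorem locMono {K : IntermediateField ℚ (AlgebraicClosure ℚ)}
    (hK : K.IsUnramifiedOutside S) (hc : Glue.cycloField p ≤ K)
    (hM : IsDisc (globalLevel S) (M0 (ZMod p) K.fixingSubgroup))
    (h : LocalInputs p S hpS lam K) (q : ↥S) :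
    PairMono ((ctxS p S hpS lam).PL2 hM q) :=
  res_coind_pairMono (localLevel (primeLocalToGlobal q.1)) (primeLocalToGlobal q.1) (cycloChar p)
    K.fixingSubgroup (finiteIndex_fixingSubgroup hK) (cycloChar_eq_one_of_le hc) _ _
    ((ctxS p S hpS lam).inv q) (h q)

end Fermat.Agent.S55.Base.LocalTop
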