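/-
S55 / PROGRAM CFT, rows LOC-TOP / LD-Q (helper290): dictionary between the LOC statements
(Prelude level-constant cochains on subgroups `V ≤ Gq q`, coefficients `μ_p`) and the abstract
vocabulary of `LocalTopCore` / `LocalBase` (level family `subLevel (lev q) V`, trivial
coefficients).  No `LocalBr/Main` in the imports.

* `lev q` : the level family of `Gal(ℚ̄_q/ℚ_q)`; `isLevelConstant₁_lvl_iff`,
  `isLevelConstant₂_lvl_iff`; `ρ_mu_eq`, `d₁₂_mu_eq`, `mem_Z1_iff`, `mem_Z2_iff`, `mem_B2_iff`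
  (`μ_p` restricted to `V` is the trivial module when `μ_p ⊂ E`);
* `exists_le_of_isOpenSub`, `isOpenSub_of_le` : `IsOpenSub q V` ↔ `V` contains a member of
  `lev q`;
* `hilbert_of_loc` : the right-nondegeneracy of the cup product of level characters, from
  LOC (E right) (`LocalBr/Hilbert`);
* `line_of_finrank` : `H²(V, k)` is at most a line, from LOC (C) as a hypothesis;
* `isOpenSub_stab`, `containsMu_stab` : the conjugate local subgroups are open and contain `μ_p`.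
-/
import Fermat.Agent.S55.Base.LocalTop
import Fermat.Agent.S55.Base.LocalBase
import Fermat.Agent.CFT.LocalBr.Hilbert
import Fermat.Agent.S55.Glue.LocalLevel

set_option autoImplicit false

open CategoryTheory groupCohomology ExtCitation

namespace Fermat.Agent.S55.Base.LocalTop

open Fermat.Agent.S55.Abs Fermat.Agent.S55.Shapiro Fermat.Agent.S55.Glue

/-! ### Dictionary Prelude ↔ Abs for subgroups of the local Galois group -/

section Dict

open Fermat.Agent.CFT.LocalBr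

variable {q : ℕ} [Fact q.Prime] (p : ℕ) [Fact p.Prime]

/-- The level family of `Gal(ℚ̄_q/ℚ_q)` (preimages of `Fix F`, `F/ℚ` finite). -/
noncomputable abbrev lev (q : ℕ) [Fact q.Prime] : LevelFamily (Gq q) := localLevel (localGaloisToGlobal q)

lemma isLevelConstant₁_lvl_iff (V : Subgroup (Gq q)) {X : Type*} (f : ↥V → X) :
    IsLevelConstant₁ (lvl q V) f ↔ IsLev₁ (subLevel (lev q) V) f := by
  constructor
  · rintro ⟨F, hF, h⟩
    exact ⟨_, ⟨_, ⟨F, hF, rfl⟩, rfl⟩, fun g s hs => h g s hs⟩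
  · rintro ⟨_, ⟨_, ⟨F, hF, rfl⟩, rfl⟩, h⟩
    exact ⟨F, hF, fun g s hs => h g s hs⟩

lemma isLevelConstant₂_lvl_iff (V : Subgroup (Gq q)) {X : Type*} (f : ↥V × ↥V → X) :
    IsLevelConstant₂ (lvl q V) f ↔ IsLev₂ (subLevel (lev q) V) f := by
  constructor
  · rintro ⟨F, hF, h⟩
    exact ⟨_, ⟨_, ⟨F, hF, rfl⟩, rfl⟩, fun g g' s s' hs hs' => h g g' s s' hs hs'⟩
  · rintro ⟨_, ⟨_, ⟨F, hF, rfl⟩, rfl⟩, h⟩
    exact ⟨F, hF, fun g g' s s' hs hs' => h g g' s s' hs hs'⟩

variable {p} {V : Subgroup (Gq q)}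

/-- `μ_p` restricted to `V` is the trivial module when `μ_p ⊂ E`. -/
lemma ρ_mu_eq (hμ : ∀ u ∈ V, cycloChar p (localGaloisToGlobal q u) = 1) (v : ↥V) (x : ZMod p) :
    (Rep.res V.subtype (muLoc q p)).ρ v x = x := by
  show ((cycloChar p (localGaloisToGlobal q (v : Gq q)) : (ZMod p)ˣ) : ZMod p) * x = x
  rw [hμ v v.2, Units.val_one, one_mul]

lemma d₁₂_mu_eq (hμ : ∀ u ∈ V, cycloChar p (localGaloisToGlobal q u) = 1) (x : ↥V → ZMod p) :
    (d₁₂ (Rep.res V.subtype (muLoc q p))).hom x =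
      (d₁₂ (Rep.trivial (ZMod p) ↥V (ZMod p))).hom x := by
  funext ⟨g, h⟩
  rw [d₁₂_hom_apply, d₁₂_hom_apply, ρ_mu_eq hμ]
  rfl

lemma mem_cocycles₁_mu_iff (hμ : ∀ u ∈ V, cycloChar p (localGaloisToGlobal q u) = 1) (c : ↥V → ZMod p) :
    c ∈ cocycles₁ (Rep.res V.subtype (muLoc q p)) ↔
      c ∈ cocycles₁ (Rep.trivial (ZMod p) ↥V (ZMod p)) := by
  rw [mem_cocycles₁_iff, mem_cocycles₁_iff]
  constructor
  · intro h g g'
    rw [h g g', ρ_mu_eq hμ]
    rfl
  · intro h g g'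
    rw [h g g', ρ_mu_eq hμ]
    rfl

lemma mem_cocycles₂_mu_iff (hμ : ∀ u ∈ V, cycloChar p (localGaloisToGlobal q u) = 1) (c : ↥V × ↥V → ZMod p) :
    c ∈ cocycles₂ (Rep.res V.subtype (muLoc q p)) ↔
      c ∈ cocycles₂ (Rep.trivial (ZMod p) ↥V (ZMod p)) := by
  rw [mem_cocycles₂_iff, mem_cocycles₂_iff]
  constructor
  · intro h g g' g''
    have := h g g' g''
    rw [ρ_mu_eq hμ] at this
    exact this
  · intro h g g' g''
    rw [ρ_mu_eq hμ]
    exact h g g' g''

lemma mem_Z1_iff (hμ : ∀ u ∈ V, cycloChar p (localGaloisToGlobal q u) = 1) (c : ↥V → ZMod p) :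
    c ∈ Z1 (subLevel (lev q) V) (Rep.trivial (ZMod p) ↥V (ZMod p)) ↔
      c ∈ cocycles₁ (Rep.res V.subtype (muLoc q p)) ∧ IsLevelConstant₁ (lvl q V) c := by
  rw [mem_cocycles₁_mu_iff hμ, isLevelConstant₁_lvl_iff]
  exact ⟨fun h => ⟨h.2, h.1⟩, fun h => ⟨h.2, h.1⟩⟩

lemma mem_Z2_iff (hμ : ∀ u ∈ V, cycloChar p (localGaloisToGlobal q u) = 1) (c : ↥V × ↥V → ZMod p) :
    c ∈ Z2 (subLevel (lev q) V) (Rep.trivial (ZMod p) ↥V (ZMod p)) ↔
      c ∈ levelCocycles₂ (lvl q V) (Rep.res V.subtype (muLoc q p)) := by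
  rw [mem_levelCocycles₂_iff, mem_cocycles₂_mu_iff hμ, isLevelConstant₂_lvl_iff]
  exact ⟨fun h => ⟨h.2, h.1⟩, fun h => ⟨h.2, h.1⟩⟩

lemma mem_B2_iff (hμ : ∀ u ∈ V, cycloChar p (localGaloisToGlobal q u) = 1) (c : ↥V × ↥V → ZMod p) :
    c ∈ B2 (subLevel (lev q) V) (Rep.trivial (ZMod p) ↥V (ZMod p)) ↔
      c ∈ levelCoboundaries₂ (lvl q V) (Rep.res V.subtype (muLoc q p)) := by
  rw [mem_levelCoboundaries₂_iff]
  constructor
  · rintro ⟨x, hx, rfl⟩
    exact ⟨x, (isLevelConstant₁_lvl_iff V x).2 hx, d₁₂_mu_eq hμ x⟩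
  · rintro ⟨x, hx, rfl⟩
    exact ⟨x, (isLevelConstant₁_lvl_iff V x).1 hx, (d₁₂_mu_eq hμ x).symm⟩

end Dict

/-! ### Open subgroups, Hilbert pairing, the line -/

section FromLoc

open Fermat.Agent.CFT.LocalBr

variable {q : ℕ} [Fact q.Prime] {p : ℕ} [Fact p.Prime] {V : Subgroup (Gq q)}

/-- An open subgroup contains a member of the level family (Krasner, helper96's
`exists_le_localLevelField`). -/
lemma exists_le_of_isOpenSub (hV : IsOpenSub q V) : ∃ W ∈ (lev q).sets, W ≤ V := by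
  obtain ⟨E, hE, rfl⟩ := hV
  haveI := hE
  obtain ⟨F, hF, hEF⟩ := exists_le_localLevelField q E
  refine ⟨_, ⟨F, hF, rfl⟩, ?_⟩
  rw [comap_fixingSubgroup_eq]
  exact IntermediateField.fixingSubgroup_antitone hEF


/-- A subgroup containing an open subgroup is open (infinite Galois correspondence). -/
theorem isOpenSub_of_le {W : Subgroup (Gq q)} (hW : IsOpenSub q W) (h : W ≤ V) :
    IsOpenSub q V := by
  obtain ⟨E, hE, rfl⟩ := hW
  haveI := hE
  have hopen : IsOpen (V : Set (Gq q)) :=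
    Subgroup.isOpen_mono h (IntermediateField.fixingSubgroup_isOpen E)
  have hclosed : IsClosed (V : Set (Gq q)) := Subgroup.isClosed_of_isOpen V hopen
  have hfix : (IntermediateField.fixedField V).fixingSubgroup = V :=
    InfiniteGalois.fixingSubgroup_fixedField ⟨V, hclosed⟩
  have hle : IntermediateField.fixedField V ≤ E := by
    have h1 := IntermediateField.fixedField_antitone h
    rwa [InfiniteGalois.fixedField_fixingSubgroup] at h1
  refine ⟨IntermediateField.fixedField V, ?_, hfix.symm⟩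
  exact Module.Finite.of_injective (IntermediateField.inclusion hle).toLinearMap
    (IntermediateField.inclusion_injective hle)

/-- A subgroup containing a member of the level family is open. -/
theorem isOpenSub_of_exists_le (hV : ∃ W ∈ (lev q).sets, W ≤ V) : IsOpenSub q V := by
  obtain ⟨_, ⟨F, hF, rfl⟩, hle⟩ := hV
  haveI := hF
  refine isOpenSub_of_le ⟨localLevelField q F, finiteDimensional_localLevelField q F, ?_⟩ hle
  exact comap_fixingSubgroup_eq q F

/-- Field `hilbert` of `GoodSub` from LOC (E, right). -/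
theorem hilbert_of_loc (hV : IsOpenSub q V) (hμ : ∀ u ∈ V, cycloChar p (localGaloisToGlobal q u) = 1) :
    ∀ η ∈ Z1 (subLevel (lev q) V) (Rep.trivial (ZMod p) ↥V (ZMod p)),
      (∀ ξ ∈ Z1 (subLevel (lev q) V) (Rep.trivial (ZMod p) ↥V (ZMod p)),
        (fun x : ↥V × ↥V => ξ x.1 * η x.2) ∈
          B2 (subLevel (lev q) V) (Rep.trivial (ZMod p) ↥V (ZMod p))) → η = 0 := by
  intro η hη h
  obtain ⟨hc, hcl⟩ := (mem_Z1_iff hμ η).1 hη
  refine Hilbert.hilbert_right p hV hμ η hc hcl ?_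
  intro χ hχ hχl
  have hχZ : χ ∈ Z1 (subLevel (lev q) V) (Rep.trivial (ZMod p) ↥V (ZMod p)) := by
    refine ⟨(isLevelConstant₁_lvl_iff V χ).1 hχl, ?_⟩
    refine (mem_cocycles₁_iff (A := Rep.trivial (ZMod p) ↥V (ZMod p)) χ).2 fun g g' => ?_
    rw [hχ g g', add_comm]
    rfl
  have h1 := (mem_B2_iff hμ _).1 (h χ hχZ)
  have h2 : cup11 (muLoc q p) χ η = fun x : ↥V × ↥V => χ x.1 * η x.2 := by
    funext x
    show χ x.1 • (Rep.res V.subtype (muLoc q p)).ρ x.1 (η x.2) = χ x.1 * η x.2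
    rw [ρ_mu_eq hμ]
    rfl
  rw [h2]
  exact h1

/-- `H²(V, k)` is at most a line, from LOC (C) (`finrank (H2loc (muLoc q p) V) = 1`). -/
theorem line_of_finrank (hμ : ∀ u ∈ V, cycloChar p (localGaloisToGlobal q u) = 1)
    (hfr : Module.finrank (ZMod p) (H2loc (muLoc q p) V) = 1) :
    ∀ z ∈ Z2 (subLevel (lev q) V) (Rep.trivial (ZMod p) ↥V (ZMod p)),
      ∀ z' ∈ Z2 (subLevel (lev q) V) (Rep.trivial (ZMod p) ↥V (ZMod p)),
        ∃ a b : ZMod p, (a ≠ 0 ∨ b ≠ 0) ∧ a • z + b • z' ∈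
          B2 (subLevel (lev q) V) (Rep.trivial (ZMod p) ↥V (ZMod p)) := by
  intro z hz z' hz'
  have hz1 := (mem_Z2_iff hμ z).1 hz
  have hz1' := (mem_Z2_iff hμ z').1 hz'
  let c : H2loc (muLoc q p) V := Submodule.Quotient.mk ⟨z, hz1⟩
  let c' : H2loc (muLoc q p) V := Submodule.Quotient.mk ⟨z', hz1'⟩
  by_cases hc' : c' = 0
  · refine ⟨0, 1, Or.inr one_ne_zero, ?_⟩
    rw [zero_smul, zero_add, one_smul, mem_B2_iff hμ]
    have h3 : (⟨z', hz1'⟩ : ↥(levelCocycles₂ (lvl q V) (Rep.res V.subtype (muLoc q p)))) ∈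
        (levelCoboundaries₂ (lvl q V) (Rep.res V.subtype (muLoc q p))).comap
          (levelCocycles₂ (lvl q V) (Rep.res V.subtype (muLoc q p))).subtype :=
      (Submodule.Quotient.mk_eq_zero _).1 hc'
    exact h3
  · obtain ⟨t, ht⟩ := (finrank_eq_one_iff_of_nonzero' c' hc').1 hfr c
    refine ⟨1, -t, Or.inl one_ne_zero, ?_⟩
    rw [mem_B2_iff hμ]
    have h1 : (1 : ZMod p) • c + (-t) • c' = 0 := by
      rw [one_smul, neg_smul, ht, add_neg_cancel]
    have h2 : (Submodule.Quotient.mk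
        ((1 : ZMod p) • (⟨z, hz1⟩ : ↥(levelCocycles₂ (lvl q V) (Rep.res V.subtype (muLoc q p))))
          + (-t) • ⟨z', hz1'⟩) : H2loc (muLoc q p) V) = 0 := by
      rw [Submodule.Quotient.mk_add, Submodule.Quotient.mk_smul, Submodule.Quotient.mk_smul]
      exact h1
    have h3 : ((1 : ZMod p) • (⟨z, hz1⟩ :
        ↥(levelCocycles₂ (lvl q V) (Rep.res V.subtype (muLoc q p)))) + (-t) • ⟨z', hz1'⟩) ∈
        (levelCoboundaries₂ (lvl q V) (Rep.res V.subtype (muLoc q p))).comap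
          (levelCocycles₂ (lvl q V) (Rep.res V.subtype (muLoc q p))).subtype :=
      (Submodule.Quotient.mk_eq_zero _).1 h2
    exact h3

end FromLoc

/-! ### The conjugate local subgroups -/

section Stab

open Fermat.Agent.CFT.LocalBr

variable {q : ℕ} [Fact q.Prime]

lemma mem_stab_fixing_iff (K : IntermediateField ℚ (AlgebraicClosure ℚ)) (σ : GQ) (h : Gq q) :
    h ∈ stab (localGaloisToGlobal q) K.fixingSubgroup σ ↔
      localGaloisToGlobal q h ∈ (K.map (σ⁻¹ : GQ).toAlgHom).fixingSubgroup := by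
  rw [mem_stab, IntermediateField.mem_fixingSubgroup_iff, IntermediateField.mem_fixingSubgroup_iff]
  constructor
  · intro hh x hx
    obtain ⟨y, hy, rfl⟩ := hx
    have h2 : σ (localGaloisToGlobal q h ((σ⁻¹ : GQ) y)) = y := hh y hy
    apply σ.injective
    show σ (localGaloisToGlobal q h ((σ⁻¹ : GQ) y)) = σ ((σ⁻¹ : GQ) y)
    rw [h2]
    show y = (σ * σ⁻¹) y
    rw [mul_inv_cancel]
    rfl
  · intro hh y hy
    show σ (localGaloisToGlobal q h ((σ⁻¹ : GQ) y)) = y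
    rw [hh ((σ⁻¹ : GQ) y) ⟨y, hy, rfl⟩]
    show (σ * σ⁻¹) y = y
    rw [mul_inv_cancel]
    rfl

/-- The conjugate local subgroup `loc_q⁻¹(σ⁻¹ Gal(ℚ̄/K) σ)` is open: it is the absolute Galois
group of `ℚ_q · ι(σ⁻¹ K)`. -/
theorem isOpenSub_stab (K : IntermediateField ℚ (AlgebraicClosure ℚ)) [FiniteDimensional ℚ K]
    (σ : GQ) : IsOpenSub q (stab (localGaloisToGlobal q) K.fixingSubgroup σ) := by
  haveI : FiniteDimensional ℚ (K.map (σ⁻¹ : GQ).toAlgHom) := inferInstance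
  refine ⟨localLevelField q (K.map (σ⁻¹ : GQ).toAlgHom), finiteDimensional_localLevelField q _, ?_⟩
  ext h
  rw [mem_stab_fixing_iff, mem_fixingSubgroup_localLevelField_iff]

/-- The conjugate local subgroups contain `μ_p` when `K` does. -/
theorem containsMu_stab {p : ℕ} [Fact p.Prime] (K : IntermediateField ℚ (AlgebraicClosure ℚ))
    (hc : Glue.cycloField p ≤ K) (σ : GQ) :
    ∀ u ∈ stab (localGaloisToGlobal q) K.fixingSubgroup σ,
      cycloChar p (localGaloisToGlobal q u) = 1 :=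
  fun u hu => char_stab (cycloChar_eq_one_of_le hc) σ u hu

end Stab

end Fermat.Agent.S55.Base.LocalTop
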