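/-
S55 / PROGRAM CFT, row LOC-TOP (helper290), Mackey route (insurance): from the LOC statements
of `CFT/LocalBr/Main` to the hypotheses `GoodSub` / `LocalInputs` of `LocalTop`.
The dictionary is in `Base/LocalDict.lean`, the generic lemmas in `Base/LocalBase.lean`.
-/
import Fermat.Agent.S55.Base.LocalDict
import Fermat.Agent.CFT.LocalBr.Main

set_option autoImplicit false

open CategoryTheory groupCohomology ExtCitation

namespace Fermat.Agent.S55.Base.LocalTop

open Fermat.Agent.S55.Abs Fermat.Agent.S55.Shapiro Fermat.Agent.S55.Glue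

/-! ### The fields of `GoodSub` from LOC -/

section FromLoc

open Fermat.Agent.CFT.LocalBr

variable {q : ℕ} [Fact q.Prime] {p : ℕ} [Fact p.Prime] {V : Subgroup (Gq q)}

/-- `H²(V, k)` is at most a line, from LOC (C). -/
theorem line_of_loc (hV : IsOpenSub q V) (hμ : ContainsMu p V) :
    ∀ z ∈ Z2 (subLevel (lev q) V) (Rep.trivial (ZMod p) ↥V (ZMod p)),
      ∀ z' ∈ Z2 (subLevel (lev q) V) (Rep.trivial (ZMod p) ↥V (ZMod p)),
        ∃ a b : ZMod p, (a ≠ 0 ∨ b ≠ 0) ∧ a • z + b • z' ∈
          B2 (subLevel (lev q) V) (Rep.trivial (ZMod p) ↥V (ZMod p)) :=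
  line_of_finrank hμ (finrank_H2mu p hV)

/-- **`GoodSub` from LOC**, for an open subgroup `V` of the local Galois group with `μ_p ⊂ E`:
the remaining inputs are the finiteness of the level characters and the non-vanishing of
`lam ∘ N_*` (LOC-F + the normalisation of `lam`). -/
theorem goodSub_of_loc (lam : H2 (lev q) (Rep.res (localGaloisToGlobal q) (muRep (cycloChar p)))
      →ₗ[ZMod p] ZMod p)
    (hV : IsOpenSub q V) (hμ : ContainsMu p V)
    (hfin : Module.Finite (ZMod p) ↥(Z1 (subLevel (lev q) V) (Rep.trivial (ZMod p) ↥V (ZMod p))))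
    (hne : ∀ (hfi : V.FiniteIndex)
      (hψ : ∀ v ∈ V, ((cycloChar p).comp (localGaloisToGlobal q)) v = 1),
      ∃ x₀ : H2 (lev q) (Mc (ZMod p) V),
        lam (H2map (lev q) (normHom (localGaloisToGlobal q) (cycloChar p) V hfi hψ) x₀) ≠ 0) :
    GoodSub (lev q) (localGaloisToGlobal q) (cycloChar p) lam V where
  isOpen := exists_le_of_isOpenSub hV
  fin := hfin
  hilbert := hilbert_of_loc hV hμ
  inj := fun hfi hψ => inj_of_line (lev q) (localGaloisToGlobal q) (cycloChar p) V
    (exists_le_of_isOpenSub hV) hfi hψ lam (line_of_loc hV hμ) (hne hfi hψ)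

end FromLoc

/-! ### `LocalInputs` from LOC -/

section Final

variable {p : ℕ} [Fact p.Prime] {S : Finset Nat.Primes} (hpS : pPrime p ∈ S) (lam : LamS p S)

/-- **`LocalInputs` from LOC** ((C), (E right) of `CFT/LocalBr/Main`), up to the two remaining
inputs: finiteness of the level characters of the conjugate local subgroups, and non-vanishing
of `inv_q ∘ N_*` on `H²(G_q, coind_V k)`. -/
theorem localInputs_of_loc {K : IntermediateField ℚ (AlgebraicClosure ℚ)}
    (hK : K.IsUnramifiedOutside S) (hc : Glue.cycloField p ≤ K)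
    (hfin : ∀ (q : ↥S) (σ : GQ), Module.Finite (ZMod p)
      ↥(Z1 (subLevel (localLevel (primeLocalToGlobal q.1))
          (stab (primeLocalToGlobal q.1) K.fixingSubgroup σ))
        (Rep.trivial (ZMod p) ↥(stab (primeLocalToGlobal q.1) K.fixingSubgroup σ) (ZMod p))))
    (hne : ∀ (q : ↥S) (σ : GQ)
      (hfi : (stab (primeLocalToGlobal q.1) K.fixingSubgroup σ).FiniteIndex)
      (hψ : ∀ v ∈ stab (primeLocalToGlobal q.1) K.fixingSubgroup σ,
        ((cycloChar p).comp (primeLocalToGlobal q.1)) v = 1),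
      ∃ x₀ : H2 (localLevel (primeLocalToGlobal q.1))
          (Mc (ZMod p) (stab (primeLocalToGlobal q.1) K.fixingSubgroup σ)),
        (ctxS p S hpS lam).inv q (H2map (localLevel (primeLocalToGlobal q.1))
          (normHom (primeLocalToGlobal q.1) (cycloChar p)
            (stab (primeLocalToGlobal q.1) K.fixingSubgroup σ) hfi hψ) x₀) ≠ 0) :
    LocalInputs p S hpS lam K := by
  intro q σ
  letI : Fact ((q.1 : ℕ)).Prime := ⟨q.1.2⟩
  haveI : FiniteDimensional ℚ K := hK.1
  exact goodSub_of_loc (q := (q.1 : ℕ)) ((ctxS p S hpS lam).inv q)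
    (isOpenSub_stab K σ) (containsMu_stab K hc σ) (hfin q σ) (hne q σ)

end Final

end Fermat.Agent.S55.Base.LocalTop
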