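/-
S55 / PROGRAM CFT, base case, cone route (helper297): TRANSPORT of the cochain-level inputs along
an isomorphism of representations `φ : N ⟶ N'`, `ψ : N' ⟶ N` (mutually inverse on elements).

Generic part (`D : Eval.Datum k G C`):
* `cmap₁_res₁`, `cmap₁_cmap₁_of_inv` : bookkeeping for `c ↦ φ ∘ c`;
* `capGen_of_iso` : `ConeKer.CapGen D N → ConeKer.CapGen D N'`;
* `g4_of_iso`     : `ConeKer.G4 D N → ConeKer.G4 D N'`.

The intended use is `N = M0(K)`, `N' = M0(K)^*(χ)`, `φ = ψ_K` the self-duality of the permutation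
module (see `PsiTransportM0`).
-/
import Fermat.Agent.S55.Base.ConeKer
import Fermat.Agent.S55.Abs.IsoTransport

set_option autoImplicit false

open CategoryTheory groupCohomology

namespace Fermat.Agent.S55.Base.PsiTransport

open Fermat.Agent.S55.Abs

section Generic

variable {k G : Type} [Field k] [Group G] {C : Rep.{0} k G} (D : Eval.Datum k G C)
  {N N' : Rep.{0} k G} (φ : N ⟶ N') (ψ : N' ⟶ N)
  (hψφ : ∀ n, ψ.hom (φ.hom n) = n) (hφψ : ∀ n', φ.hom (ψ.hom n') = n')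

/-- Restriction commutes with push-forward of 1-cochains. -/
theorem res₁_cmap₁ (w : D.ι) (c : G → N) :
    res₁ D.loc N' w (cmap₁ φ c) = cmap₁ (Rep.resMap (D.loc w) φ) (res₁ D.loc N w c) := rfl

include hφψ in
theorem cmap₁_cmap₁_of_inv {X : Type} (c : X → N') :
    (fun x => φ.hom (ψ.hom (c x))) = c := funext fun x => hφψ (c x)

include hφψ in
/-- **`CapGen` transports along an isomorphism.** -/
theorem capGen_of_iso (h : ConeKer.CapGen D N) : ConeKer.CapGen D N' := by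
  intro l hl ξ' hξ'
  have hξ : cmap₁ (Rep.resMap (D.loc l) ψ) ξ' ∈ Z1 (D.𝒰v l) (Rep.res (D.loc l) N) :=
    cmap₁_mem_Z1 (Rep.resMap (D.loc l) ψ) hξ'
  obtain ⟨T, c, hST, hc, hdc, ⟨u, hu, m, hres⟩, hother⟩ := h l hl _ hξ
  refine ⟨T, cmap₁ φ c, hST, hc.comp _, ?_, ⟨cmap₁ (Rep.resMap (D.loc l) φ) u, hu.comp _,
    φ.hom m, ?_⟩, ?_⟩
  · rw [← cmap₂_d₁₂]
    exact hdc.comp _
  · rw [res₁_cmap₁, hres, map_add, map_add, LES_cmap₁_d₀₁]
    congr 2
    funext g
    exact hφψ (ξ' g)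
  · intro w hwT hwS hwl
    obtain ⟨u', hu', m', hres'⟩ := hother w hwT hwS hwl
    refine ⟨cmap₁ (Rep.resMap (D.loc w) φ) u', hu'.comp _, φ.hom m', ?_⟩
    rw [res₁_cmap₁, hres', map_add, LES_cmap₁_d₀₁]
    rfl

include hφψ in
/-- **`G4` transports along an isomorphism.** -/
theorem g4_of_iso (h : ConeKer.G4 D N) : ConeKer.G4 D N' := by
  intro y' hy' hloc
  have hy : cmap₁ ψ y' ∈ Z1 (D.𝒰 D.S) N := cmap₁_mem_Z1 ψ hy'
  have h1 : cmap₁ ψ y' ∈ coboundaries₁ N := by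
    refine h _ hy fun w => ?_
    rw [res₁_cmap₁]
    exact cmap₁_mem_coboundaries₁ (Rep.resMap (D.loc w) ψ) (hloc w)
  have h2 : cmap₁ φ (cmap₁ ψ y') = y' := funext fun g => hφψ (y' g)
  rw [← h2]
  exact cmap₁_mem_coboundaries₁ φ h1

end Generic

end Fermat.Agent.S55.Base.PsiTransport
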