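/-
S55 / PROGRAM CFT, base case, cone route (helper297): the `N'`-side inputs for
`N = M0(K) = coind_{Fix K} 𝔽_p`, `N' = N^*(cycloChar p)`, obtained from the `N`-side inputs by
transport along the self-duality `ψ_K : M0(K) ≅ M0(K)^*(χ)` (`TDBase.psiHom`, valid because
`μ_p ⊂ K`).

* `psiK`, `psiKInv`, `psiK_psiKInv`, `psiKInv_psiK` : the isomorphism and its inverse;
* `capGen_dual`  : `ConeKer.CapGen D (M0 K) → ConeKer.CapGen D (M0 K)'`   (any `Eval.Datum`);
* `g4_dual`      : `ConeKer.G4 D (M0 K) → ConeKer.G4 D (M0 K)'`;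
* `finrank_H1_dual`, `finite_H1_dual` : `H¹(𝒰, (M0 K)') ≃ H¹(𝒰, M0 K)` (any level family);
* `finrank_ker_loc2_dual`, `finite_ker_loc2_dual` : the same for `ker loc²` of a Poitou–Tate
  context with `χ = cycloChar p`.
-/
import Fermat.Agent.S55.Base.PsiTransport
import Fermat.Agent.CFT.LocalBr.TDBaseAbs
import Fermat.Agent.S55.Glue.DualTwist

set_option autoImplicit false

open CategoryTheory groupCohomology ExtCitation Module

namespace Fermat.Agent.S55.Base.PsiTransport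

open Fermat.Agent.S55.Abs Fermat.Agent.CFT.LocalBr

variable (p : ℕ) [Fact p.Prime] (K : IntermediateField ℚ (AlgebraicClosure ℚ))
  [K.fixingSubgroup.FiniteIndex] (hc : Glue.cycloField p ≤ K)

include hc in
/-- The cyclotomic character is trivial on `Gal(ℚ̄/K)` when `μ_p ⊂ K`. -/
theorem cycloChar_eq_one_of_mem (u : GQ) (hu : u ∈ K.fixingSubgroup) : cycloChar p u = 1 :=
  Glue.cycloChar_eq_one_of_mem_fixingSubgroup p (IntermediateField.fixingSubgroup_antitone hc hu)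

/-- The self-duality `ψ_K : M0(K) ⟶ M0(K)^*(χ)`. -/
noncomputable def psiK :
    M0 (ZMod p) K.fixingSubgroup ⟶ (M0 (ZMod p) K.fixingSubgroup).dualTwist (cycloChar p) :=
  TDBase.psiHom K.fixingSubgroup (cycloChar p) (cycloChar_eq_one_of_mem p K hc)

/-- The inverse of the self-duality. -/
noncomputable def psiKInv :
    (M0 (ZMod p) K.fixingSubgroup).dualTwist (cycloChar p) ⟶ M0 (ZMod p) K.fixingSubgroup :=
  TDBase.psiInvHom K.fixingSubgroup (cycloChar p) (cycloChar_eq_one_of_mem p K hc)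

theorem psiK_psiKInv (f : (M0 (ZMod p) K.fixingSubgroup).dualTwist (cycloChar p)) :
    (psiK p K hc).hom ((psiKInv p K hc).hom f) = f :=
  TDBase.psi_psiInv _ _ _ f

theorem psiKInv_psiK (f : M0 (ZMod p) K.fixingSubgroup) :
    (psiKInv p K hc).hom ((psiK p K hc).hom f) = f :=
  TDBase.psiInv_psi _ _ _ f

include hc in
/-- **`CapGen` for `M0(K)'`** from `CapGen` for `M0(K)`. -/
theorem capGen_dual {C : Rep.{0} (ZMod p) GQ} (D : Eval.Datum (ZMod p) GQ C)
    (h : ConeKer.CapGen D (M0 (ZMod p) K.fixingSubgroup)) :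
    ConeKer.CapGen D ((M0 (ZMod p) K.fixingSubgroup).dualTwist (cycloChar p)) :=
  capGen_of_iso D (psiK p K hc) (psiKInv p K hc) (psiK_psiKInv p K hc) h

include hc in
/-- **`G4` for `M0(K)'`** from `G4` for `M0(K)`. -/
theorem g4_dual {C : Rep.{0} (ZMod p) GQ} (D : Eval.Datum (ZMod p) GQ C)
    (h : ConeKer.G4 D (M0 (ZMod p) K.fixingSubgroup)) :
    ConeKer.G4 D ((M0 (ZMod p) K.fixingSubgroup).dualTwist (cycloChar p)) :=
  g4_of_iso D (psiK p K hc) (psiKInv p K hc) (psiK_psiKInv p K hc) h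

include hc in
theorem finrank_H1_dual (𝒰 : LevelFamily GQ) :
    finrank (ZMod p) (H1 𝒰 ((M0 (ZMod p) K.fixingSubgroup).dualTwist (cycloChar p)))
      = finrank (ZMod p) (H1 𝒰 (M0 (ZMod p) K.fixingSubgroup)) :=
  IsoTransport.finrank_H1_of_iso 𝒰 (psiK p K hc) (psiKInv p K hc) (psiKInv_psiK p K hc)
    (psiK_psiKInv p K hc)

include hc in
theorem finite_H1_dual (𝒰 : LevelFamily GQ)
    [Module.Finite (ZMod p) (H1 𝒰 (M0 (ZMod p) K.fixingSubgroup))] :
    Module.Finite (ZMod p) (H1 𝒰 ((M0 (ZMod p) K.fixingSubgroup).dualTwist (cycloChar p))) :=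
  IsoTransport.finite_H1_of_iso 𝒰 (psiK p K hc) (psiKInv p K hc) (psiKInv_psiK p K hc)
    (psiK_psiKInv p K hc)

include hc in
theorem finrank_ker_loc2_dual (D : PTContext (ZMod p) GQ) (hD : D.χ = cycloChar p) :
    finrank (ZMod p) ↥(LinearMap.ker (TopGlue.loc2 D (D.dual (M0 (ZMod p) K.fixingSubgroup))))
      = finrank (ZMod p) ↥(LinearMap.ker (TopGlue.loc2 D (M0 (ZMod p) K.fixingSubgroup))) := by
  obtain ⟨𝒰, ι, Gv, loc, 𝒰v, χ, hloc, hμ, lam⟩ := D
  subst hD
  exact IsoTransport.finrank_ker_loc2_of_iso _ (psiK p K hc) (psiKInv p K hc)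
    (psiKInv_psiK p K hc) (psiK_psiKInv p K hc)

include hc in
theorem finite_ker_loc2_dual (D : PTContext (ZMod p) GQ) (hD : D.χ = cycloChar p)
    [Module.Finite (ZMod p)
      ↥(LinearMap.ker (TopGlue.loc2 D (M0 (ZMod p) K.fixingSubgroup)))] :
    Module.Finite (ZMod p)
      ↥(LinearMap.ker (TopGlue.loc2 D (D.dual (M0 (ZMod p) K.fixingSubgroup)))) := by
  obtain ⟨𝒰, ι, Gv, loc, 𝒰v, χ, hloc, hμ, lam⟩ := D
  subst hD
  exact IsoTransport.finite_ker_loc2_of_iso _ (psiK p K hc) (psiKInv p K hc)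
    (psiKInv_psiK p K hc) (psiK_psiKInv p K hc)

/-! ### The concrete context `ctxS p S hpS lam` -/

section Ctx

variable (S : Finset Nat.Primes) (hpS : pPrime p ∈ S) (lam : LamS p S)

include hc in
/-- `hc4'` from `hc4`: the two `ker loc²` have the same dimension. -/
theorem finrank_ker_loc2_dual_ctxS :
    finrank (ZMod p) ↥(LinearMap.ker (TopGlue.loc2 (ctxS p S hpS lam)
        ((ctxS p S hpS lam).dual (M0 (ZMod p) K.fixingSubgroup))))
      = finrank (ZMod p) ↥(LinearMap.ker (TopGlue.loc2 (ctxS p S hpS lam)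
        (M0 (ZMod p) K.fixingSubgroup))) :=
  finrank_ker_loc2_dual p K hc (ctxS p S hpS lam) rfl

include hc in
theorem finite_ker_loc2_dual_ctxS
    [Module.Finite (ZMod p) ↥(LinearMap.ker (TopGlue.loc2 (ctxS p S hpS lam)
        (M0 (ZMod p) K.fixingSubgroup)))] :
    Module.Finite (ZMod p) ↥(LinearMap.ker (TopGlue.loc2 (ctxS p S hpS lam)
        ((ctxS p S hpS lam).dual (M0 (ZMod p) K.fixingSubgroup)))) :=
  finite_ker_loc2_dual p K hc (ctxS p S hpS lam) rfl

include hc in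
/-- `hc3'` from `hc3`: `H¹(G_S, M0(K)')` and `H¹(G_S, M0(K))` have the same dimension. -/
theorem finrank_H1_dual_ctxS :
    finrank (ZMod p) (H1 (ctxS p S hpS lam).𝒰
        ((ctxS p S hpS lam).dual (M0 (ZMod p) K.fixingSubgroup)))
      = finrank (ZMod p) (H1 (ctxS p S hpS lam).𝒰 (M0 (ZMod p) K.fixingSubgroup)) :=
  finrank_H1_dual p K hc (globalLevel S)

include hc in
theorem finite_H1_dual_ctxS
    [Module.Finite (ZMod p) (H1 (ctxS p S hpS lam).𝒰 (M0 (ZMod p) K.fixingSubgroup))] :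
    Module.Finite (ZMod p) (H1 (ctxS p S hpS lam).𝒰
      ((ctxS p S hpS lam).dual (M0 (ZMod p) K.fixingSubgroup))) :=
  finite_H1_dual p K hc (globalLevel S)

end Ctx

end Fermat.Agent.S55.Base.PsiTransport
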