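import Fermat.Agent.S55.Base.Abstract
import Fermat.Agent.S55.Base.Levels
import Fermat.Agent.CFT.Global.CountV
import Fermat.Agent.S14.Wiring.ValRing
import Fermat.Agent.S55.Glue.PlacesAbove
import Fermat.Prelude.Def_GroupCohomology_ContinuousUnramified

/-!
# S55 base case, K-side: the concrete instance (BASE-SK, part 2)

`Qb = AlgebraicClosure ℚ`, `Gq = Gal(Qb/ℚ)`, `K ≤ Qb` a number field, `S` a finite set of primes.
This file instantiates the abstract datum `KData` of `Base/Abstract.lean` in the `D'_A` language: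

* `Γ := GK K = ↥K.fixingSubgroup`, `ι := Pl K = HeightOneSpectrum (𝓞 K)`, `S := SK S K`
  (`CountV.SK`, the primes of `𝓞 K` above `S`);
* `valAt K w` : a chosen valuation subring of `Qb` above the place `w`
  (`w.asIdeal = primeUnder K (valAt K w)`);
* `Dloc K w := (valAt K w).decompositionSubgroup ℚ ⊓ Gal(Qb/K)` as a subgroup of `GK K`
  (the local group `D'_w`), `r w` its inclusion;
* `IsLevT K T F` : `F/ℚ` finite and unramified at every valuation subring of `Qb` whose prime of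
  `𝓞 K` is not in `T` ("`F K / K` unramified outside `T`"); `IsLevT K (SK S K) F ↔
  F.IsUnramifiedOutside S` (`isLevT_SK_iff`);
* `C1 T`, `C2 T`, `C3` : cochains on `GK K` constant modulo `Fix F`, `F` of level `T`;
* `L1 w`, `L2 w` : cochains on `Dloc K w` constant modulo `Fix F`, `F/ℚ` finite;
  `U1 w`, `U2 w` : the same with `F` unramified at `valAt K w`;
* the remaining data `κ`, `inv`, `lam` are the fields of `KArith`.

The arithmetic packages prove the fields of `KHyp (kData k S K X)` (see the list of owners in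
`Base/Abstract.lean`); `Base/Formal.lean` proves the formal fields.
-/

set_option autoImplicit false

open scoped NumberField
open IsDedekindDomain

namespace Fermat.Agent.S55.Base

local notation "Qb" => AlgebraicClosure ℚ
local notation "Gq" => (AlgebraicClosure ℚ ≃ₐ[ℚ] AlgebraicClosure ℚ)

open Fermat.Agent.S14.Wiring.ValRing Fermat.Agent.CFT.Global.CountV

section Concrete

variable (K : IntermediateField ℚ Qb)

/-- `Γ = Gal(Qb/K)`. -/
abbrev GK : Type := ↥K.fixingSubgroup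

variable [NumberField K]

/-- The finite places of `K`. -/
abbrev Pl : Type := HeightOneSpectrum (𝓞 K)

/-- A chosen valuation subring of `Qb` above the place `w` of `K`. -/
noncomputable def valAt (w : Pl K) : ValuationSubring Qb :=
  Classical.choose (exists_valuationSubring w)

theorem valAt_spec (w : Pl K) : w.asIdeal = primeUnder K (valAt K w) :=
  Classical.choose_spec (exists_valuationSubring w)

/-- The local group `D'_w = D_{valAt w} ∩ Gal(Qb/K)`, as a subgroup of `Gal(Qb/K)`. -/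
noncomputable def Dloc (w : Pl K) : Subgroup (GK K) :=
  ((valAt K w).decompositionSubgroup ℚ).subgroupOf K.fixingSubgroup

theorem mem_Dloc_iff (w : Pl K) (g : GK K) :
    g ∈ Dloc K w ↔ (g : Gq) ∈ (valAt K w).decompositionSubgroup ℚ := Iff.rfl

/-- `F` has level `T` over `K`: finite over `ℚ`, and unramified at every valuation subring of
`Qb` (over a prime number) whose prime of `𝓞 K` is not in `T`. -/
def IsLevT (T : Finset (Pl K)) (F : IntermediateField ℚ Qb) : Prop :=
  FiniteDimensional ℚ F ∧ ∀ ℓ : ℕ, ℓ.Prime → ∀ A : ValuationSubring Qb, A.LiesOverPrime ℓ →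
    (∀ v ∈ T, v.asIdeal ≠ primeUnder K A) → A.inertiaSubgroupIn ℚ ≤ F.fixingSubgroup

theorem isLevT_bot (T : Finset (Pl K)) : IsLevT K T ⊥ := by
  refine ⟨inferInstance, fun ℓ _ A _ _ σ _ => ?_⟩
  rw [IntermediateField.mem_fixingSubgroup_iff]
  rintro x hx
  obtain ⟨r, rfl⟩ := IntermediateField.mem_bot.1 hx
  exact σ.commutes r

theorem IsLevT.sup {T : Finset (Pl K)} {F F' : IntermediateField ℚ Qb} (hF : IsLevT K T F)
    (hF' : IsLevT K T F') : IsLevT K T (F ⊔ F') := by
  haveI := hF.1; haveI := hF'.1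
  refine ⟨IntermediateField.finiteDimensional_sup F F', fun ℓ hℓ A hA hT σ hσ => ?_⟩
  rw [IntermediateField.fixingSubgroup_sup]
  exact ⟨hF.2 ℓ hℓ A hA hT hσ, hF'.2 ℓ hℓ A hA hT hσ⟩

theorem IsLevT.mono {T T' : Finset (Pl K)} (h : T ⊆ T') {F : IntermediateField ℚ Qb}
    (hF : IsLevT K T F) : IsLevT K T' F :=
  ⟨hF.1, fun ℓ hℓ A hA hT => hF.2 ℓ hℓ A hA fun v hv => hT v (h hv)⟩

/-- Level `SK S K` is the Prelude's "unramified outside `S`". -/
theorem isLevT_SK_iff (S : Finset Nat.Primes) (F : IntermediateField ℚ Qb) :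
    IsLevT K (SK S K) F ↔ F.IsUnramifiedOutside S := by
  constructor
  · intro hF
    refine ⟨hF.1, fun q hq A hA => hF.2 q q.2 A hA fun v hv hvA => ?_⟩
    obtain ⟨q', hq', hmem⟩ := (mem_SK_iff S K v).1 hv
    rw [hvA, natCast_mem_primeUnder_iff] at hmem
    have h1 : ((q' : ℕ) : ℤ) ∣ ((q : ℕ) : ℤ) := by
      rw [← Fermat.Agent.S55.Glue.PlacesAbove.intCast_mem_nonunits_iff q'.2 hmem]
      exact_mod_cast hA
    have h2 : (q' : ℕ) = (q : ℕ) :=
      (Nat.prime_dvd_prime_iff_eq q'.2 q.2).1 (by exact_mod_cast h1)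
    exact hq (by rwa [← Subtype.ext h2])
  · intro hF
    refine ⟨hF.1, fun ℓ hℓ A hA hT => hF.2 ⟨ℓ, hℓ⟩ (fun hS => ?_) A hA⟩
    refine hT (placeUnder K A hℓ hA) ((mem_SK_iff S K _).2 ⟨⟨ℓ, hℓ⟩, hS, ?_⟩) rfl
    exact (natCast_mem_primeUnder_iff K A ℓ).2 hA

/-- The global family of level `T`: the subgroups `Fix F ∩ Gal(Qb/K)`, `F` of level `T`. -/
noncomputable def famT (T : Finset (Pl K)) : DirFam (GK K) where
  sets := {U | ∃ F : IntermediateField ℚ Qb, IsLevT K T F ∧
    U = F.fixingSubgroup.subgroupOf K.fixingSubgroup}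
  nonempty := ⟨_, ⊥, isLevT_bot K T, rfl⟩
  inter := by
    rintro U ⟨F, hF, rfl⟩ V ⟨F', hF', rfl⟩
    refine ⟨_, ⟨F ⊔ F', hF.sup K hF', rfl⟩, fun s hs => ?_⟩
    rw [Subgroup.mem_subgroupOf, IntermediateField.fixingSubgroup_sup] at hs
    exact ⟨Subgroup.mem_subgroupOf.2 hs.1, Subgroup.mem_subgroupOf.2 hs.2⟩

/-- The local family at `w`: the subgroups `Fix F ∩ D'_w`, `F/ℚ` finite. -/
noncomputable def famL (w : Pl K) : DirFam ↥(Dloc K w) where
  sets := {U | ∃ F : IntermediateField ℚ Qb, FiniteDimensional ℚ F ∧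
    U = (F.fixingSubgroup.subgroupOf K.fixingSubgroup).subgroupOf (Dloc K w)}
  nonempty := ⟨_, ⊥, inferInstance, rfl⟩
  inter := by
    rintro U ⟨F, hF, rfl⟩ V ⟨F', hF', rfl⟩
    haveI := hF; haveI := hF'
    refine ⟨_, ⟨F ⊔ F', IntermediateField.finiteDimensional_sup F F', rfl⟩, fun s hs => ?_⟩
    rw [Subgroup.mem_subgroupOf, Subgroup.mem_subgroupOf,
      IntermediateField.fixingSubgroup_sup] at hs
    exact ⟨Subgroup.mem_subgroupOf.2 (Subgroup.mem_subgroupOf.2 hs.1),
      Subgroup.mem_subgroupOf.2 (Subgroup.mem_subgroupOf.2 hs.2)⟩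

/-- The unramified local family at `w`: the subgroups `Fix F ∩ D'_w`, `F/ℚ` finite and
unramified at `valAt K w`. -/
noncomputable def famU (w : Pl K) : DirFam ↥(Dloc K w) where
  sets := {U | ∃ F : IntermediateField ℚ Qb, FiniteDimensional ℚ F ∧
    (valAt K w).inertiaSubgroupIn ℚ ≤ F.fixingSubgroup ∧
    U = (F.fixingSubgroup.subgroupOf K.fixingSubgroup).subgroupOf (Dloc K w)}
  nonempty := ⟨_, ⊥, inferInstance, fun σ _ => by
    rw [IntermediateField.mem_fixingSubgroup_iff]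
    rintro x hx
    obtain ⟨r, rfl⟩ := IntermediateField.mem_bot.1 hx
    exact σ.commutes r, rfl⟩
  inter := by
    rintro U ⟨F, hF, hI, rfl⟩ V ⟨F', hF', hI', rfl⟩
    haveI := hF; haveI := hF'
    refine ⟨_, ⟨F ⊔ F', IntermediateField.finiteDimensional_sup F F', ?_, rfl⟩, fun s hs => ?_⟩
    · rw [IntermediateField.fixingSubgroup_sup]
      exact le_inf hI hI'
    · rw [Subgroup.mem_subgroupOf, Subgroup.mem_subgroupOf,
        IntermediateField.fixingSubgroup_sup] at hs
      exact ⟨Subgroup.mem_subgroupOf.2 (Subgroup.mem_subgroupOf.2 hs.1),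
        Subgroup.mem_subgroupOf.2 (Subgroup.mem_subgroupOf.2 hs.2)⟩

/-- The arithmetic data of the K-side which are not determined by `K` and `S` alone: the ramified
characters `κ_w` (LOC-UNR), the local invariants `inv_w` (LOC / REC-K) and the functional `lam`
(LAM + SHB). -/
structure KArith (k : Type) [Field k] (S : Finset Nat.Primes) where
  κ : ∀ w : Pl K, ↥(Dloc K w) → k
  inv : ∀ w : Pl K, (↥(Dloc K w) × ↥(Dloc K w) → k) →ₗ[k] k
  lam : ((GK K × GK K × GK K → k) ×
    (∀ v : ↥(SK S K), ↥(Dloc K v.1) × ↥(Dloc K v.1) → k)) →ₗ[k] k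

noncomputable instance plDecEq : DecidableEq (Pl K) := Classical.decEq _

variable {K}

/-- **The concrete K-side datum.** -/
noncomputable def kData (k : Type) [Field k] (S : Finset Nat.Primes) (X : KArith K k S) :
    KData k (GK K) (Pl K) where
  S := SK S K
  H := fun w => ↥(Dloc K w)
  r := fun w => (Dloc K w).subtype
  C1 := fun T => (famT K T).c1 k k
  C2 := fun T => (famT K T).c2 k k
  C3 := (famT K (SK S K)).c3 k k
  L1 := fun w => (famL K w).c1 k k
  L2 := fun w => (famL K w).c2 k k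
  U1 := fun w => (famU K w).c1 k k
  U2 := fun w => (famU K w).c2 k k
  κ := X.κ
  inv := X.inv
  lam := X.lam

section Unfold

variable {k : Type} [Field k] {S : Finset Nat.Primes} (X : KArith K k S)

theorem kData_S : (kData k S X).S = SK S K := rfl

theorem mem_kData_C1_iff (T : Finset (Pl K)) (c : GK K → k) :
    c ∈ (kData k S X).C1 T ↔ ∃ F : IntermediateField ℚ Qb, IsLevT K T F ∧
      ∀ g s : GK K, (s : Gq) ∈ F.fixingSubgroup → c (g * s) = c g := by
  constructor
  · rintro ⟨U, ⟨F, hF, rfl⟩, h⟩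
    exact ⟨F, hF, fun g s hs => h g s (Subgroup.mem_subgroupOf.2 hs)⟩
  · rintro ⟨F, hF, h⟩
    exact ⟨_, ⟨F, hF, rfl⟩, fun g s hs => h g s (Subgroup.mem_subgroupOf.1 hs)⟩

theorem mem_kData_C2_iff (T : Finset (Pl K)) (a : GK K × GK K → k) :
    a ∈ (kData k S X).C2 T ↔ ∃ F : IntermediateField ℚ Qb, IsLevT K T F ∧
      ∀ g g' s s' : GK K, (s : Gq) ∈ F.fixingSubgroup → (s' : Gq) ∈ F.fixingSubgroup →
        a (g * s, g' * s') = a (g, g') := by
  constructor
  · rintro ⟨U, ⟨F, hF, rfl⟩, h⟩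
    exact ⟨F, hF, fun g g' s s' hs hs' =>
      h g g' s s' (Subgroup.mem_subgroupOf.2 hs) (Subgroup.mem_subgroupOf.2 hs')⟩
  · rintro ⟨F, hF, h⟩
    exact ⟨_, ⟨F, hF, rfl⟩, fun g g' s s' hs hs' =>
      h g g' s s' (Subgroup.mem_subgroupOf.1 hs) (Subgroup.mem_subgroupOf.1 hs')⟩

theorem mem_kData_L1_iff (w : Pl K) (f : ↥(Dloc K w) → k) :
    f ∈ (kData k S X).L1 w ↔ ∃ F : IntermediateField ℚ Qb, FiniteDimensional ℚ F ∧
      ∀ g s : ↥(Dloc K w), ((s : GK K) : Gq) ∈ F.fixingSubgroup → f (g * s) = f g := by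
  constructor
  · rintro ⟨U, ⟨F, hF, rfl⟩, h⟩
    exact ⟨F, hF, fun g s hs =>
      h g s (Subgroup.mem_subgroupOf.2 (Subgroup.mem_subgroupOf.2 hs))⟩
  · rintro ⟨F, hF, h⟩
    exact ⟨_, ⟨F, hF, rfl⟩, fun g s hs =>
      h g s (Subgroup.mem_subgroupOf.1 (Subgroup.mem_subgroupOf.1 hs))⟩

theorem mem_kData_U1_iff (w : Pl K) (f : ↥(Dloc K w) → k) :
    f ∈ (kData k S X).U1 w ↔ ∃ F : IntermediateField ℚ Qb, FiniteDimensional ℚ F ∧
      (valAt K w).inertiaSubgroupIn ℚ ≤ F.fixingSubgroup ∧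
      ∀ g s : ↥(Dloc K w), ((s : GK K) : Gq) ∈ F.fixingSubgroup → f (g * s) = f g := by
  constructor
  · rintro ⟨U, ⟨F, hF, hI, rfl⟩, h⟩
    exact ⟨F, hF, hI, fun g s hs =>
      h g s (Subgroup.mem_subgroupOf.2 (Subgroup.mem_subgroupOf.2 hs))⟩
  · rintro ⟨F, hF, hI, h⟩
    exact ⟨_, ⟨F, hF, hI, rfl⟩, fun g s hs =>
      h g s (Subgroup.mem_subgroupOf.1 (Subgroup.mem_subgroupOf.1 hs))⟩

/-- The differential of a 1-cochain with trivial coefficients. -/
theorem kData_d1_apply (c : GK K → k) (g h : GK K) :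
    (kData k S X).d1 c (g, h) = c h - c (g * h) + c g := by
  simp [groupCohomology.d₁₂_hom_apply]

theorem kData_dl1_apply (w : Pl K) (f : ↥(Dloc K w) → k) (g h : ↥(Dloc K w)) :
    (kData k S X).dl1 w f (g, h) = f h - f (g * h) + f g := by
  show (groupCohomology.d₁₂ (Rep.res (Dloc K w).subtype (Tr k (GK K)))).hom f (g, h) = _
  simp [groupCohomology.d₁₂_hom_apply]

theorem kData_rs1_apply (w : Pl K) (c : GK K → k) (h : ↥(Dloc K w)) :
    (kData k S X).rs1 w c h = c (h : GK K) := rfl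

theorem kData_cupl_apply (w : Pl K) (x y : ↥(Dloc K w) → k) (g h : ↥(Dloc K w)) :
    (kData k S X).cupl w x y (g, h) = x g * y h := rfl

/-- `V` of the concrete datum is helper176's `CountV.VS` (level-`S` characters of `G_K`). -/
theorem mem_kData_V_iff {p : ℕ} [Fact p.Prime] (X : KArith K (ZMod p) S) (y : GK K → ZMod p) :
    y ∈ (kData (ZMod p) S X).V ↔ y ∈ VS p S K := by
  rw [mem_VS_iff]
  show (y ∈ (kData (ZMod p) S X).C1 (SK S K) ∧ y ∈ LinearMap.ker (kData (ZMod p) S X).d1) ↔ _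
  rw [mem_kData_C1_iff, LinearMap.mem_ker]
  constructor
  · rintro ⟨⟨F, hF, h⟩, hd⟩
    refine ⟨fun σ τ => ?_, F, (isLevT_SK_iff K S F).1 hF, h⟩
    have h1 := congrFun hd (σ, τ)
    rw [kData_d1_apply] at h1
    have h2 : y τ - y (σ * τ) + y σ = 0 := h1
    linear_combination -h2
  · rintro ⟨hadd, F, hF, h⟩
    refine ⟨⟨F, (isLevT_SK_iff K S F).2 hF, h⟩, ?_⟩
    funext ⟨σ, τ⟩
    rw [kData_d1_apply, hadd]
    show y τ - (y σ + y τ) + y σ = 0
    ring

end Unfold

end Concrete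

end Fermat.Agent.S55.Base
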